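import Mathlib

/-!
# The shadow `conj (y ∂f/∂z̄)` of a weight one function on the upper half plane

It commutes with the weight one slash action of `GL₂(ℝ)⁺`.
-/

set_option autoImplicit false

noncomputable section

open UpperHalfPlane hiding I
open ModularForm Complex Filter Topology
open scoped MatrixGroups Manifold ModularForm ComplexConjugate

namespace Fermat.Agent.LT.Theta31

/-- `∂F/∂z̄` -/
def Dbar (F : ℂ → ℂ) (z : ℂ) : ℂ := (fderiv ℝ F z 1 + I * fderiv ℝ F z I) / 2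

/-- the same for a real linear map -/
def dbarL (L : ℂ →L[ℝ] ℂ) : ℂ := (L 1 + I * L I) / 2

theorem Dbar_eq (F : ℂ → ℂ) (z : ℂ) : Dbar F z = dbarL (fderiv ℝ F z) := rfl

theorem Dbar_of_hasFDerivAt {F : ℂ → ℂ} {L : ℂ →L[ℝ] ℂ} {z : ℂ} (h : HasFDerivAt F L z) :
    Dbar F z = dbarL L := by rw [Theta31.Dbar_eq, h.fderiv]

theorem dbarL_comp (L : ℂ →L[ℝ] ℂ) (c : ℂ) :
    (L c + I * L (c * I)) / 2 = conj c * dbarL L := by
  have h1 : ∀ w : ℂ, L w = w.re * L 1 + w.im * L I := by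
    intro w
    have h2 : w = w.re • (1 : ℂ) + w.im • I := by
      simp [Complex.re_add_im]
    conv_lhs => rw [h2]
    rw [map_add, map_smul, map_smul, real_smul, real_smul]
  unfold dbarL
  rw [h1 c, h1 (c * I)]
  have h3 : (c * I).re = -c.im := by simp
  have h4 : (c * I).im = c.re := by simp
  rw [h3, h4]
  have h5 : conj c = c.re - c.im * I := by
    apply Complex.ext <;> simp
  rw [h5]
  push_cast
  linear_combination (c.im : ℂ) * L I / 2 * Complex.I_sq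

theorem Dbar_congr {F G : ℂ → ℂ} {z : ℂ} (h : F =ᶠ[𝓝 z] G) : Dbar F z = Dbar G z := by
  unfold Dbar; rw [h.fderiv_eq]

theorem Dbar_add {F G : ℂ → ℂ} {z : ℂ} (hF : DifferentiableAt ℝ F z)
    (hG : DifferentiableAt ℝ G z) : Dbar (fun w => F w + G w) z = Dbar F z + Dbar G z := by
  unfold Dbar
  have := (hF.hasFDerivAt.add hG.hasFDerivAt).fderiv
  have h2 : fderiv ℝ (fun w => F w + G w) z = fderiv ℝ F z + fderiv ℝ G z := this
  rw [h2]
  simp only [_root_.add_apply]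
  ring

theorem Dbar_sum {ι : Type*} (s : Finset ι) {F : ι → ℂ → ℂ} {z : ℂ}
    (hF : ∀ i ∈ s, DifferentiableAt ℝ (F i) z) :
    Dbar (fun w => ∑ i ∈ s, F i w) z = ∑ i ∈ s, Dbar (F i) z := by
  unfold Dbar
  rw [fderiv_fun_sum hF]
  simp only [_root_.sum_apply]
  rw [Finset.mul_sum, ← Finset.sum_add_distrib, Finset.sum_div]

/-- a function is complex differentiable iff real differentiable with `Dbar = 0` -/
theorem differentiableAt_iff_Dbar {F : ℂ → ℂ} {z : ℂ} :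
    DifferentiableAt ℂ F z ↔ DifferentiableAt ℝ F z ∧ Dbar F z = 0 := by
  rw [differentiableAt_complex_iff_differentiableAt_real]
  refine and_congr_right fun _ => ?_
  unfold Dbar
  rw [smul_eq_mul]
  constructor
  · intro h
    rw [h]
    linear_combination (fderiv ℝ F z 1) / 2 * Complex.I_sq
  · intro h
    have h2 : fderiv ℝ F z 1 + I * fderiv ℝ F z I = 0 := by
      linear_combination 2 * h
    linear_combination -I * h2 + (fderiv ℝ F z I) * Complex.I_sq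

/-- product with a holomorphic function -/
theorem Dbar_mul_left {F h : ℂ → ℂ} {z : ℂ} (hF : DifferentiableAt ℝ F z)
    (hh : DifferentiableAt ℂ h z) : Dbar (fun w => h w * F w) z = h z * Dbar F z := by
  have hR : DifferentiableAt ℝ h z := hh.restrictScalars ℝ
  have h0 := (differentiableAt_iff_Dbar.1 hh).2
  have h1 : fderiv ℝ (fun w => h w * F w) z = h z • fderiv ℝ F z + F z • fderiv ℝ h z :=
    fderiv_fun_mul hR hF
  unfold Dbar at h0 ⊢
  rw [h1]
  simp only [_root_.add_apply, _root_.smul_apply, smul_eq_mul]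
  linear_combination F z * h0

/-- composition with a holomorphic function -/
theorem Dbar_comp {F φ : ℂ → ℂ} {z c : ℂ} (hF : DifferentiableAt ℝ F (φ z))
    (hφ : HasDerivAt φ c z) : Dbar (fun w => F (φ w)) z = conj c * Dbar F (φ z) := by
  have h1 : HasFDerivAt φ ((ContinuousLinearMap.toSpanSingleton ℂ c).restrictScalars ℝ) z :=
    hφ.hasFDerivAt.restrictScalars ℝ
  have h2 := hF.hasFDerivAt.comp z h1
  have h3 : fderiv ℝ (fun w => F (φ w)) z = (fderiv ℝ F (φ z)).comp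
      ((ContinuousLinearMap.toSpanSingleton ℂ c).restrictScalars ℝ) := h2.fderiv
  rw [Theta31.Dbar_eq, Theta31.Dbar_eq, ← dbarL_comp, dbarL, h3]
  simp [mul_comm]

/-- real differentiability of a function on the upper half plane -/
def RDiff (f : ℍ → ℂ) : Prop := ∀ τ : ℍ, DifferentiableAt ℝ (f ∘ ofComplex) τ

/-- the shadow `conj (y ∂f/∂z̄)` -/
def shadow (f : ℍ → ℂ) (τ : ℍ) : ℂ := conj ((τ.im : ℂ) * Dbar (f ∘ ofComplex) τ)

theorem RDiff.smul {f : ℍ → ℂ} (hf : RDiff f) (c : ℂ) : RDiff (c • f) :=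
  fun τ => (hf τ).const_smul c

theorem RDiff.sum {ι : Type*} (s : Finset ι) {f : ι → ℍ → ℂ} (hf : ∀ i ∈ s, RDiff (f i)) :
    RDiff (∑ i ∈ s, f i) := by
  intro τ
  have h1 : (∑ i ∈ s, f i) ∘ ofComplex = fun w => ∑ i ∈ s, (f i ∘ ofComplex) w := by
    ext w; simp
  rw [h1]
  exact DifferentiableAt.fun_sum fun i hi => hf i hi τ

theorem shadow_smul {f : ℍ → ℂ} (hf : RDiff f) (c : ℂ) :
    shadow (c • f) = conj c • shadow f := by
  ext τ
  unfold shadow
  have h1 : (c • f) ∘ ofComplex = fun w => c * (f ∘ ofComplex) w := by ext w; simp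
  rw [h1, Dbar_mul_left (hf τ) (differentiableAt_const c), Pi.smul_apply, smul_eq_mul,
    ← map_mul]
  congr 1
  ring

theorem shadow_sum {ι : Type*} (s : Finset ι) {f : ι → ℍ → ℂ} (hf : ∀ i ∈ s, RDiff (f i)) :
    shadow (∑ i ∈ s, f i) = ∑ i ∈ s, shadow (f i) := by
  ext τ
  have h1 : (∑ i ∈ s, f i) ∘ ofComplex = fun w => ∑ i ∈ s, (f i ∘ ofComplex) w := by
    ext w; simp
  rw [Finset.sum_apply]
  unfold shadow
  rw [h1, Dbar_sum s (fun i hi => hf i hi τ), Finset.mul_sum, map_sum]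

theorem shadow_add {f g : ℍ → ℂ} (hf : RDiff f) (hg : RDiff g) :
    shadow (f + g) = shadow f + shadow g := by
  ext τ
  have h1 : (f + g) ∘ ofComplex = fun w => (f ∘ ofComplex) w + (g ∘ ofComplex) w := by
    ext w; simp
  rw [Pi.add_apply]
  unfold shadow
  rw [h1, Dbar_add (hf τ) (hg τ), mul_add, map_add]

/-- `f ∣[1] g` near a point -/
theorem slash_eventuallyEq {f : ℍ → ℂ} {g : GL (Fin 2) ℝ} (hg : 0 < g.val.det) (τ : ℍ) :
    (f ∣[(1 : ℤ)] g) ∘ ofComplex =ᶠ[𝓝 (τ : ℂ)]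
      fun w => (denom g w)⁻¹ * (f ∘ ofComplex) (↑(g • ofComplex w) : ℂ) := by
  filter_upwards [isOpen_upperHalfPlaneSet.mem_nhds τ.im_pos] with w hw
  have hw' : 0 < w.im := hw
  have h1 : (ofComplex w : ℂ) = w := by rw [ofComplex_apply_of_im_pos hw']
  rw [Function.comp_apply, Function.comp_apply, slash_apply, ofComplex_apply, h1]
  have hσ : σ g = ContinuousAlgEquiv.refl ℝ ℂ := by
    rw [σ, if_pos]
    exact hg
  rw [hσ]
  simp [mul_comm]

theorem RDiff.slash {f : ℍ → ℂ} (hf : RDiff f) {g : GL (Fin 2) ℝ} (hg : 0 < g.val.det) :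
    RDiff (f ∣[(1 : ℤ)] g) := by
  intro τ
  refine ((slash_eventuallyEq hg τ).differentiableAt_iff).2 ?_
  have h1 : DifferentiableAt ℝ (fun w => ((denom g w)⁻¹ : ℂ)) (τ : ℂ) := by
    have := (hasDerivAt_denom_zpow g (-1) τ).differentiableAt.restrictScalars ℝ
    simpa [zpow_neg_one] using this
  have h2 : DifferentiableAt ℝ (fun w : ℂ => (↑(g • ofComplex w) : ℂ)) (τ : ℂ) :=
    (hasStrictDerivAt_smul hg τ).hasDerivAt.differentiableAt.restrictScalars ℝ
  refine h1.mul ?_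
  have h3 : DifferentiableAt ℝ (f ∘ ofComplex) (↑(g • ofComplex (τ : ℂ)) : ℂ) := hf _
  exact DifferentiableAt.fun_comp' (τ : ℂ) h3 h2

/-- the shadow commutes with the weight one action of `GL₂(ℝ)⁺` -/
theorem shadow_slash {f : ℍ → ℂ} (hf : RDiff f) {g : GL (Fin 2) ℝ} (hg : 0 < g.val.det) :
    shadow (f ∣[(1 : ℤ)] g) = (shadow f) ∣[(1 : ℤ)] g := by
  ext τ
  have h0 : denom g τ ≠ 0 := denom_ne_zero g τ
  have h1 : DifferentiableAt ℂ (fun w => ((denom g w)⁻¹ : ℂ)) (τ : ℂ) := by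
    have := (hasDerivAt_denom_zpow g (-1) τ).differentiableAt
    simpa [zpow_neg_one] using this
  have h2 := (hasStrictDerivAt_smul hg τ).hasDerivAt
  have h3 : DifferentiableAt ℝ (f ∘ ofComplex) (↑(g • ofComplex (τ : ℂ)) : ℂ) := hf _
  have h4 : DifferentiableAt ℝ (fun w : ℂ => (f ∘ ofComplex) (↑(g • ofComplex w) : ℂ)) (τ : ℂ) :=
    DifferentiableAt.fun_comp' (τ : ℂ) h3 (h2.differentiableAt.restrictScalars ℝ)
  have hσ : σ g = ContinuousAlgEquiv.refl ℝ ℂ := by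
    rw [σ, if_pos]
    exact hg
  have him : ((g • τ).im : ℂ) = g.val.det * τ.im / (denom g τ * conj (denom g τ)) := by
    rw [im_smul_eq_div_normSq, mul_conj]
    push_cast
    congr 3
    exact_mod_cast abs_of_pos hg
  rw [slash_apply, hσ]
  unfold shadow
  have h6 : Dbar (fun w : ℂ => (f ∘ ofComplex) (↑(g • ofComplex w) : ℂ)) (τ : ℂ)
      = conj ((g.val.det : ℂ) / denom g τ ^ 2) *
        Dbar (f ∘ ofComplex) (↑(g • ofComplex (τ : ℂ)) : ℂ) :=
    Dbar_comp (F := f ∘ ofComplex) (φ := fun w : ℂ => (↑(g • ofComplex w) : ℂ)) h3 h2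
  rw [Dbar_congr (slash_eventuallyEq hg τ), Dbar_mul_left h4 h1, h6, ofComplex_apply]
  simp only [map_mul, map_div₀, map_pow, map_inv₀, conj_conj, conj_ofReal, him, sub_self,
    zpow_zero, mul_one, zpow_neg_one, ContinuousAlgEquiv.refl_apply]
  have h5 : conj (denom g τ) ≠ 0 := (map_ne_zero _).2 h0
  field_simp

theorem SL_det_pos (γ : SL(2, ℤ)) : 0 < (γ : GL (Fin 2) ℝ).val.det := by
  have h : (γ : GL (Fin 2) ℝ).val.det = 1 := by
    have h2 := Matrix.SpecialLinearGroup.det_coe (Matrix.SpecialLinearGroup.map (Int.castRingHom ℝ) γ)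
    exact h2
  rw [h]
  exact one_pos

theorem RDiff.slash_SL {f : ℍ → ℂ} (hf : RDiff f) (γ : SL(2, ℤ)) : RDiff (f ∣[(1 : ℤ)] γ) := by
  rw [SL_slash]
  exact hf.slash (SL_det_pos γ)

theorem shadow_slash_SL {f : ℍ → ℂ} (hf : RDiff f) (γ : SL(2, ℤ)) :
    shadow (f ∣[(1 : ℤ)] γ) = (shadow f) ∣[(1 : ℤ)] γ := by
  rw [SL_slash, SL_slash]
  exact shadow_slash hf (SL_det_pos γ)

/-- what fixes `f` fixes its shadow -/
theorem shadow_slash_eq {f : ℍ → ℂ} (hf : RDiff f) {γ : SL(2, ℤ)} (h : f ∣[(1 : ℤ)] γ = f) :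
    (shadow f) ∣[(1 : ℤ)] γ = shadow f := by
  rw [← shadow_slash_SL hf, h]

/-- a family which is stable: `f ∣ γ = ∑ c_j f_j` -/
theorem shadow_slash_sum {ι : Type*} (s : Finset ι) {f : ℍ → ℂ} {F : ι → ℍ → ℂ} {c : ι → ℂ}
    (hf : RDiff f) (hF : ∀ i ∈ s, RDiff (F i)) {γ : SL(2, ℤ)}
    (h : f ∣[(1 : ℤ)] γ = ∑ i ∈ s, c i • F i) :
    (shadow f) ∣[(1 : ℤ)] γ = ∑ i ∈ s, conj (c i) • shadow (F i) := by
  rw [← shadow_slash_SL hf, h, shadow_sum s (fun i hi => (hF i hi).smul (c i))]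
  exact Finset.sum_congr rfl fun i hi => shadow_smul (hF i hi) (c i)

/-- holomorphic functions are the real differentiable functions with zero shadow -/
theorem mdiff_iff_shadow {f : ℍ → ℂ} :
    MDifferentiable 𝓘(ℂ) 𝓘(ℂ) f ↔ RDiff f ∧ shadow f = 0 := by
  rw [mdifferentiable_iff]
  have hsh : ∀ τ : ℍ, shadow f τ = 0 ↔ Dbar (f ∘ ofComplex) τ = 0 := by
    intro τ
    have him : (τ.im : ℂ) ≠ 0 := ofReal_ne_zero.2 τ.im_pos.ne'
    unfold shadow
    rw [map_eq_zero, mul_eq_zero, or_iff_right him]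
  constructor
  · intro h
    have h1 : ∀ τ : ℍ, DifferentiableAt ℂ (f ∘ ofComplex) τ := fun τ =>
      (h τ τ.im_pos).differentiableAt (isOpen_upperHalfPlaneSet.mem_nhds τ.im_pos)
    exact ⟨fun τ => (differentiableAt_iff_Dbar.1 (h1 τ)).1, funext fun τ =>
      (hsh τ).2 (differentiableAt_iff_Dbar.1 (h1 τ)).2⟩
  · rintro ⟨h1, h2⟩ z hz
    have h3 := differentiableAt_iff_Dbar.2 ⟨h1 ⟨z, hz⟩, (hsh ⟨z, hz⟩).1 (congrFun h2 _)⟩
    exact h3.differentiableWithinAt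

theorem RDiff_of_mdiff {f : ℍ → ℂ} (h : MDifferentiable 𝓘(ℂ) 𝓘(ℂ) f) : RDiff f :=
  (mdiff_iff_shadow.1 h).1

theorem mdiff_of_shadow_eq_zero {f : ℍ → ℂ} (h1 : RDiff f) (h2 : shadow f = 0) :
    MDifferentiable 𝓘(ℂ) 𝓘(ℂ) f := mdiff_iff_shadow.2 ⟨h1, h2⟩

end Fermat.Agent.LT.Theta31
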