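import Fermat.Agent.LT.Theta31.ExpInt
import Fermat.Agent.LT.Theta31.Shadow

/-!
# The shadow of a harmonic expansion

`f(τ) = ∑ a_i e(n_i τ) + ∑ b_i gFun(4π m_i y) e(-m_i τ)` is real differentiable, its shadow is
`(i√π/8) ∑ conj(b_i) e(m_i τ)`, which is holomorphic.
-/

set_option autoImplicit false

noncomputable section

open UpperHalfPlane hiding I
open ModularForm Complex Filter Topology
open scoped MatrixGroups Manifold ModularForm ComplexConjugate

namespace Fermat.Agent.LT.Theta31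

variable {ι κ : Type*}

/-- summable in the sense of all `e^{-2π n y}` -/
def ExpSummable (n : κ → ℝ) (a : κ → ℂ) : Prop :=
  ∀ y : ℝ, 0 < y → Summable fun i => ‖a i‖ * Real.exp (-(2 * Real.pi * n i * y))

/-- summable in the sense of the Whittaker functions `gFun(4π m y) e^{2π m y}` -/
def GSummable (m : ι → ℝ) (b : ι → ℂ) : Prop :=
  ∀ y : ℝ, 0 < y → Summable fun i => ‖b i‖ *
    (gFun (4 * Real.pi * m i * y) * Real.exp (2 * Real.pi * m i * y))

theorem norm_cexp_pos (n : ℝ) (z : ℂ) :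
    ‖cexp (2 * Real.pi * I * n * z)‖ = Real.exp (-(2 * Real.pi * n * z.im)) := by
  rw [norm_exp]
  congr 1
  have h : (2 * Real.pi * I * n * z : ℂ) = ((2 * Real.pi * n : ℝ) : ℂ) * (I * z) := by
    push_cast; ring
  rw [h, re_ofReal_mul]
  simp

theorem norm_cexp_neg (m : ℝ) (z : ℂ) :
    ‖cexp (-(2 * Real.pi * I * m * z))‖ = Real.exp (2 * Real.pi * m * z.im) := by
  have h := norm_cexp_pos (-m) z
  have h1 : (2 * Real.pi * I * ((-m : ℝ) : ℂ) * z : ℂ) = -(2 * Real.pi * I * m * z) := by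
    push_cast; ring
  rw [h1] at h
  rw [h]
  congr 1
  ring

theorem conj_cexp_neg (m : ℝ) (z : ℂ) :
    conj (cexp (-(2 * Real.pi * I * m * z))) * Real.exp (-(4 * Real.pi * m * z.im)) =
      cexp (2 * Real.pi * I * m * z) := by
  rw [← exp_conj, ofReal_exp, ← Complex.exp_add]
  congr 1
  have h1 : conj z = z - 2 * z.im * I := by
    apply Complex.ext <;> simp
    ring
  simp only [map_neg, map_mul, conj_ofReal, conj_I, h1, map_ofNat]
  push_cast
  linear_combination (-4 * Real.pi * m * (z.im : ℂ)) * Complex.I_sq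

/-- lower bound for `gFun` turned into a summability statement -/
theorem GSummable.exp {m : ι → ℝ} {b : ι → ℂ} (hm : ∀ i, 0 < m i) (hb : GSummable m b) :
    ExpSummable m b := by
  intro y hy
  have h1 := (hb (y / 2) (by positivity)).mul_left (8 / √Real.pi)
  refine Summable.of_nonneg_of_le (fun i => by positivity) (fun i => ?_) h1
  have hpi : 0 < √Real.pi := Real.sqrt_pos.2 Real.pi_pos
  set x : ℝ := Real.pi * m i * y with hx
  have hx0 : 0 < x := by have := hm i; have := Real.pi_pos; positivity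
  have e1 : 2 * Real.pi * m i * y = 2 * x := by rw [hx]; ring
  have e2 : 4 * Real.pi * m i * (y / 2) = 2 * x := by rw [hx]; ring
  have e3 : 2 * Real.pi * m i * (y / 2) = x := by rw [hx]; ring
  rw [e1, e2, e3]
  have h2 := le_gFun (k := 2 * x) (by positivity)
  have h3 : Real.exp (-(2 * x)) ≤ 8 / √Real.pi * (gFun (2 * x) * Real.exp x) := by
    have h4 : 8 / √Real.pi * (√Real.pi / 4 * (Real.exp (-(2 * x)) / (2 * x + 1)) * Real.exp x)
        ≤ 8 / √Real.pi * (gFun (2 * x) * Real.exp x) := by gcongr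
    refine le_trans ?_ h4
    have h5 : 8 / √Real.pi * (√Real.pi / 4 * (Real.exp (-(2 * x)) / (2 * x + 1)) * Real.exp x)
        = Real.exp (-(2 * x)) * (2 * Real.exp x / (2 * x + 1)) := by
      field_simp
      ring
    rw [h5]
    refine le_mul_of_one_le_right (Real.exp_pos _).le ?_
    rw [one_le_div (by positivity)]
    have := Real.add_one_le_exp x
    linarith
  calc ‖b i‖ * Real.exp (-(2 * x)) ≤ ‖b i‖ * (8 / √Real.pi * (gFun (2 * x) * Real.exp x)) := by
        gcongr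
    _ = 8 / √Real.pi * (‖b i‖ * (gFun (2 * x) * Real.exp x)) := by ring

theorem isOpen_imgt (y0 : ℝ) : IsOpen {z : ℂ | y0 < z.im} :=
  isOpen_lt continuous_const continuous_im

theorem convex_imgt (y0 : ℝ) : Convex ℝ {z : ℂ | y0 < z.im} := convex_halfSpace_im_gt y0

theorem ExpSummable.summable {n : κ → ℝ} {a : κ → ℂ} (ha : ExpSummable n a) {z : ℂ}
    (hz : 0 < z.im) : Summable fun i => a i * cexp (2 * Real.pi * I * n i * z) := by
  refine Summable.of_norm ?_
  refine (ha z.im hz).congr fun i => ?_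
  rw [norm_mul, norm_cexp_pos]

/-- exponential series are holomorphic -/
theorem ExpSummable.differentiableOn {n : κ → ℝ} (hn : ∀ i, 0 ≤ n i) {a : κ → ℂ}
    (ha : ExpSummable n a) :
    DifferentiableOn ℂ (fun z => ∑' i, a i * cexp (2 * Real.pi * I * n i * z)) {z | 0 < z.im} := by
  intro z hz
  have hz' : 0 < z.im := hz
  set y0 := z.im / 2 with hy0
  have hy0' : 0 < y0 := by positivity
  have h1 : DifferentiableOn ℂ (fun z => ∑' i, a i * cexp (2 * Real.pi * I * n i * z))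
      {z | y0 < z.im} := by
    refine differentiableOn_tsum_of_summable_norm (ha y0 hy0') (fun i => ?_) (isOpen_imgt y0)
      (fun i w hw => ?_)
    · exact (by fun_prop : Differentiable ℂ fun z => a i * cexp (2 * Real.pi * I * n i * z)).differentiableOn
    · rw [norm_mul, norm_cexp_pos]
      refine mul_le_mul_of_nonneg_left (Real.exp_le_exp.2 ?_) (norm_nonneg _)
      have hw' : y0 < w.im := hw
      have := Real.pi_pos
      have := hn i
      have : 2 * Real.pi * n i * y0 ≤ 2 * Real.pi * n i * w.im := by gcongr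
      linarith
  exact (h1.differentiableAt ((isOpen_imgt y0).mem_nhds (by
    show y0 < z.im
    rw [hy0]; linarith))).differentiableWithinAt

/-- the term of the non-holomorphic part -/
def gTerm (m : ℝ) (b : ℂ) (z : ℂ) : ℂ :=
  b * (gFun (4 * Real.pi * m * z.im) : ℂ) * cexp (-(2 * Real.pi * I * m * z))

/-- its real derivative -/
def gTerm' (m : ℝ) (b : ℂ) (z : ℂ) : ℂ →L[ℝ] ℂ :=
  (b * ((-(√Real.pi / 4 * (Real.exp (-(4 * Real.pi * m * z.im)) / (4 * Real.pi * m * z.im))) *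
    (4 * Real.pi * m) : ℝ) : ℂ) * cexp (-(2 * Real.pi * I * m * z))) • (ofRealCLM.comp imCLM) +
  (b * (gFun (4 * Real.pi * m * z.im) : ℂ) * (cexp (-(2 * Real.pi * I * m * z)) *
    (-(2 * Real.pi * I * m)))) • (ContinuousLinearMap.id ℝ ℂ)

theorem hasFDerivAt_gTerm {m : ℝ} (hm : 0 < m) (b : ℂ) {z : ℂ} (hz : 0 < z.im) :
    HasFDerivAt (gTerm m b) (gTerm' m b z) z := by
  have hpi := Real.pi_pos
  have h1 : HasFDerivAt (fun z : ℂ => 4 * Real.pi * m * z.im)
      ((4 * Real.pi * m) • imCLM) z := (imCLM.hasFDerivAt (x := z)).const_mul _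
  have h0 := hasDerivAt_gFun (k := 4 * Real.pi * m * z.im) (by positivity)
  have h2 : HasFDerivAt (fun z : ℂ => gFun (4 * Real.pi * m * z.im))
      ((-(√Real.pi / 4 * (Real.exp (-(4 * Real.pi * m * z.im)) / (4 * Real.pi * m * z.im)))) •
        ((4 * Real.pi * m) • imCLM)) z :=
    HasDerivAt.comp_hasFDerivAt (h₂ := gFun) z h0 h1
  have h3 : HasFDerivAt (fun z : ℂ => (gFun (4 * Real.pi * m * z.im) : ℂ))
      (ofRealCLM.comp ((-(√Real.pi / 4 * (Real.exp (-(4 * Real.pi * m * z.im)) /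
        (4 * Real.pi * m * z.im)))) • ((4 * Real.pi * m) • imCLM))) z :=
    HasFDerivAt.comp z (g := fun x : ℝ => (x : ℂ)) ofRealCLM.hasFDerivAt h2
  have h4 : HasDerivAt (fun z : ℂ => cexp (-(2 * Real.pi * I * m * z)))
      (cexp (-(2 * Real.pi * I * m * z)) * (-(2 * Real.pi * I * m))) z := by
    have h5 : HasDerivAt (fun z : ℂ => -(2 * Real.pi * I * m * z))
        (-(2 * Real.pi * I * m * 1)) z :=
      ((hasDerivAt_id z).const_mul (2 * Real.pi * I * m)).fun_neg
    rw [mul_one] at h5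
    exact h5.cexp
  have h6 := h4.hasFDerivAt.restrictScalars ℝ
  have h7 : HasFDerivAt (fun z : ℂ => b * ((gFun (4 * Real.pi * m * z.im) : ℂ) *
      cexp (-(2 * Real.pi * I * m * z)))) _ z := (h3.mul h6).const_mul b
  have h8 : (fun z : ℂ => b * ((gFun (4 * Real.pi * m * z.im) : ℂ) *
      cexp (-(2 * Real.pi * I * m * z)))) = gTerm m b := by
    ext w; unfold gTerm; ring
  rw [h8] at h7
  refine h7.congr_fderiv ?_
  ext w
  all_goals
    simp [gTerm']
    ring

theorem norm_gTerm'_le {m : ℝ} (hm : 0 < m) (b : ℂ) {z : ℂ} (hz : 0 < z.im) :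
    ‖gTerm' m b z‖ ≤ (3 / 2 * (√Real.pi / 4) / z.im) *
      (‖b‖ * Real.exp (-(2 * Real.pi * m * z.im))) := by
  have hpi := Real.pi_pos
  have hs : 0 < √Real.pi := Real.sqrt_pos.2 hpi
  set y := z.im with hy
  set k : ℝ := 4 * Real.pi * m * y with hk
  have hk0 : 0 < k := by positivity
  have hg0 := gFun_pos hk0
  have hg1 := gFun_le hk0
  have hexp : Real.exp (-k) * Real.exp (2 * Real.pi * m * y) =
      Real.exp (-(2 * Real.pi * m * y)) := by
    rw [← Real.exp_add]; congr 1; rw [hk]; ring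
  unfold gTerm'
  refine (norm_add_le _ _).trans ?_
  rw [norm_smul, norm_smul]
  have hL : ‖ofRealCLM.comp imCLM‖ ≤ 1 := by
    refine ContinuousLinearMap.opNorm_le_bound _ zero_le_one fun w => ?_
    simp only [ContinuousLinearMap.comp_apply, ofRealCLM_apply, imCLM_apply, one_mul]
    rw [norm_real]
    exact abs_im_le_norm w
  have hid : ‖ContinuousLinearMap.id ℝ ℂ‖ ≤ 1 := ContinuousLinearMap.norm_id_le
  have h1 : ‖b * ((-(√Real.pi / 4 * (Real.exp (-k) / k)) * (4 * Real.pi * m) : ℝ) : ℂ) *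
      cexp (-(2 * Real.pi * I * m * z))‖ = ‖b‖ * (√Real.pi / 4 / y *
        Real.exp (-(2 * Real.pi * m * y))) := by
    rw [norm_mul, norm_mul, norm_cexp_neg, norm_real, Real.norm_eq_abs, abs_mul, abs_neg,
      abs_of_pos (by positivity), abs_of_pos (by positivity), mul_assoc]
    congr 1
    rw [← hexp, ← hy]
    have : (4 * Real.pi * m) = k / y := by rw [hk]; field_simp
    rw [this]
    field_simp
  have h2 : ‖b * (gFun k : ℂ) * (cexp (-(2 * Real.pi * I * m * z)) *
      (-(2 * Real.pi * I * m)))‖ ≤ ‖b‖ * (1 / 2 * (√Real.pi / 4) / y *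
        Real.exp (-(2 * Real.pi * m * y))) := by
    have e1 : ‖(-(2 * Real.pi * I * m) : ℂ)‖ = 2 * Real.pi * m := by
      rw [norm_neg]
      simp only [norm_mul, norm_real, norm_I, Complex.norm_ofNat, mul_one, Real.norm_eq_abs]
      rw [abs_of_pos hpi, abs_of_pos hm]
    rw [norm_mul, norm_mul, norm_mul, norm_cexp_neg, norm_real, e1, Real.norm_eq_abs,
      abs_of_pos hg0, mul_assoc]
    refine mul_le_mul_of_nonneg_left ?_ (norm_nonneg _)
    rw [← hexp, ← hy]
    have e2 : gFun k * (Real.exp (2 * Real.pi * m * y) * (2 * Real.pi * m)) ≤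
        (√Real.pi / 4 * (Real.exp (-k) / k)) *
          (Real.exp (2 * Real.pi * m * y) * (2 * Real.pi * m)) := by
      refine mul_le_mul_of_nonneg_right hg1 (by positivity)
    refine e2.trans (le_of_eq ?_)
    have : (2 * Real.pi * m) = k / y / 2 := by rw [hk]; field_simp; norm_num
    rw [this]
    field_simp
  calc ‖b * ((-(√Real.pi / 4 * (Real.exp (-k) / k)) * (4 * Real.pi * m) : ℝ) : ℂ) *
        cexp (-(2 * Real.pi * I * m * z))‖ * ‖ofRealCLM.comp imCLM‖ +
      ‖b * (gFun k : ℂ) * (cexp (-(2 * Real.pi * I * m * z)) *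
        (-(2 * Real.pi * I * m)))‖ * ‖ContinuousLinearMap.id ℝ ℂ‖
      ≤ ‖b * ((-(√Real.pi / 4 * (Real.exp (-k) / k)) * (4 * Real.pi * m) : ℝ) : ℂ) *
        cexp (-(2 * Real.pi * I * m * z))‖ * 1 +
      ‖b * (gFun k : ℂ) * (cexp (-(2 * Real.pi * I * m * z)) *
        (-(2 * Real.pi * I * m)))‖ * 1 := by gcongr
    _ ≤ ‖b‖ * (√Real.pi / 4 / y * Real.exp (-(2 * Real.pi * m * y))) * 1 +
        ‖b‖ * (1 / 2 * (√Real.pi / 4) / y * Real.exp (-(2 * Real.pi * m * y))) * 1 := by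
        rw [h1]
        gcongr
    _ = (3 / 2 * (√Real.pi / 4) / y) * (‖b‖ * Real.exp (-(2 * Real.pi * m * y))) := by ring

theorem dbarL_gTerm' {m : ℝ} (hm : 0 < m) (b : ℂ) {z : ℂ} (hz : 0 < z.im) :
    (z.im : ℂ) * dbarL (gTerm' m b z) = -(I * √Real.pi / 8) *
      (b * (cexp (-(2 * Real.pi * I * m * z)) * Real.exp (-(4 * Real.pi * m * z.im)))) := by
  have hpi := Real.pi_pos
  unfold dbarL gTerm'
  simp only [_root_.add_apply, _root_.smul_apply, ContinuousLinearMap.comp_apply,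
    ContinuousLinearMap.id_apply, imCLM_apply, ofRealCLM_apply, smul_eq_mul, one_im, Complex.I_im,
    ofReal_zero, ofReal_one, mul_zero, mul_one, zero_add]
  have hz0 : (z.im : ℂ) ≠ 0 := ofReal_ne_zero.2 hz.ne'
  have hm0 : (m : ℂ) ≠ 0 := ofReal_ne_zero.2 hm.ne'
  have hp0 : (Real.pi : ℂ) ≠ 0 := ofReal_ne_zero.2 hpi.ne'
  push_cast
  field_simp
  ring_nf
  simp only [I_sq]
  ring

theorem GSummable.summable {m : ι → ℝ} (hm : ∀ i, 0 < m i) {b : ι → ℂ} (hb : GSummable m b)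
    {z : ℂ} (hz : 0 < z.im) : Summable fun i => gTerm (m i) (b i) z := by
  refine Summable.of_norm ?_
  refine (hb z.im hz).congr fun i => ?_
  have hpi := Real.pi_pos
  have := hm i
  have hg0 := gFun_pos (k := 4 * Real.pi * m i * z.im) (by positivity)
  unfold gTerm
  rw [norm_mul, norm_mul, norm_cexp_neg, norm_real, Real.norm_eq_abs, abs_of_pos hg0]
  ring

theorem GSummable.hasFDerivAt {m : ι → ℝ} (hm : ∀ i, 0 < m i) {b : ι → ℂ} (hb : GSummable m b)
    {z : ℂ} (hz : 0 < z.im) :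
    (Summable fun i => gTerm' (m i) (b i) z) ∧
    HasFDerivAt (fun z => ∑' i, gTerm (m i) (b i) z) (∑' i, gTerm' (m i) (b i) z) z := by
  have hpi := Real.pi_pos
  set y0 := z.im / 2 with hy0
  have hy0' : 0 < y0 := by positivity
  have hz0 : z ∈ {w : ℂ | y0 < w.im} := by
    show y0 < z.im
    rw [hy0]; linarith
  have hu : Summable fun i => (3 / 2 * (√Real.pi / 4) / y0) *
      (‖b i‖ * Real.exp (-(2 * Real.pi * m i * y0))) := (hb.exp hm y0 hy0').mul_left _
  have hle : ∀ i, ∀ w ∈ {w : ℂ | y0 < w.im}, ‖gTerm' (m i) (b i) w‖ ≤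
      (3 / 2 * (√Real.pi / 4) / y0) * (‖b i‖ * Real.exp (-(2 * Real.pi * m i * y0))) := by
    intro i w hw
    have hw' : y0 < w.im := hw
    have hw0 : 0 < w.im := hy0'.trans hw'
    refine (norm_gTerm'_le (hm i) (b i) hw0).trans ?_
    have h1 : Real.exp (-(2 * Real.pi * m i * w.im)) ≤ Real.exp (-(2 * Real.pi * m i * y0)) := by
      apply Real.exp_le_exp.2
      have := hm i
      have : 2 * Real.pi * m i * y0 ≤ 2 * Real.pi * m i * w.im := by gcongr
      linarith
    gcongr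
  refine ⟨Summable.of_norm_bounded hu fun i => hle i z hz0, ?_⟩
  exact hasFDerivAt_tsum_of_isPreconnected hu (isOpen_imgt y0) (convex_imgt y0).isPreconnected
    (fun i w hw => hasFDerivAt_gTerm (hm i) (b i) (hy0'.trans hw)) hle hz0 (hb.summable hm hz) hz0

theorem dbarL_tsum {L : ι → ℂ →L[ℝ] ℂ} (hL : Summable L) :
    dbarL (∑' i, L i) = ∑' i, dbarL (L i) := by
  have h1 : ∀ w : ℂ, HasSum (fun i => L i w) ((∑' i, L i) w) := fun w =>
    (ContinuousLinearMap.apply ℝ ℂ w).hasSum hL.hasSum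
  have h2 := (((h1 1).add ((h1 I).mul_left I)).div_const 2).tsum_eq
  exact h2.symm

theorem GSummable.Dbar_eq {m : ι → ℝ} (hm : ∀ i, 0 < m i) {b : ι → ℂ} (hb : GSummable m b)
    {z : ℂ} (hz : 0 < z.im) :
    conj ((z.im : ℂ) * Dbar (fun z => ∑' i, gTerm (m i) (b i) z) z) =
      (I * √Real.pi / 8) * ∑' i, conj (b i) * cexp (2 * Real.pi * I * m i * z) := by
  obtain ⟨hs, hd⟩ := hb.hasFDerivAt hm hz
  rw [Dbar_of_hasFDerivAt hd, dbarL_tsum hs, ← tsum_mul_left]
  simp only [dbarL_gTerm' (hm _) _ hz]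
  rw [tsum_mul_left, map_mul, conj_tsum]
  have h1 : conj (-(I * √Real.pi / 8)) = I * √Real.pi / 8 := by
    simp only [map_neg, map_div₀, map_mul, conj_I, conj_ofReal, map_ofNat]
    ring
  rw [h1]
  congr 1
  refine tsum_congr fun i => ?_
  rw [map_mul, map_mul, conj_ofReal, conj_cexp_neg]

/-- **The shadow of a harmonic expansion.** -/
theorem shadow_of_expansion {f : ℍ → ℂ} {n : κ → ℝ} {m : ι → ℝ} {a : κ → ℂ} {b : ι → ℂ}
    (hn : ∀ i, 0 ≤ n i) (hm : ∀ i, 0 < m i) (ha : ExpSummable n a) (hb : GSummable m b)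
    (hf : ∀ τ : ℍ, f τ = ∑' i, a i * cexp (2 * Real.pi * I * n i * τ) +
      ∑' i, b i * (gFun (4 * Real.pi * m i * τ.im) : ℂ) * cexp (-(2 * Real.pi * I * m i * τ))) :
    RDiff f ∧ (∀ τ : ℍ, shadow f τ = (I * √Real.pi / 8) *
      ∑' i, conj (b i) * cexp (2 * Real.pi * I * m i * τ)) ∧
      MDifferentiable 𝓘(ℂ) 𝓘(ℂ) (shadow f) := by
  have hev : ∀ τ : ℍ, (f ∘ ofComplex) =ᶠ[𝓝 (τ : ℂ)] fun z =>
      (∑' i, a i * cexp (2 * Real.pi * I * n i * z)) + ∑' i, gTerm (m i) (b i) z := by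
    intro τ
    filter_upwards [isOpen_upperHalfPlaneSet.mem_nhds τ.im_pos] with w hw
    have hw' : 0 < w.im := hw
    rw [Function.comp_apply, hf, ofComplex_apply_of_im_pos hw']
    rfl
  have hA : ∀ τ : ℍ, DifferentiableAt ℂ
      (fun z => ∑' i, a i * cexp (2 * Real.pi * I * n i * z)) τ := fun τ =>
    (ha.differentiableOn hn).differentiableAt (isOpen_upperHalfPlaneSet.mem_nhds τ.im_pos)
  have hB : ∀ τ : ℍ, DifferentiableAt ℝ (fun z => ∑' i, gTerm (m i) (b i) z) τ := fun τ =>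
    (hb.hasFDerivAt hm τ.im_pos).2.differentiableAt
  have hR : RDiff f := fun τ =>
    ((hev τ).differentiableAt_iff).2 (((hA τ).restrictScalars ℝ).add (hB τ))
  have hsh : ∀ τ : ℍ, shadow f τ = (I * √Real.pi / 8) *
      ∑' i, conj (b i) * cexp (2 * Real.pi * I * m i * τ) := by
    intro τ
    rw [← hb.Dbar_eq hm τ.im_pos]
    unfold shadow
    rw [Dbar_congr (hev τ), Dbar_add ((hA τ).restrictScalars ℝ) (hB τ),
      (differentiableAt_iff_Dbar.1 (hA τ)).2, zero_add]
    rfl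
  refine ⟨hR, hsh, ?_⟩
  have hb' : ExpSummable m (fun i => conj (b i)) := by
    intro y hy
    refine (hb.exp hm y hy).congr fun i => ?_
    rw [RCLike.norm_conj]
  rw [mdifferentiable_iff]
  have h1 := (hb'.differentiableOn fun i => (hm i).le).const_mul (I * √Real.pi / 8)
  refine h1.congr fun z hz => ?_
  have hz' : 0 < z.im := hz
  rw [Function.comp_apply, hsh, ofComplex_apply_of_im_pos hz']

/-- the dichotomy: `f` or its shadow is a non-zero holomorphic function -/
theorem exists_holomorphic {f : ℍ → ℂ} (hf0 : f ≠ 0) (hR : RDiff f)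
    (hS : MDifferentiable 𝓘(ℂ) 𝓘(ℂ) (shadow f)) :
    ∃ h : ℍ → ℂ, h ≠ 0 ∧ MDifferentiable 𝓘(ℂ) 𝓘(ℂ) h ∧ (h = f ∨ h = shadow f) := by
  by_cases h : shadow f = 0
  · exact ⟨f, hf0, mdiff_of_shadow_eq_zero hR h, Or.inl rfl⟩
  · exact ⟨shadow f, h, hS, Or.inr rfl⟩

end Fermat.Agent.LT.Theta31
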