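import Fermat.Agent.LT.Theta31.ShadowHecke
import Fermat.Agent.LT.Theta31.ShadowExp
import Fermat.Agent.LT.RawCusp
import Fermat.Agent.LT.End.HeckeFun
import Fermat.Agent.LT.End.Galois

/-!
# Cusp forms of weight one from the theta lift

Expansions `f τ = ∑ a e(n τ) + ∑ b G(4 π m y) e(-m τ)` with frequencies bounded below tend to zero
at `i∞`. If `f ∣ γ` has such an expansion for all `γ ∈ SL(2, ℤ)` then `f` or its shadow is a cusp
form. (helper41)
-/

set_option autoImplicit false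

noncomputable section

open UpperHalfPlane hiding I
open ModularForm Complex Filter Topology CongruenceSubgroup
open scoped MatrixGroups Manifold ModularForm ComplexConjugate

namespace Fermat.Agent.LT.Theta31

/-! ### Decay at `i∞` -/

theorem isZeroAtImInfty_of_le {f : ℍ → ℂ} {C : ℝ} {w : ℝ → ℝ} (hw : Tendsto w atTop (𝓝 0))
    (h : ∀ τ : ℍ, 1 ≤ τ.im → ‖f τ‖ ≤ C * w τ.im) : IsZeroAtImInfty f := by
  have h1 : Tendsto (fun τ : ℍ => C * w τ.im) atImInfty (𝓝 0) := by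
    have := (hw.comp tendsto_comap : Tendsto (w ∘ UpperHalfPlane.im) atImInfty (𝓝 0))
    simpa using this.const_mul C
  refine squeeze_zero_norm' ?_ h1
  filter_upwards [tendsto_comap.eventually (eventually_ge_atTop (1 : ℝ))] with τ hτ
  exact h τ hτ

theorem isZeroAtImInfty_tsum {J : Type*} {u : J → ℍ → ℂ} {M : J → ℝ} {w : ℝ → ℝ}
    (hM : Summable M) (hw : Tendsto w atTop (𝓝 0))
    (h : ∀ i (τ : ℍ), 1 ≤ τ.im → ‖u i τ‖ ≤ M i * w τ.im) :
    IsZeroAtImInfty fun τ => ∑' i, u i τ := by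
  refine isZeroAtImInfty_of_le (C := ∑' i, M i) hw fun τ hτ => ?_
  rw [← tsum_mul_right]
  exact tsum_of_norm_bounded (hM.mul_right _).hasSum fun i => h i τ hτ

theorem tendsto_exp_sub {δ : ℝ} (hδ : 0 < δ) :
    Tendsto (fun y : ℝ => Real.exp (-(2 * Real.pi * δ * (y - 1)))) atTop (𝓝 0) := by
  have h1 : Tendsto (fun y : ℝ => 2 * Real.pi * δ * (y - 1)) atTop atTop := by
    refine Tendsto.const_mul_atTop (by positivity) ?_
    exact tendsto_atTop_add_const_right _ _ tendsto_id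
  exact Real.tendsto_exp_neg_atTop_nhds_zero.comp h1

/-- the holomorphic part tends to zero -/
theorem isZero_hol {J : Type*} {n : J → ℝ} {a : J → ℂ} {δ : ℝ} (hδ : 0 < δ) (hn : ∀ i, δ ≤ n i)
    (ha : Summable fun i => ‖a i‖ * Real.exp (-(2 * Real.pi * n i * 1))) :
    IsZeroAtImInfty fun τ : ℍ => ∑' i, a i * cexp (2 * Real.pi * I * n i * τ) := by
  refine isZeroAtImInfty_tsum ha (tendsto_exp_sub hδ) fun i τ hτ => ?_
  rw [norm_mul, norm_cexp_pos, mul_assoc ‖a i‖, ← Real.exp_add]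
  refine mul_le_mul_of_nonneg_left (Real.exp_le_exp.mpr ?_) (norm_nonneg _)
  have h1 : 2 * Real.pi * δ * (τ.im - 1) ≤ 2 * Real.pi * n i * (τ.im - 1) :=
    mul_le_mul_of_nonneg_right (mul_le_mul_of_nonneg_left (hn i) (by positivity)) (by linarith)
  rw [coe_im]
  linarith

/-- Two sided bounds for the function `G` of the non-holomorphic part -/
def GBound (G : ℝ → ℝ) : Prop :=
  ∃ c : ℝ, 0 < c ∧ ∀ k, 0 < k → c * Real.exp (-k) / (k + 1) ≤ G k ∧ G k ≤ c * Real.exp (-k) / k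

/-- the non-holomorphic part tends to zero -/
theorem isZero_nonhol {G : ℝ → ℝ} (hG : GBound G) {J : Type*} {m : J → ℝ} {b : J → ℂ} {δ : ℝ}
    (hδ : 0 < δ) (hm : ∀ j, δ ≤ m j)
    (hb : Summable fun j => ‖b j‖ * (G (4 * Real.pi * m j * 1) * Real.exp (2 * Real.pi * m j * 1))) :
    IsZeroAtImInfty fun τ : ℍ => ∑' j, b j * (G (4 * Real.pi * m j * τ.im) : ℂ) *
      cexp (-(2 * Real.pi * I * m j * τ)) := by
  obtain ⟨c, hc, hG⟩ := hG
  refine isZeroAtImInfty_tsum (w := fun y => Real.exp (-(2 * Real.pi * δ * (y - 1))))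
    (hb.mul_left (1 + 1 / (4 * Real.pi * δ))) (tendsto_exp_sub hδ) fun j τ hτ => ?_
  have hpi := Real.pi_pos
  have hmj : 0 < m j := lt_of_lt_of_le hδ (hm j)
  have hy : 0 < τ.im := τ.im_pos
  set k := 4 * Real.pi * m j with hk
  have hk0 : 0 < k := by positivity
  have h1 := (hG (k * τ.im) (by positivity)).2
  have h1' : 0 ≤ G (k * τ.im) := le_trans (by positivity) (hG (k * τ.im) (by positivity)).1
  have h2 := (hG k hk0).1
  rw [norm_mul, norm_mul, norm_cexp_neg, Complex.norm_real, Real.norm_of_nonneg h1', mul_one,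
    mul_one, show 2 * Real.pi * m j * (τ : ℂ).im = k / 2 * τ.im by rw [hk, coe_im]; ring,
    show 2 * Real.pi * m j = k / 2 by rw [hk]; ring]
  -- the comparison of the values of `G`
  have h3 : G (k * τ.im) * Real.exp (k / 2 * τ.im) ≤
      (1 + 1 / (4 * Real.pi * δ)) * (G k * Real.exp (k / 2)) *
        Real.exp (-(2 * Real.pi * δ * (τ.im - 1))) := by
    have e1 : G (k * τ.im) * Real.exp (k / 2 * τ.im) ≤ c * Real.exp (-(k / 2 * τ.im)) / k := by
      calc G (k * τ.im) * Real.exp (k / 2 * τ.im) ≤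
          c * Real.exp (-(k * τ.im)) / (k * τ.im) * Real.exp (k / 2 * τ.im) :=
            mul_le_mul_of_nonneg_right h1 (Real.exp_nonneg _)
        _ = c * Real.exp (-(k / 2 * τ.im)) / (k * τ.im) := by
            rw [div_mul_eq_mul_div, mul_assoc, ← Real.exp_add]
            congr 3
            ring
        _ ≤ c * Real.exp (-(k / 2 * τ.im)) / k := by
            refine div_le_div_of_nonneg_left (by positivity) hk0 ?_
            nlinarith
    have e2 : c * Real.exp (-(k / 2)) / (k + 1) ≤ G k * Real.exp (k / 2) := by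
      calc c * Real.exp (-(k / 2)) / (k + 1) = c * Real.exp (-k) / (k + 1) * Real.exp (k / 2) := by
            rw [div_mul_eq_mul_div, mul_assoc, ← Real.exp_add]
            congr 3
            ring
        _ ≤ G k * Real.exp (k / 2) := mul_le_mul_of_nonneg_right h2 (Real.exp_nonneg _)
    have e3 : Real.exp (-(k / 2 * τ.im)) ≤
        Real.exp (-(k / 2)) * Real.exp (-(2 * Real.pi * δ * (τ.im - 1))) := by
      rw [← Real.exp_add]
      refine Real.exp_le_exp.mpr ?_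
      have : 2 * Real.pi * δ * (τ.im - 1) ≤ k / 2 * (τ.im - 1) := by
        refine mul_le_mul_of_nonneg_right ?_ (by linarith)
        rw [hk]
        nlinarith [hm j]
      linarith
    have e4 : 1 / k ≤ (1 + 1 / (4 * Real.pi * δ)) * (1 / (k + 1)) := by
      have h4 : 4 * Real.pi * δ ≤ k := by
        rw [hk]
        nlinarith [hm j]
      have h5 : 0 < 4 * Real.pi * δ := by positivity
      have h6 : 1 / k ≤ 1 / (4 * Real.pi * δ) := one_div_le_one_div_of_le h5 h4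
      rw [mul_one_div, le_div_iff₀ (by positivity)]
      have h7 : 1 / k * (k + 1) = 1 + 1 / k := by field_simp
      rw [h7]
      linarith
    calc G (k * τ.im) * Real.exp (k / 2 * τ.im) ≤ c * Real.exp (-(k / 2 * τ.im)) / k := e1
      _ = c * Real.exp (-(k / 2 * τ.im)) * (1 / k) := by ring
      _ ≤ c * (Real.exp (-(k / 2)) * Real.exp (-(2 * Real.pi * δ * (τ.im - 1)))) *
          ((1 + 1 / (4 * Real.pi * δ)) * (1 / (k + 1))) := by
            refine mul_le_mul (mul_le_mul_of_nonneg_left e3 hc.le) e4 (by positivity)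
              (by positivity)
      _ = (1 + 1 / (4 * Real.pi * δ)) * (c * Real.exp (-(k / 2)) / (k + 1)) *
          Real.exp (-(2 * Real.pi * δ * (τ.im - 1))) := by ring
      _ ≤ (1 + 1 / (4 * Real.pi * δ)) * (G k * Real.exp (k / 2)) *
        Real.exp (-(2 * Real.pi * δ * (τ.im - 1))) := by
          refine mul_le_mul_of_nonneg_right (mul_le_mul_of_nonneg_left e2 ?_) (Real.exp_nonneg _)
          positivity
  calc ‖b j‖ * G (k * τ.im) * Real.exp (k / 2 * τ.im) =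
      ‖b j‖ * (G (k * τ.im) * Real.exp (k / 2 * τ.im)) := by ring
    _ ≤ ‖b j‖ * ((1 + 1 / (4 * Real.pi * δ)) * (G k * Real.exp (k / 2)) *
        Real.exp (-(2 * Real.pi * δ * (τ.im - 1)))) :=
          mul_le_mul_of_nonneg_left h3 (norm_nonneg _)
    _ = (1 + 1 / (4 * Real.pi * δ)) * (‖b j‖ * (G k * Real.exp (k / 2))) *
        Real.exp (-(2 * Real.pi * δ * (τ.im - 1))) := by ring

theorem gBound_gFun : GBound gFun := by
  refine ⟨√Real.pi / 4, div_pos (Real.sqrt_pos.2 Real.pi_pos) (by norm_num), fun k hk => ?_⟩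
  rw [mul_div_assoc, mul_div_assoc]
  exact ⟨le_gFun hk, gFun_le hk⟩

/-! ### Expansions at `i∞` -/

/-- Expansions at `i∞` of a harmonic function of weight one with positive frequencies, bounded
below. -/
def HasExp (f : ℍ → ℂ) : Prop :=
  ∃ (κ ι : Type) (n : κ → ℝ) (m : ι → ℝ) (a : κ → ℂ) (b : ι → ℂ) (δ : ℝ), 0 < δ ∧
    (∀ i, δ ≤ n i) ∧ (∀ j, δ ≤ m j) ∧ ExpSummable n a ∧ GSummable m b ∧
    ∀ τ : ℍ, f τ = ∑' i, a i * cexp (2 * Real.pi * I * n i * τ) +
      ∑' j, b j * (gFun (4 * Real.pi * m j * τ.im) : ℂ) * cexp (-(2 * Real.pi * I * m j * τ))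

theorem HasExp.rdiff {f : ℍ → ℂ} (h : HasExp f) : RDiff f := by
  obtain ⟨κ, ι, n, m, a, b, δ, hδ, hn, hm, ha, hb, hf⟩ := h
  exact (shadow_of_expansion (fun i => (hδ.le.trans (hn i))) (fun j => hδ.trans_le (hm j)) ha hb
    hf).1

theorem HasExp.mdiff_shadow {f : ℍ → ℂ} (h : HasExp f) :
    MDifferentiable 𝓘(ℂ) 𝓘(ℂ) (shadow f) := by
  obtain ⟨κ, ι, n, m, a, b, δ, hδ, hn, hm, ha, hb, hf⟩ := h
  exact (shadow_of_expansion (fun i => (hδ.le.trans (hn i))) (fun j => hδ.trans_le (hm j)) ha hb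
    hf).2.2

theorem HasExp.isZero {f : ℍ → ℂ} (h : HasExp f) : IsZeroAtImInfty f := by
  obtain ⟨κ, ι, n, m, a, b, δ, hδ, hn, hm, ha, hb, hf⟩ := h
  have h1 := isZero_hol hδ hn (ha 1 one_pos)
  have h2 := isZero_nonhol gBound_gFun hδ hm (hb 1 one_pos)
  have h3 : IsZeroAtImInfty _ := h1.add h2
  have h4 : f = _ := funext hf
  rw [h4]
  exact h3

theorem HasExp.isZero_shadow {f : ℍ → ℂ} (h : HasExp f) : IsZeroAtImInfty (shadow f) := by
  obtain ⟨κ, ι, n, m, a, b, δ, hδ, hn, hm, ha, hb, hf⟩ := h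
  have hm' : ∀ j, 0 < m j := fun j => hδ.trans_le (hm j)
  have h0 := (shadow_of_expansion (fun i => (hδ.le.trans (hn i))) hm' ha hb hf).2.1
  have hb' := hb.exp hm'
  have h1 : ExpSummable m fun j => conj (b j) := by
    intro y hy
    simpa only [Complex.norm_conj] using hb' y hy
  have h2 := isZero_hol hδ hm (h1 1 one_pos)
  have h3 : Tendsto _ atImInfty _ := Tendsto.const_mul (I * √Real.pi / 8) h2
  rw [mul_zero] at h3
  exact h3.congr fun τ => (h0 τ).symm

/-- scaling of the variable -/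
theorem HasExp.comp_div {F : ℂ → ℂ} (h : HasExp fun τ : ℍ => F τ) {r : ℝ} (hr : 0 < r) :
    HasExp fun τ : ℍ => F ((τ : ℂ) / r) := by
  obtain ⟨κ, ι, n, m, a, b, δ, hδ, hn, hm, ha, hb, hf⟩ := h
  have hrc : (r : ℂ) ≠ 0 := by exact_mod_cast hr.ne'
  refine ⟨κ, ι, fun i => n i / r, fun j => m j / r, a, b, δ / r, by positivity,
    fun i => by have := hn i; simp only; gcongr, fun j => by have := hm j; simp only; gcongr,
    fun y hy => ?_, fun y hy => ?_, fun τ => ?_⟩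
  · refine (ha (y / r) (by positivity)).congr fun i => ?_
    congr 3
    ring
  · refine (hb (y / r) (by positivity)).congr fun j => ?_
    rw [show 4 * Real.pi * m j * (y / r) = 4 * Real.pi * (m j / r) * y by ring,
      show 2 * Real.pi * m j * (y / r) = 2 * Real.pi * (m j / r) * y by ring]
  · have him : 0 < ((τ : ℂ) / r).im := by
      rw [div_ofReal_im]
      exact div_pos τ.im_pos hr
    have h1 := hf ⟨(τ : ℂ) / r, him⟩
    have h2 : (⟨(τ : ℂ) / r, him⟩ : ℍ).im = τ.im / r := by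
      show ((τ : ℂ) / r).im = τ.im / r
      rw [div_ofReal_im, coe_im]
    rw [h2] at h1
    refine h1.trans ?_
    congr 1
    · refine tsum_congr fun i => ?_
      congr 2
      show 2 * (Real.pi : ℂ) * I * (n i : ℂ) * ((τ : ℂ) / r) = _
      push_cast
      ring
    · refine tsum_congr fun j => ?_
      have h3 : 4 * Real.pi * m j * (τ.im / r) = 4 * Real.pi * (m j / r) * τ.im := by ring
      rw [h3]
      congr 2
      show -(2 * (Real.pi : ℂ) * I * (m j : ℂ) * ((τ : ℂ) / r)) = _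
      push_cast
      ring

/-! ### Cusp forms -/

/-- **`f` or its shadow is a cusp form.** -/
theorem exists_cuspForm_of_exp (Γ : Subgroup SL(2, ℤ)) {f : ℍ → ℂ} (hf : f ≠ 0)
    (hΓ : ∀ γ ∈ Γ, f ∣[(1 : ℤ)] γ = f) (hexp : ∀ γ : SL(2, ℤ), HasExp (f ∣[(1 : ℤ)] γ)) :
    ∃ g : CuspForm Γ 1, g ≠ 0 ∧ (⇑g = f ∨ ⇑g = shadow f) := by
  have h1 : HasExp f := by simpa using hexp 1
  have hR := h1.rdiff
  by_cases hs : shadow f = 0
  · refine ⟨mkCusp Γ f hΓ (mdiff_of_shadow_eq_zero hR hs) fun γ => (hexp γ).isZero, ?_, Or.inl rfl⟩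
    intro h0
    exact hf (congrArg (fun g : CuspForm Γ 1 => (⇑g : ℍ → ℂ)) h0)
  · refine ⟨mkCusp Γ (shadow f) (fun γ hγ => shadow_slash_eq hR (hΓ γ hγ)) h1.mdiff_shadow
      fun γ => ?_, ?_, Or.inr rfl⟩
    · rw [← shadow_slash_SL hR]
      exact (hexp γ).isZero_shadow
    · intro h0
      exact hs (congrArg (fun g : CuspForm Γ 1 => (⇑g : ℍ → ℂ)) h0)

/-! ### The input of the end game -/

local notation "Γℚ" => (AlgebraicClosure ℚ ≃ₐ[ℚ] AlgebraicClosure ℚ)

theorem mod_three_of_frobenius {ρ : Γℚ →* GL (Fin 2) (ZMod 3)}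
    (hdet : ∀ σ : Γℚ, Matrix.GeneralLinearGroup.det (ρ σ) = WeierstrassCurve.modThreeCyclotomicChar σ)
    {p : ℕ} (hp : p.Prime) (hp3 : p ≠ 3) {A : ValuationSubring (AlgebraicClosure ℚ)}
    (hA : A.LiesOverPrime p) {σ : Γℚ} (hσ : A.IsFrobeniusAt σ p) (h : ρ σ = 1 ∨ ρ σ = -1) :
    p % 3 = 1 := by
  have h1 := End.modThree_frobenius hp hp3 hA hσ
  rw [← hdet] at h1
  have h2 : Matrix.GeneralLinearGroup.det (ρ σ) = 1 := by
    rcases h with h | h
    · rw [h, map_one]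
    · rw [h]
      apply Units.ext
      rw [Matrix.GeneralLinearGroup.val_det_apply, Units.val_neg, Units.val_one, Matrix.det_neg,
        Matrix.det_one]
      decide
  rw [h2, Units.val_one] at h1
  have h3 : ((p : ℕ) : ZMod 3) = ((1 : ℕ) : ZMod 3) := by
    rw [← h1, Nat.cast_one]
  rw [ZMod.natCast_eq_natCast_iff'] at h3
  simpa using h3

/-- **From the theta lift to the input of the end game.** -/
theorem wtOneInput_of_lift (ρ : Γℚ →* GL (Fin 2) (ZMod 3))
    (hdet : ∀ σ : Γℚ, Matrix.GeneralLinearGroup.det (ρ σ) = WeierstrassCurve.modThreeCyclotomicChar σ)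
    {N : ℕ} [NeZero N] (h3 : 3 ∣ N) {f : ℍ → ℂ} (hf : f ≠ 0)
    (hlaw : ∀ g ∈ Gamma0 N, (3 : ℤ) ∣ g 1 1 - 1 → f ∣[(1 : ℤ)] g = f)
    (hexp : ∀ γ : SL(2, ℤ), HasExp (f ∣[(1 : ℤ)] γ)) (B : Finset ℕ)
    (H : ∀ p : ℕ, p.Prime → p ∉ B → ¬ p ∣ N → p % 3 = 1 → ∀ x : ℝ,
      (∃ A : ValuationSubring (AlgebraicClosure ℚ), A.LiesOverPrime p ∧
        ∃ σ : Γℚ, A.IsFrobeniusAt σ p ∧ ((ρ σ = 1 ∧ x = 2) ∨ (ρ σ = -1 ∧ x = -2))) →
      ∀ z : ℍ, (p : ℂ)⁻¹ * ∑ j ∈ Finset.range p, f (heckeMatrix p j • z) +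
        f (heckeDiagMatrix p • z) = x * f z) : End.WtOneInput ρ := by
  have hR : RDiff f := by
    have h1 := (hexp 1).rdiff
    rwa [SlashAction.slash_one] at h1
  have h3N : ∀ {a b : ℤ}, (a : ZMod N) = (b : ZMod N) → (3 : ℤ) ∣ a - b := by
    intro a b hab
    rw [ZMod.intCast_eq_intCast_iff_dvd_sub] at hab
    have h4 : (3 : ℤ) ∣ b - a := (Int.natCast_dvd_natCast.mpr h3).trans hab
    have h5 := (dvd_neg.mpr h4)
    rwa [neg_sub] at h5
  obtain ⟨F, hF0, hF⟩ := exists_cuspForm_of_exp (Gamma1 N) hf (fun γ hγ => by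
    rw [Gamma1_mem] at hγ
    refine hlaw γ (by rw [Gamma0_mem]; exact hγ.2.2) (h3N ?_)
    rw [hγ.2.1, Int.cast_one]) hexp
  refine End.wtOneInput_of ρ F hF0 B fun p hp hpB hpN x hx => ?_
  obtain ⟨A, hA, σ, hσ, hσx⟩ := hx
  have hp3 : p ≠ 3 := by
    rintro rfl
    exact hpN h3
  have hmod : p % 3 = 1 := mod_three_of_frobenius hdet hp hp3 hA hσ
    (hσx.imp (fun h => h.1) fun h => h.1)
  obtain ⟨g, hg, hg'⟩ := End.exists_gamma0_lower (N := N) p hp hpN
  have hfg : f ∣[(1 : ℤ)] g = f := by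
    refine hlaw g hg ?_
    have h4 : (3 : ℤ) ∣ g 1 1 - (p : ℤ) := h3N (by rw [hg', Int.cast_natCast])
    omega
  -- the eigenvalue is real
  obtain ⟨x', hx', hx''⟩ : ∃ x' : ℝ, (x' : ℂ) = x ∧
      ((ρ σ = 1 ∧ x' = 2) ∨ (ρ σ = -1 ∧ x' = -2)) := by
    rcases hσx with ⟨h4, h5⟩ | ⟨h4, h5⟩
    · exact ⟨2, by rw [h5]; push_cast; rfl, Or.inl ⟨h4, rfl⟩⟩
    · exact ⟨-2, by rw [h5]; push_cast; rfl, Or.inr ⟨h4, rfl⟩⟩
  have H' := H p hp hpB hpN hmod x' ⟨A, hA, σ, hσ, hx''⟩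
  refine ⟨g, hg, hg', fun z => ?_⟩
  rw [← hx']
  rcases hF with hF | hF
  · rw [hF, hfg]
    exact H' z
  · rw [hF]
    refine shadow_hecke_slash hR hp.ne_zero g x' (conj_ofReal x') ?_ z
    rw [hfg]
    exact H'

end Fermat.Agent.LT.Theta31
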