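import Fermat.Agent.LT.Theta31.SpanT
import Fermat.Agent.LT.Theta31.Cusp

/-!
# The theta lift has an expansion at every cusp

as soon as the lifts of all periodic coefficient functions have an expansion at `i∞`. (helper41)
-/

set_option autoImplicit false

noncomputable section

open Complex MeasureTheory
open scoped Real ComplexConjugate MatrixGroups UpperHalfPlane ModularForm

namespace Fermat.Agent.LT.Theta31

variable {O : Type*} [CommRing O] [StarRing O] {σ : O →+* ℂ} {ω : O} (D : NTData O)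

/-- **Expansions at all cusps.** -/
theorem hasExp_lift_slash (hσ : ∀ x, σ (star x) = conj (σ x)) (hω : σ ω = ωC)
    (hrep : ∀ b : O, ∃ x y : ℤ, b = x + y * ω) {N : ℕ} [NeZero N] {c : ℤ × O × ℤ → ℂ}
    (hc : PerT N c) {F : H3 → ℂ} {ν : Measure H3}
    (hU : ∀ c' : ℤ × O × ℤ → ℂ, PerT (3 * N ^ 2) c' →
      HasExp fun z : ℍ => ∫ P, F P * D.theta σ c' (z : ℂ) P ∂ν) (γ : SL(2, ℤ)) :
    HasExp ((fun z : ℍ => ∫ P, F P * D.theta σ c (z : ℂ) P ∂ν) ∣[(1 : ℤ)] γ) := by
  obtain ⟨c', hc', h⟩ := exists_lift_slash D hσ hω hrep hc γ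
  rw [h F ν]
  have hN : (0 : ℝ) < 9 * (N : ℝ) ^ 2 := by
    have : (0 : ℝ) < N := by exact_mod_cast Nat.pos_of_ne_zero (NeZero.ne N)
    positivity
  have h1 := (hU c' hc').comp_div (F := fun z => ∫ P, F P * D.theta σ c' z P ∂ν) hN
  have h2 : (((9 * (N : ℝ) ^ 2 : ℝ)) : ℂ) = 9 * (N : ℂ) ^ 2 := by push_cast; rfl
  rw [h2] at h1
  exact h1

/-- the zero function -/
theorem hasExp_zero : HasExp fun _ : ℍ => 0 := by
  refine ⟨Empty, Empty, fun i => i.elim, fun j => j.elim, fun i => i.elim, fun j => j.elim, 1,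
    one_pos, fun i => i.elim, fun j => j.elim, fun y _ => ?_, fun y _ => ?_, fun τ => ?_⟩
  · exact summable_empty
  · exact summable_empty
  · simp

end Fermat.Agent.LT.Theta31
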