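import Fermat.Agent.LT.Theta31.Bil

/-!
# The action of `M₂(O)` on Hermitian triples and the invariance of theta functions

`actM A X = A X A^*`; `q (A X A^*) = |det A|² q X`; `B(g X g^*, g P) = |det g| B(X, P)`.
-/

set_option autoImplicit false

noncomputable section

open Complex ComplexConjugate Matrix

namespace Fermat.Agent.LT.Theta31

open H3

/-- Norm and trace of a ring with involution. -/
structure NTData (O : Type*) [CommRing O] [StarRing O] where
  /-- the norm -/
  nrm : O → ℤ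
  nrm_eq : ∀ b, (nrm b : O) = b * star b
  /-- the trace -/
  tr : O → ℤ
  tr_eq : ∀ b, (tr b : O) = b + star b

variable {O : Type*} [CommRing O] [StarRing O]

/-- Forget the prime. -/
def SplitPrime.toNT {p : ℕ} (D : SplitPrime O p) : NTData O :=
  ⟨D.nrm, D.nrm_eq, D.tr, D.tr_eq⟩

namespace NTData

variable (D : NTData O)

/-- `q X = |b|² - a d`. -/
def q (X : ℤ × O × ℤ) : ℤ := D.nrm X.2.1 - X.1 * X.2.2

/-- `A X A^*`. -/
def actM (A : Matrix (Fin 2) (Fin 2) O) (X : ℤ × O × ℤ) : ℤ × O × ℤ :=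
  (D.nrm (A 0 0) * X.1 + D.tr (A 0 0 * X.2.1 * star (A 0 1)) + D.nrm (A 0 1) * X.2.2,
    A 0 0 * (X.1 : O) * star (A 1 0) + A 0 0 * X.2.1 * star (A 1 1) +
      A 0 1 * star X.2.1 * star (A 1 0) + A 0 1 * (X.2.2 : O) * star (A 1 1),
    D.nrm (A 1 0) * X.1 + D.tr (A 1 0 * X.2.1 * star (A 1 1)) + D.nrm (A 1 1) * X.2.2)

lemma q_actM [CharZero O] (A : Matrix (Fin 2) (Fin 2) O) (X : ℤ × O × ℤ) :
    D.q (D.actM A X) = D.nrm A.det * D.q X := by
  have hinj : Function.Injective (Int.cast : ℤ → O) := Int.cast_injective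
  apply hinj
  simp only [q, actM]
  push_cast
  simp only [D.nrm_eq, D.tr_eq, Matrix.det_fin_two, star_add, star_mul', star_intCast, star_star,
    star_sub]
  ring

lemma nrm_one [CharZero O] : D.nrm 1 = 1 := by
  have hinj : Function.Injective (Int.cast : ℤ → O) := Int.cast_injective
  apply hinj
  rw [D.nrm_eq, star_one, mul_one, Int.cast_one]

lemma nrm_zero [CharZero O] : D.nrm 0 = 0 := by
  have hinj : Function.Injective (Int.cast : ℤ → O) := Int.cast_injective
  apply hinj
  rw [D.nrm_eq, zero_mul, Int.cast_zero]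

lemma nrm_natCast [CharZero O] (n : ℕ) : D.nrm (n : O) = (n : ℤ) ^ 2 := by
  have hinj : Function.Injective (Int.cast : ℤ → O) := Int.cast_injective
  apply hinj
  rw [D.nrm_eq, star_natCast]
  push_cast
  ring

variable {σ : O →+* ℂ}

lemma map_nrm (hσ : ∀ x, σ (star x) = conj (σ x)) (b : O) :
    ((D.nrm b : ℤ) : ℂ) = σ b * conj (σ b) := by
  rw [← hσ, ← map_mul, ← D.nrm_eq, map_intCast]

lemma map_tr (hσ : ∀ x, σ (star x) = conj (σ x)) (b : O) :
    ((D.tr b : ℤ) : ℂ) = σ b + conj (σ b) := by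
  rw [← hσ, ← map_add, ← D.tr_eq, map_intCast]

lemma mat_actM (hσ : ∀ x, σ (star x) = conj (σ x)) (A : Matrix (Fin 2) (Fin 2) O)
    (X : ℤ × O × ℤ) : mat σ (D.actM A X) = A.map σ * mat σ X * (A.map σ)ᴴ := by
  have hA : A.map σ = !![σ (A 0 0), σ (A 0 1); σ (A 1 0), σ (A 1 1)] := by
    ext i j
    fin_cases i <;> fin_cases j <;> rfl
  have hAH : (A.map σ)ᴴ = !![conj (σ (A 0 0)), conj (σ (A 1 0)); conj (σ (A 0 1)), conj (σ (A 1 1))] := by
    ext i j
    fin_cases i <;> fin_cases j <;> rfl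
  rw [hAH, hA, mat, mat, Matrix.mul_fin_two, Matrix.mul_fin_two]
  simp only [actM]
  push_cast
  simp only [D.map_nrm hσ, D.map_tr hσ, map_add, map_mul, hσ, map_intCast, conj_conj]
  ext i j
  fin_cases i <;> fin_cases j
  · simp
    ring
  · simp
    ring
  · simp
    ring
  · simp
    ring

lemma lin_actM (hσ : ∀ x, σ (star x) = conj (σ x)) (A : Matrix (Fin 2) (Fin 2) O)
    {g : GL (Fin 2) ℂ} (hg : (g : Matrix (Fin 2) (Fin 2) ℂ) = A.map σ) (X : ℤ × O × ℤ) (P : H3) :
    lin σ (D.actM A X) (g • P) = adet g * lin σ X P := by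
  rw [← bil_mat, ← bil_mat, D.mat_actM hσ, ← hg, bil_smul]

lemma actM_mul (hσ : ∀ x, σ (star x) = conj (σ x)) (hi : Function.Injective σ)
    (A B : Matrix (Fin 2) (Fin 2) O) (X : ℤ × O × ℤ) :
    D.actM (A * B) X = D.actM A (D.actM B X) := by
  apply mat_injective hi
  rw [D.mat_actM hσ, D.mat_actM hσ, D.mat_actM hσ, Matrix.map_mul, Matrix.conjTranspose_mul]
  simp only [Matrix.mul_assoc]

lemma actM_one (hσ : ∀ x, σ (star x) = conj (σ x)) (hi : Function.Injective σ)
    (X : ℤ × O × ℤ) : D.actM 1 X = X := by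
  apply mat_injective hi
  rw [D.mat_actM hσ]
  simp

/-- The bijection given by an invertible matrix. -/
def actEquiv (hσ : ∀ x, σ (star x) = conj (σ x)) (hi : Function.Injective σ)
    (A : GL (Fin 2) O) : (ℤ × O × ℤ) ≃ (ℤ × O × ℤ) where
  toFun := D.actM A
  invFun := D.actM ((A⁻¹ : GL (Fin 2) O) : Matrix (Fin 2) (Fin 2) O)
  left_inv X := by
    rw [← D.actM_mul hσ hi, ← Units.val_mul, inv_mul_cancel, Units.val_one, D.actM_one hσ hi]
  right_inv X := by
    rw [← D.actM_mul hσ hi, ← Units.val_mul, mul_inv_cancel, Units.val_one, D.actM_one hσ hi]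

lemma nrm_unit [CharZero O] (hσ : ∀ x, σ (star x) = conj (σ x)) (u : Oˣ) :
    D.nrm (u : O) = 1 := by
  have hinj : Function.Injective (Int.cast : ℤ → O) := Int.cast_injective
  have h1 : D.nrm (u : O) * D.nrm ((u⁻¹ : Oˣ) : O) = 1 := by
    apply hinj
    push_cast
    rw [D.nrm_eq, D.nrm_eq]
    calc _ = ((u : O) * ((u⁻¹ : Oˣ) : O)) * star ((u : O) * ((u⁻¹ : Oˣ) : O)) := by
          rw [star_mul']
          ring
      _ = 1 := by rw [Units.mul_inv, star_one, mul_one]
  have h2 : 0 ≤ D.nrm (u : O) := by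
    have h3 := D.map_nrm hσ (u : O)
    rw [mul_conj] at h3
    have h4 : ((D.nrm (u : O) : ℤ) : ℝ) = normSq (σ u) := by exact_mod_cast h3
    exact_mod_cast h4 ▸ normSq_nonneg _
  exact Int.eq_one_or_neg_one_of_mul_eq_one h1 |>.resolve_right (by omega)

include D in
lemma norm_unit [CharZero O] (hσ : ∀ x, σ (star x) = conj (σ x)) (u : Oˣ) : ‖σ (u : O)‖ = 1 := by
  have h3 := D.map_nrm hσ (u : O)
  rw [D.nrm_unit hσ, mul_conj] at h3
  have h4 : normSq (σ (u : O)) = 1 := by exact_mod_cast h3.symm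
  rw [Complex.norm_def, h4, Real.sqrt_one]

/-- The theta function. -/
def theta (σ : O →+* ℂ) (c : ℤ × O × ℤ → ℂ) (z : ℂ) (P : H3) : ℂ :=
  ∑' X, c X * kern (D.q X) (lin σ X P) z

include D in
lemma adet_map [CharZero O] (hσ : ∀ x, σ (star x) = conj (σ x)) (A : GL (Fin 2) O) :
    adet (Matrix.GeneralLinearGroup.map σ A) = 1 := by
  have h1 : adet (Matrix.GeneralLinearGroup.map σ A) =
      ‖σ ((Matrix.GeneralLinearGroup.det A : Oˣ) : O)‖ := by
    rw [adet]
    congr 1
    rw [Matrix.GeneralLinearGroup.val_det_apply, RingHom.map_det]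
    rfl
  rw [h1, D.norm_unit hσ]

/-- **Invariance of the theta function in `P`.** -/
theorem theta_smul [CharZero O] (hσ : ∀ x, σ (star x) = conj (σ x)) (hi : Function.Injective σ)
    (A : GL (Fin 2) O) {c : ℤ × O × ℤ → ℂ} (hc : ∀ X, c (D.actM A X) = c X) (z : ℂ) (P : H3) :
    D.theta σ c z (Matrix.GeneralLinearGroup.map σ A • P) = D.theta σ c z P := by
  rw [theta, ← (D.actEquiv hσ hi A).tsum_eq]
  refine tsum_congr fun X => ?_
  have h1 : D.actEquiv hσ hi A X = D.actM A X := rfl
  have h2 : (A : Matrix (Fin 2) (Fin 2) O).det = ((Matrix.GeneralLinearGroup.det A : Oˣ) : O) :=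
    rfl
  rw [h1, hc, D.q_actM, h2, D.nrm_unit hσ, one_mul, D.lin_actM hσ A rfl, D.adet_map hσ, one_mul]

end NTData

namespace SplitPrime

variable {p : ℕ} (D : SplitPrime O p) {ι : Type*} (t : ι → ℤ)

/-- The `p + 1` matrices. -/
def bet : Option ι → Matrix (Fin 2) (Fin 2) O
  | some i => !![D.π, (t i : O); 0, 1]
  | none => !![1, 0; 0, D.π]

/-- The `p + 1` matrices on the other side. -/
def alp : Option ι → Matrix (Fin 2) (Fin 2) O
  | some i => !![1, (t i : O); 0, D.π]
  | none => !![D.π, 0; 0, 1]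

lemma det_bet (i : Option ι) : (D.bet t i).det = D.π := by
  cases i <;> simp [bet]

lemma det_alp (i : Option ι) : (D.alp t i).det = D.π := by
  cases i <;> simp [alp]

lemma act_eq [CharZero O] (i : Option ι) (X : ℤ × O × ℤ) :
    D.act t i X = D.toNT.actM (D.bet t i) X := by
  have hinj : Function.Injective (Int.cast : ℤ → O) := Int.cast_injective
  cases i with
  | some i =>
    rw [act_some, NTData.actM]
    refine Prod.ext (hinj ?_) (Prod.ext ?_ (hinj ?_))
    · simp only [bet, toNT, Matrix.of_apply, Matrix.cons_val', Matrix.cons_val_zero,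
        Matrix.cons_val_one]
      push_cast
      simp only [D.nrm_eq, D.tr_eq, star_mul', star_intCast, star_star, D.mul_star]
      ring
    · simp [bet, toNT]
    · simp only [bet, toNT, Matrix.of_apply, Matrix.cons_val', Matrix.cons_val_zero,
        Matrix.cons_val_one]
      push_cast
      simp only [D.nrm_eq, D.tr_eq, star_mul', star_intCast, star_star, star_zero, star_one]
      ring
  | none =>
    rw [act_none, NTData.actM]
    refine Prod.ext (hinj ?_) (Prod.ext ?_ (hinj ?_))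
    · simp only [bet, toNT, Matrix.of_apply, Matrix.cons_val', Matrix.cons_val_zero,
        Matrix.cons_val_one]
      push_cast
      simp only [D.nrm_eq, D.tr_eq, star_mul', star_intCast, star_star, star_zero, star_one]
      ring
    · simp [bet, toNT]
    · simp only [bet, toNT, Matrix.of_apply, Matrix.cons_val', Matrix.cons_val_zero,
        Matrix.cons_val_one]
      push_cast
      simp only [D.nrm_eq, D.tr_eq, star_mul', star_intCast, star_star, star_zero, star_one,
        D.mul_star]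
      ring

lemma norm_π {σ : O →+* ℂ} (hσ : ∀ x, σ (star x) = conj (σ x)) : ‖σ D.π‖ = Real.sqrt p := by
  have h1 : σ D.π * conj (σ D.π) = p := by
    rw [← hσ, ← map_mul, D.mul_star, map_natCast]
  rw [Complex.mul_conj] at h1
  have h2 : normSq (σ D.π) = p := by exact_mod_cast h1
  rw [← h2, Complex.norm_def]

end SplitPrime

end Fermat.Agent.LT.Theta31
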