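import Mathlib

/-!
# One orbit of Hermitian matrices of determinant `det X₀` over the Eisenstein integers

`O = ℤ[ω]` (any model: a commutative ring with the structure `EisRing`), `s = 1 + 2ω = √-3`.
A Hermitian matrix `X = (a, b / s; conj (b / s), d)` with `a, d ∈ ℤ`, `b ∈ O`, is encoded by
`A = s · X · J⁻¹ = (b, -s a; s d, conj b)`.  `det X = -1/3` means `b * conj b = 1 + 3 a d`, i.e.
`A * conj A = 1`.  If `b ≡ 1 mod s` then `A = g * (conj g)⁻¹` with `g ∈ SL₂(O)`, i.e.
`X = g X₀ g^*` with `X₀ = s⁻¹ J`.  If `A ≡ 1 mod n s`, then `g` can be taken `≡ 1 mod n`.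
-/

namespace Fermat.Agent.LT.Orbit

/-- A model of the ring of Eisenstein integers. -/
structure EisRing (O : Type*) [CommRing O] where
  /-- the cube root of unity -/
  ω : O
  /-- complex conjugation -/
  conj : O →+* O
  hω : ω ^ 2 + ω + 1 = 0
  conj_ω : conj ω = -1 - ω
  repr : ∀ z : O, ∃ x y : ℤ, z = x + y * ω
  indep : ∀ x y : ℤ, (x : O) + y * ω = 0 → x = 0 ∧ y = 0

namespace EisRing

variable {O : Type*} [CommRing O] (E : EisRing O)

/-- `√-3` -/
def s : O := 1 + 2 * E.ω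

lemma s_def : E.s = 1 + 2 * E.ω := rfl

lemma s_sq : E.s * E.s = -3 := by
  rw [s_def]; linear_combination 4 * E.hω

lemma conj_s : E.conj E.s = -E.s := by
  simp only [s_def, map_add, map_one, map_mul, map_ofNat, E.conj_ω]; ring

lemma conj_conj (z : O) : E.conj (E.conj z) = z := by
  obtain ⟨x, y, rfl⟩ := E.repr z
  simp only [map_add, map_mul, map_intCast, E.conj_ω, map_sub, map_neg, map_one]; ring

include E in
lemma int_inj {m n : ℤ} (h : (m : O) = n) : m = n := by
  have := (E.indep (m - n) 0 (by push_cast; rw [h]; ring)).1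
  omega

lemma norm_coord (x y : ℤ) :
    ((x : O) + y * E.ω) * E.conj ((x : O) + y * E.ω) = ((x ^ 2 - x * y + y ^ 2 : ℤ) : O) := by
  simp only [map_add, map_mul, map_intCast, E.conj_ω]
  push_cast
  linear_combination (-(y : O) ^ 2) * E.hω

/-- `z - conj z = (im z) s` -/
lemma sub_conj (x y : ℤ) :
    ((x : O) + y * E.ω) - E.conj ((x : O) + y * E.ω) = (y : O) * E.s := by
  simp only [map_add, map_mul, map_intCast, E.conj_ω, s_def]
  ring

/-- The relation `A * conj g = g`, `g ∈ SL₂(O)` for `A = (b, -s a; s d, conj b)`. -/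
def P (a : ℤ) (b : O) (d : ℤ) : Prop :=
  ∃ p q r t : O, p * t - q * r = 1 ∧
    b * E.conj p - E.s * a * E.conj r = p ∧
    b * E.conj q - E.s * a * E.conj t = q ∧
    E.s * d * E.conj p + E.conj b * E.conj r = r ∧
    E.s * d * E.conj q + E.conj b * E.conj t = t

lemma P_swap {a : ℤ} {b : O} {d : ℤ} (h : E.P d (E.conj b) a) : E.P a b d := by
  obtain ⟨p, q, r, t, h1, h2, h3, h4, h5⟩ := h
  rw [E.conj_conj] at h4 h5
  refine ⟨-r, -t, p, q, ?_, ?_, ?_, ?_, ?_⟩
  · linear_combination h1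
  · rw [map_neg]; linear_combination -h4
  · rw [map_neg]; linear_combination -h5
  · rw [map_neg]; linear_combination h2
  · rw [map_neg]; linear_combination h3

lemma P_trans {a a1 : ℤ} {b b1 : O} {d : ℤ} (β : O) (hb : b1 = b + E.s * d * β)
    (ha : E.s * a1 = E.s * a + E.s * (β * E.conj β) * d + (E.conj β * b - β * E.conj b))
    (h : E.P a1 b1 d) : E.P a b d := by
  obtain ⟨p, q, r, t, h1, h2, h3, h4, h5⟩ := h
  have hcb : E.conj b1 = E.conj b - E.s * d * E.conj β := by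
    rw [hb]; simp only [map_add, map_mul, E.conj_s, map_intCast]; ring
  rw [hcb] at h4 h5
  rw [hb] at h2 h3
  refine ⟨p - β * r, q - β * t, r, t, ?_, ?_, ?_, ?_, ?_⟩
  · linear_combination h1
  · rw [map_sub, map_mul]
    linear_combination h2 - β * h4 + (E.conj r) * ha
  · rw [map_sub, map_mul]
    linear_combination h3 - β * h5 + (E.conj t) * ha
  · rw [map_sub, map_mul]
    linear_combination h4
  · rw [map_sub, map_mul]
    linear_combination h5

lemma P_zero {a : ℤ} {b : O} (hb3 : b ^ 3 = 1) (hbb : b * E.conj b = 1) : E.P a b 0 := by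
  have hc : E.conj b = b ^ 2 := by
    have : E.conj b = b ^ 3 * E.conj b := by rw [hb3, one_mul]
    rw [this]
    linear_combination b ^ 2 * hbb
  have hc2 : E.conj (b ^ 2) = b := by
    rw [map_pow, hc]
    linear_combination b * hb3
  refine ⟨b ^ 2, -a * E.ω * b ^ 2, 0, b, ?_, ?_, ?_, ?_, ?_⟩
  · linear_combination hb3
  · rw [hc2, map_zero]; ring
  · simp only [map_mul, map_neg, map_intCast, E.conj_ω]
    rw [hc2, hc, s_def]
    ring
  · rw [hc2, map_zero]; push_cast; ring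
  · rw [hc]; push_cast
    linear_combination b * hb3

/-- units congruent to one modulo `s` -/
lemma cube_of_norm_one {b : O} (hbb : b * E.conj b = 1) (hs : E.s ∣ b - 1) : b ^ 3 = 1 := by
  obtain ⟨x, y, rfl⟩ := E.repr b
  rw [E.norm_coord] at hbb
  have hn : x ^ 2 - x * y + y ^ 2 = 1 := E.int_inj (by rw [hbb]; simp)
  obtain ⟨z, hz⟩ := hs
  obtain ⟨u, v, rfl⟩ := E.repr z
  -- `s (u + v ω) = (u - 2 v) + (2 u - v) ω`
  have h0 : ((x - 1 - (u - 2 * v) : ℤ) : O) + ((y - (2 * u - v) : ℤ) : O) * E.ω = 0 := by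
    push_cast
    rw [s_def] at hz
    linear_combination hz + 2 * (v : O) * E.hω
  obtain ⟨h1, h2⟩ := E.indep _ _ h0
  have hxy : x + y = 1 + 3 * (u - v) := by omega
  have hy1 : y ≤ 1 := by nlinarith [sq_nonneg (2 * x - y)]
  have hy2 : -1 ≤ y := by nlinarith [sq_nonneg (2 * x - y)]
  have hx1 : x ≤ 1 := by nlinarith [sq_nonneg (2 * y - x)]
  have hx2 : -1 ≤ x := by nlinarith [sq_nonneg (2 * y - x)]
  have hω3 : E.ω ^ 3 = 1 := by linear_combination (E.ω - 1) * E.hω
  have hcases : (x = 1 ∧ y = 0) ∨ (x = 0 ∧ y = 1) ∨ (x = -1 ∧ y = -1) := by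
    interval_cases x <;> interval_cases y <;> omega
  rcases hcases with ⟨rfl, rfl⟩ | ⟨rfl, rfl⟩ | ⟨rfl, rfl⟩
  · push_cast; ring
  · push_cast
    linear_combination hω3
  · push_cast
    linear_combination (-(E.ω + 2)) * E.hω

lemma exists_round (n m : ℤ) (hm : m ≠ 0) : ∃ r : ℤ, 2 * |n - m * r| ≤ |m| := by
  refine ⟨round ((n : ℚ) / m), ?_⟩
  have h := abs_sub_round ((n : ℚ) / m)
  have hm' : (0 : ℚ) < |(m : ℚ)| := by positivity
  have h2 : |(n : ℚ) - m * round ((n : ℚ) / m)| = |(m : ℚ)| * |(n : ℚ) / m - round ((n : ℚ) / m)| := by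
    rw [← abs_mul]
    congr 1
    field_simp
  have h3 : 2 * |(n : ℚ) - m * round ((n : ℚ) / m)| ≤ |(m : ℚ)| := by
    rw [h2]; nlinarith
  exact_mod_cast h3

/-- reduction step: `b` can be translated by a multiple of `s d` to have small norm -/
lemma exists_small (x y d : ℤ) (hd : d ≠ 0) : ∃ β1 β2 x1 y1 : ℤ,
    (x1 : O) + y1 * E.ω = (x + y * E.ω) + E.s * d * (β1 + β2 * E.ω) ∧
    4 * (x1 ^ 2 - x1 * y1 + y1 ^ 2) ≤ 9 * d ^ 2 := by
  have h3d : (3 * d) ≠ 0 := by omega
  obtain ⟨r1, hr1⟩ := exists_round (x - 2 * y) (3 * d) h3d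
  obtain ⟨r2, hr2⟩ := exists_round (2 * x - y) (3 * d) h3d
  -- `s * (b + s d β) = s b - 3 d β`
  refine ⟨r1, r2, x + d * (r1 - 2 * r2), y + d * (2 * r1 - r2), ?_, ?_⟩
  · push_cast
    rw [s_def]
    linear_combination (-2 * (d : O) * r2) * E.hω
  · set u := x - 2 * y - 3 * d * r1 with hu
    set v := 2 * x - y - 3 * d * r2 with hv
    have hN : 3 * ((x + d * (r1 - 2 * r2)) ^ 2 -
        (x + d * (r1 - 2 * r2)) * (y + d * (2 * r1 - r2)) + (y + d * (2 * r1 - r2)) ^ 2)
        = u ^ 2 - u * v + v ^ 2 := by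
      rw [hu, hv]; ring
    have h9 : |3 * d| ^ 2 = 9 * d ^ 2 := by rw [sq_abs]; ring
    have hu2 : 4 * |u| ^ 2 ≤ 9 * d ^ 2 := by
      rw [← h9]; nlinarith [abs_nonneg u, abs_nonneg (3 * d)]
    have hv2 : 4 * |v| ^ 2 ≤ 9 * d ^ 2 := by
      rw [← h9]; nlinarith [abs_nonneg v, abs_nonneg (3 * d)]
    rw [sq_abs] at hu2 hv2
    nlinarith [sq_nonneg (u + v)]

/-- **Single orbit**, coordinates. -/
theorem orbit_aux (n : ℕ) : ∀ (a d : ℤ) (b : O), d.natAbs ≤ n →
    b * E.conj b = 1 + 3 * a * d → E.s ∣ b - 1 → E.P a b d := by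
  induction n with
  | zero =>
    intro a d b hd hN hs
    have hd0 : d = 0 := by omega
    subst hd0
    have hbb : b * E.conj b = 1 := by rw [hN]; push_cast; ring
    exact E.P_zero (E.cube_of_norm_one hbb hs) hbb
  | succ n ih =>
    intro a d b hd hN hs
    by_cases hd0 : d = 0
    · subst hd0
      have hbb : b * E.conj b = 1 := by rw [hN]; push_cast; ring
      exact E.P_zero (E.cube_of_norm_one hbb hs) hbb
    obtain ⟨x, y, hxy⟩ := E.repr b
    obtain ⟨β1, β2, x1, y1, hb1, hsmall⟩ := E.exists_small x y d hd0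
    rw [← hxy] at hb1
    set β : O := (β1 : O) + β2 * E.ω with hβ
    set b1 : O := (x1 : O) + y1 * E.ω with hb1'
    -- the new `a`
    obtain ⟨z1, z2, hz⟩ := E.repr (E.conj β * b)
    set a1 : ℤ := a + (β1 ^ 2 - β1 * β2 + β2 ^ 2) * d + z2 with ha1
    have hβN : β * E.conj β = ((β1 ^ 2 - β1 * β2 + β2 ^ 2 : ℤ) : O) := E.norm_coord β1 β2
    have hcz : E.conj β * b - β * E.conj b = (z2 : O) * E.s := by
      have h := E.sub_conj z1 z2
      rw [← hz, map_mul, E.conj_conj] at h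
      exact h
    have hsa : E.s * a1 = E.s * a + E.s * (β * E.conj β) * d + (E.conj β * b - β * E.conj b) := by
      rw [hcz, hβN, ha1]; push_cast; ring
    refine E.P_trans β hb1 hsa (E.P_swap ?_)
    have hcb : E.conj b1 = E.conj b - E.s * d * E.conj β := by
      rw [hb1]; simp only [map_add, map_mul, E.conj_s, map_intCast]; ring
    -- norm equation for `b1`
    have hN1 : b1 * E.conj b1 = 1 + 3 * a1 * d := by
      have e1 : (3 : O) * (a1 : O) = 3 * a + 3 * (β * E.conj β) * d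
          - E.s * (E.conj β * b - β * E.conj b) := by
        linear_combination (-E.s) * hsa + (a1 - a - β * E.conj β * d) * E.s_sq
      rw [hcb, hb1]
      linear_combination hN + (-(d : O) ^ 2 * (β * E.conj β)) * E.s_sq - (d : O) * e1
    have hNint : x1 ^ 2 - x1 * y1 + y1 ^ 2 = 1 + 3 * a1 * d := by
      apply E.int_inj
      rw [← E.norm_coord, ← hb1', hN1]
      push_cast; ring
    have hnn : 0 ≤ x1 ^ 2 - x1 * y1 + y1 ^ 2 := by nlinarith [sq_nonneg (2 * x1 - y1), sq_nonneg y1]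
    have hda : a1.natAbs ≤ n := by
      have h1 : |a1| < |d| := by
        have hd1 : 1 ≤ |d| := Int.one_le_abs hd0
        by_contra hcon
        push Not at hcon
        have h2 : |a1 * d| = |a1| * |d| := abs_mul _ _
        have h3 : |d| * |d| = d ^ 2 := by rw [← sq, sq_abs]
        have h4 : d ^ 2 ≤ |a1 * d| := by rw [h2, ← h3]; nlinarith
        rcases le_or_gt 0 (a1 * d) with h5 | h5
        · rw [abs_of_nonneg h5] at h4
          nlinarith
        · rw [abs_of_neg h5] at h4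
          nlinarith
      have h6 := Int.natCast_natAbs a1
      have h7 := Int.natCast_natAbs d
      omega
    refine ih d a1 (E.conj b1) hda ?_ ?_
    · rw [E.conj_conj]; linear_combination hN1
    · obtain ⟨t, ht⟩ := hs
      refine ⟨-(E.conj t) - d * E.conj β, ?_⟩
      rw [hcb]
      have : E.conj b = 1 - E.s * E.conj t := by
        have hb : b = 1 + E.s * t := by linear_combination ht
        rw [hb]; simp only [map_add, map_one, map_mul, E.conj_s]; ring
      rw [this]; ring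

/-- **Single orbit**: every Hermitian `X` with `a, d ∈ ℤ`, `b ∈ s⁻¹ O`, `det X = det X₀`,
`s b ≡ 1 mod s` is `g X₀ g^*` with `g ∈ SL₂(O)`. -/
theorem orbit {a d : ℤ} {b : O} (hN : b * E.conj b = 1 + 3 * a * d) (hs : E.s ∣ b - 1) :
    E.P a b d :=
  E.orbit_aux d.natAbs a d b le_rfl hN hs

include E in
lemma three_ne {z : O} (h : 3 * z = 0) : z = 0 := by
  obtain ⟨x, y, rfl⟩ := E.repr z
  have := E.indep (3 * x) (3 * y) (by push_cast; linear_combination h)
  have h1 : x = 0 := by omega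
  have h2 : y = 0 := by omega
  rw [h1, h2]; simp

lemma s_cancel {z w : O} (h : E.s * z = E.s * w) : z = w := by
  have h3 : 3 * (z - w) = 0 := by linear_combination (-E.s) * h + (z - w) * E.s_sq
  exact sub_eq_zero.mp (E.three_ne h3)

lemma int_dvd {n : ℤ} {x y : ℤ} (h : (n : O) ∣ (x : O) + y * E.ω) : n ∣ x ∧ n ∣ y := by
  obtain ⟨z, hz⟩ := h
  obtain ⟨u, v, rfl⟩ := E.repr z
  have := E.indep (x - n * u) (y - n * v) (by push_cast; linear_combination hz)
  exact ⟨⟨u, by omega⟩, ⟨v, by omega⟩⟩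

/-- if `z - conj z ∈ n s O`, then `z ∈ ℤ + n O` -/
lemma exists_int_of_dvd {n : ℤ} {z : O} (h : (n : O) * E.s ∣ z - E.conj z) :
    ∃ x : ℤ, (n : O) ∣ z - x := by
  obtain ⟨x, y, rfl⟩ := E.repr z
  rw [E.sub_conj] at h
  obtain ⟨w, hw⟩ := h
  have h1 : (y : O) = n * w := E.s_cancel (by linear_combination hw)
  refine ⟨x, ⟨w * E.ω, ?_⟩⟩
  rw [h1]; ring

end EisRing

/-! ### Lifting from `SL₂(ℤ / n)` to `SL₂(ℤ)` -/

lemma exists_isCoprime_add {c d n : ℤ} (hc : c ≠ 0)
    (h : ∀ p : ℕ, p.Prime → (p : ℤ) ∣ c → (p : ℤ) ∣ d → ¬ (p : ℤ) ∣ n) :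
    ∃ t : ℤ, IsCoprime c (d + t * n) := by
  classical
  set S : Finset ℕ := c.natAbs.primeFactors.filter (fun p => ¬ (p : ℤ) ∣ d) with hS
  refine ⟨((∏ p ∈ S, p : ℕ) : ℤ), ?_⟩
  rw [Int.isCoprime_iff_gcd_eq_one]
  by_contra hcon
  obtain ⟨p, hp, hpd⟩ := Nat.exists_prime_and_dvd hcon
  have hpc : (p : ℤ) ∣ c := (Int.natCast_dvd_natCast.mpr hpd).trans (Int.gcd_dvd_left _ _)
  have hps : (p : ℤ) ∣ d + ((∏ p ∈ S, p : ℕ) : ℤ) * n :=
    (Int.natCast_dvd_natCast.mpr hpd).trans (Int.gcd_dvd_right _ _)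
  by_cases hd : (p : ℤ) ∣ d
  · have h1 : (p : ℤ) ∣ ((∏ p ∈ S, p : ℕ) : ℤ) * n := (dvd_add_right hd).mp hps
    rcases (Nat.prime_iff_prime_int.mp hp).dvd_or_dvd h1 with h2 | h2
    · have h3 : p ∣ ∏ p ∈ S, p := Int.natCast_dvd_natCast.mp h2
      obtain ⟨q, hq, hpq⟩ := (Nat.Prime.prime hp).exists_mem_finset_dvd h3
      rw [hS, Finset.mem_filter] at hq
      have hqp : q.Prime := Nat.prime_of_mem_primeFactors hq.1
      have : p = q := (Nat.prime_dvd_prime_iff_eq hp hqp).mp hpq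
      exact hq.2 (this ▸ hd)
    · exact h p hp hpc hd h2
  · have hmem : p ∈ S := by
      rw [hS, Finset.mem_filter]
      refine ⟨?_, hd⟩
      rw [Nat.mem_primeFactors]
      exact ⟨hp, Int.natCast_dvd.mp hpc, by omega⟩
    have h1 : (p : ℤ) ∣ ((∏ p ∈ S, p : ℕ) : ℤ) :=
      Int.natCast_dvd_natCast.mpr (Finset.dvd_prod_of_mem _ hmem)
    exact hd ((dvd_add_left (h1.mul_right n)).mp hps)

/-- `SL₂(ℤ) → SL₂(ℤ / n)` is surjective. -/
theorem exists_lift_SL2 {n : ℤ} (hn : n ≠ 0) {a b c d : ℤ} (h : n ∣ a * d - b * c - 1) :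
    ∃ a' b' c' d' : ℤ, a' * d' - b' * c' = 1 ∧ n ∣ a' - a ∧ n ∣ b' - b ∧ n ∣ c' - c ∧
      n ∣ d' - d := by
  obtain ⟨c1, hc1, hcn⟩ : ∃ c1 : ℤ, c1 ≠ 0 ∧ n ∣ c1 - c := by
    by_cases hc : c = 0
    · exact ⟨n, hn, by rw [hc]; simp⟩
    · exact ⟨c, hc, by simp⟩
  obtain ⟨t, u, v, huv⟩ := exists_isCoprime_add (c := c1) (d := d) (n := n) hc1 (by
    intro p hp h1 h2 h3
    have h4 : (p : ℤ) ∣ c := by
      have := h1.sub (h3.trans hcn)
      rwa [sub_sub_cancel] at this
    have h5 : (p : ℤ) ∣ 1 := by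
      have := ((h2.mul_left a).sub (h4.mul_left b)).sub (h3.trans h)
      rwa [sub_sub_cancel] at this
    exact hp.one_lt.ne' (by exact_mod_cast Int.eq_one_of_dvd_one (by positivity) h5))
  obtain ⟨k, hk⟩ : n ∣ a * (d + t * n) - b * c1 - 1 := by
    obtain ⟨x, hx⟩ := h
    obtain ⟨y, hy⟩ := hcn
    exact ⟨x + a * t - b * y, by linear_combination hx - b * hy⟩
  refine ⟨a - n * k * v, b + n * k * u, c1, d + t * n, ?_, ⟨-k * v, by ring⟩, ⟨k * u, by ring⟩,
    hcn, ⟨t, by ring⟩⟩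
  linear_combination hk - n * k * huv

namespace EisRing

variable {O : Type*} [CommRing O] (E : EisRing O)

/-- **Single orbit with level**: if moreover `X ≡ X₀ mod n M₂(O)`, the element `g ∈ SL₂(O)` with
`X = g X₀ g^*` can be taken `≡ 1 mod n`. -/
theorem orbit_level {n : ℤ} (hn : n ≠ 0) {a d : ℤ} {b : O}
    (hN : b * E.conj b = 1 + 3 * a * d) (hb : (n : O) * E.s ∣ b - 1) (ha : n ∣ a) (hd : n ∣ d) :
    ∃ p q r t : O, p * t - q * r = 1 ∧
      b * E.conj p - E.s * a * E.conj r = p ∧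
      b * E.conj q - E.s * a * E.conj t = q ∧
      E.s * d * E.conj p + E.conj b * E.conj r = r ∧
      E.s * d * E.conj q + E.conj b * E.conj t = t ∧
      (n : O) ∣ p - 1 ∧ (n : O) ∣ q ∧ (n : O) ∣ r ∧ (n : O) ∣ t - 1 := by
  obtain ⟨p, q, r, t, h1, h2, h3, h4, h5⟩ := E.orbit hN ((Dvd.intro_left _ rfl).trans hb)
  obtain ⟨b', hb'⟩ := hb
  obtain ⟨a', ha'⟩ := ha
  obtain ⟨d', hd'⟩ := hd
  have hb1 : b = 1 + n * E.s * b' := by linear_combination hb'
  have hcb : E.conj b = 1 - n * E.s * E.conj b' := by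
    rw [hb1]; simp only [map_add, map_mul, map_one, map_intCast, E.conj_s]; ring
  obtain ⟨p', x, hx⟩ := E.exists_int_of_dvd (n := n) (z := p)
    ⟨b' * E.conj p - a' * E.conj r, by
      rw [ha', hb1] at h2; push_cast at h2; linear_combination -h2⟩
  obtain ⟨q', y, hy⟩ := E.exists_int_of_dvd (n := n) (z := q)
    ⟨b' * E.conj q - a' * E.conj t, by
      rw [ha', hb1] at h3; push_cast at h3; linear_combination -h3⟩
  obtain ⟨r', z, hz⟩ := E.exists_int_of_dvd (n := n) (z := r)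
    ⟨d' * E.conj p - E.conj b' * E.conj r, by
      rw [hd', hcb] at h4; push_cast at h4; linear_combination -h4⟩
  obtain ⟨t', w, hw⟩ := E.exists_int_of_dvd (n := n) (z := t)
    ⟨d' * E.conj q - E.conj b' * E.conj t, by
      rw [hd', hcb] at h5; push_cast at h5; linear_combination -h5⟩
  have hdet : n ∣ p' * t' - q' * r' - 1 := by
    refine (E.int_dvd (n := n) (x := p' * t' - q' * r' - 1) (y := 0)
      ⟨y * (r' : O) + q * z - x * (t' : O) - p * w, ?_⟩).1
    push_cast
    linear_combination h1 + (-(t' : O)) * hx + (r' : O) * hy - p * hw + q * hz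
  obtain ⟨γ1, γ2, γ3, γ4, hγ, ⟨k1, hk1⟩, ⟨k2, hk2⟩, ⟨k3, hk3⟩, ⟨k4, hk4⟩⟩ :=
    exists_lift_SL2 hn hdet
  have hγO : (γ1 : O) * γ4 - γ2 * γ3 = 1 := by exact_mod_cast congrArg (Int.cast (R := O)) hγ
  have g1 : (γ1 : O) = p - n * x + n * k1 := by
    have : (γ1 : O) - p' = n * k1 := by exact_mod_cast congrArg (Int.cast (R := O)) hk1
    linear_combination this - hx
  have g2 : (γ2 : O) = q - n * y + n * k2 := by
    have : (γ2 : O) - q' = n * k2 := by exact_mod_cast congrArg (Int.cast (R := O)) hk2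
    linear_combination this - hy
  have g3 : (γ3 : O) = r - n * z + n * k3 := by
    have : (γ3 : O) - r' = n * k3 := by exact_mod_cast congrArg (Int.cast (R := O)) hk3
    linear_combination this - hz
  have g4 : (γ4 : O) = t - n * w + n * k4 := by
    have : (γ4 : O) - t' = n * k4 := by exact_mod_cast congrArg (Int.cast (R := O)) hk4
    linear_combination this - hw
  refine ⟨p * γ4 - q * γ3, -p * γ2 + q * γ1, r * γ4 - t * γ3, -r * γ2 + t * γ1,
    ?_, ?_, ?_, ?_, ?_, ?_, ?_, ?_, ?_⟩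
  · linear_combination h1 * (γ1 * γ4 - γ2 * γ3) + hγO
  · simp only [map_sub, map_mul, map_intCast]
    linear_combination (γ4 : O) * h2 - (γ3 : O) * h3
  · simp only [map_add, map_neg, map_mul, map_intCast]
    linear_combination -(γ2 : O) * h2 + (γ1 : O) * h3
  · simp only [map_sub, map_mul, map_intCast]
    linear_combination (γ4 : O) * h4 - (γ3 : O) * h5
  · simp only [map_add, map_neg, map_mul, map_intCast]
    linear_combination -(γ2 : O) * h4 + (γ1 : O) * h5
  · refine ⟨p * (k4 - w) - q * (k3 - z), ?_⟩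
    rw [g3, g4]; linear_combination h1
  · refine ⟨-p * (k2 - y) + q * (k1 - x), ?_⟩
    rw [g1, g2]; ring
  · refine ⟨r * (k4 - w) - t * (k3 - z), ?_⟩
    rw [g3, g4]; ring
  · refine ⟨-r * (k2 - y) + t * (k1 - x), ?_⟩
    rw [g1, g2]; linear_combination h1

/-- converse: `g X₀ g^* ≡ X₀` for `g ≡ 1 mod n` (in the encoding `A = g (conj g)⁻¹`). -/
theorem level_of_cong {n : ℤ} {p q r t : O} (h1 : p * t - q * r = 1)
    (hr : (n : O) ∣ r) (ht : (n : O) ∣ t - 1) :
    (n : O) * E.s ∣ (p * E.conj t - q * E.conj r) - 1 := by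
  have key : ∀ z : O, (∃ m : ℤ, (n : O) ∣ z - m) → (n : O) * E.s ∣ z - E.conj z := by
    rintro z ⟨m, w, hw⟩
    obtain ⟨u, v, rfl⟩ := E.repr w
    have hz : z = m + n * (u + v * E.ω) := by linear_combination hw
    refine ⟨v, ?_⟩
    rw [hz, s_def]
    simp only [map_add, map_mul, map_intCast, E.conj_ω]
    ring
  obtain ⟨x, hx⟩ := key t ⟨1, by simpa using ht⟩
  obtain ⟨y, hy⟩ := key r ⟨0, by simpa using hr⟩
  exact ⟨-p * x + q * y, by linear_combination h1 - p * hx + q * hy⟩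

/-! ### Diagonal level: `X ∈ Λ_M` -/

lemma exists_norm (z : O) : ∃ m : ℤ, z * E.conj z = m := by
  obtain ⟨x, y, rfl⟩ := E.repr z
  exact ⟨_, E.norm_coord x y⟩

/-- right multiplication by `SL₂(ℤ)` preserves the relation `A conj g = g` -/
lemma P_mul_int {a : ℤ} {b : O} {d : ℤ} {p q r t : O} (h1 : p * t - q * r = 1)
    (h2 : b * E.conj p - E.s * a * E.conj r = p)
    (h3 : b * E.conj q - E.s * a * E.conj t = q)
    (h4 : E.s * d * E.conj p + E.conj b * E.conj r = r)
    (h5 : E.s * d * E.conj q + E.conj b * E.conj t = t)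
    {x y z w : ℤ} (hx : x * w - y * z = 1) :
    (p * x + q * z) * (r * y + t * w) - (p * y + q * w) * (r * x + t * z) = 1 ∧
      b * E.conj (p * x + q * z) - E.s * a * E.conj (r * x + t * z) = (p * x + q * z) ∧
      b * E.conj (p * y + q * w) - E.s * a * E.conj (r * y + t * w) = (p * y + q * w) ∧
      E.s * d * E.conj (p * x + q * z) + E.conj b * E.conj (r * x + t * z) = (r * x + t * z) ∧
      E.s * d * E.conj (p * y + q * w) + E.conj b * E.conj (r * y + t * w) = (r * y + t * w) := by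
  have hxO : (x : O) * w - y * z = 1 := by exact_mod_cast congrArg (Int.cast (R := O)) hx
  simp only [map_add, map_mul, map_intCast]
  refine ⟨?_, ?_, ?_, ?_, ?_⟩
  · linear_combination (x * w - y * z : O) * h1 + hxO
  · linear_combination (x : O) * h2 + (z : O) * h3
  · linear_combination (y : O) * h2 + (w : O) * h3
  · linear_combination (x : O) * h4 + (z : O) * h5
  · linear_combination (y : O) * h4 + (w : O) * h5

/-- if `p * t - q * r = 1` and `p * conj q ≡ conj p * q mod s M`, some `p + v q`, `v ∈ ℤ`, is a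
unit modulo `M`. -/
lemma exists_unit_comb {M : ℤ} (hM : M ≠ 0) {p q r t : O} (h1 : p * t - q * r = 1)
    {m np nq : ℤ} (hm : (M : O) ∣ p * E.conj q - m) (hp : p * E.conj p = np)
    (hq : q * E.conj q = nq) :
    ∃ v : ℤ, IsCoprime (np + 2 * v * m + v ^ 2 * nq) M := by
  classical
  set S : Finset ℕ := M.natAbs.primeFactors.filter (fun l => ¬ (l : ℤ) ∣ np) with hS
  set v : ℤ := ((∏ p ∈ S, p : ℕ) : ℤ) with hv
  refine ⟨v, ?_⟩
  rw [Int.isCoprime_iff_gcd_eq_one]
  by_contra hcon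
  obtain ⟨l, hl, hld⟩ := Nat.exists_prime_and_dvd hcon
  have hlM : (l : ℤ) ∣ M := (Int.natCast_dvd_natCast.mpr hld).trans (Int.gcd_dvd_right _ _)
  have hlN : (l : ℤ) ∣ np + 2 * v * m + v ^ 2 * nq :=
    (Int.natCast_dvd_natCast.mpr hld).trans (Int.gcd_dvd_left _ _)
  have hlp : Prime (l : ℤ) := Nat.prime_iff_prime_int.mp hl
  -- `m ^ 2 ≡ np * nq`
  obtain ⟨M', hM'⟩ := hlM
  obtain ⟨x, hx⟩ := hm
  have hx' : p * E.conj q = m + l * (M' * x) := by
    rw [hM'] at hx; push_cast at hx; linear_combination hx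
  have hxc : q * E.conj p = m + l * (M' * E.conj x) := by
    have := congrArg E.conj hx'
    simp only [map_add, map_mul, map_intCast, map_natCast, E.conj_conj] at this
    linear_combination this
  have hdvdO : ∀ z : ℤ, ((l : ℤ) : O) ∣ (z : O) → (l : ℤ) ∣ z := by
    intro z hz
    exact (E.int_dvd (n := (l : ℤ)) (x := z) (y := 0) (by simpa using hz)).1
  have hm2 : (l : ℤ) ∣ m ^ 2 - np * nq := by
    apply hdvdO
    refine ⟨-(m * (M' * E.conj x) + m * (M' * x) + l * (M' * x) * (M' * E.conj x)), ?_⟩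
    push_cast
    rw [← hp, ← hq]
    linear_combination (-(q * E.conj p)) * hx' - (m + l * (M' * x)) * hxc
  by_cases hd : (l : ℤ) ∣ np
  · have hlm : (l : ℤ) ∣ m := by
      have : (l : ℤ) ∣ m ^ 2 := by
        have := dvd_add hm2 (hd.mul_right nq)
        rwa [sub_add_cancel] at this
      exact hlp.dvd_of_dvd_pow this
    have h3 : (l : ℤ) ∣ v ^ 2 * nq := by
      have h4 : (l : ℤ) ∣ np + 2 * v * m := dvd_add hd (hlm.mul_left _)
      exact (dvd_add_right h4).mp hlN
    rcases hlp.dvd_or_dvd h3 with h4 | h4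
    · have h5 : l ∣ ∏ p ∈ S, p := Int.natCast_dvd_natCast.mp (hlp.dvd_of_dvd_pow h4)
      obtain ⟨k, hk, hlk⟩ := (Nat.Prime.prime hl).exists_mem_finset_dvd h5
      rw [hS, Finset.mem_filter] at hk
      have hkp : k.Prime := Nat.prime_of_mem_primeFactors hk.1
      have : l = k := (Nat.prime_dvd_prime_iff_eq hl hkp).mp hlk
      exact hk.2 (this ▸ hd)
    · -- everything divisible by `l`: contradiction with `det = 1`
      obtain ⟨m', hm'⟩ := hlm
      obtain ⟨np', hnp⟩ := hd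
      obtain ⟨nq', hnq⟩ := h4
      obtain ⟨nt, hnt⟩ := E.exists_norm t
      obtain ⟨nr, hnr⟩ := E.exists_norm r
      have hone : ((l : ℤ) : O) ∣ ((1 : ℤ) : O) := by
        have hc1 : E.conj p * E.conj t - E.conj q * E.conj r = 1 := by
          have := congrArg E.conj h1
          simpa only [map_sub, map_mul, map_one] using this
        have hprod : (1 : O) = (p * E.conj p) * (t * E.conj t) + (q * E.conj q) * (r * E.conj r)
            - (p * E.conj q) * (t * E.conj r) - (q * E.conj p) * (r * E.conj t) := by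
          linear_combination (-(E.conj p * E.conj t - E.conj q * E.conj r)) * h1 - hc1
        refine ⟨np' * (t * E.conj t) + nq' * (r * E.conj r) - (m' + M' * x) * (t * E.conj r)
          - (m' + M' * E.conj x) * (r * E.conj t), ?_⟩
        push_cast
        rw [hprod, hx', hxc, hp, hq, hm', hnp, hnq]
        push_cast
        ring
      have := hdvdO 1 hone
      exact hlp.not_isUnit (isUnit_of_dvd_one this)
  · have hmem : l ∈ S := by
      rw [hS, Finset.mem_filter]
      refine ⟨?_, hd⟩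
      rw [Nat.mem_primeFactors]
      exact ⟨hl, Int.natCast_dvd.mp ⟨M', hM'⟩, by omega⟩
    have h4 : (l : ℤ) ∣ v := Int.natCast_dvd_natCast.mpr (Finset.dvd_prod_of_mem _ hmem)
    have h5 : (l : ℤ) ∣ 2 * v * m + v ^ 2 * nq :=
      dvd_add ((h4.mul_left 2).mul_right m) ((dvd_pow h4 two_ne_zero).mul_right nq)
    have h6 : (l : ℤ) ∣ np := by
      rw [add_assoc] at hlN
      exact (dvd_add_left h5).mp hlN
    exact hd h6

/-- **Single orbit, diagonal level**: if `X ∈ Λ_M` (diagonal entries divisible by `M`), the element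
`g ∈ SL₂(O)` with `X = g X₀ g^*` can be taken diagonal modulo `M`. -/
theorem orbit_diag {M : ℤ} (hM : M ≠ 0) {a d : ℤ} {b : O}
    (hN : b * E.conj b = 1 + 3 * a * d) (hs : E.s ∣ b - 1) (ha : M ∣ a) (hd : M ∣ d) :
    ∃ p q r t : O, p * t - q * r = 1 ∧
      b * E.conj p - E.s * a * E.conj r = p ∧
      b * E.conj q - E.s * a * E.conj t = q ∧
      E.s * d * E.conj p + E.conj b * E.conj r = r ∧
      E.s * d * E.conj q + E.conj b * E.conj t = t ∧
      (M : O) ∣ q ∧ (M : O) ∣ r := by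
  obtain ⟨p, q, r, t, h1, h2, h3, h4, h5⟩ := E.orbit hN hs
  obtain ⟨a', ha'⟩ := ha
  obtain ⟨d', hd'⟩ := hd
  -- `E.s * a = p * conj q - q * conj p`
  have hc1 : E.conj p * E.conj t - E.conj q * E.conj r = 1 := by
    have := congrArg E.conj h1
    simpa only [map_sub, map_mul, map_one] using this
  have hsa : p * E.conj q - q * E.conj p = M * E.s * a' := by
    have : p * E.conj q - q * E.conj p = E.s * a := by
      linear_combination (-E.conj q) * h2 + E.conj p * h3 + (E.s * a) * hc1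
    rw [this, ha']; push_cast; ring
  have hsd : r * E.conj t - t * E.conj r = M * E.s * d' := by
    have : r * E.conj t - t * E.conj r = E.s * d := by
      linear_combination (-E.conj t) * h4 + E.conj r * h5 + (E.s * d) * hc1
    rw [this, hd']; push_cast; ring
  obtain ⟨np, hnp⟩ := E.exists_norm p
  obtain ⟨nq, hnq⟩ := E.exists_norm q
  obtain ⟨m, x, hm⟩ := E.exists_int_of_dvd (n := M) (z := p * E.conj q)
    ⟨a', by rw [map_mul, E.conj_conj]; linear_combination hsa⟩
  have hmc : q * E.conj p = m + M * E.conj x := by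
    have h : p * E.conj q = m + M * x := by linear_combination hm
    have := congrArg E.conj h
    simp only [map_add, map_mul, map_intCast, E.conj_conj] at this
    linear_combination this
  obtain ⟨v, e, f, hv⟩ := E.exists_unit_comb hM h1 ⟨x, hm⟩ hnp hnq
  -- `e * N(p + v q) + f * M = 1`
  -- `(p, q) * conj (p + v q) ≡ (np + v m, m + v nq)`
  -- first column `(1, v)`, second column `(-(m + v nq) e, (np + v m) e)`
  obtain ⟨γ1, γ2, γ3, γ4, hγ, ⟨k1, hk1⟩, ⟨k2, hk2⟩, ⟨k3, hk3⟩, ⟨k4, hk4⟩⟩ :=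
    exists_lift_SL2 (n := M) hM (a := 1) (b := -(m + v * nq) * e) (c := v)
      (d := (np + v * m) * e) ⟨-f, by linear_combination hv⟩
  have hvO : (e : O) * (np + 2 * v * m + v ^ 2 * nq) + f * M = 1 := by
    exact_mod_cast congrArg (Int.cast (R := O)) hv
  have g2 : (γ2 : O) = -(m + v * nq) * e + M * k2 := by
    have := congrArg (Int.cast (R := O)) hk2
    push_cast at this
    linear_combination this
  have g4 : (γ4 : O) = (np + v * m) * e + M * k4 := by
    have := congrArg (Int.cast (R := O)) hk4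
    push_cast at this
    linear_combination this
  have hq' : (M : O) ∣ p * γ2 + q * γ4 := by
    -- multiply by the unit `conj (p + v q)`
    have hu : (M : O) ∣ (p * γ2 + q * γ4) * E.conj (p + v * q) := by
      refine ⟨((-(e : O) * (np + v * m)) * 0 + p * k2 * E.conj (p + v * q)
        + q * k4 * E.conj (p + v * q)
        - (e * (m + v * nq)) * (v * x)
        + (e * (np + v * m)) * (E.conj x)), ?_⟩
      rw [g2, g4]
      simp only [map_add, map_mul, map_intCast]
      linear_combination (-(e * (m + v * nq) : O)) * hnp - (e * (m + v * nq) * v : O) * hm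
        + (e * (np + v * m) : O) * hmc + (e * (np + v * m) * v : O) * hnq
    obtain ⟨w, hw⟩ := hu
    refine ⟨(p * γ2 + q * γ4) * f + w * e * (p + v * q)
      - (p * γ2 + q * γ4) * e * (v * (x + E.conj x)), ?_⟩
    have hnorm : (p + v * q) * E.conj (p + v * q)
        = np + 2 * v * m + v ^ 2 * nq + M * (v * (x + E.conj x)) := by
      simp only [map_add, map_mul, map_intCast]
      linear_combination hnp + v * hm + v * hmc + v ^ 2 * hnq
    linear_combination (e * (p + v * q) : O) * hw - (p * γ2 + q * γ4) * hvO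
      - (e * (p * γ2 + q * γ4) : O) * hnorm
  obtain ⟨i1, i2, i3, i4, i5⟩ := E.P_mul_int h1 h2 h3 h4 h5 hγ
  obtain ⟨y, hy⟩ := hq'
  set p1 : O := p * γ1 + q * γ3
  set q1 : O := p * γ2 + q * γ4
  set r1 : O := r * γ1 + t * γ3
  set t1 : O := r * γ2 + t * γ4
  have hc2 : E.conj p1 * E.conj t1 - E.conj q1 * E.conj r1 = 1 := by
    have := congrArg E.conj i1
    simpa only [map_sub, map_mul, map_one] using this
  have hcy : E.conj q1 = M * E.conj y := by rw [hy, map_mul, map_intCast]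
  have hsd1 : r1 * E.conj t1 - t1 * E.conj r1 = M * E.s * d' := by
    have : r1 * E.conj t1 - t1 * E.conj r1 = E.s * d := by
      linear_combination (-E.conj t1) * i4 + E.conj r1 * i5 + (E.s * d) * hc2
    rw [this, hd']; push_cast; ring
  obtain ⟨np1, hnp1⟩ := E.exists_norm p1
  obtain ⟨nt1, hnt1⟩ := E.exists_norm t1
  obtain ⟨k, x1, hk⟩ := E.exists_int_of_dvd (n := M) (z := r1 * E.conj t1)
    ⟨d', by rw [map_mul, E.conj_conj]; linear_combination hsd1⟩
  -- `N(p1) N(t1) ≡ 1`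
  have hnn : (np1 : O) * nt1 = 1 + M * (y * r1 + E.conj y * E.conj r1 * (1 + M * y * r1)) := by
    rw [← hnp1, ← hnt1]
    rw [hcy] at hc2
    rw [hy] at i1
    linear_combination (E.conj p1 * E.conj t1) * i1 + (1 + M * y * r1) * hc2
  obtain ⟨j1, j2, j3, j4, j5⟩ := E.P_mul_int i1 i2 i3 i4 i5 (x := 1) (y := 0) (z := -k * np1)
    (w := 1) (by ring)
  refine ⟨_, _, _, _, j1, j2, j3, j4, j5, ⟨y, by rw [hy]; push_cast; ring⟩, ?_⟩
  have hu : (r1 * ((1 : ℤ) : O) + t1 * ((-k * np1 : ℤ) : O)) * E.conj t1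
      = M * (x1 - k * (y * r1 + E.conj y * E.conj r1 * (1 + M * y * r1))) := by
    push_cast
    linear_combination hk - (k * np1 : O) * hnt1 - (k : O) * hnn
  refine ⟨(x1 - k * (y * r1 + E.conj y * E.conj r1 * (1 + M * y * r1))) * E.conj p1
    - (r1 * ((1 : ℤ) : O) + t1 * ((-k * np1 : ℤ) : O)) * (E.conj y * E.conj r1), ?_⟩
  rw [hcy] at hc2
  linear_combination (E.conj p1) * hu - (r1 * ((1 : ℤ) : O) + t1 * ((-k * np1 : ℤ) : O)) * hc2

/-- the entries of `g X₀ g^*` from the relation `A conj g = g` -/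
lemma entries {a : ℤ} {b : O} {d : ℤ} {p q r t : O} (h1 : p * t - q * r = 1)
    (h2 : b * E.conj p - E.s * a * E.conj r = p)
    (h3 : b * E.conj q - E.s * a * E.conj t = q)
    (h4 : E.s * d * E.conj p + E.conj b * E.conj r = r)
    (h5 : E.s * d * E.conj q + E.conj b * E.conj t = t) :
    E.s * a = p * E.conj q - q * E.conj p ∧ b = p * E.conj t - q * E.conj r ∧
      E.s * d = r * E.conj t - t * E.conj r := by
  have hc1 : E.conj p * E.conj t - E.conj q * E.conj r = 1 := by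
    have := congrArg E.conj h1
    simpa only [map_sub, map_mul, map_one] using this
  refine ⟨?_, ?_, ?_⟩
  · linear_combination (E.conj q) * h2 - E.conj p * h3 - (E.s * a) * hc1
  · linear_combination (E.conj t) * h2 - E.conj r * h3 - b * hc1
  · linear_combination (E.conj t) * h4 - E.conj r * h5 - (E.s * d) * hc1

lemma s_mul_coord (u v : ℤ) :
    E.s * ((u : O) + v * E.ω) = ((u - 2 * v : ℤ) : O) + ((2 * u - v : ℤ) : O) * E.ω := by
  rw [s_def]; push_cast; linear_combination 2 * (v : O) * E.hω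

lemma s_dvd_iff {x y : ℤ} : E.s ∣ (x : O) + y * E.ω ↔ (3 : ℤ) ∣ x + y := by
  constructor
  · rintro ⟨z, hz⟩
    obtain ⟨u, v, rfl⟩ := E.repr z
    rw [E.s_mul_coord] at hz
    have := E.indep (x - (u - 2 * v)) (y - (2 * u - v)) (by push_cast at hz ⊢; linear_combination hz)
    exact ⟨u - v, by omega⟩
  · rintro ⟨k, hk⟩
    refine ⟨((y - k : ℤ) : O) + ((y - 2 * k : ℤ) : O) * E.ω, ?_⟩
    rw [E.s_mul_coord]
    have h1 : y - k - 2 * (y - 2 * k) = x := by omega
    have h2 : 2 * (y - k) - (y - 2 * k) = y := by omega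
    rw [h1, h2]

/-- **helper47's form**: `X = (a, b; conj b, d)`, `|b|² - a d = 3`, `a, d ∈ 3 M ℤ`; then
`X = ± γ X₀ γ^*` with `X₀ = (0, s; -s, 0)`, `γ ∈ SL₂(O)` diagonal modulo `M`. -/
theorem orbit_three {M : ℤ} (hM : M ≠ 0) {a d : ℤ} {b : O}
    (hN : b * E.conj b = 3 + a * d) (ha : 3 * M ∣ a) (hd : 3 * M ∣ d) :
    ∃ ε : ℤ, (ε = 1 ∨ ε = -1) ∧ ∃ p q r t : O, p * t - q * r = 1 ∧ (M : O) ∣ q ∧ (M : O) ∣ r ∧
      (a : O) = ε * (E.s * (p * E.conj q - q * E.conj p)) ∧
      b = ε * (E.s * (p * E.conj t - q * E.conj r)) ∧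
      (d : O) = ε * (E.s * (r * E.conj t - t * E.conj r)) := by
  obtain ⟨x, y, rfl⟩ := E.repr b
  obtain ⟨a1, ha1⟩ := ha
  obtain ⟨d1, hd1⟩ := hd
  have hint : x ^ 2 - x * y + y ^ 2 = 3 + a * d := by
    apply E.int_inj
    rw [← E.norm_coord, hN]; push_cast; ring
  have h3 : (3 : ℤ) ∣ x + y := by
    have h4 : (3 : ℤ) ∣ (x + y) ^ 2 :=
      ⟨1 + 3 * M * a1 * M * d1 + x * y, by rw [ha1, hd1] at hint; linear_combination hint⟩
    exact Int.prime_three.dvd_of_dvd_pow h4
  obtain ⟨b', hb'⟩ := E.s_dvd_iff.mpr h3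
  obtain ⟨u, v, rfl⟩ := E.repr b'
  have hN' : ((u : O) + v * E.ω) * E.conj ((u : O) + v * E.ω)
      = 1 + 3 * ((-(M * a1) : ℤ) : O) * ((-(M * d1) : ℤ) : O) := by
    have h5 : (3 : O) * (((u : O) + v * E.ω) * E.conj ((u : O) + v * E.ω)
        - (1 + 3 * ((-(M * a1) : ℤ) : O) * ((-(M * d1) : ℤ) : O))) = 0 := by
      rw [hb', ha1, hd1] at hN
      simp only [map_mul, E.conj_s] at hN
      push_cast at hN ⊢
      linear_combination hN + (((u : O) + v * E.ω) * E.conj ((u : O) + v * E.ω)) * E.s_sq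
    exact sub_eq_zero.mp (E.three_ne h5)
  have hint' : u ^ 2 - u * v + v ^ 2 = 1 + 3 * (M * a1) * (M * d1) := by
    apply E.int_inj
    rw [← E.norm_coord, hN']; push_cast; ring
  have huv : (3 : ℤ) ∣ u + v - 1 ∨ (3 : ℤ) ∣ u + v + 1 := by
    have h6 : (3 : ℤ) ∣ (u + v - 1) * (u + v + 1) :=
      ⟨M * a1 * (M * d1) + u * v, by linear_combination hint'⟩
    exact Int.prime_three.dvd_or_dvd h6
  obtain ⟨ε, hε, hdvd⟩ : ∃ ε : ℤ, (ε = 1 ∨ ε = -1) ∧
      E.s ∣ (ε : O) * ((u : O) + v * E.ω) - 1 := by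
    rcases huv with h | h
    · refine ⟨1, Or.inl rfl, ?_⟩
      have := E.s_dvd_iff (x := u - 1) (y := v)
      have h7 := this.mpr (by convert h using 1; ring)
      convert h7 using 1
      push_cast; ring
    · refine ⟨-1, Or.inr rfl, ?_⟩
      have := E.s_dvd_iff (x := -u - 1) (y := -v)
      have h7 := this.mpr (by
        obtain ⟨k, hk⟩ := h
        exact ⟨-k, by linear_combination -hk⟩)
      convert h7 using 1
      push_cast; ring
  have hε2 : (ε : O) * ε = 1 := by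
    rcases hε with rfl | rfl <;> simp
  obtain ⟨p, q, r, t, h1, h2, h3, h4, h5, h6, h7⟩ := E.orbit_diag hM
    (a := ε * (-(M * a1))) (d := ε * (-(M * d1))) (b := (ε : O) * ((u : O) + v * E.ω))
    (by
      rw [map_mul, map_intCast]
      push_cast at hN' ⊢
      linear_combination (ε * ε : O) * hN' + hε2) hdvd
    ⟨ε * (-a1), by ring⟩ ⟨ε * (-d1), by ring⟩
  obtain ⟨e1, e2, e3⟩ := E.entries h1 h2 h3 h4 h5
  refine ⟨ε, hε, p, q, r, t, h1, h6, h7, ?_, ?_, ?_⟩
  · rw [← e1, ha1]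
    push_cast
    linear_combination (-(3 * M * a1) : O) * hε2 + (ε * ε * M * a1 : O) * E.s_sq
  · rw [← e2, hb']
    linear_combination (-(E.s * ((u : O) + v * E.ω))) * hε2
  · rw [← e3, hd1]
    push_cast
    linear_combination (-(3 * M * d1) : O) * hε2 + (ε * ε * M * d1 : O) * E.s_sq

end EisRing

end Fermat.Agent.LT.Orbit
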