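import Mathlib.LinearAlgebra.Matrix.SpecialLinearGroup
import Mathlib.LinearAlgebra.Matrix.ConjTranspose
import Mathlib.Tactic

/-!
# Hermitian matrices of determinant `-3` over `ℤ[ω]`, up to congruence subgroups

`O` is (abstractly) the ring `ℤ[ω]`, `s = √-3 = 1 + 2ω`, `X₀ = s • !![0, 1; -1, 0]`.
Every Hermitian `X` of determinant `-3` which is congruent to
`diag(u,1) X₀ diag(ū,1)` modulo `3M` is `± γ X₀ γ*` with `γ ∈ SL₂(O)` diagonal modulo `M`.
-/

set_option autoImplicit false

namespace Fermat.Agent.LT.Theta31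

open Matrix

/-- The ring `ℤ[ω]`, abstractly. -/
class Eis (O : Type*) [CommRing O] [StarRing O] where
  /-- the cube root of unity -/
  ω : O
  rel : ω ^ 2 + ω + 1 = 0
  star_ω : star ω = -1 - ω
  basis : ∀ x : O, ∃ a b : ℤ, x = a + b * ω
  indep : ∀ a b : ℤ, (a : O) + b * ω = 0 → a = 0 ∧ b = 0

namespace Eis

variable {O : Type*} [CommRing O] [StarRing O] [Eis O]

local notation "ω'" => (Eis.ω : O)

lemma ω_sq : (Eis.ω : O) ^ 2 = -1 - Eis.ω := by
  linear_combination (Eis.rel : (Eis.ω : O) ^ 2 + Eis.ω + 1 = 0)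

lemma charZero : CharZero O := by
  refine charZero_of_inj_zero fun n hn => ?_
  have := Eis.indep (O := O) (n : ℤ) 0 (by push_cast; rw [hn]; ring)
  exact_mod_cast this.1

lemma ext_iff' {a b c d : ℤ} : (a : O) + b * Eis.ω = c + d * Eis.ω ↔ a = c ∧ b = d := by
  constructor
  · intro h
    have := Eis.indep (O := O) (a - c) (b - d) (by push_cast; linear_combination h)
    exact ⟨by omega, by omega⟩
  · rintro ⟨rfl, rfl⟩; rfl

/-- first coordinate -/
noncomputable def co (x : O) : ℤ := (Eis.basis x).choose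
/-- second coordinate -/
noncomputable def im (x : O) : ℤ := (Eis.basis x).choose_spec.choose

lemma eq_co (x : O) : x = (co x : O) + (im x : O) * Eis.ω :=
  (Eis.basis x).choose_spec.choose_spec

lemma star_mk (a b : ℤ) : star ((a : O) + b * Eis.ω) = ((a - b : ℤ) : O) + ((-b : ℤ) : O) * Eis.ω := by
  rw [star_add, star_mul', star_intCast, star_intCast, Eis.star_ω]
  push_cast
  ring

/-- the square root of `-3` -/
def s : O := 1 + 2 * Eis.ω

lemma s_sq : (s : O) * s = -3 := by
  unfold s
  linear_combination 4 * (Eis.rel : (Eis.ω : O) ^ 2 + Eis.ω + 1 = 0)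

lemma star_s : star (s : O) = -s := by
  unfold s
  rw [star_add, star_mul', Eis.star_ω, star_one, star_ofNat]
  ring

/-- norm as an integer -/
noncomputable def nm (x : O) : ℤ := co x ^ 2 - co x * im x + im x ^ 2

lemma mul_star (x : O) : x * star x = (nm x : O) := by
  have h := eq_co x
  have h2 : star x = ((co x - im x : ℤ) : O) + ((-im x : ℤ) : O) * Eis.ω := by
    rw [← star_mk, ← h]
  rw [h2]
  nth_rw 1 [h]
  unfold nm
  push_cast
  linear_combination (-(im x : O) ^ 2) * (Eis.rel : (Eis.ω : O) ^ 2 + Eis.ω + 1 = 0)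

lemma int_inj {a b : ℤ} : (a : O) = b ↔ a = b := by
  have := charZero (O := O)
  exact Int.cast_inj

lemma nm_mk (a b : ℤ) : nm ((a : O) + b * Eis.ω) = a ^ 2 - a * b + b ^ 2 := by
  have h := eq_co ((a : O) + b * Eis.ω)
  obtain ⟨h1, h2⟩ := ext_iff'.mp h
  unfold nm
  rw [← h1, ← h2]

lemma nm_mul (x y : O) : nm (x * y) = nm x * nm y := by
  rw [← int_inj (O := O)]
  push_cast
  rw [← mul_star, ← mul_star, ← mul_star, star_mul]
  ring

lemma nm_nonneg (x : O) : 0 ≤ nm x := by
  unfold nm
  nlinarith [sq_nonneg (co x - im x), sq_nonneg (co x), sq_nonneg (im x)]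

lemma nm_eq_zero {x : O} : nm x = 0 ↔ x = 0 := by
  constructor
  · intro h
    unfold nm at h
    have h1 : co x = 0 := by
      nlinarith [sq_nonneg (co x - im x), sq_nonneg (co x), sq_nonneg (im x),
        sq_nonneg (co x - 2 * im x), sq_nonneg (2 * co x - im x), sq_abs (co x)]
    have h2 : im x = 0 := by
      rw [h1] at h
      nlinarith
    rw [eq_co x, h1, h2]
    simp
  · rintro rfl
    have h : (0 : O) = ((0 : ℤ) : O) + ((0 : ℤ) : O) * Eis.ω := by simp
    rw [h, nm_mk]
    ring

lemma nm_star (x : O) : nm (star x) = nm x := by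
  rw [← int_inj (O := O), ← mul_star, ← mul_star, star_star, mul_comm]

lemma nm_int (a : ℤ) : nm (a : O) = a ^ 2 := by
  have h : (a : O) = (a : O) + ((0 : ℤ) : O) * Eis.ω := by simp
  rw [h, nm_mk]
  ring

instance : NoZeroDivisors O where
  eq_zero_or_eq_zero_of_mul_eq_zero := by
    intro a b h
    have h1 : nm a * nm b = 0 := by rw [← nm_mul, h, nm_eq_zero]
    rcases mul_eq_zero.mp h1 with h2 | h2
    · exact Or.inl (nm_eq_zero.mp h2)
    · exact Or.inr (nm_eq_zero.mp h2)

lemma nm_s : nm (s : O) = 3 := by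
  rw [← int_inj (O := O), ← mul_star, star_s]
  push_cast
  linear_combination -(s_sq (O := O))

lemma s_ne : (s : O) ≠ 0 := by
  intro h
  have := nm_s (O := O)
  rw [h, nm_eq_zero.mpr rfl] at this
  norm_num at this

/-- an element equal to its conjugate is an integer -/
lemma eq_int_of_star {x : O} (h : star x = x) : ∃ n : ℤ, x = n := by
  have h1 := eq_co x
  have h2 : star x = ((co x - im x : ℤ) : O) + ((-im x : ℤ) : O) * Eis.ω := by
    rw [← star_mk, ← h1]
  have h3 : ((co x - im x : ℤ) : O) + ((-im x : ℤ) : O) * Eis.ω = (co x : O) + (im x : O) * Eis.ω := by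
    rw [← h2, ← h1, h]
  obtain ⟨h4, h5⟩ := ext_iff'.mp h3
  have h6 : im x = 0 := by omega
  refine ⟨co x, ?_⟩
  calc x = (co x : O) + (im x : O) * Eis.ω := h1
    _ = co x := by rw [h6]; simp

/-- an element congruent to its conjugate modulo `s M` is congruent to an integer modulo `M` -/
lemma exists_int_of_star_modEq {M : ℤ} {x : O} (h : (s : O) * M ∣ star x - x) :
    ∃ n : ℤ, (M : O) ∣ x - n := by
  obtain ⟨z, hz⟩ := h
  have h1 := eq_co x
  have h2 : star x = ((co x - im x : ℤ) : O) + ((-im x : ℤ) : O) * Eis.ω := by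
    rw [← star_mk, ← h1]
  have h3 : star x - x = -(im x : O) * s := by
    rw [h2]
    nth_rw 4 [h1]
    unfold s
    push_cast
    ring
  have h4 : (im x : O) = -(M * z) := by
    have : (s : O) * ((im x : O) + M * z) = 0 := by
      linear_combination h3 - hz
    rcases mul_eq_zero.mp this with h | h
    · exact absurd h s_ne
    · linear_combination h
  refine ⟨co x, -z * Eis.ω, ?_⟩
  nth_rw 1 [h1]
  rw [h4]
  ring

/-! ### Euclid -/

lemma exists_round (c n : ℤ) (hn : 0 < n) : ∃ q : ℤ, 2 * |c - q * n| ≤ n := by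
  refine ⟨(2 * c + n) / (2 * n), ?_⟩
  have h1 := Int.emod_add_mul_ediv (2 * c + n) (2 * n)
  have h2 := Int.emod_nonneg (2 * c + n) (by omega : 2 * n ≠ 0)
  have h3 := Int.emod_lt_of_pos (2 * c + n) (by omega : 0 < 2 * n)
  set q := (2 * c + n) / (2 * n)
  set r := (2 * c + n) % (2 * n)
  have h4 : 2 * (c - q * n) = r - n := by linarith
  have h5 : 2 * |c - q * n| = |2 * (c - q * n)| := by rw [abs_mul]; norm_num
  rw [h5, h4, abs_le]
  constructor <;> omega

lemma euclid (x y : O) (hy : y ≠ 0) : ∃ q : O, nm (x - q * y) < nm y := by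
  have hn : 0 < nm y := lt_of_le_of_ne (nm_nonneg y) (fun h => hy (nm_eq_zero.mp h.symm))
  obtain ⟨q1, h1⟩ := exists_round (co (x * star y)) (nm y) hn
  obtain ⟨q2, h2⟩ := exists_round (im (x * star y)) (nm y) hn
  refine ⟨(q1 : O) + q2 * Eis.ω, ?_⟩
  set e := co (x * star y) - q1 * nm y with he
  set f := im (x * star y) - q2 * nm y with hf
  have h3 : (x - ((q1 : O) + q2 * Eis.ω) * y) * star y = (e : O) + f * Eis.ω := by
    have := eq_co (x * star y)
    rw [he, hf]
    push_cast
    linear_combination this - ((q1 : O) + q2 * Eis.ω) * mul_star y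
  have h4 : nm (x - ((q1 : O) + q2 * Eis.ω) * y) * nm y = e ^ 2 - e * f + f ^ 2 := by
    rw [← nm_star y, ← nm_mul, h3, nm_mk]
  have h5 : 4 * (e ^ 2 - e * f + f ^ 2) ≤ 3 * nm y ^ 2 := by
    have ha := abs_nonneg e
    have hb := abs_nonneg f
    have h6 : 4 * e ^ 2 ≤ nm y ^ 2 := by
      rw [← sq_abs e]; nlinarith
    have h7 : 4 * f ^ 2 ≤ nm y ^ 2 := by
      rw [← sq_abs f]; nlinarith
    have h8 : -(4 * (e * f)) ≤ nm y ^ 2 := by
      have : -(e * f) ≤ |e| * |f| := by rw [← abs_mul]; exact neg_le_abs _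
      nlinarith
    nlinarith
  nlinarith

/-- every pair is a multiple of the first row of a matrix of determinant one. -/
lemma exists_row (x y : O) : ∃ g p q r t : O, x = g * p ∧ y = g * q ∧ p * t - q * r = 1 := by
  induction h : (nm y).toNat using Nat.strong_induction_on generalizing x y with
  | _ n ih =>
    by_cases hy : y = 0
    · exact ⟨x, 1, 0, 0, 1, by ring, by rw [hy]; ring, by ring⟩
    · obtain ⟨k, hk⟩ := euclid x y hy
      have hlt : (nm (x - k * y)).toNat < n := by
        have := nm_nonneg (x - k * y)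
        have := nm_nonneg y
        omega
      obtain ⟨g, p, q, r, t, h1, h2, h3⟩ := ih _ hlt y (x - k * y) rfl
      exact ⟨g, k * p + q, p, -k * r - t, -r, by linear_combination h2 + k * h1, h1,
        by linear_combination h3⟩

/-! ### units -/

lemma sq_eq_of_nm_one {x : O} (hx : nm x = 1) :
    ∃ e : O, nm e = 1 ∧ (e * e * x = 1 ∨ e * e * x = -1) := by
  have h := eq_co x
  unfold nm at hx
  set a := co x
  set b := im x
  have ha : a ^ 2 ≤ 1 := by nlinarith [sq_nonneg (a - 2 * b), sq_nonneg (2 * a - b)]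
  have hb : b ^ 2 ≤ 1 := by nlinarith [sq_nonneg (a - 2 * b), sq_nonneg (2 * a - b)]
  have ha1 : a = -1 ∨ a = 0 ∨ a = 1 := by
    have h1 : a ≤ 1 := by nlinarith
    have h2 : -1 ≤ a := by nlinarith
    omega
  have hb1 : b = -1 ∨ b = 0 ∨ b = 1 := by
    have h1 : b ≤ 1 := by nlinarith
    have h2 : -1 ≤ b := by nlinarith
    omega
  have n1 : nm (1 : O) = 1 := by
    have := nm_int (O := O) 1
    simpa using this
  have nω : nm (Eis.ω : O) = 1 := by
    have := nm_mk (O := O) 0 1
    simpa using this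
  have hω := (Eis.rel : (Eis.ω : O) ^ 2 + Eis.ω + 1 = 0)
  have hω3 : (Eis.ω : O) * Eis.ω * Eis.ω = 1 := by
    linear_combination ((Eis.ω : O) - 1) * hω
  rcases ha1 with ha1 | ha1 | ha1 <;> rcases hb1 with hb1 | hb1 | hb1 <;>
    rw [ha1, hb1] at hx h <;> norm_num at hx <;> push_cast at h
  · -- -1 - ω = ω^2
    refine ⟨Eis.ω * Eis.ω, by rw [nm_mul, nω]; rfl, Or.inl ?_⟩
    rw [h]
    linear_combination (-(Eis.ω : O) ^ 3 + Eis.ω - 1) * hω
  · refine ⟨1, n1, Or.inr ?_⟩
    rw [h]; ring
  · refine ⟨Eis.ω, nω, Or.inr ?_⟩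
    rw [h]
    linear_combination -hω3
  · refine ⟨Eis.ω, nω, Or.inl ?_⟩
    rw [h]
    linear_combination hω3
  · refine ⟨1, n1, Or.inl ?_⟩
    rw [h]; ring
  · refine ⟨Eis.ω * Eis.ω, by rw [nm_mul, nω]; rfl, Or.inr ?_⟩
    rw [h]
    linear_combination ((Eis.ω : O) ^ 3 - Eis.ω + 1) * hω

lemma three_dvd_of_s_dvd {n : ℤ} (h : (s : O) ∣ n) : (3 : ℤ) ∣ n := by
  obtain ⟨z, hz⟩ := h
  have h1 : n ^ 2 = 3 * nm z := by
    rw [← nm_int (O := O), hz, nm_mul, nm_s]
  exact Int.prime_three.dvd_of_dvd_pow ⟨_, h1⟩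

lemma s_dvd_three : (s : O) ∣ 3 := ⟨-s, by linear_combination (s_sq (O := O))⟩

lemma s_dvd_of_three_dvd_nm {b : O} (h : (3 : ℤ) ∣ nm b) : (s : O) ∣ b := by
  have h1 := eq_co b
  unfold nm at h
  have h2 : (3 : ℤ) ∣ (co b + im b) ^ 2 := by
    obtain ⟨k, hk⟩ := h
    exact ⟨k + co b * im b, by linear_combination hk⟩
  obtain ⟨k, hk⟩ := Int.prime_three.dvd_of_dvd_pow h2
  have h3 : b = 3 * (k : O) + (im b : O) * (Eis.ω - 1) := by
    have h4 : (co b : O) = 3 * k - im b := by
      have : co b = 3 * k - im b := by linarith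
      rw [this]; push_cast; ring
    linear_combination h1 + h4
  rw [h3]
  refine dvd_add (dvd_mul_of_dvd_left s_dvd_three _) (dvd_mul_of_dvd_right ?_ _)
  -- ω - 1 = s * (1 + ω)... 
  refine ⟨1 + Eis.ω, ?_⟩
  unfold s
  linear_combination -2 * (Eis.rel : (Eis.ω : O) ^ 2 + Eis.ω + 1 = 0)

/-! ### Hermitian matrices of determinant `-3` -/

lemma isotropic (a d : ℤ) (b : O) (hdet : b * star b - a * d = 3) :
    ∃ p q r t : O, p * t - q * r = 1 ∧
      p * a * star p + p * b * star q + q * star b * star p + q * d * star q = 0 := by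
  by_cases ha : a = 0
  · refine ⟨1, 0, 0, 1, by ring, ?_⟩
    rw [ha]; simp
  · obtain ⟨g, p, q, r, t, h1, h2, h3⟩ := exists_row (s - star b) (a : O)
    refine ⟨p, q, r, t, h3, ?_⟩
    have hg : g ≠ 0 := by
      rintro rfl
      rw [zero_mul] at h2
      have : (a : O) = ((0 : ℤ) : O) := by rw [h2]; simp
      exact ha (int_inj.mp this)
    have hg' : star g ≠ 0 := by
      intro h
      exact hg (by rw [← star_star g, h, star_zero])
    have e1 : star (s - star b) = star g * star p := by rw [h1, star_mul']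
    have e2 : (a : O) = star g * star q := by
      rw [← star_mul', ← h2, star_intCast]
    rw [star_sub, star_star, star_s] at e1
    have h : g * star g * (p * a * star p + p * b * star q + q * star b * star p + q * d * star q)
        = 0 := by
      have : g * star g * (p * a * star p + p * b * star q + q * star b * star p + q * d * star q) =
        (g * p) * a * (star g * star p) + (g * p) * b * (star g * star q)
          + (g * q) * star b * (star g * star p) + (g * q) * d * (star g * star q) := by ring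
      rw [this, ← h1, ← h2, ← e1, ← e2]
      linear_combination -(a : O) * hdet - (a : O) * s_sq (O := O)
    rcases mul_eq_zero.mp h with h | h
    · rcases mul_eq_zero.mp h with h | h
      · exact absurd h hg
      · exact absurd h hg'
    · exact h

/-- `O1`: every Hermitian matrix of determinant `-3` with diagonal divisible by `3`
is equivalent to `± X0`. -/
theorem exists_sl (a d : ℤ) (b : O) (hdet : b * star b - a * d = 3) (ha : (3 : ℤ) ∣ a)
    (hd : (3 : ℤ) ∣ d) :
    ∃ p q r t : O, ∃ η : ℤ, (η = 1 ∨ η = -1) ∧ p * t - q * r = 1 ∧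
      (a : O) = η * (s * (p * star q - q * star p)) ∧
      b = η * (s * (p * star t - q * star r)) ∧
      (d : O) = η * (s * (r * star t - t * star r)) := by
  obtain ⟨p, q, r, t, h1, h2⟩ := isotropic a d b hdet
  have h1' : star p * star t - star q * star r = 1 := by
    rw [← star_mul', ← star_mul', ← star_sub, h1, star_one]
  -- divisibility
  have sa : (s : O) ∣ (a : O) := by
    obtain ⟨k, rfl⟩ := ha
    push_cast
    exact dvd_mul_of_dvd_left s_dvd_three _
  have sd : (s : O) ∣ (d : O) := by
    obtain ⟨k, rfl⟩ := hd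
    push_cast
    exact dvd_mul_of_dvd_left s_dvd_three _
  have sb : (s : O) ∣ b := by
    apply s_dvd_of_three_dvd_nm
    have : nm b = a * d + 3 := by
      rw [← int_inj (O := O), ← mul_star]
      push_cast
      linear_combination hdet
    rw [this]
    exact dvd_add (dvd_mul_of_dvd_left ha _) (dvd_refl _)
  have sb' : (s : O) ∣ star b := by
    obtain ⟨z, hz⟩ := sb
    refine ⟨-star z, ?_⟩
    rw [hz, star_mul', star_s]
    ring
  set b' := p * a * star r + p * b * star t + q * star b * star r + q * d * star t with hb'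
  set d' := r * a * star r + r * b * star t + t * star b * star r + t * d * star t with hd'
  have hstar_b : star b' = r * a * star p + t * star b * star p + r * b * star q
      + t * d * star q := by
    rw [hb']
    simp only [star_add, star_mul', star_star, star_intCast]
    ring
  have hstar_d : star d' = d' := by
    rw [hd']
    simp only [star_add, star_mul', star_star, star_intCast]
    ring
  have hbb : b' * star b' = 3 := by
    rw [hstar_b, hb']
    have key : (p * a * star r + p * b * star t + q * star b * star r + q * d * star t) *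
        (r * a * star p + t * star b * star p + r * b * star q + t * d * star q) =
        (p * a * star p + p * b * star q + q * star b * star p + q * d * star q) * d' +
        (b * star b - a * d) * ((p * t - q * r) * (star p * star t - star q * star r)) := by
      rw [hd']; ring
    rw [key, h2, h1, h1', hdet]
    ring
  have sb'' : (s : O) ∣ b' := by
    rw [hb']
    refine dvd_add (dvd_add (dvd_add ?_ ?_) ?_) ?_
    · exact dvd_mul_of_dvd_left (dvd_mul_of_dvd_right sa _) _
    · exact dvd_mul_of_dvd_left (dvd_mul_of_dvd_right sb _) _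
    · exact dvd_mul_of_dvd_left (dvd_mul_of_dvd_right sb' _) _
    · exact dvd_mul_of_dvd_left (dvd_mul_of_dvd_right sd _) _
  have sd'' : (s : O) ∣ d' := by
    rw [hd']
    refine dvd_add (dvd_add (dvd_add ?_ ?_) ?_) ?_
    · exact dvd_mul_of_dvd_left (dvd_mul_of_dvd_right sa _) _
    · exact dvd_mul_of_dvd_left (dvd_mul_of_dvd_right sb _) _
    · exact dvd_mul_of_dvd_left (dvd_mul_of_dvd_right sb' _) _
    · exact dvd_mul_of_dvd_left (dvd_mul_of_dvd_right sd _) _
  obtain ⟨c, hc⟩ := sb''
  have hc1 : nm c = 1 := by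
    have : nm b' = 3 := by
      rw [← int_inj (O := O), ← mul_star, hbb]; norm_num
    rw [hc, nm_mul, nm_s] at this
    omega
  obtain ⟨e, he1, he2⟩ := sq_eq_of_nm_one hc1
  have hee : e * star e = 1 := by rw [mul_star, he1]; simp
  obtain ⟨η, hη, hec⟩ : ∃ η : ℤ, (η = 1 ∨ η = -1) ∧ e * e * c = η := by
    rcases he2 with h | h
    · exact ⟨1, Or.inl rfl, by rw [h]; simp⟩
    · exact ⟨-1, Or.inr rfl, by rw [h]; simp⟩
  have hηη : (η : O) * η = 1 := by
    rcases hη with rfl | rfl <;> simp
  obtain ⟨n, hn⟩ := eq_int_of_star hstar_d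
  rw [hn] at sd''
  obtain ⟨m, hm⟩ := three_dvd_of_s_dvd sd''
  have hd3 : d' = 3 * (m : O) := by rw [hn, hm]; push_cast; ring
  -- the total matrix
  obtain ⟨β, hβ⟩ : ∃ β : O, β = η * m * Eis.ω := ⟨_, rfl⟩
  have hstarβ : star β = η * m * (-1 - Eis.ω) := by
    rw [hβ, star_mul', star_mul', star_intCast, star_intCast, Eis.star_ω]
  obtain ⟨p1, hp1⟩ : ∃ p1, p1 = e * p := ⟨_, rfl⟩
  obtain ⟨q1, hq1⟩ : ∃ q1, q1 = e * q := ⟨_, rfl⟩
  obtain ⟨r1, hr1⟩ : ∃ r1, r1 = β * e * p + star e * r := ⟨_, rfl⟩
  obtain ⟨t1, ht1⟩ : ∃ t1, t1 = β * e * q + star e * t := ⟨_, rfl⟩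
  have hdet1 : p1 * t1 - q1 * r1 = 1 := by
    rw [hp1, hq1, hr1, ht1]
    linear_combination (e * star e) * h1 + hee
  have hdet2 : star p1 * star t1 - star q1 * star r1 = 1 := by
    rw [← star_mul', ← star_mul', ← star_sub, hdet1, star_one]
  have sp1 : star p1 = star e * star p := by rw [hp1, star_mul']
  have sq1 : star q1 = star e * star q := by rw [hq1, star_mul']
  have sr1 : star r1 = star β * star e * star p + e * star r := by
    rw [hr1, star_add, star_mul', star_mul', star_mul', star_star]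
  have st1 : star t1 = star β * star e * star q + e * star t := by
    rw [ht1, star_add, star_mul', star_mul', star_mul', star_star]
  have hsc : star b' = -(s * star c) := by rw [hc, star_mul', star_s]; ring
  have hec' : star e * star e * star c = η := by
    rw [← star_mul', ← star_mul', hec, star_intCast]
  have k1 : p1 * a * star p1 + p1 * b * star q1 + q1 * star b * star p1 + q1 * d * star q1
      = 0 := by
    rw [sp1, sq1, hp1, hq1]
    linear_combination (e * star e) * h2
  have k2 : p1 * a * star r1 + p1 * b * star t1 + q1 * star b * star r1 + q1 * d * star t1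
      = η * s := by
    rw [sr1, st1, hp1, hq1]
    linear_combination (e * star β * star e) * h2 + e * e * hc - e * e * hb' + s * hec
  have k3 : r1 * a * star p1 + r1 * b * star q1 + t1 * star b * star p1 + t1 * d * star q1
      = -(η * s) := by
    rw [sp1, sq1, hr1, ht1]
    linear_combination (β * e * star e) * h2 + star e * star e * hsc
      - star e * star e * hstar_b - s * hec'
  have k4 : r1 * a * star r1 + r1 * b * star t1 + t1 * star b * star r1 + t1 * d * star t1
      = 0 := by
    rw [sr1, st1, hr1, ht1]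
    have hb2 := hstarβ
    have hs2 : (s : O) = 1 + 2 * Eis.ω := rfl
    linear_combination (β * star β * e * star e) * h2 + β * (e * e * hc - e * e * hb' + s * hec)
      + star β * (star e * star e * hsc - star e * star e * hstar_b - s * hec')
      + e * star e * (hd3 - hd') + 3 * m * hee + η * s * (hβ - hb2) 
      + (m * s * (1 + 2 * Eis.ω)) * hηη - (m * s) * hs2 + m * s_sq (O := O)
  refine ⟨t1, -q1, -r1, p1, η, hη, by linear_combination hdet1, ?_, ?_, ?_⟩
  · rw [star_neg]
    linear_combination (t1 * star t1) * k1 - (t1 * star q1) * k2 - (q1 * star t1) * k3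
      + (q1 * star q1) * k4
      - (a : O) * (star p1 * star t1 - star q1 * star r1) * hdet1 - (a : O) * hdet2
  · rw [star_neg]
    linear_combination -(t1 * star r1) * k1 + (t1 * star p1) * k2 + (q1 * star r1) * k3
      - (q1 * star p1) * k4
      - b * (star p1 * star t1 - star q1 * star r1) * hdet1 - b * hdet2
  · rw [star_neg]
    linear_combination (r1 * star r1) * k1 - (r1 * star p1) * k2 - (p1 * star r1) * k3
      + (p1 * star p1) * k4
      - (d : O) * (star p1 * star t1 - star q1 * star r1) * hdet1 - (d : O) * hdet2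

/-! ### Congruences -/

lemma exists_shift {M A T B : ℤ} (hM : M ≠ 0)
    (h : ∀ l : ℤ, Prime l → l ∣ M → l ∣ A → l ∣ T ∧ ¬ l ∣ B) :
    ∃ k : ℤ, IsCoprime (A + k * T + k ^ 2 * B) M := by
  classical
  set S := M.natAbs.primeFactors.filter (fun l : ℕ => ¬ (l : ℤ) ∣ A) with hS
  refine ⟨∏ l ∈ S, (l : ℤ), isCoprime_of_prime_dvd (fun h0 => hM h0.2) ?_⟩
  intro l hl h1 h2
  have hln : l.natAbs.Prime := Int.prime_iff_natAbs_prime.mp hl
  by_cases hA : l ∣ A
  · obtain ⟨hT, hB⟩ := h l hl h2 hA
    have h3 : l ∣ (∏ l ∈ S, (l : ℤ)) ^ 2 * B := by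
      have h4 : l ∣ A + (∏ l ∈ S, (l : ℤ)) * T := dvd_add hA (dvd_mul_of_dvd_right hT _)
      exact (dvd_add_right h4).mp h1
    rcases hl.dvd_or_dvd h3 with h5 | h5
    · have h6 := hl.dvd_of_dvd_pow h5
      obtain ⟨l', hl', h7⟩ := (Prime.dvd_finset_prod_iff hl _).mp h6
      rw [hS, Finset.mem_filter] at hl'
      have hp' : l'.Prime := Nat.prime_of_mem_primeFactors hl'.1
      have h8 : l.natAbs ∣ l' := by
        have := Int.natAbs_dvd_natAbs.mpr h7
        simpa using this
      have h9 : l.natAbs = l' := (Nat.prime_dvd_prime_iff_eq hln hp').mp h8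
      apply hl'.2
      rw [← h9]
      exact Int.natAbs_dvd.mpr hA
    · exact hB h5
  · have hmem : l.natAbs ∈ S := by
      rw [hS, Finset.mem_filter]
      refine ⟨Nat.mem_primeFactors.mpr ⟨hln, Int.natAbs_dvd_natAbs.mpr h2, ?_⟩, ?_⟩
      · exact Int.natAbs_ne_zero.mpr hM
      · rwa [Int.natAbs_dvd]
    have h3 : l ∣ ∏ l ∈ S, (l : ℤ) :=
      (Int.dvd_natAbs.mpr (dvd_refl l)).trans (Finset.dvd_prod_of_mem (fun l : ℕ => (l : ℤ)) hmem)
    apply hA
    have h4 : l ∣ (∏ l ∈ S, (l : ℤ)) * T + (∏ l ∈ S, (l : ℤ)) ^ 2 * B :=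
      dvd_add (dvd_mul_of_dvd_left h3 _) (dvd_mul_of_dvd_left (dvd_pow h3 two_ne_zero) _)
    have h5 : l ∣ A + ((∏ l ∈ S, (l : ℤ)) * T + (∏ l ∈ S, (l : ℤ)) ^ 2 * B) := by
      rwa [← add_assoc]
    exact (dvd_add_left h4).mp h5

/-- trace -/
noncomputable def tr (x : O) : ℤ := 2 * co x - im x

lemma add_star (x : O) : x + star x = (tr x : O) := by
  have h := eq_co x
  have h2 : star x = ((co x - im x : ℤ) : O) + ((-im x : ℤ) : O) * Eis.ω := by
    rw [← star_mk, ← h]
  rw [h2]
  nth_rw 1 [h]
  unfold tr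
  push_cast
  ring

lemma nm_add_int_mul (p q : O) (k : ℤ) :
    nm (p + k * q) = nm p + k * tr (q * star p) + k ^ 2 * nm q := by
  rw [← int_inj (O := O)]
  push_cast
  rw [← mul_star, ← mul_star, ← mul_star, ← add_star, star_add, star_mul', star_mul', star_star,
    star_intCast]
  ring

lemma tr_int_add_int_mul (n M : ℤ) (z : O) : tr ((n : O) + M * z) = 2 * n + M * tr z := by
  rw [← int_inj (O := O)]
  push_cast
  rw [← add_star, ← add_star, star_add, star_mul', star_intCast, star_intCast]
  ring

lemma nm_int_add_int_mul (n M : ℤ) (z : O) :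
    nm ((n : O) + M * z) = n ^ 2 + M * (n * tr z + M * nm z) := by
  rw [← int_inj (O := O)]
  push_cast
  rw [← mul_star, ← mul_star, ← add_star, star_add, star_mul', star_intCast, star_intCast]
  ring

lemma int_dvd_one {l : ℤ} (h : (l : O) ∣ 1) : l ∣ 1 := by
  obtain ⟨z, hz⟩ := h
  have h1 : nm (1 : O) = 1 := by
    have := nm_int (O := O) 1
    simpa using this
  rw [hz, nm_mul, nm_int] at h1
  exact ⟨l * nm z, by rw [← h1]; ring⟩

lemma dvd_int_cast {l n : ℤ} (h : l ∣ n) : (l : O) ∣ (n : O) := by
  obtain ⟨z, rfl⟩ := h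
  exact ⟨z, by push_cast; ring⟩

/-- congruence condition from a diagonal entry -/
lemma exists_int_of_diag {M a η : ℤ} (hη : η = 1 ∨ η = -1) {p q : O}
    (h : (a : O) = η * (s * (p * star q - q * star p))) (ha : 3 * M ∣ a) :
    ∃ n : ℤ, (M : O) ∣ q * star p - n := by
  apply exists_int_of_star_modEq
  rw [star_mul', star_star]
  obtain ⟨a', rfl⟩ := ha
  have hηη : (η : O) * η = 1 := by rcases hη with rfl | rfl <;> simp
  refine ⟨-(η * a'), ?_⟩
  have h1 : (s : O) * (star q * p - q * star p - s * M * (-(η * a'))) = 0 := by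
    push_cast at h
    linear_combination -(η : O) * h - (s * (star q * p - q * star p)) * hηη
      + η * a' * M * s_sq (O := O)
  rcases mul_eq_zero.mp h1 with h2 | h2
  · exact absurd h2 s_ne
  · linear_combination h2

/-- **Orbit lemma.** A Hermitian matrix with entries `a, b, d` over `ℤ[ω]`, determinant `-3` and
`a, d ≡ 0` modulo `3M` is `± γ X₀ γ*` with `γ ∈ SL₂` diagonal modulo `M`. -/
theorem orbit {M : ℤ} (hM : M ≠ 0) {a d : ℤ} {b : O} (hdet : b * star b - a * d = 3)
    (ha : 3 * M ∣ a) (hd : 3 * M ∣ d) :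
    ∃ p q r t : O, ∃ η : ℤ, (η = 1 ∨ η = -1) ∧ p * t - q * r = 1 ∧ (M : O) ∣ q ∧ (M : O) ∣ r ∧
      (a : O) = η * (s * (p * star q - q * star p)) ∧
      b = η * (s * (p * star t - q * star r)) ∧
      (d : O) = η * (s * (r * star t - t * star r)) := by
  obtain ⟨p, q, r, t, η, hη, h1, h2, h3, h4⟩ := exists_sl a d b hdet
    ((dvd_mul_right 3 M).trans ha) ((dvd_mul_right 3 M).trans hd)
  -- step 1: make `nm p` coprime to `M`
  obtain ⟨n, z, hz⟩ := exists_int_of_diag hη h2 ha
  have hqp : q * star p = n + M * z := by linear_combination hz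
  obtain ⟨k, hk⟩ : ∃ k : ℤ, IsCoprime (nm (p + k * q)) M := by
    have := exists_shift (M := M) (A := nm p) (T := tr (q * star p)) (B := nm q) hM ?_
    · obtain ⟨k, hk⟩ := this
      exact ⟨k, by rw [nm_add_int_mul]; exact hk⟩
    intro l hl hlM hlA
    have hn : l ∣ n := by
      have e1 : nm (q * star p) = n ^ 2 + M * (n * tr z + M * nm z) := by
        rw [hqp, nm_int_add_int_mul]
      rw [nm_mul, nm_star] at e1
      have e2 : l ∣ n ^ 2 := by
        have e3 : l ∣ n ^ 2 + M * (n * tr z + M * nm z) := by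
          rw [← e1]; exact dvd_mul_of_dvd_right hlA _
        exact (dvd_add_left (dvd_mul_of_dvd_left hlM _)).mp e3
      exact hl.dvd_of_dvd_pow e2
    constructor
    · rw [hqp, tr_int_add_int_mul]
      exact dvd_add (dvd_mul_of_dvd_right hn _) (dvd_mul_of_dvd_left hlM _)
    · intro hlB
      apply hl.not_unit
      rw [isUnit_iff_dvd_one]
      apply int_dvd_one (O := O)
      have e1 : (l : O) ∣ q * star p := by
        rw [hqp]
        exact dvd_add (dvd_int_cast hn) (dvd_mul_of_dvd_left (dvd_int_cast hlM) _)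
      have e2 : (l : O) ∣ p * star q := by
        obtain ⟨w, hw⟩ := e1
        refine ⟨star w, ?_⟩
        have := congrArg star hw
        rw [star_mul', star_mul', star_star, star_intCast] at this
        linear_combination this
      have h1' : star p * star t - star q * star r = 1 := by
        rw [← star_mul', ← star_mul', ← star_sub, h1, star_one]
      have e3 : (1 : O) = (nm p : O) * (t * star t) + (nm q : O) * (r * star r)
          - (p * star q) * (t * star r) - (q * star p) * (r * star t) := by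
        rw [← mul_star, ← mul_star]
        linear_combination -(star p * star t - star q * star r) * h1 - h1'
      rw [e3]
      refine dvd_sub (dvd_sub (dvd_add ?_ ?_) ?_) ?_
      · exact dvd_mul_of_dvd_left (dvd_int_cast hlA) _
      · exact dvd_mul_of_dvd_left (dvd_int_cast hlB) _
      · exact dvd_mul_of_dvd_left e2 _
      · exact dvd_mul_of_dvd_left e1 _
  -- replace p, r
  obtain ⟨p', hp'⟩ : ∃ p', p' = p + k * q := ⟨_, rfl⟩
  obtain ⟨r', hr'⟩ : ∃ r', r' = r + k * t := ⟨_, rfl⟩
  have sp' : star p' = star p + k * star q := by rw [hp', star_add, star_mul', star_intCast]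
  have sr' : star r' = star r + k * star t := by rw [hr', star_add, star_mul', star_intCast]
  rw [← hp'] at hk
  have g1 : p' * t - q * r' = 1 := by rw [hp', hr']; linear_combination h1
  have g2 : (a : O) = η * (s * (p' * star q - q * star p')) := by
    rw [sp', hp']; linear_combination h2
  have g3 : b = η * (s * (p' * star t - q * star r')) := by
    rw [sr', hp']; linear_combination h3
  have g4 : (d : O) = η * (s * (r' * star t - t * star r')) := by
    rw [sr', hr']; linear_combination h4
  clear h1 h2 h3 h4 hz hqp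
  -- step 2
  obtain ⟨n, z, hz⟩ := exists_int_of_diag hη g2 ha
  obtain ⟨m, m', hm⟩ := hk
  have hmO : (m : O) * (p' * star p') + m' * M = 1 := by
    rw [mul_star]
    exact_mod_cast congrArg (Int.cast : ℤ → O) hm
  obtain ⟨y, hy⟩ : ∃ y : ℤ, y = m * n := ⟨_, rfl⟩
  obtain ⟨q', hq'⟩ : ∃ q', q' = q - y * p' := ⟨_, rfl⟩
  obtain ⟨t', ht'⟩ : ∃ t', t' = t - y * r' := ⟨_, rfl⟩
  have sq' : star q' = star q - y * star p' := by rw [hq', star_sub, star_mul', star_intCast]
  have st' : star t' = star t - y * star r' := by rw [ht', star_sub, star_mul', star_intCast]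
  have hMq : (M : O) ∣ q' := by
    refine ⟨m * p' * z + m' * q, ?_⟩
    rw [hq', hy]
    push_cast
    linear_combination (-q) * hmO + (m * p') * hz
  have f1 : p' * t' - q' * r' = 1 := by rw [hq', ht']; linear_combination g1
  have f2 : (a : O) = η * (s * (p' * star q' - q' * star p')) := by
    rw [sq', hq']; linear_combination g2
  have f3 : b = η * (s * (p' * star t' - q' * star r')) := by
    rw [st', hq']; linear_combination g3
  have f4 : (d : O) = η * (s * (r' * star t' - t' * star r')) := by
    rw [st', ht']; linear_combination g4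
  clear g1 g2 g3 g4 hz
  -- step 3
  obtain ⟨n', z, hz⟩ := exists_int_of_diag hη f4 hd
  obtain ⟨w, hw⟩ := hMq
  have hz' : r' * star t' - n' = M * star z := by
    have := congrArg star hz
    rw [star_sub, star_mul', star_mul', star_star, star_intCast, star_intCast] at this
    linear_combination this
  have f1' : star p' * star t' - star q' * star r' = 1 := by
    rw [← star_mul', ← star_mul', ← star_sub, f1, star_one]
  have hw' : star q' = M * star w := by rw [hw, star_mul', star_intCast]
  obtain ⟨y', hy'⟩ : ∃ y' : ℤ, y' = n' * nm p' := ⟨_, rfl⟩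
  obtain ⟨p'', hp''⟩ : ∃ p'', p'' = p' - y' * q' := ⟨_, rfl⟩
  obtain ⟨r'', hr''⟩ : ∃ r'', r'' = r' - y' * t' := ⟨_, rfl⟩
  have sp'' : star p'' = star p' - y' * star q' := by rw [hp'', star_sub, star_mul', star_intCast]
  have sr'' : star r'' = star r' - y' * star t' := by rw [hr'', star_sub, star_mul', star_intCast]
  refine ⟨p'', q', r'', t', η, hη, ?_, ⟨w, hw⟩, ?_, ?_, ?_, ?_⟩
  · rw [hp'', hr'']; linear_combination f1
  · refine ⟨star p' * star z - r' * star w * star r' - n' * w * r' * star p', ?_⟩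
    have hyO : (y' : O) = n' * (p' * star p') := by
      rw [mul_star, hy']; push_cast; ring
    rw [hr'', hyO]
    linear_combination (-r') * f1' + (star p') * hz' - (r' * star r') * hw'
      + (-(n' : O) * star p') * f1 + (-(n' : O) * star p' * r') * hw
  · rw [sp'', hp'']; linear_combination f2
  · rw [sr'', hp'']; linear_combination f3
  · rw [sr'', hr'']; linear_combination f4

end Eis

end Fermat.Agent.LT.Theta31
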