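import Fermat.Agent.LT.EisK
import Fermat.Agent.LT.Theta31.ActM
import Fermat.Agent.LT.Theta31.Orbit
import Fermat.Agent.LT.Theta31.OrbitDiag

/-!
# Instances over `𝓞 K`, `K = ℚ(√-3)`

`[IsCyclotomicExtension {3} ℚ K]` comes from `EisK.isCyc` (degree two, `ω ^ 2 + ω + 1 = 0`);
the star structure is `EisK.starO K` (local instance).
-/

set_option autoImplicit false

noncomputable section

open NumberField

namespace Fermat.Agent.LT.Theta31

variable {K : Type*} [Field K] [NumberField K]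

/-- `[K : ℚ] = 2` and `s ^ 2 = -3`: `K` is the third cyclotomic field. -/
theorem isCyc_of_sq (hK : Module.finrank ℚ K = 2) {s : 𝓞 K} (hs : s ^ 2 = -3) :
    IsCyclotomicExtension {3} ℚ K := by
  obtain ⟨ω, -, hω⟩ := EisK.exists_omega hs
  exact EisK.isCyc hK hω

variable [hcyc : IsCyclotomicExtension {3} ℚ K]

attribute [local instance] EisK.starO

/-- the class `Eis` for `𝓞 K` and a given square root `s` of `-3` -/
abbrev eisOf {s : 𝓞 K} (hs : s ^ 2 = -3) : Eis (𝓞 K) where
  ω := (EisK.exists_omega hs).choose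
  rel := (EisK.exists_omega hs).choose_spec.2
  star_ω := EisK.star_omega (EisK.exists_omega hs).choose_spec.2
  basis := EisK.exists_coord (EisK.exists_omega hs).choose_spec.2
  indep := EisK.indep (EisK.exists_omega hs).choose_spec.2

theorem eisOf_s {s : 𝓞 K} (hs : s ^ 2 = -3) : (letI := eisOf hs; (Eis.s : 𝓞 K)) = s :=
  (EisK.exists_omega hs).choose_spec.1.symm

/-- norm and trace -/
def ntO (K : Type*) [Field K] [NumberField K] [IsCyclotomicExtension {3} ℚ K] : NTData (𝓞 K) where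
  nrm := EisK.nrm
  nrm_eq := EisK.nrm_eq
  tr := EisK.tr
  tr_eq := EisK.tr_eq

@[simp] theorem ntO_nrm : (ntO K).nrm = EisK.nrm := rfl

@[simp] theorem ntO_tr : (ntO K).tr = EisK.tr := rfl

/-- the data of a split prime -/
def splitO {p : ℕ} [Fact p.Prime] {π : 𝓞 K} (h : EisK.nrm π = p) (h3 : p ≠ 3) :
    SplitPrime (𝓞 K) p where
  π := π
  mul_star := by
    rw [← EisK.nrm_eq, h]; simp
  r := (EisK.exists_red h).choose
  ker := (EisK.exists_red h).choose_spec
  star_ne := by
    rw [Ne, (EisK.exists_red h).choose_spec]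
    exact EisK.not_dvd_star h h3
  nrm := EisK.nrm
  nrm_eq := EisK.nrm_eq
  tr := EisK.tr
  tr_eq := EisK.tr_eq

@[simp] theorem splitO_π {p : ℕ} [Fact p.Prime] {π : 𝓞 K} (h : EisK.nrm π = p) (h3 : p ≠ 3) :
    (splitO h h3).π = π := rfl

theorem splitO_toNT {p : ℕ} [Fact p.Prime] {π : 𝓞 K} (h : EisK.nrm π = p) (h3 : p ≠ 3) :
    (splitO h h3).toNT = ntO K := rfl

/-- my `EisRing` for a given square root `s` of `-3` -/
def eisRingOf {s : 𝓞 K} (hs : s ^ 2 = -3) : Orbit.EisRing (𝓞 K) where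
  ω := (EisK.exists_omega hs).choose
  conj := (EisK.conjO K : 𝓞 K →+* 𝓞 K)
  hω := (EisK.exists_omega hs).choose_spec.2
  conj_ω := EisK.star_omega (EisK.exists_omega hs).choose_spec.2
  repr := EisK.exists_coord (EisK.exists_omega hs).choose_spec.2
  indep := EisK.indep (EisK.exists_omega hs).choose_spec.2

theorem eisRingOf_s {s : 𝓞 K} (hs : s ^ 2 = -3) : (eisRingOf hs).s = s :=
  (EisK.exists_omega hs).choose_spec.1.symm

end Fermat.Agent.LT.Theta31
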