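import Fermat.Agent.LT.Unfold

/-!
# Weights: finite groups, subgroups of finite index, covering sets; unfolding sorted by an invariant

* `isWeight_const` : the constant `1 / |H|` is a weight of the finite group `H`.
* `IsWeight.over` : a weight of a subgroup of finite index gives one of the group.
* `lintegral_weight_le` : a bound for the integral over `Γ \ Z` by a covering set of a bigger group.
* `hasSum_unfold` : unfolding of `∫_{Γ\Z} F(z) ∑_d c(d) E(d, z)`, sorted by an invariant `q(d)`.
-/

set_option autoImplicit false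

noncomputable section

open MeasureTheory ENNReal MulAction

namespace Fermat.Agent.LT.Theta31

variable {G Z : Type*} [Group G] [MeasurableSpace Z] [MulAction G Z] {w : Z → ℝ≥0∞}

/-- Weights of finite groups. -/
theorem isWeight_const [Finite G] : IsWeight G (fun _ : Z => (Nat.card G : ℝ≥0∞)⁻¹) where
  meas := measurable_const
  sum_eq z := by
    have := Fintype.ofFinite G
    rw [tsum_fintype, Finset.sum_const, nsmul_eq_mul, Finset.card_univ, Nat.card_eq_fintype_card]
    refine ENNReal.mul_inv_cancel ?_ (ENNReal.natCast_ne_top _)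
    simp [Fintype.card_ne_zero]

/-- the sum over the group of the translates of a weight of a subgroup -/
lemma tsum_inv_smul {Γ : Subgroup G} (h : IsWeight Γ w) (z : Z) :
    ∑' g : G, w (g⁻¹ • z) = ∑' _ : G ⧸ Γ, 1 := by
  rw [← (IsWeight.cosetEquiv Γ).tsum_eq, ENNReal.tsum_prod']
  refine tsum_congr fun r => ?_
  rw [← h.sum_eq (r.out⁻¹ • z), ← (Equiv.inv Γ).tsum_eq (fun t => w (t • r.out⁻¹ • z))]
  refine tsum_congr fun t => ?_
  show w ((r.out * (t : G))⁻¹ • z) = w (t⁻¹ • r.out⁻¹ • z)
  rw [mul_inv_rev, Subgroup.smul_def, smul_smul]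
  rfl

lemma tsum_inv_smul_eq_index {Γ : Subgroup G} [Γ.FiniteIndex] (h : IsWeight Γ w) (z : Z) :
    ∑' g : G, w (g⁻¹ • z) = Γ.index := by
  rw [tsum_inv_smul h, ENNReal.tsum_const, ENat.card_eq_coe_natCard, mul_one]
  rfl

/-- A weight of a subgroup of finite index. -/
theorem IsWeight.over {Γ : Subgroup G} [Γ.FiniteIndex] (h : IsWeight Γ w) :
    IsWeight G (fun z => (Γ.index : ℝ≥0∞)⁻¹ * w z) where
  meas := measurable_const.mul h.meas
  sum_eq z := by
    rw [ENNReal.tsum_mul_left, ← (Equiv.inv G).tsum_eq]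
    have h1 := tsum_inv_smul_eq_index h z
    simp only [Equiv.inv_apply]
    rw [h1]
    exact ENNReal.inv_mul_cancel (by simpa using Γ.index_ne_zero_of_finite)
      (ENNReal.natCast_ne_top _)

section Cover

variable {μ : Measure Z} [MeasurableConstSMul G Z] [SMulInvariantMeasure G Z μ] [Countable G]

/-- The integral over `Γ \ Z` is bounded by the integral over a covering set. -/
theorem lintegral_weight_le {Γ : Subgroup G} [Γ.FiniteIndex] (h : IsWeight Γ w) {S : Set Z}
    (hS : MeasurableSet S) (hcov : ∀ z, ∃ g : G, g • z ∈ S) {f : Z → ℝ≥0∞} (hf : Measurable f)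
    (hinv : ∀ (g : G) z, f (g • z) = f z) :
    ∫⁻ z, f z ∂μ.withDensity w ≤ Γ.index * ∫⁻ z in S, f z ∂μ := by
  rw [lintegral_withDensity_eq_lintegral_mul _ h.meas hf]
  calc ∫⁻ z, (w * f) z ∂μ ≤ ∫⁻ z, ∑' g : G, w z * S.indicator f (g • z) ∂μ := by
        refine lintegral_mono fun z => ?_
        obtain ⟨g, hg⟩ := hcov z
        rw [ENNReal.tsum_mul_left, Pi.mul_apply]
        refine mul_le_mul_right ?_ _
        refine le_trans ?_ (ENNReal.le_tsum g)
        rw [Set.indicator_of_mem hg, hinv]
    _ = ∑' g : G, ∫⁻ z, w z * S.indicator f (g • z) ∂μ := by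
        rw [lintegral_tsum fun g => ?_]
        exact (h.meas.mul ((hf.indicator hS).comp (measurable_const_smul g))).aemeasurable
    _ = ∑' g : G, ∫⁻ z, w (g⁻¹ • z) * S.indicator f z ∂μ := by
        refine tsum_congr fun g => ?_
        rw [← IsWeight.lintegral_smul (μ := μ) g (fun z => w (g⁻¹ • z) * S.indicator f z)]
        simp only [inv_smul_smul]
    _ = ∫⁻ z, (Γ.index : ℝ≥0∞) * S.indicator f z ∂μ := by
        rw [← lintegral_tsum fun g => ?_]
        · refine lintegral_congr fun z => ?_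
          rw [ENNReal.tsum_mul_right, tsum_inv_smul_eq_index h]
        · exact ((h.meas.comp (measurable_const_smul _)).mul (hf.indicator hS)).aemeasurable
    _ = Γ.index * ∫⁻ z in S, f z ∂μ := by
        rw [lintegral_const_mul _ (hf.indicator hS), lintegral_indicator hS]

end Cover

section Unfold

variable {Δ : Type*} [Countable G] [MeasurableConstSMul G Z] [MulAction G Δ] [Countable Δ]
  {μ : Measure Z} [SMulInvariantMeasure G Z μ]

/-- The integrals which occur in the unfolding are absolutely summable. -/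
theorem summable_unfold (h : IsWeight G w) {wo : Quotient (orbitRel G Δ) → Z → ℝ≥0∞}
    (hwo : ∀ o, IsWeight (stabilizer G o.out) (wo o)) {E : Δ → Z → ℂ}
    (hE : ∀ d, Measurable (E d)) (hinv : ∀ (g : G) d z, E (g • d) (g • z) = E d z)
    (hfin : ∫⁻ z, ∑' d, ‖E d z‖ₑ ∂μ.withDensity w ≠ ∞) :
    ∑' o : Quotient (orbitRel G Δ), ∫⁻ z, ‖E o.out z‖ₑ ∂μ.withDensity (wo o) ≠ ∞ := by
  rw [lunfold h hwo (fun d => (hE d).enorm) fun g d z => by rw [hinv]] at hfin
  exact hfin

/-- **Unfolding, sorted by an invariant.** -/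
theorem hasSum_unfold (h : IsWeight G w) {wo : Quotient (orbitRel G Δ) → Z → ℝ≥0∞}
    (hwo : ∀ o, IsWeight (stabilizer G o.out) (wo o)) {E : Δ → Z → ℂ}
    (hE : ∀ d, Measurable (E d)) (hinv : ∀ (g : G) d z, E (g • d) (g • z) = E d z)
    (hfin : ∫⁻ z, ∑' d, ‖E d z‖ₑ ∂μ.withDensity w ≠ ∞) {ι : Type*} (q : Δ → ι) :
    HasSum (fun n : ι => ∑' o : {o : Quotient (orbitRel G Δ) // q o.out = n},
      ∫ z, E o.1.out z ∂μ.withDensity (wo o.1)) (∫ z, ∑' d, E d z ∂μ.withDensity w) := by
  have h1 := summable_unfold h hwo hE hinv hfin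
  have h2 : Summable fun o : Quotient (orbitRel G Δ) => ∫ z, E o.out z ∂μ.withDensity (wo o) := by
    refine Summable.of_enorm ?_
    refine ne_top_of_le_ne_top h1 (ENNReal.tsum_le_tsum fun o => ?_)
    exact enorm_integral_le_lintegral_enorm _
  have h3 := h2.hasSum
  rw [← unfold h hwo hE hinv hfin, ← (Equiv.sigmaFiberEquiv
    fun o : Quotient (orbitRel G Δ) => q o.out).hasSum_iff] at h3
  exact h3.sigma fun n => ((h2.comp_injective Subtype.val_injective).hasSum :)

end Unfold

end Fermat.Agent.LT.Theta31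

end
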