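import Fermat.Agent.LT.Theta31.HermAct
import Fermat.Agent.LT.Theta31.Weights

/-!
# Absolute convergence of `∫_{Γ\H3} F(P) θ(z, P) dP`
-/

set_option autoImplicit false

noncomputable section

open Matrix Complex MeasureTheory ENNReal
open scoped ComplexConjugate

namespace Fermat.Agent.LT.Theta31

/-! ### The integral over a Siegel domain -/

/-- the covering set -/
def siegel : Set H3 := {P | P.z ∈ Metric.closedBall (0 : ℂ) 1 ∧ 1 / 2 ≤ P.y}

lemma measurableSet_siegel : MeasurableSet siegel :=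
  (H3.measurable_z measurableSet_closedBall).inter (measurableSet_le measurable_const
    H3.measurable_y)

theorem lintegral_siegel_ne_top {C : ℝ} (hC : 0 ≤ C) :
    ∫⁻ P in siegel, ENNReal.ofReal (C * P.y) ≠ ∞ := by
  have hm : Measurable fun P : H3 => ENNReal.ofReal (C * P.y) :=
    ENNReal.measurable_ofReal.comp (H3.measurable_y.const_mul C)
  have hball : MeasurableSet (Metric.closedBall (0 : ℂ) 1) := measurableSet_closedBall
  rw [← lintegral_indicator measurableSet_siegel,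
    H3.lintegral_eq_iterated (hm.indicator measurableSet_siegel)]
  have h1 : ∀ y ∈ Set.Ioi (0 : ℝ), ENNReal.ofReal ((y ^ 3)⁻¹) *
      ∫⁻ z : ℂ, (siegel.indicator (fun P => ENNReal.ofReal (C * P.y)) (H3.ofPair (z, y))) ≤
      (Set.Ici (1 / 2 : ℝ)).indicator (fun y =>
        ENNReal.ofReal (C * y ^ (-2 : ℝ)) * volume (Metric.closedBall (0 : ℂ) 1)) y := by
    intro y hy
    have hy' : 0 < y := hy
    have h0 : ∀ z : ℂ, H3.ofPair (z, y) = H3.mk z y hy' := fun z => H3.ofPair_of_pos hy'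
    by_cases hcy : (1 / 2 : ℝ) ≤ y
    · rw [Set.indicator_of_mem (show y ∈ Set.Ici (1 / 2 : ℝ) from hcy)]
      have h2 : ∀ z : ℂ, (siegel.indicator (fun P => ENNReal.ofReal (C * P.y))
          (H3.ofPair (z, y))) = (Metric.closedBall (0 : ℂ) 1).indicator
            (fun _ => ENNReal.ofReal (C * y)) z := by
        intro z
        rw [h0]
        by_cases hz : z ∈ Metric.closedBall (0 : ℂ) 1
        · rw [Set.indicator_of_mem hz, Set.indicator_of_mem]
          · rfl
          · exact ⟨hz, hcy⟩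
        · rw [Set.indicator_of_notMem hz, Set.indicator_of_notMem]
          exact fun h => hz h.1
      simp only [h2]
      rw [lintegral_indicator hball, setLIntegral_const, ← mul_assoc,
        ← ENNReal.ofReal_mul (by positivity)]
      refine le_of_eq ?_
      congr 2
      rw [Real.rpow_neg hy'.le]
      norm_cast
      field_simp
    · rw [Set.indicator_of_notMem (show y ∉ Set.Ici (1 / 2 : ℝ) from hcy)]
      have h2 : ∀ z : ℂ, (siegel.indicator (fun P => ENNReal.ofReal (C * P.y))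
          (H3.ofPair (z, y))) = 0 := by
        intro z
        rw [h0, Set.indicator_of_notMem]
        exact fun h => hcy h.2
      simp only [h2]
      simp
  have h5 : Set.Ici (1 / 2 : ℝ) ∩ Set.Ioi (0 : ℝ) = Set.Ici (1 / 2) :=
    Set.inter_eq_left.mpr (fun y hy => lt_of_lt_of_le (by norm_num : (0 : ℝ) < 1 / 2) hy)
  have h6 : Measurable fun y : ℝ => ENNReal.ofReal (C * y ^ (-2 : ℝ)) := by fun_prop
  refine ne_top_of_le_ne_top ?_ (setLIntegral_mono' measurableSet_Ioi h1)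
  rw [lintegral_indicator measurableSet_Ici, Measure.restrict_restrict measurableSet_Ici, h5,
    lintegral_mul_const _ h6]
  refine ENNReal.mul_ne_top ?_ measure_closedBall_lt_top.ne
  rw [setLIntegral_congr Ioi_ae_eq_Ici.symm]
  have h3 : IntegrableOn (fun y : ℝ => C * y ^ (-2 : ℝ)) (Set.Ioi (1 / 2)) :=
    (integrableOn_Ioi_rpow_of_lt (by norm_num) (by norm_num)).const_mul C
  rw [← ofReal_integral_eq_lintegral_ofReal h3]
  · exact ENNReal.ofReal_ne_top
  · refine (ae_restrict_iff' measurableSet_Ioi).mpr (Filter.Eventually.of_forall fun y hy => ?_)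
    have : (0 : ℝ) < y := lt_trans (by norm_num) hy
    show (0 : ℝ) ≤ C * y ^ (-2 : ℝ)
    positivity

variable {O : Type*} [CommRing O] {σ : O →+* ℂ}

/-- `GL₂(O)` acts on hyperbolic 3-space through `σ`. -/
@[reducible] def h3Act (σ : O →+* ℂ) : MulAction (GL (Fin 2) O) H3 :=
  MulAction.compHom H3 (gl σ)

/-- `w` is a weight of `G` acting on hyperbolic 3-space. -/
def IsW (σ : O →+* ℂ) (G : Subgroup (GL (Fin 2) O)) (w : H3 → ℝ≥0∞) : Prop :=
  letI := h3Act σ
  IsWeight G w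

theorem isW_iff {G : Subgroup (GL (Fin 2) O)} {w : H3 → ℝ≥0∞} :
    IsW σ G w ↔ Measurable w ∧ ∀ P, ∑' g : G, w (gl σ g • P) = 1 := by
  let _ := h3Act σ
  exact ⟨fun h => ⟨h.meas, h.sum_eq⟩, fun h => ⟨h.1, h.2⟩⟩

lemma countable_gl [Countable O] : Countable (GL (Fin 2) O) := by
  have : Countable (Matrix (Fin 2) (Fin 2) O) := inferInstanceAs (Countable (Fin 2 → Fin 2 → O))
  have : Function.Injective (fun g : GL (Fin 2) O => (g : Matrix (Fin 2) (Fin 2) O)) :=
    Units.val_injective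
  exact this.countable

lemma exists_siegel (h : EisEmb σ) (P : H3) : ∃ g : GL (Fin 2) O, gl σ g • P ∈ siegel := by
  obtain ⟨g, h1, h2⟩ := exists_reduce h P
  refine ⟨g, ?_, h2⟩
  rw [mem_closedBall_zero_iff]
  nlinarith [norm_nonneg (gl σ g • P).z]

variable [StarRing O] (D : NTData O) (hσ : ∀ x, σ (star x) = conj (σ x))

variable (σ) in
/-- the sum of the absolute values of the terms of the theta series, without `√y` -/
def thAbs (κ : ℝ) (P : H3) : ℝ≥0∞ :=
  ∑' X : ℤ × O × ℤ, ENNReal.ofReal (Real.exp (-(κ * (D.q X + 2 * lin σ X P ^ 2))))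

lemma form_bound {r s : ℝ} (u v : ℝ) :
    s ^ 2 / (1 + r ^ 2 + s ^ 2) * (u ^ 2 + v ^ 2) ≤ (u + v * r) ^ 2 + (v * s) ^ 2 := by
  have h : 0 < 1 + r ^ 2 + s ^ 2 := by positivity
  rw [div_mul_eq_mul_div, div_le_iff₀ h]
  nlinarith [sq_nonneg (u + r * v), sq_nonneg (r * u + (r ^ 2 + s ^ 2) * v)]

include hσ in
/-- the bound for the theta series -/
theorem thAbs_le (h : EisEmb σ) {κ : ℝ} (hκ : 0 < κ) : ∃ C : ℝ, 0 ≤ C ∧ ∀ P : H3,
    1 / 2 ≤ P.y → thAbs σ D κ P ≤ ENNReal.ofReal (C * P.y) := by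
  obtain ⟨ω, hω, hgen⟩ := h.gen
  obtain ⟨hre, him2⟩ := omega_re_im hω
  have him : (σ ω).im ≠ 0 := by
    intro h0
    rw [h0] at him2
    norm_num at him2
  have hβ : ∀ u v : ℝ, (1 / 2 : ℝ) * (u ^ 2 + v ^ 2) ≤ ‖(u : ℂ) * 1 + v * σ ω‖ ^ 2 := by
    intro u v
    rw [mul_one, ← normSq_eq_norm_sq, normSq_combine hω]
    nlinarith [sq_nonneg (u - v)]
  have hspan : ∀ z : ℂ, ∃ u v : ℝ, z = (u : ℂ) * 1 + v * σ ω := by
    intro z
    refine ⟨z.re - z.im / (σ ω).im * (σ ω).re, z.im / (σ ω).im, ?_⟩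
    apply Complex.ext
    · simp
    · simp [him]
  have hC := Gauss1.gC_nonneg
  set Cg := Gauss1.gC with hCg
  set A := 2 + 2 / √κ with hA
  set B := gB (κ * (1 / 2)) with hB
  have hB0 : 0 ≤ B := gB_nonneg _
  set E := Cg * (1 + 4 / √κ) with hE
  refine ⟨Cg * A * B * B * E, by positivity, fun P hP => ?_⟩
  have hy := P.y_pos
  have key := tsum_majC_le (κ := κ) (α := 1) (δ := 1) (c := 1 / 2) (h := P.y) (β₁ := 1)
    (β₂ := σ ω) hκ one_pos one_pos (by norm_num) hy hβ hspan P.z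
  have hsurj : Function.Surjective (fun p : ℤ × ℤ × ℤ × ℤ =>
      ((p.2.2.2, (p.2.1 : O) + p.2.2.1 * ω, p.1) : ℤ × O × ℤ)) := by
    rintro ⟨a, b, d⟩
    obtain ⟨m, n, hmn⟩ := hgen b
    exact ⟨(d, m, n, a), by simp [hmn]⟩
  calc thAbs σ D κ P ≤ ∑' p : ℤ × ℤ × ℤ × ℤ, ENNReal.ofReal (Real.exp (-(κ *
        (D.q (p.2.2.2, (p.2.1 : O) + p.2.2.1 * ω, p.1) +
          2 * lin σ (p.2.2.2, (p.2.1 : O) + p.2.2.1 * ω, p.1) P ^ 2)))) :=
        ENNReal.tsum_le_tsum_comp_of_surjective hsurj _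
    _ = ∑' k : ℤ, ∑' n₁ : ℤ, ∑' n₂ : ℤ, ∑' m : ℤ, ENNReal.ofReal (Real.exp
      (-(κ * majC ((1 : ℝ) * m) (n₁ * 1 + n₂ * σ ω) ((1 : ℝ) * k) P.z P.y))) := by
        rw [ENNReal.tsum_prod']
        refine tsum_congr fun k => ?_
        rw [ENNReal.tsum_prod']
        refine tsum_congr fun n₁ => ?_
        rw [ENNReal.tsum_prod']
        refine tsum_congr fun n₂ => tsum_congr fun m => ?_
        rw [← majC_eq D hσ]
        simp
    _ ≤ _ := key
    _ ≤ _ := by
      rw [← ENNReal.ofReal_mul (gB_nonneg _), ← ENNReal.ofReal_mul (mul_nonneg (gB_nonneg _)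
        (gB_nonneg _)), ← ENNReal.ofReal_mul (mul_nonneg (mul_nonneg (gB_nonneg _)
        (gB_nonneg _)) (gB_nonneg _))]
      refine ENNReal.ofReal_le_ofReal ?_
      have hκ' : 0 < √κ := Real.sqrt_pos.mpr hκ
      have h1 : gB (κ * 1 ^ 2 / (2 * P.y ^ 2)) ≤ Cg * (A * P.y) := by
        rw [gB]
        refine mul_le_mul_of_nonneg_left ?_ hC
        have h2 : √(κ * 1 ^ 2 / (2 * P.y ^ 2)) = √κ / (√2 * P.y) := by
          rw [one_pow, mul_one, Real.sqrt_div hκ.le, Real.sqrt_mul (by norm_num),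
            Real.sqrt_sq hy.le]
        rw [h2, one_div_div, hA]
        have h3 : √2 * P.y / √κ ≤ 2 / √κ * P.y := by
          rw [div_mul_eq_mul_div]
          have : √2 ≤ 2 := by
            rw [Real.sqrt_le_left (by norm_num)]
            norm_num
          gcongr
        nlinarith
      have h3 : gB (κ * (1 ^ 2 * P.y ^ 2 / 2)) ≤ E := by
        rw [gB, hE]
        refine mul_le_mul_of_nonneg_left ?_ hC
        have h2 : √κ / 4 ≤ √(κ * (1 ^ 2 * P.y ^ 2 / 2)) := by
          refine Real.le_sqrt_of_sq_le ?_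
          rw [div_pow, Real.sq_sqrt hκ.le]
          nlinarith [mul_pos hκ hy, mul_le_mul hP hP (by norm_num) hy.le]
        have h4 : 1 / √(κ * (1 ^ 2 * P.y ^ 2 / 2)) ≤ 4 / √κ := by
          rw [div_le_div_iff₀ (lt_of_lt_of_le (by positivity) h2) hκ']
          linarith
        linarith
      calc gB (κ * 1 ^ 2 / (2 * P.y ^ 2)) * gB (κ * (1 / 2)) * gB (κ * (1 / 2)) *
            gB (κ * (1 ^ 2 * P.y ^ 2 / 2)) ≤ Cg * (A * P.y) * B * B * E := by
            have := gB_nonneg (κ * (1 ^ 2 * P.y ^ 2 / 2))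
            gcongr
        _ = _ := by ring

lemma measurable_thAbs [Countable O] (κ : ℝ) : Measurable (thAbs σ D κ) := by
  unfold thAbs
  refine Measurable.tsum fun X => ?_
  have := (continuous_lin (σ := σ) X)
  refine ENNReal.measurable_ofReal.comp (Continuous.measurable ?_)
  fun_prop

include hσ in
lemma thAbs_smul (h : EisEmb σ) (κ : ℝ) (g : GL (Fin 2) O) (P : H3) :
    thAbs σ D κ (gl σ g • P) = thAbs σ D κ P := by
  let _ := hermAct D hσ h.inj
  unfold thAbs
  rw [← (MulAction.toPerm g : ℤ × O × ℤ ≃ ℤ × O × ℤ).tsum_eq]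
  refine tsum_congr fun X => ?_
  have h1 : (MulAction.toPerm g : ℤ × O × ℤ ≃ ℤ × O × ℤ) X =
      D.actM (g : Matrix (Fin 2) (Fin 2) O) X := rfl
  rw [h1, q_actM_gl D hσ h, lin_actM_gl D hσ h]

variable {G : Subgroup (GL (Fin 2) O)} {w : H3 → ℝ≥0∞}

include hσ in
/-- **Absolute convergence.** -/
theorem lintegral_thAbs_ne_top (h : EisEmb σ) [G.FiniteIndex] (hw : IsW σ G w) {κ : ℝ}
    (hκ : 0 < κ) : ∫⁻ P, thAbs σ D κ P ∂volume.withDensity w ≠ ∞ := by
  let _ := h3Act σ
  have := h.countable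
  have : Countable (GL (Fin 2) O) := countable_gl
  have : MeasurableConstSMul (GL (Fin 2) O) H3 :=
    ⟨fun g => (measurable_const_smul (gl σ g) : Measurable fun P : H3 => gl σ g • P)⟩
  have : SMulInvariantMeasure (GL (Fin 2) O) H3 volume :=
    ⟨fun g s hs => measure_preimage_smul_of_nullMeasurableSet hs.nullMeasurableSet (gl σ g)⟩
  obtain ⟨C, hC0, hC⟩ := thAbs_le D hσ h hκ
  have h2 : ∫⁻ P, thAbs σ D κ P ∂volume.withDensity w ≤
      G.index * ∫⁻ P in siegel, thAbs σ D κ P :=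
    lintegral_weight_le (μ := volume) hw measurableSet_siegel (exists_siegel h)
      (measurable_thAbs D κ) (thAbs_smul D hσ h κ)
  have h3 : ∫⁻ P in siegel, thAbs σ D κ P ≤ ∫⁻ P in siegel, ENNReal.ofReal (C * P.y) :=
    setLIntegral_mono (ENNReal.measurable_ofReal.comp (H3.measurable_y.const_mul C))
      fun P hP => hC P hP.2
  refine ne_top_of_le_ne_top ?_ (h2.trans (mul_le_mul_right h3 _))
  exact ENNReal.mul_ne_top (ENNReal.natCast_ne_top _) (lintegral_siegel_ne_top hC0)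

end Fermat.Agent.LT.Theta31

end
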