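import Fermat.Agent.LT.Theta31.LiftLevel
import Fermat.Agent.LT.Theta31.Conv

/-!
# Integrability of the theta kernel over `Γ \ H3`
-/

set_option autoImplicit false

noncomputable section

open Complex MeasureTheory NumberField
open scoped Real ComplexConjugate ENNReal

namespace Fermat.Agent.LT.Theta31

section

variable {O : Type*} [CommRing O] [StarRing O] {σ : O →+* ℂ} {ω : O} (D : NTData O)

omit [StarRing O] in
/-- periodic functions are bounded -/
theorem PerT.bounded (hω : σ ω = ωC) (hrep : ∀ b : O, ∃ x y : ℤ, b = x + y * ω) {N : ℕ} [NeZero N]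
    {c : ℤ × O × ℤ → ℂ} (hc : PerT N c) : ∃ B : ℝ, 0 ≤ B ∧ ∀ X, ‖c X‖ ≤ B := by
  refine ⟨∑ r : Fin 4 → ZMod N, ‖c (toTriple ω (rv r))‖,
    Finset.sum_nonneg fun _ _ => norm_nonneg _, fun X => ?_⟩
  obtain ⟨n, rfl⟩ := (toTriple_bijective hω hrep).2 X
  exact (hc.per ω).bound n

theorem norm_theta_le {c : ℤ × O × ℤ → ℂ} {B : ℝ} (hB : ∀ X, ‖c X‖ ≤ B) (z : ℂ) (P : H3) :
    ‖D.theta σ c z P‖ₑ ≤ ENNReal.ofReal (B * √z.im) * thAbs σ D (2 * π * z.im) P := by
  have hB0 : 0 ≤ B := (norm_nonneg _).trans (hB 0)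
  unfold NTData.theta thAbs
  rw [← ENNReal.tsum_mul_left]
  refine enorm_tsum_le_tsum_enorm.trans (ENNReal.tsum_le_tsum fun X => ?_)
  rw [← ofReal_norm, norm_mul, norm_kern, ← ENNReal.ofReal_mul (by positivity)]
  refine ENNReal.ofReal_le_ofReal ?_
  rw [← mul_assoc]
  have h1 : ‖c X‖ * √z.im ≤ B * √z.im := mul_le_mul_of_nonneg_right (hB X) (Real.sqrt_nonneg _)
  exact mul_le_mul_of_nonneg_right h1 (Real.exp_nonneg _)

/-- **Integrability of the theta function in `P`.** -/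
theorem integrable_theta [Countable O] (hσ : ∀ x, σ (star x) = conj (σ x)) (hω : σ ω = ωC)
    (hrep : ∀ b : O, ∃ x y : ℤ, b = x + y * ω) {N : ℕ} [NeZero N] {c : ℤ × O × ℤ → ℂ}
    (hc : PerT N c) (z : ℂ) (hz : 0 < z.im) (ν : Measure H3)
    (hν : ∫⁻ P, thAbs σ D (2 * π * z.im) P ∂ν ≠ ∞) : Integrable (D.theta σ c z) ν := by
  obtain ⟨B, hB0, hB⟩ := hc.bounded hω hrep
  refine ⟨(measurable_theta D hσ hω hrep hc z hz).aestronglyMeasurable, ?_⟩
  rw [HasFiniteIntegral]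
  refine (lintegral_mono fun P => norm_theta_le D hB z P).trans_lt ?_
  rw [lintegral_const_mul' _ _ ENNReal.ofReal_ne_top]
  exact ENNReal.mul_lt_top ENNReal.ofReal_lt_top (lt_top_iff_ne_top.mpr hν)

end

section K

variable {K : Type} [Field K] [NumberField K] [IsCyclotomicExtension {3} ℚ K] {σ : K →+* ℂ}

variable (σ) in
theorem eisEmb_K : EisEmb (σO σ) := by
  obtain ⟨ω, hω⟩ := EisK.exists_omega' (K := K)
  refine ⟨σO_injective σ, ω, ?_, EisK.exists_coord hω⟩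
  have := congrArg (σO σ) hω
  rwa [map_add, map_add, map_pow, map_one, map_zero] at this

variable [StarRing (𝓞 K)]

theorem integrable_theta_K (DN : NTData (𝓞 K)) (hσ : ∀ x, σO σ (star x) = conj (σO σ x)) {N : ℕ}
    [NeZero N] {c : ℤ × 𝓞 K × ℤ → ℂ} (hc : PerT N c) (z : ℂ) (hz : 0 < z.im)
    {G : Subgroup (GL (Fin 2) (𝓞 K))} [G.FiniteIndex] {w : H3 → ℝ≥0∞} (hw : IsW (σO σ) G w) :
    Integrable (DN.theta (σO σ) c z) ((volume : Measure H3).withDensity w) := by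
  obtain ⟨ω, hω, hrep⟩ := exists_ωK σ
  exact integrable_theta DN hσ hω hrep hc z hz _
    (lintegral_thAbs_ne_top DN hσ (eisEmb_K σ) hw (by positivity))

end K

end Fermat.Agent.LT.Theta31
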