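import Fermat.Agent.LT.Theta31.RadInt

/-!
# The radial kernel with Abel transform `cosh t * exp (-κ sinh² t)`
-/

set_option autoImplicit false

open MeasureTheory Set Filter Topology
open scoped ENNReal

noncomputable section

namespace Fermat.Agent.LT.Theta31

open H3

/-- The kernel. -/
def kk (κ u : ℝ) : ℝ := (2 * κ * u ^ 2 - 1) * Real.exp (-κ * (u ^ 2 - 1)) / (2 * Real.pi)

theorem continuous_kk (κ : ℝ) : Continuous (kk κ) := by
  unfold kk
  fun_prop

theorem pow_mul_exp_le {κ : ℝ} (hκ : 0 < κ) (n : ℕ) (u : ℝ) :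
    u ^ (2 * n) * Real.exp (-κ * u ^ 2) ≤ n.factorial / κ ^ n := by
  have h1 := Real.pow_div_factorial_le_exp (κ * u ^ 2) (by positivity) n
  have hf : (0 : ℝ) < n.factorial := by exact_mod_cast n.factorial_pos
  rw [div_le_iff₀ hf, mul_pow, ← pow_mul] at h1
  rw [le_div_iff₀ (by positivity)]
  have h2 : Real.exp (-κ * u ^ 2) * Real.exp (κ * u ^ 2) = 1 := by
    rw [← Real.exp_add]
    simp
  calc u ^ (2 * n) * Real.exp (-κ * u ^ 2) * κ ^ n
      = (κ ^ n * u ^ (2 * n)) * Real.exp (-κ * u ^ 2) := by ring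
    _ ≤ (Real.exp (κ * u ^ 2) * n.factorial) * Real.exp (-κ * u ^ 2) := by gcongr
    _ = n.factorial * (Real.exp (-κ * u ^ 2) * Real.exp (κ * u ^ 2)) := by ring
    _ = n.factorial := by rw [h2, mul_one]

theorem abs_kk_le {κ : ℝ} (hκ : 0 < κ) : ∃ C, 0 ≤ C ∧ ∀ u, 1 ≤ u → |kk κ u| ≤ C / u ^ 4 := by
  refine ⟨Real.exp κ * (2 * κ * (6 / κ ^ 3) + 2 / κ ^ 2) / (2 * Real.pi), by positivity,
    fun u hu => ?_⟩
  have hu0 : 0 < u := by linarith
  have h3 := pow_mul_exp_le hκ 3 u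
  have h2 := pow_mul_exp_le hκ 2 u
  norm_num [Nat.factorial] at h3 h2
  have he : Real.exp (-κ * (u ^ 2 - 1)) = Real.exp κ * Real.exp (-(κ * u ^ 2)) := by
    rw [← Real.exp_add]
    congr 1
    ring
  rw [le_div_iff₀ (by positivity)]
  unfold kk
  rw [he, abs_div, abs_of_pos (show 0 < 2 * Real.pi by positivity), abs_mul,
    abs_of_pos (show 0 < Real.exp κ * Real.exp (-(κ * u ^ 2)) by positivity), div_mul_eq_mul_div]
  refine div_le_div_of_nonneg_right ?_ (by positivity)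
  have h4 : |2 * κ * u ^ 2 - 1| ≤ 2 * κ * u ^ 2 + 1 := by
    rw [abs_le]
    constructor <;> nlinarith [mul_pos hκ (pow_pos hu0 2)]
  calc |2 * κ * u ^ 2 - 1| * (Real.exp κ * Real.exp (-(κ * u ^ 2))) * u ^ 4
      ≤ (2 * κ * u ^ 2 + 1) * (Real.exp κ * Real.exp (-(κ * u ^ 2))) * u ^ 4 := by gcongr
    _ = Real.exp κ * (2 * κ * (u ^ 6 * Real.exp (-(κ * u ^ 2))) +
          u ^ 4 * Real.exp (-(κ * u ^ 2))) := by ring
    _ ≤ _ := by gcongr

theorem integrableOn_of_pow_four {k : ℝ → ℝ} (hk : Measurable k) {C : ℝ} (hC0 : 0 ≤ C)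
    (hC : ∀ u, 1 ≤ u → |k u| ≤ C / u ^ 4) {c : ℝ} (hc : 1 ≤ c) : IntegrableOn k (Ioi c) := by
  refine ⟨hk.aestronglyMeasurable, ?_⟩
  have h1 := lintegral_pow_four hC0 (show 0 < c by linarith)
  refine lt_of_le_of_lt ?_ (h1 ▸ ENNReal.ofReal_lt_top)
  refine setLIntegral_mono' measurableSet_Ioi fun u hu => ?_
  rw [← ofReal_norm]
  exact ENNReal.ofReal_le_ofReal (hC u (hc.trans (le_of_lt hu)))

theorem hasDerivAt_kk (κ u : ℝ) :
    HasDerivAt (fun u => -(u * Real.exp (-κ * (u ^ 2 - 1))) / (2 * Real.pi)) (kk κ u) u := by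
  have h1 : HasDerivAt (fun u : ℝ => -κ * (u ^ 2 - 1)) (-κ * (2 * u)) u := by
    simpa using ((hasDerivAt_pow 2 u).sub_const 1).const_mul (-κ)
  have h2 := ((hasDerivAt_id u).mul h1.exp).neg.div_const (2 * Real.pi)
  refine h2.congr_deriv ?_
  unfold kk
  simp only [id]
  ring

theorem abel_kk {κ : ℝ} (hκ : 0 < κ) (t : ℝ) :
    H3.abel (kk κ) t = Real.cosh t * Real.exp (-κ * Real.sinh t ^ 2) := by
  obtain ⟨C, hC0, hC⟩ := abs_kk_le hκ
  have h1 : Tendsto (fun u : ℝ => -(u * Real.exp (-κ * (u ^ 2 - 1))) / (2 * Real.pi)) atTop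
      (𝓝 0) := by
    have h2 : Tendsto (fun u : ℝ => Real.exp κ / κ / (2 * Real.pi) / u) atTop (𝓝 0) :=
      tendsto_const_nhds.div_atTop tendsto_id
    refine squeeze_zero_norm' ?_ h2
    filter_upwards [eventually_gt_atTop 0] with u hu
    have h3 := pow_mul_exp_le hκ 1 u
    norm_num at h3
    have he : Real.exp (-κ * (u ^ 2 - 1)) = Real.exp κ * Real.exp (-(κ * u ^ 2)) := by
      rw [← Real.exp_add]
      congr 1
      ring
    rw [Real.norm_eq_abs, neg_div, abs_neg, abs_of_pos (by positivity), he, le_div_iff₀ hu]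
    have h4 := Real.pi_pos
    calc u * (Real.exp κ * Real.exp (-(κ * u ^ 2))) / (2 * Real.pi) * u
        = Real.exp κ * (u ^ 2 * Real.exp (-(κ * u ^ 2))) / (2 * Real.pi) := by ring
      _ ≤ Real.exp κ * κ⁻¹ / (2 * Real.pi) := by gcongr
      _ = _ := by ring
  rw [H3.abel, integral_Ioi_of_hasDerivAt_of_tendsto' (fun u _ => hasDerivAt_kk κ u)
    (integrableOn_of_pow_four (continuous_kk κ).measurable hC0 hC (Real.one_le_cosh t)) h1,
    smul_eq_mul, show Real.cosh t ^ 2 - 1 = Real.sinh t ^ 2 by rw [Real.cosh_sq]; ring]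
  have := Real.pi_ne_zero
  field_simp
  ring

theorem integral_abel_kk {κ : ℝ} (hκ : 0 < κ) : ∫ t, H3.abel (kk κ) t = √(Real.pi / κ) := by
  have h1 := integral_sinh (fun s : ℝ => Real.exp (-κ * s ^ 2))
  rw [integral_gaussian] at h1
  rw [← h1]
  refine integral_congr_ae (Eventually.of_forall fun t => ?_)
  simp only [smul_eq_mul]
  rw [abel_kk hκ]

/-- **The symmetric identity.** -/
theorem symm_kk {κ κ' : ℝ} (hκ : 0 < κ) (hκ' : 0 < κ') (Q : H3) :
    ∫ P : H3, kk κ (cu Q P) * Real.exp (-κ' * tau P ^ 2) =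
      ∫ P : H3, kk κ' (cu Q P) * Real.exp (-κ * tau P ^ 2) := by
  have key : ∀ {κ κ' : ℝ}, 0 < κ → 0 < κ' →
      ∫ P : H3, kk κ (cu Q P) * Real.exp (-κ' * tau P ^ 2) =
      (Real.cosh (sg Q))⁻¹ * ∫ σ : ℝ, (Real.cosh (sg Q - σ) *
        Real.exp (-κ * Real.sinh (sg Q - σ) ^ 2)) *
        (Real.cosh σ * Real.exp (-κ' * Real.sinh σ ^ 2)) := by
    intro κ κ' hκ hκ'
    obtain ⟨C, hC0, hC⟩ := abs_kk_le hκ
    have h1 := integral_sg (continuous_kk κ).measurable hC0 hC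
      (φ := fun σ => Real.exp (-κ' * Real.sinh σ ^ 2)) (by fun_prop) (B := 1) (fun σ => by
        rw [abs_of_pos (Real.exp_pos _), Real.exp_le_one_iff]
        have := sq_nonneg (Real.sinh σ)
        nlinarith) Q
    simp only [sinh_sg] at h1
    rw [h1, ← integral_const_mul]
    refine integral_congr_ae (Eventually.of_forall fun σ => ?_)
    simp only
    rw [abel_kk hκ]
    field_simp
  rw [key hκ hκ', key hκ' hκ]
  congr 1
  rw [← integral_sub_left_eq_self (fun σ => (Real.cosh (sg Q - σ) *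
        Real.exp (-κ' * Real.sinh (sg Q - σ) ^ 2)) *
        (Real.cosh σ * Real.exp (-κ * Real.sinh σ ^ 2))) volume (sg Q)]
  refine integral_congr_ae (Eventually.of_forall fun σ => ?_)
  simp only
  rw [sub_sub_cancel]
  ring

end Fermat.Agent.LT.Theta31
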