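import Fermat.Agent.LT.Unfold
import Fermat.Agent.LT.Theta31.GaussKer

/-!
# Positive coefficients of the theta lift

`F` is bounded, invariant under `G` and a simultaneous eigenfunction of the radial kernels with the
eigenvalue at `ν = 0`. Then `∫_{G \ H3} F exp (-κ T²) = A √(π / κ)` for all `κ > 0`, where
`T` is `sinh` of the distance to a plane and `T²` is `G`-invariant.
-/

set_option autoImplicit false

open MeasureTheory Set Filter Topology
open scoped ENNReal

noncomputable section

namespace Fermat.Agent.LT.Theta31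

open H3

/-- `F` is an eigenfunction of the radial kernels of compact support, with the eigenvalue at
`ν = 0`. -/
def RadEig (F : H3 → ℂ) : Prop :=
  ∀ k : ℝ → ℝ, Continuous k → HasCompactSupport k → ∀ P : H3,
    ∫ Q, (k (cu P Q) : ℂ) * F Q = ((∫ t, H3.abel k t : ℝ) : ℂ) * F P

/-- The cut-off function. -/
def cutoff (n : ℕ) (u : ℝ) : ℝ := max 0 (min 1 ((n : ℝ) + 2 - |u|))

theorem continuous_cutoff (n : ℕ) : Continuous (cutoff n) := by
  unfold cutoff
  fun_prop

theorem cutoff_nonneg (n : ℕ) (u : ℝ) : 0 ≤ cutoff n u := le_max_left _ _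

theorem cutoff_le_one (n : ℕ) (u : ℝ) : cutoff n u ≤ 1 :=
  max_le zero_le_one (min_le_left _ _)

theorem cutoff_eq_one {n : ℕ} {u : ℝ} (h : |u| ≤ n + 1) : cutoff n u = 1 := by
  unfold cutoff
  rw [min_eq_left (by linarith), max_eq_right zero_le_one]

theorem cutoff_eq_zero {n : ℕ} {u : ℝ} (h : n + 2 ≤ |u|) : cutoff n u = 0 := by
  unfold cutoff
  rw [max_eq_left]
  exact (min_le_right _ _).trans (by linarith)

theorem eventually_cutoff (u : ℝ) : ∀ᶠ n : ℕ in atTop, cutoff n u = 1 := by
  filter_upwards [eventually_ge_atTop ⌈|u|⌉₊] with n hn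
  refine cutoff_eq_one ?_
  have := Nat.ceil_le.mp hn
  linarith

theorem hasCompactSupport_cutoff (n : ℕ) : HasCompactSupport (cutoff n) := by
  refine HasCompactSupport.intro (K := Metric.closedBall 0 (n + 2)) (isCompact_closedBall _ _)
    fun u hu => cutoff_eq_zero ?_
  rw [Metric.mem_closedBall, dist_zero_right, Real.norm_eq_abs, not_le] at hu
  exact hu.le

/-- Extension to kernels with decay. -/
theorem RadEig.of_decay {F : H3 → ℂ} (hF : RadEig F) (hFm : Measurable F) {B : ℝ}
    (hB : ∀ P, ‖F P‖ ≤ B) {k : ℝ → ℝ} (hk : Continuous k) {C : ℝ} (hC0 : 0 ≤ C)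
    (hC : ∀ u, 1 ≤ u → |k u| ≤ C / u ^ 4) (P : H3) :
    ∫ Q, (k (cu P Q) : ℂ) * F Q = ((∫ t, H3.abel k t : ℝ) : ℂ) * F P := by
  let kn : ℕ → ℝ → ℝ := fun n u => cutoff n u * k u
  have hkn : ∀ n, Continuous (kn n) := fun n => (continuous_cutoff n).mul hk
  have hkc : ∀ n, HasCompactSupport (kn n) := fun n => (hasCompactSupport_cutoff n).mul_right
  have hle : ∀ n u, |kn n u| ≤ |k u| := by
    intro n u
    simp only [kn]
    rw [abs_mul, abs_of_nonneg (cutoff_nonneg n u)]
    exact mul_le_of_le_one_left (abs_nonneg _) (cutoff_le_one n u)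
  have hlim : ∀ u, Tendsto (fun n => kn n u) atTop (𝓝 (k u)) := by
    intro u
    refine tendsto_const_nhds.congr' ?_
    filter_upwards [eventually_cutoff u] with n hn
    simp only [kn, hn, one_mul]
  have h1 : Tendsto (fun n => ∫ Q, (kn n (cu P Q) : ℂ) * F Q) atTop
      (𝓝 (∫ Q, (k (cu P Q) : ℂ) * F Q)) := by
    refine tendsto_integral_of_dominated_convergence (fun Q => |k (cu P Q)| * B) ?_ ?_ ?_ ?_
    · intro n
      refine Measurable.aestronglyMeasurable ?_
      exact (Complex.measurable_ofReal.comp ((hkn n).measurable.comp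
        (continuous_cu_right P).measurable)).mul hFm
    · exact (integrable_radial hk.measurable hC0 hC P).abs.mul_const B
    · intro n
      refine Eventually.of_forall fun Q => ?_
      rw [norm_mul, Complex.norm_real, Real.norm_eq_abs]
      exact mul_le_mul (hle n _) (hB Q) (norm_nonneg _) (abs_nonneg _)
    · refine Eventually.of_forall fun Q => ?_
      exact ((Complex.continuous_ofReal.tendsto _).comp (hlim (cu P Q))).mul_const (F Q)
  have h2 : Tendsto (fun n => ∫ t, H3.abel (kn n) t) atTop (𝓝 (∫ t, H3.abel k t)) := by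
    have hi : ∀ t : ℝ, IntegrableOn k (Ioi (Real.cosh t)) := fun t =>
      integrableOn_of_pow_four hk.measurable hC0 hC (Real.one_le_cosh t)
    have hmeas : ∀ n, AEStronglyMeasurable (fun t => H3.abel (kn n) t) := by
      intro n
      exact (H3.continuous_abel (hkn n) (C := n + 2) (fun t ht => by
        simp only [kn]
        rw [cutoff_eq_zero (ht.trans (le_abs_self t)), zero_mul])).aestronglyMeasurable
    refine tendsto_integral_of_dominated_convergence
      (fun t => 2 * Real.pi * (C / 3) * (1 + t ^ 2)⁻¹) hmeas ?_ ?_ ?_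
    · exact integrable_inv_one_add_sq.const_mul _
    · intro n
      refine Eventually.of_forall fun t => ?_
      have hc := Real.cosh_pos t
      have hc1 := Real.one_le_cosh t
      have h3 : ‖∫ u in Ioi (Real.cosh t), kn n u‖ ≤ C / (3 * Real.cosh t ^ 3) := by
        have h4 : Integrable (fun u : ℝ => C / u ^ 4) (volume.restrict (Ioi (Real.cosh t))) := by
          have h5 := lintegral_pow_four hC0 hc
          refine ⟨by
            refine Measurable.aestronglyMeasurable ?_
            fun_prop, ?_⟩
          refine lt_of_le_of_lt ?_ (h5 ▸ ENNReal.ofReal_lt_top)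
          refine setLIntegral_mono' measurableSet_Ioi fun u hu => ?_
          have hu' : 0 < u := hc.trans hu
          rw [← ofReal_norm, Real.norm_eq_abs, abs_of_nonneg (by positivity)]
        refine (norm_integral_le_of_norm_le h4 ((ae_restrict_iff' measurableSet_Ioi).mpr
          (Eventually.of_forall fun u hu => (hle n u).trans
            (hC u (hc1.trans (le_of_lt hu)))))).trans ?_
        have h6 := lintegral_pow_four hC0 hc
        rw [← ofReal_integral_eq_lintegral_ofReal h4 ((ae_restrict_iff' measurableSet_Ioi).mpr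
          (Eventually.of_forall fun u hu => by
            have hu' : 0 < u := hc.trans hu
            show 0 ≤ C / u ^ 4
            positivity)), ENNReal.ofReal_eq_ofReal_iff ?_ (by positivity)] at h6
        · exact h6.le
        · refine setIntegral_nonneg measurableSet_Ioi fun u hu => ?_
          have hu' : 0 < u := hc.trans hu
          positivity
      rw [H3.abel, norm_smul, Real.norm_eq_abs, abs_of_pos (by positivity)]
      have h7 := inv_cosh_sq_le t
      calc 2 * Real.pi * ‖∫ u in Ioi (Real.cosh t), kn n u‖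
          ≤ 2 * Real.pi * (C / (3 * Real.cosh t ^ 3)) := by gcongr
        _ = 2 * Real.pi * (C / 3) * (1 / Real.cosh t ^ 3) := by field_simp
        _ ≤ 2 * Real.pi * (C / 3) * (1 / Real.cosh t ^ 2) := by
          have h8 : Real.cosh t ^ 2 ≤ Real.cosh t ^ 3 := pow_le_pow_right₀ hc1 (by norm_num)
          gcongr
        _ ≤ _ := by gcongr
    · refine Eventually.of_forall fun t => ?_
      simp only [H3.abel]
      refine Tendsto.const_smul ?_ _
      refine tendsto_integral_of_dominated_convergence (fun u => |k u|) ?_ (hi t).abs ?_ ?_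
      · exact fun n => (hkn n).aestronglyMeasurable
      · exact fun n => Eventually.of_forall fun u => hle n u
      · exact Eventually.of_forall fun u => hlim u
  have h3 : Tendsto (fun n => ((∫ t, H3.abel (kn n) t : ℝ) : ℂ) * F P) atTop
      (𝓝 (((∫ t, H3.abel k t : ℝ) : ℂ) * F P)) :=
    ((Complex.continuous_ofReal.tendsto _).comp h2).mul_const (F P)
  refine tendsto_nhds_unique h1 (h3.congr fun n => ?_)
  exact (hF (kn n) (hkn n) (hkc n) P).symm

section Main

variable {G : Type*} [Group G] [Countable G] [MulAction G H3] [MeasurableConstSMul G H3]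
  [SMulInvariantMeasure G H3 volume]

/-- The two ways of unfolding the double integral. -/
theorem swap_weight {w : H3 → ℝ≥0∞} (hw : IsWeight G w) {H : H3 → H3 → ℂ}
    (hH : Measurable (Function.uncurry H)) (hinv : ∀ (g : G) P Q, H (g • P) (g • Q) = H P Q)
    (hint : Integrable (Function.uncurry H) ((volume.withDensity w).prod volume)) :
    ∫ P, ∫ Q, H P Q ∂volume ∂volume.withDensity w =
      ∫ Q, ∫ P, H P Q ∂volume ∂volume.withDensity w := by
  have : SFinite ((volume : Measure H3).withDensity w) := inferInstance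
  have hm : MeasurableConstSMul G (H3 × H3) := ⟨fun g =>
    ((measurable_const_smul g).comp measurable_fst).prodMk
      ((measurable_const_smul g).comp measurable_snd)⟩
  have : SMulInvariantMeasure G (H3 × H3) ((volume : Measure H3).prod volume) := by
    refine ⟨fun g s hs => ?_⟩
    have h := (measurePreserving_smul g (volume : Measure H3)).prod
      (measurePreserving_smul g (volume : Measure H3))
    exact h.measure_preimage hs.nullMeasurableSet
  have hW1 : IsWeight G (fun p : H3 × H3 => w p.1) :=
    ⟨hw.meas.comp measurable_fst, fun p => hw.sum_eq p.1⟩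
  have hW2 : IsWeight G (fun p : H3 × H3 => w p.2) :=
    ⟨hw.meas.comp measurable_snd, fun p => hw.sum_eq p.2⟩
  have e1 : (volume.withDensity w).prod (volume : Measure H3) =
      ((volume : Measure H3).prod volume).withDensity (fun p => w p.1) :=
    prod_withDensity_left hw.meas
  have e2 : (volume : Measure H3).prod (volume.withDensity w) =
      ((volume : Measure H3).prod volume).withDensity (fun p => w p.2) :=
    prod_withDensity_right hw.meas
  have hinv' : ∀ (g : G) (p : H3 × H3), Function.uncurry H (g • p) = Function.uncurry H p :=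
    fun g p => hinv g p.1 p.2
  have hint2 : Integrable (Function.uncurry H) ((volume : Measure H3).prod (volume.withDensity w)) := by
    rw [e2, ← hW1.integrable_iff hW2 hH hinv', ← e1]
    exact hint
  have h1 := integral_prod _ hint
  have h2 := integral_prod_symm _ hint2
  simp only [Function.uncurry_apply_pair] at h1 h2
  rw [← h1, ← h2, e1, e2]
  exact hW1.integral_eq hW2 hH hinv'

/-- **Constancy.** -/
theorem pos_coeff_aux {w : H3 → ℝ≥0∞} (hw : IsWeight G w)
    (hcu : ∀ (g : G) (P Q : H3), cu (g • P) (g • Q) = cu P Q) (g₀ : GL (Fin 2) ℂ)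
    (hT : ∀ (g : G) (P : H3), tau (g₀ • g • P) ^ 2 = tau (g₀ • P) ^ 2)
    {F : H3 → ℂ} (hF : RadEig F) (hFm : Measurable F) {B : ℝ} (hB : ∀ P, ‖F P‖ ≤ B)
    (hFinv : ∀ (g : G) P, F (g • P) = F P)
    (hfin : ∀ κ : ℝ, 0 < κ →
      ∫⁻ P, ENNReal.ofReal (Real.exp (-κ * tau (g₀ • P) ^ 2)) ∂volume.withDensity w ≠ ∞)
    {κ κ' : ℝ} (hκ : 0 < κ) (hκ' : 0 < κ') :
    (√(Real.pi / κ) : ℂ) * ∫ P, (Real.exp (-κ' * tau (g₀ • P) ^ 2) : ℂ) * F P
        ∂volume.withDensity w =
      (√(Real.pi / κ') : ℂ) * ∫ P, (Real.exp (-κ * tau (g₀ • P) ^ 2) : ℂ) * F P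
        ∂volume.withDensity w := by
  have hB0 : 0 ≤ B := (norm_nonneg _).trans (hB H3.j)
  have hτm : Measurable fun P : H3 => tau (g₀ • P) := measurable_tau.comp (measurable_const_smul g₀)
  -- one side
  have key : ∀ {κ κ' : ℝ}, 0 < κ → 0 < κ' →
      (√(Real.pi / κ) : ℂ) * ∫ P, (Real.exp (-κ' * tau (g₀ • P) ^ 2) : ℂ) * F P
        ∂volume.withDensity w =
      ∫ Q, ((∫ P : H3, kk κ (cu (g₀ • Q) P) * Real.exp (-κ' * tau P ^ 2) : ℝ) : ℂ) * F Q
        ∂volume.withDensity w := by
    intro κ κ' hκ hκ'
    obtain ⟨C, hC0, hC⟩ := abs_kk_le hκ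
    let H : H3 → H3 → ℂ := fun P Q =>
      (Real.exp (-κ' * tau (g₀ • P) ^ 2) : ℂ) * ((kk κ (cu P Q) : ℂ) * F Q)
    have hexpm : Measurable fun P : H3 => (Real.exp (-κ' * tau (g₀ • P) ^ 2) : ℂ) := by
      fun_prop
    have hH : Measurable (Function.uncurry H) := by
      refine (hexpm.comp measurable_fst).mul (Measurable.mul ?_ (hFm.comp measurable_snd))
      exact Complex.measurable_ofReal.comp
        ((continuous_kk κ).measurable.comp continuous_cu.measurable)
    have hinv : ∀ (g : G) P Q, H (g • P) (g • Q) = H P Q := by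
      intro g P Q
      simp only [H]
      rw [hT, hcu, hFinv]
    have hK : ∀ P : H3, ∫⁻ Q, ‖kk κ (cu P Q)‖ₑ ≤ ENNReal.ofReal (4 * Real.pi * C / 3 * Real.pi) := by
      intro P
      refine lintegral_radial_le (continuous_kk κ).measurable hC0 hC P
    have hint : Integrable (Function.uncurry H) ((volume.withDensity w).prod volume) := by
      refine ⟨hH.aestronglyMeasurable, ?_⟩
      rw [HasFiniteIntegral, lintegral_prod _ hH.enorm.aemeasurable]
      calc ∫⁻ P, ∫⁻ Q, ‖Function.uncurry H (P, Q)‖ₑ ∂volume ∂volume.withDensity w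
          ≤ ∫⁻ P, ENNReal.ofReal (Real.exp (-κ' * tau (g₀ • P) ^ 2)) *
              (ENNReal.ofReal (4 * Real.pi * C / 3 * Real.pi) * ENNReal.ofReal B)
              ∂volume.withDensity w := by
            refine lintegral_mono fun P => ?_
            have h1 : ∀ Q, ‖Function.uncurry H (P, Q)‖ₑ =
                ENNReal.ofReal (Real.exp (-κ' * tau (g₀ • P) ^ 2)) *
                  (‖kk κ (cu P Q)‖ₑ * ‖F Q‖ₑ) := by
              intro Q
              simp only [Function.uncurry_apply_pair, H]
              rw [enorm_mul, enorm_mul, ← ofReal_norm, Complex.norm_real, Real.norm_eq_abs,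
                abs_of_pos (Real.exp_pos _), ← ofReal_norm ((kk κ (cu P Q) : ℝ) : ℂ),
                Complex.norm_real, ofReal_norm]
            simp only [h1]
            rw [lintegral_const_mul' _ _ ENNReal.ofReal_ne_top]
            refine mul_le_mul' le_rfl ?_
            refine (lintegral_mono (g := fun Q => ‖kk κ (cu P Q)‖ₑ * ENNReal.ofReal B)
              fun Q => ?_).trans ?_
            · refine mul_le_mul' le_rfl ?_
              rw [← ofReal_norm]
              exact ENNReal.ofReal_le_ofReal (hB Q)
            · rw [lintegral_mul_const' _ _ ENNReal.ofReal_ne_top]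
              exact mul_le_mul' (hK P) le_rfl
        _ < ∞ := by
            rw [lintegral_mul_const' _ _ (by finiteness)]
            exact ENNReal.mul_lt_top (lt_top_iff_ne_top.mpr (hfin κ' hκ')) (by finiteness)
    have h1 := swap_weight hw hH hinv hint
    have h2 : ∀ P, ∫ Q, H P Q = (√(Real.pi / κ) : ℂ) *
        ((Real.exp (-κ' * tau (g₀ • P) ^ 2) : ℂ) * F P) := by
      intro P
      simp only [H]
      rw [integral_const_mul, hF.of_decay hFm hB (continuous_kk κ) hC0 hC P, integral_abel_kk hκ]
      ring
    have h3 : ∀ Q, ∫ P, H P Q =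
        ((∫ P : H3, kk κ (cu (g₀ • Q) P) * Real.exp (-κ' * tau P ^ 2) : ℝ) : ℂ) * F Q := by
      intro Q
      simp only [H]
      rw [← integral_smul_eq (fun P : H3 => kk κ (cu (g₀ • Q) P) * Real.exp (-κ' * tau P ^ 2)) g₀,
        ← integral_complex_ofReal, ← integral_mul_const]
      refine integral_congr_ae (Eventually.of_forall fun P => ?_)
      simp only
      rw [cu_smul, cu_comm Q P]
      push_cast
      ring
    simp only [h2, h3] at h1
    rw [← h1, integral_const_mul]
  rw [key hκ hκ', key hκ' hκ]
  refine integral_congr_ae (Eventually.of_forall fun Q => ?_)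
  simp only
  rw [symm_kk hκ hκ' (g₀ • Q)]

end Main

end Fermat.Agent.LT.Theta31
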