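import Fermat.Agent.LT.Theta31.Defs
import Fermat.Agent.LT.Theta31.PosCoeff

/-!
# Normal form of positive vectors; positive coefficients
-/

set_option autoImplicit false

open Complex Matrix MeasureTheory
open scoped ComplexConjugate MatrixGroups ENNReal

noncomputable section

namespace Fermat.Agent.LT.Theta31

open H3

theorem isHermitian_hM (a : ℝ) (b : ℂ) (d : ℝ) : (hM a b d).IsHermitian := by
  unfold hM
  rw [Matrix.IsHermitian]
  ext i j
  fin_cases i <;> fin_cases j <;> simp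

/-- `C diag(1, -1) C^* = (0, -i; i, 0)`. -/
def cayl (ε : ℝ) : Matrix (Fin 2) (Fin 2) ℂ :=
  ((√2 : ℝ) : ℂ)⁻¹ • !![1, 1; ε * I, -ε * I]

theorem cayl_mul {ε : ℝ} (hε : ε ^ 2 = 1) :
    cayl ε * !![(ε : ℂ), 0; 0, -(ε : ℂ)] * (cayl ε)ᴴ = !![0, -I; I, 0] := by
  have h2 : ((√2 : ℝ) : ℂ) ≠ 0 := ofReal_ne_zero.mpr (by positivity)
  have h3 : ((√2 : ℝ) : ℂ) * ((√2 : ℝ) : ℂ) = 2 := by
    rw [← ofReal_mul, Real.mul_self_sqrt (by norm_num)]
    norm_num
  have h4 : (ε : ℂ) ^ 2 = 1 := by exact_mod_cast hε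
  have hH : (cayl ε)ᴴ = ((√2 : ℝ) : ℂ)⁻¹ • !![1, -ε * I; 1, ε * I] := by
    unfold cayl
    rw [Matrix.conjTranspose_smul]
    congr 1
    · simp
    · ext i j
      fin_cases i <;> fin_cases j <;> simp
  rw [hH]
  unfold cayl
  rw [Matrix.smul_mul, Matrix.smul_mul, Matrix.mul_smul, smul_smul, Matrix.mul_fin_two,
    Matrix.mul_fin_two, ← mul_inv, h3]
  ext i j
  fin_cases i <;> fin_cases j
  · simp
  · simp
    linear_combination (-I) * h4
  · simp
    linear_combination I * h4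
  · simp

theorem det_cayl {ε : ℝ} (hε : ε ^ 2 = 1) : ‖(cayl ε).det‖ = 1 := by
  have h3 : ((√2 : ℝ) : ℂ) * ((√2 : ℝ) : ℂ) = 2 := by
    rw [← ofReal_mul, Real.mul_self_sqrt (by norm_num)]
    norm_num
  have h1 : (cayl ε).det = -(ε : ℂ) * I := by
    unfold cayl
    rw [det_smul, det_fin_two_of, Fintype.card_fin, pow_two, ← mul_inv, h3]
    ring
  have h2 : |ε| = 1 := by
    have h4 : |ε| ^ 2 = 1 := by rw [sq_abs]; exact hε
    nlinarith [abs_nonneg ε]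
  rw [h1, norm_mul, norm_neg, norm_I, mul_one, norm_real, Real.norm_eq_abs, h2]

/-- **Normal form of positive vectors.** -/
theorem exists_normal_pos {a d : ℝ} {b : ℂ} (hq : 0 < qR a b d) :
    ∃ g : GL (Fin 2) ℂ, ∀ P : H3, tR a b d P = √(qR a b d) * tau (g • P) := by
  set q := qR a b d with hqd
  have hH := isHermitian_hM a b d
  have hs := hH.spectral_theorem
  rw [Unitary.conjStarAlgAut_apply] at hs
  set U := hH.eigenvectorUnitary with hU
  set l0 := hH.eigenvalues 0 with hl0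
  set l1 := hH.eigenvalues 1 with hl1
  have hdet : l0 * l1 = -q := by
    have h1 := hH.det_eq_prod_eigenvalues
    rw [det_hM, Fin.prod_univ_two, ← hl0, ← hl1] at h1
    have h2 : ((l0 * l1 : ℝ) : ℂ) = ((-q : ℝ) : ℂ) := by
      push_cast
      push_cast at h1
      exact h1.symm
    exact ofReal_injective h2
  have hl0ne : l0 ≠ 0 := by
    intro h
    rw [h, zero_mul] at hdet
    linarith
  have hl1ne : l1 ≠ 0 := by
    intro h
    rw [h, mul_zero] at hdet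
    linarith
  -- the sign
  obtain ⟨ε, hε, hε0, hε1⟩ : ∃ ε : ℝ, ε ^ 2 = 1 ∧ l0 = ε * |l0| ∧ l1 = -ε * |l1| := by
    rcases lt_or_gt_of_ne hl0ne with h | h
    · refine ⟨-1, by norm_num, by rw [abs_of_neg h]; ring, ?_⟩
      have h1 : 0 < l1 := by
        by_contra h2
        rw [not_lt] at h2
        have := mul_nonneg_of_nonpos_of_nonpos h.le h2
        linarith
      rw [abs_of_pos h1]
      ring
    · refine ⟨1, by norm_num, by rw [abs_of_pos h]; ring, ?_⟩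
      have h1 : l1 < 0 := by
        by_contra h2
        rw [not_lt] at h2
        have := mul_nonneg h.le h2
        linarith
      rw [abs_of_neg h1]
      ring
  have hr0 : 0 < √|l0| := Real.sqrt_pos.mpr (abs_pos.mpr hl0ne)
  have hr1 : 0 < √|l1| := Real.sqrt_pos.mpr (abs_pos.mpr hl1ne)
  let D : Matrix (Fin 2) (Fin 2) ℂ := !![((√|l0| : ℝ) : ℂ)⁻¹, 0; 0, ((√|l1| : ℝ) : ℂ)⁻¹]
  let M : Matrix (Fin 2) (Fin 2) ℂ := cayl ε * D * star (U : Matrix (Fin 2) (Fin 2) ℂ)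
  have hUU : star (U : Matrix (Fin 2) (Fin 2) ℂ) * (U : Matrix (Fin 2) (Fin 2) ℂ) = 1 :=
    Unitary.coe_star_mul_self U
  have hdetU : ‖(star (U : Matrix (Fin 2) (Fin 2) ℂ)).det‖ = 1 := by
    have h1 := congrArg Matrix.det hUU
    rw [det_mul, det_one] at h1
    have h2 := congrArg norm h1
    rw [norm_mul, norm_one, Matrix.star_eq_conjTranspose, det_conjTranspose, norm_star] at h2
    rw [Matrix.star_eq_conjTranspose, det_conjTranspose, norm_star]
    nlinarith [norm_nonneg (U : Matrix (Fin 2) (Fin 2) ℂ).det]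
  have hdetD : ‖D.det‖ = (√q)⁻¹ := by
    have h1 : D.det = (((√|l0| * √|l1|)⁻¹ : ℝ) : ℂ) := by
      simp only [D]
      rw [det_fin_two_of]
      push_cast
      ring
    have h2 : √|l0| * √|l1| = √q := by
      rw [← Real.sqrt_mul (abs_nonneg _), ← abs_mul, hdet, abs_neg, abs_of_pos hq]
    rw [h1, h2, norm_real, Real.norm_eq_abs, abs_of_nonneg (by positivity)]
  have hdetM : ‖M.det‖ = (√q)⁻¹ := by
    simp only [M]
    rw [det_mul, det_mul, norm_mul, norm_mul, det_cayl hε, hdetU, hdetD]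
    ring
  have hM0 : M.det ≠ 0 := by
    rw [← norm_ne_zero_iff, hdetM]
    exact inv_ne_zero (Real.sqrt_pos.mpr hq).ne'
  let g : GL (Fin 2) ℂ := Matrix.GeneralLinearGroup.mkOfDetNeZero M hM0
  have hg : (g : Matrix (Fin 2) (Fin 2) ℂ) = M := rfl
  have hgA : adet g = (√q)⁻¹ := by
    unfold adet
    rw [hg, hdetM]
  have hDD : D * !![(l0 : ℂ), 0; 0, (l1 : ℂ)] * Dᴴ = !![(ε : ℂ), 0; 0, -(ε : ℂ)] := by
    have hDH : Dᴴ = D := by
      simp only [D]
      ext i j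
      fin_cases i <;> fin_cases j <;> simp
    have e0 : ((√|l0| : ℝ) : ℂ) ≠ 0 := ofReal_ne_zero.mpr hr0.ne'
    have e1 : ((√|l1| : ℝ) : ℂ) ≠ 0 := ofReal_ne_zero.mpr hr1.ne'
    have f0 : (l0 : ℂ) = ε * (((√|l0| : ℝ) : ℂ) * ((√|l0| : ℝ) : ℂ)) := by
      rw [← ofReal_mul, Real.mul_self_sqrt (abs_nonneg _), ← ofReal_mul, ← hε0]
    have f1 : (l1 : ℂ) = -ε * (((√|l1| : ℝ) : ℂ) * ((√|l1| : ℝ) : ℂ)) := by
      rw [← ofReal_mul, Real.mul_self_sqrt (abs_nonneg _), ← ofReal_neg, ← ofReal_mul, ← hε1]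
    rw [hDH]
    simp only [D]
    rw [Matrix.mul_fin_two, Matrix.mul_fin_two]
    ext i j
    fin_cases i <;> fin_cases j
    · simp
      rw [f0]
      field_simp
    · simp
    · simp
    · simp
      rw [f1]
      field_simp
  have hdiag : Matrix.diagonal (RCLike.ofReal ∘ hH.eigenvalues) =
      !![(l0 : ℂ), 0; 0, (l1 : ℂ)] := by
    ext i j
    fin_cases i <;> fin_cases j <;> simp [hl0, hl1]
  have hkey : M * hM a b d * Mᴴ = !![0, -I; I, 0] := by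
    have h1 : star (U : Matrix (Fin 2) (Fin 2) ℂ) * hM a b d *
        (U : Matrix (Fin 2) (Fin 2) ℂ) = !![(l0 : ℂ), 0; 0, (l1 : ℂ)] := by
      rw [← hdiag]
      conv_lhs => rw [hs]
      calc _ = (star (U : Matrix (Fin 2) (Fin 2) ℂ) * (U : Matrix (Fin 2) (Fin 2) ℂ)) *
          Matrix.diagonal (RCLike.ofReal ∘ hH.eigenvalues) *
            (star (U : Matrix (Fin 2) (Fin 2) ℂ) * (U : Matrix (Fin 2) (Fin 2) ℂ)) := by
            simp only [Matrix.mul_assoc]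
        _ = _ := by rw [hUU, Matrix.one_mul, Matrix.mul_one]
    have h2 : Mᴴ = (U : Matrix (Fin 2) (Fin 2) ℂ) * Dᴴ * (cayl ε)ᴴ := by
      simp only [M]
      rw [Matrix.conjTranspose_mul, Matrix.conjTranspose_mul, Matrix.star_eq_conjTranspose,
        Matrix.conjTranspose_conjTranspose, Matrix.mul_assoc]
    rw [h2]
    calc M * hM a b d * ((U : Matrix (Fin 2) (Fin 2) ℂ) * Dᴴ * (cayl ε)ᴴ)
        = cayl ε * (D * (star (U : Matrix (Fin 2) (Fin 2) ℂ) * hM a b d *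
            (U : Matrix (Fin 2) (Fin 2) ℂ)) * Dᴴ) * (cayl ε)ᴴ := by
          simp only [M, Matrix.mul_assoc]
      _ = _ := by rw [h1, hDD, cayl_mul hε]
  refine ⟨g, fun P => ?_⟩
  have hrel : hM (√q * 0) (√q * (-I)) (√q * 0) =
      ((adet g : ℂ)⁻¹) • ((g : Matrix (Fin 2) (Fin 2) ℂ) * hM a b d *
        (g : Matrix (Fin 2) (Fin 2) ℂ)ᴴ) := by
    rw [hg, hkey, hgA]
    unfold hM
    ext i j
    fin_cases i <;> fin_cases j <;> simp
  rw [← tR_smul g hrel P, kR_smul_vec, tR_plane]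
  rfl

section

variable {G : Type*} [Group G] [Countable G] [MulAction G H3] [MeasurableConstSMul G H3]
  [SMulInvariantMeasure G H3 volume]

/-- **Positive coefficients.** -/
theorem pos_coeff {w : H3 → ℝ≥0∞} (hw : IsWeight G w)
    (hcu : ∀ (g : G) (P Q : H3), cu (g • P) (g • Q) = cu P Q) {a d : ℝ} {b : ℂ}
    (hq : 0 < qR a b d) (hT : ∀ (g : G) (P : H3), tR a b d (g • P) ^ 2 = tR a b d P ^ 2)
    {F : H3 → ℂ} (hF : RadEig F) (hFm : Measurable F) {B : ℝ} (hB : ∀ P, ‖F P‖ ≤ B)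
    (hFinv : ∀ (g : G) P, F (g • P) = F P)
    (hfin : ∀ κ : ℝ, 0 < κ →
      ∫⁻ P, ENNReal.ofReal (Real.exp (-κ * tR a b d P ^ 2)) ∂volume.withDensity w ≠ ∞) :
    ∃ A : ℂ, ∀ κ : ℝ, 0 < κ →
      ∫ P, (Real.exp (-κ * tR a b d P ^ 2) : ℂ) * F P ∂volume.withDensity w =
        (√(Real.pi / κ) : ℂ) * A := by
  obtain ⟨g₀, hg₀⟩ := exists_normal_pos hq
  set q := qR a b d
  have hsq : ∀ P, tR a b d P ^ 2 = q * tau (g₀ • P) ^ 2 := by
    intro P
    rw [hg₀, mul_pow, Real.sq_sqrt hq.le]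
  have h1 : ∀ κ : ℝ, ∀ P, -κ * tR a b d P ^ 2 = -(κ * q) * tau (g₀ • P) ^ 2 := by
    intro κ P
    rw [hsq]
    ring
  have hT' : ∀ (g : G) (P : H3), tau (g₀ • g • P) ^ 2 = tau (g₀ • P) ^ 2 := by
    intro g P
    have h2 := hT g P
    rw [hsq, hsq] at h2
    exact mul_left_cancel₀ hq.ne' h2
  have hfin' : ∀ κ : ℝ, 0 < κ →
      ∫⁻ P, ENNReal.ofReal (Real.exp (-κ * tau (g₀ • P) ^ 2)) ∂volume.withDensity w ≠ ∞ := by
    intro κ hκ
    have h2 := hfin (κ / q) (div_pos hκ hq)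
    simp only [h1] at h2
    rwa [div_mul_cancel₀ _ hq.ne'] at h2
  have hs : 0 < √(Real.pi / q) := Real.sqrt_pos.mpr (by positivity)
  have hpi : 0 < √Real.pi := Real.sqrt_pos.mpr Real.pi_pos
  refine ⟨(√Real.pi : ℂ)⁻¹ * ∫ P, (Real.exp (-q * tau (g₀ • P) ^ 2) : ℂ) * F P
    ∂volume.withDensity w, fun κ hκ => ?_⟩
  have key := pos_coeff_aux hw hcu g₀ hT' hF hFm hB hFinv hfin' (κ := q) (κ' := κ * q) hq
    (mul_pos hκ hq)
  simp only [h1]
  have h3 : (√(Real.pi / q) : ℂ) ≠ 0 := ofReal_ne_zero.mpr hs.ne'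
  have h4 : (√Real.pi : ℂ) ≠ 0 := ofReal_ne_zero.mpr hpi.ne'
  have h5 : (√(Real.pi / κ) : ℂ) * (√(Real.pi / q) : ℂ) =
      (√(Real.pi / (κ * q)) : ℂ) * (√Real.pi : ℂ) := by
    rw [← ofReal_mul, ← ofReal_mul, ← Real.sqrt_mul (by positivity), ← Real.sqrt_mul (by positivity)]
    congr 2
    field_simp
  apply mul_left_cancel₀ h3
  rw [key]
  apply mul_left_cancel₀ h4
  rw [show (√Real.pi : ℂ) * ((√(Real.pi / q) : ℂ) * ((√(Real.pi / κ) : ℂ) *
    ((√Real.pi : ℂ)⁻¹ * ∫ P, (Real.exp (-q * tau (g₀ • P) ^ 2) : ℂ) * F P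
      ∂volume.withDensity w))) = ((√(Real.pi / κ) : ℂ) * (√(Real.pi / q) : ℂ)) *
        ((√Real.pi : ℂ) * (√Real.pi : ℂ)⁻¹) * ∫ P, (Real.exp (-q * tau (g₀ • P) ^ 2) : ℂ) * F P
      ∂volume.withDensity w by ring, h5, mul_inv_cancel₀ h4]
  ring

end

end Fermat.Agent.LT.Theta31
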