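import Fermat.Agent.LT.Theta31.Fermi
import Fermat.Agent.LT.Theta31.NormalPos

/-!
# The coefficient of the real plane is the period
-/

set_option autoImplicit false

open MeasureTheory Set Filter Topology UpperHalfPlane
open scoped ENNReal

noncomputable section

namespace Fermat.Agent.LT.Theta31

open H3

/-- The projection to the plane. -/
def foot (P : H3) : ℍ := ⟨(P.z.re : ℂ) + (√(P.z.im ^ 2 + P.y ^ 2) : ℝ) * Complex.I, by
  have := P.y_pos
  simp
  positivity⟩

theorem re_foot (P : H3) : ((foot P : ℍ) : ℂ).re = P.z.re := by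
  show ((P.z.re : ℂ) + (√(P.z.im ^ 2 + P.y ^ 2) : ℝ) * Complex.I).re = _
  simp

theorem im_foot (P : H3) : ((foot P : ℍ) : ℂ).im = √(P.z.im ^ 2 + P.y ^ 2) := by
  show ((P.z.re : ℂ) + (√(P.z.im ^ 2 + P.y ^ 2) : ℝ) * Complex.I).im = _
  simp

theorem continuous_foot : Continuous foot := by
  rw [UpperHalfPlane.isEmbedding_coe.continuous_iff]
  show Continuous fun P : H3 => (P.z.re : ℂ) + (√(P.z.im ^ 2 + P.y ^ 2) : ℝ) * Complex.I
  have h1 := continuous_z
  have h2 := continuous_y
  fun_prop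

theorem foot_sec (τ : ℍ) (σ : ℝ) : foot (sec τ σ) = τ := by
  have hc := Real.cosh_pos σ
  have hτ := τ.im_pos
  apply UpperHalfPlane.ext
  apply Complex.ext
  · rw [re_foot]
    unfold sec
    rw [z_mk, Complex.add_re, Complex.ofReal_re, Complex.re_ofReal_mul, Complex.I_re, mul_zero,
      add_zero]
  · rw [im_foot]
    have h1 : (sec τ σ).z.im = τ.im * Real.sinh σ / Real.cosh σ := by
      unfold sec
      rw [z_mk, Complex.add_im, Complex.ofReal_im, zero_add, Complex.im_ofReal_mul, Complex.I_im,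
        mul_one]
    have h2 : (sec τ σ).y = τ.im / Real.cosh σ := rfl
    rw [h1, h2, show (τ.im * Real.sinh σ / Real.cosh σ) ^ 2 + (τ.im / Real.cosh σ) ^ 2 =
      τ.im ^ 2 by
        rw [div_pow, div_pow, ← add_div, div_eq_iff (by positivity), Real.cosh_sq σ]
        ring, Real.sqrt_sq hτ.le]
    rfl

theorem sec_zero (τ : ℍ) : sec τ 0 = mk (τ.re : ℂ) τ.im τ.im_pos := by
  apply H3.ext
  · unfold sec
    simp
  · unfold sec
    simp

/-- The measure on `H3` with a density pulled back from the plane. -/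
theorem withDensity_foot {w : ℍ → ℝ≥0∞} (hw : Measurable w) :
    (volume : Measure H3).withDensity (fun P => w (foot P)) =
      (((volume : Measure ℍ).withDensity w).prod ((volume : Measure ℝ).withDensity
        fun σ => ENNReal.ofReal (Real.cosh σ ^ 2))).map (fun p => sec p.1 p.2) := by
  have hwp : Measurable fun P => w (foot P) := hw.comp continuous_foot.measurable
  have hS := continuous_sec.measurable
  have e1 : ((volume : Measure ℍ).withDensity w).prod ((volume : Measure ℝ).withDensity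
        fun σ => ENNReal.ofReal (Real.cosh σ ^ 2)) =
      ((volume : Measure ℍ).prod ((volume : Measure ℝ).withDensity
        fun σ => ENNReal.ofReal (Real.cosh σ ^ 2))).withDensity (fun p => w p.1) :=
    prod_withDensity_left hw
  ext s hs
  rw [e1, Measure.map_apply hS hs, withDensity_apply _ hs, withDensity_apply _ (hS hs),
    ← lintegral_indicator hs, ← map_sec, lintegral_map (hwp.indicator hs) hS,
    ← lintegral_indicator (hS hs)]
  refine lintegral_congr fun p => ?_
  by_cases h : sec p.1 p.2 ∈ s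
  · rw [indicator_of_mem h, indicator_of_mem (show p ∈ _ from h), foot_sec]
  · rw [indicator_of_notMem h, indicator_of_notMem (show p ∉ _ from h)]

theorem continuous_sec_arsinh (c : ℝ) :
    Continuous fun p : ℍ × ℝ => sec p.1 (Real.arsinh (p.2 * c)) :=
  continuous_sec.comp (continuous_fst.prodMk
    (Real.continuous_arsinh.comp (continuous_snd.mul continuous_const)))

theorem integrable_gauss_two : Integrable fun s : ℝ => (1 + s ^ 2) * Real.exp (-s ^ 2) := by
  have h0 := integrable_pow_gauss one_pos 0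
  have h2 := integrable_pow_gauss one_pos 2
  refine (h0.add h2).congr (Eventually.of_forall fun s => ?_)
  simp only [Pi.add_apply, pow_zero]
  rw [neg_one_mul]
  ring

/-- **The coefficient is the period.** -/
theorem coeff_eq_period {w : ℍ → ℝ≥0∞} (hw : Measurable w) (hwf : ∫⁻ τ, w τ ≠ ∞)
    {F : H3 → ℂ} (hF : Continuous F) {B : ℝ} (hB : ∀ P, ‖F P‖ ≤ B) {A : ℂ}
    (hA : ∀ κ : ℝ, 0 < κ → ∫ P, (Real.exp (-κ * tau P ^ 2) : ℂ) * F P
      ∂(volume : Measure H3).withDensity (fun P => w (foot P)) = (√(Real.pi / κ) : ℂ) * A) :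
    A = ∫ τ : ℍ, F (mk (τ.re : ℂ) τ.im τ.im_pos) ∂(volume : Measure ℍ).withDensity w := by
  have hB0 : 0 ≤ B := (norm_nonneg _).trans (hB H3.j)
  set μw := (volume : Measure ℍ).withDensity w with hμw
  have hfinite : IsFiniteMeasure μw := isFiniteMeasure_withDensity hwf
  have hS := continuous_sec.measurable
  -- the integral for `κ = c⁻²`
  have h1 : ∀ c : ℝ, 0 < c → c ≤ 1 → ∫ p : ℍ × ℝ, (((√(1 + (p.2 * c) ^ 2) * Real.exp (-p.2 ^ 2) : ℝ)) : ℂ) *
      F (sec p.1 (Real.arsinh (p.2 * c))) ∂μw.prod volume = (√Real.pi : ℂ) * A := by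
    intro c hc hc1
    have hκ : 0 < (c ^ 2)⁻¹ := by positivity
    have h2 := hA _ hκ
    have hm : Measurable fun P : H3 => (Real.exp (-(c ^ 2)⁻¹ * tau P ^ 2) : ℂ) * F P := by
      have := measurable_tau
      have := hF.measurable
      fun_prop
    rw [withDensity_foot hw, integral_map hS.aemeasurable hm.aestronglyMeasurable] at h2
    simp only [tau_sec] at h2
    have hcosh : Measurable fun σ : ℝ => Real.toNNReal (Real.cosh σ ^ 2) := by fun_prop
    have hν : (volume : Measure ℝ).withDensity (fun σ => ENNReal.ofReal (Real.cosh σ ^ 2)) =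
      (volume : Measure ℝ).withDensity (fun σ => ((Real.toNNReal (Real.cosh σ ^ 2) : NNReal) : ℝ≥0∞)) :=
      rfl
    have hi1 : Integrable (fun σ : ℝ => Real.exp (-(c ^ 2)⁻¹ * Real.sinh σ ^ 2))
        ((volume : Measure ℝ).withDensity (fun σ => ENNReal.ofReal (Real.cosh σ ^ 2))) := by
      rw [hν, integrable_withDensity_iff_integrable_smul hcosh]
      have h3 : Integrable (fun x : ℝ => √(1 + x ^ 2) * Real.exp (-(c ^ 2)⁻¹ * x ^ 2)) := by
        have h4 := (integrable_pow_gauss hκ 0).add (integrable_pow_gauss hκ 2)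
        refine h4.mono' (by fun_prop) (Eventually.of_forall fun x => ?_)
        rw [Real.norm_eq_abs, abs_of_nonneg (by positivity)]
        simp only [Pi.add_apply, pow_zero, ← add_mul]
        gcongr
        rw [Real.sqrt_le_left (by positivity)]
        nlinarith [sq_nonneg x]
      rw [← integrable_sinh] at h3
      refine h3.congr (Eventually.of_forall fun σ => ?_)
      simp only [smul_eq_mul, NNReal.smul_def]
      rw [Real.coe_toNNReal _ (by positivity), show 1 + Real.sinh σ ^ 2 = Real.cosh σ ^ 2 by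
        rw [Real.cosh_sq]; ring, Real.sqrt_sq (Real.cosh_pos σ).le]
      ring
    have hi2 : Integrable (fun p : ℍ × ℝ => (Real.exp (-(c ^ 2)⁻¹ * Real.sinh p.2 ^ 2) : ℂ) *
        F (sec p.1 p.2)) (μw.prod ((volume : Measure ℝ).withDensity
          (fun σ => ENNReal.ofReal (Real.cosh σ ^ 2)))) := by
      have h3 : Integrable (fun p : ℍ × ℝ => (B : ℝ) * Real.exp (-(c ^ 2)⁻¹ * Real.sinh p.2 ^ 2))
          (μw.prod ((volume : Measure ℝ).withDensity
          (fun σ => ENNReal.ofReal (Real.cosh σ ^ 2)))) :=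
        (integrable_const B).mul_prod hi1
      refine h3.mono' ?_ (Eventually.of_forall fun p => ?_)
      · refine Continuous.aestronglyMeasurable ?_
        exact (by fun_prop : Continuous fun p : ℍ × ℝ =>
          (Real.exp (-(c ^ 2)⁻¹ * Real.sinh p.2 ^ 2) : ℂ)).mul (hF.comp continuous_sec)
      · rw [norm_mul, Complex.norm_real, Real.norm_eq_abs, abs_of_pos (Real.exp_pos _), mul_comm]
        gcongr
        exact hB _
    rw [integral_prod _ hi2] at h2
    have hi3 : Integrable (fun p : ℍ × ℝ => (((√(1 + (p.2 * c) ^ 2) * Real.exp (-p.2 ^ 2) : ℝ)) : ℂ) *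
      F (sec p.1 (Real.arsinh (p.2 * c)))) (μw.prod volume) := by
      have h3 : Integrable (fun p : ℍ × ℝ => (B : ℝ) * ((1 + p.2 ^ 2) * Real.exp (-p.2 ^ 2)))
          (μw.prod volume) := (integrable_const B).mul_prod integrable_gauss_two
      refine h3.mono' ?_ (Eventually.of_forall fun p => ?_)
      · refine Continuous.aestronglyMeasurable ?_
        exact (by fun_prop : Continuous fun p : ℍ × ℝ =>
          (((√(1 + (p.2 * c) ^ 2) * Real.exp (-p.2 ^ 2) : ℝ)) : ℂ)).mul
            (hF.comp (continuous_sec_arsinh c))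
      · rw [norm_mul, Complex.norm_real, Real.norm_eq_abs, abs_of_nonneg (by positivity), mul_comm]
        have h4 : √(1 + (p.2 * c) ^ 2) ≤ 1 + p.2 ^ 2 := by
          rw [Real.sqrt_le_left (by positivity)]
          have h5 : (p.2 * c) ^ 2 ≤ p.2 ^ 2 := by
            rw [mul_pow]
            exact mul_le_of_le_one_right (sq_nonneg _) (pow_le_one₀ hc.le hc1)
          nlinarith [sq_nonneg p.2]
        gcongr
        exact hB _
    rw [integral_prod _ hi3]
    have h5 : ∀ τ : ℍ, ∫ σ : ℝ, (Real.exp (-(c ^ 2)⁻¹ * Real.sinh σ ^ 2) : ℂ) * F (sec τ σ)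
        ∂(volume : Measure ℝ).withDensity (fun σ => ENNReal.ofReal (Real.cosh σ ^ 2)) =
        (c : ℂ) * ∫ s : ℝ, (((√(1 + (s * c) ^ 2) * Real.exp (-s ^ 2) : ℝ)) : ℂ) *
          F (sec τ (Real.arsinh (s * c))) := by
      intro τ
      rw [hν, integral_withDensity_eq_integral_smul hcosh]
      have h6 := integral_sinh (fun x : ℝ => ((√(1 + x ^ 2) * Real.exp (-(c ^ 2)⁻¹ * x ^ 2) : ℝ) : ℂ) *
        F (sec τ (Real.arsinh x)))
      have h7 : ∫ σ : ℝ, Real.toNNReal (Real.cosh σ ^ 2) •
          ((Real.exp (-(c ^ 2)⁻¹ * Real.sinh σ ^ 2) : ℂ) * F (sec τ σ)) =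
          ∫ σ : ℝ, Real.cosh σ • (((√(1 + Real.sinh σ ^ 2) *
            Real.exp (-(c ^ 2)⁻¹ * Real.sinh σ ^ 2) : ℝ) : ℂ) *
              F (sec τ (Real.arsinh (Real.sinh σ)))) := by
        refine integral_congr_ae (Eventually.of_forall fun σ => ?_)
        simp only [NNReal.smul_def]
        rw [Real.coe_toNNReal _ (by positivity), Real.arsinh_sinh,
          show 1 + Real.sinh σ ^ 2 = Real.cosh σ ^ 2 by
            rw [Real.cosh_sq]; ring, Real.sqrt_sq (Real.cosh_pos σ).le, Complex.real_smul,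
          Complex.real_smul]
        push_cast
        ring
      rw [h7, h6]
      have h8 := Measure.integral_comp_mul_right (fun x : ℝ =>
        ((√(1 + x ^ 2) * Real.exp (-(c ^ 2)⁻¹ * x ^ 2) : ℝ) : ℂ) *
        F (sec τ (Real.arsinh x))) c
      rw [abs_of_pos (inv_pos.mpr hc)] at h8
      have h9 : ∫ s : ℝ, (((√(1 + (s * c) ^ 2) * Real.exp (-s ^ 2) : ℝ)) : ℂ) *
          F (sec τ (Real.arsinh (s * c))) = ∫ s : ℝ,
            ((√(1 + (s * c) ^ 2) * Real.exp (-(c ^ 2)⁻¹ * (s * c) ^ 2) : ℝ) : ℂ) *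
            F (sec τ (Real.arsinh (s * c))) := by
        refine integral_congr_ae (Eventually.of_forall fun s => ?_)
        simp only
        rw [show -(c ^ 2)⁻¹ * (s * c) ^ 2 = -s ^ 2 by field_simp]
      rw [h9, h8, Complex.real_smul, ← mul_assoc, ← Complex.ofReal_mul, mul_inv_cancel₀ hc.ne',
        Complex.ofReal_one, one_mul]
    simp only [h5] at h2
    rw [integral_const_mul] at h2
    have h6 : (√(Real.pi / (c ^ 2)⁻¹) : ℂ) = (c : ℂ) * (√Real.pi : ℂ) := by
      rw [div_inv_eq_mul, Real.sqrt_mul Real.pi_pos.le, Real.sqrt_sq hc.le]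
      push_cast
      ring
    rw [h6, mul_assoc] at h2
    exact mul_left_cancel₀ (Complex.ofReal_ne_zero.mpr hc.ne') h2
  -- the limit
  have h2 : Tendsto (fun n : ℕ => ∫ p : ℍ × ℝ,
      (((√(1 + (p.2 * (1 / ((n : ℝ) + 1))) ^ 2) * Real.exp (-p.2 ^ 2) : ℝ)) : ℂ) *
      F (sec p.1 (Real.arsinh (p.2 * (1 / ((n : ℝ) + 1))))) ∂μw.prod volume) atTop
      (𝓝 (∫ p : ℍ × ℝ, ((Real.exp (-p.2 ^ 2) : ℝ) : ℂ) * F (sec p.1 0) ∂μw.prod volume)) := by
    refine tendsto_integral_of_dominated_convergence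
      (fun p : ℍ × ℝ => (B : ℝ) * ((1 + p.2 ^ 2) * Real.exp (-p.2 ^ 2))) ?_ ?_ ?_ ?_
    · intro n
      refine Continuous.aestronglyMeasurable ?_
      exact (by fun_prop : Continuous fun p : ℍ × ℝ =>
        (((√(1 + (p.2 * (1 / ((n : ℝ) + 1))) ^ 2) * Real.exp (-p.2 ^ 2) : ℝ)) : ℂ)).mul
          (hF.comp (continuous_sec_arsinh _))
    · exact (integrable_const B).mul_prod integrable_gauss_two
    · intro n
      refine Eventually.of_forall fun p => ?_
      rw [norm_mul, Complex.norm_real, Real.norm_eq_abs, abs_of_nonneg (by positivity), mul_comm]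
      have hc1 : 1 / ((n : ℝ) + 1) ≤ 1 := by
        rw [div_le_one (by positivity)]
        linarith [(Nat.cast_nonneg n : (0 : ℝ) ≤ n)]
      have h4 : √(1 + (p.2 * (1 / ((n : ℝ) + 1))) ^ 2) ≤ 1 + p.2 ^ 2 := by
        rw [Real.sqrt_le_left (by positivity)]
        have h5 : (p.2 * (1 / ((n : ℝ) + 1))) ^ 2 ≤ p.2 ^ 2 := by
          rw [mul_pow]
          exact mul_le_of_le_one_right (sq_nonneg _) (pow_le_one₀ (by positivity) hc1)
        nlinarith [sq_nonneg p.2]
      gcongr
      exact hB _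
    · refine Eventually.of_forall fun p => ?_
      have hlim : Tendsto (fun n : ℕ => p.2 * (1 / ((n : ℝ) + 1))) atTop (𝓝 0) := by
        have := tendsto_one_div_add_atTop_nhds_zero_nat (𝕜 := ℝ)
        simpa using this.const_mul p.2
      have hcont : Continuous fun x : ℝ => (((√(1 + x ^ 2) * Real.exp (-p.2 ^ 2) : ℝ)) : ℂ) *
          F (sec p.1 (Real.arsinh x)) := by
        refine (by fun_prop : Continuous fun x : ℝ =>
          (((√(1 + x ^ 2) * Real.exp (-p.2 ^ 2) : ℝ)) : ℂ)).mul (hF.comp ?_)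
        exact continuous_sec.comp (continuous_const.prodMk Real.continuous_arsinh)
      have h6 := (hcont.tendsto 0).comp hlim
      simp only [Function.comp_def] at h6
      refine h6.congr' ?_ |>.trans ?_
      · exact Eventually.of_forall fun n => rfl
      · refine le_of_eq ?_
        simp
  have h3 : Tendsto (fun n : ℕ => (√Real.pi : ℂ) * A) atTop
      (𝓝 (∫ p : ℍ × ℝ, ((Real.exp (-p.2 ^ 2) : ℝ) : ℂ) * F (sec p.1 0) ∂μw.prod volume)) := by
    refine h2.congr fun n => ?_
    refine h1 _ (by positivity) ?_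
    rw [div_le_one (by positivity)]
    linarith [(Nat.cast_nonneg n : (0 : ℝ) ≤ n)]
  have h4 := tendsto_nhds_unique h3 tendsto_const_nhds
  have h5 : ∫ p : ℍ × ℝ, ((Real.exp (-p.2 ^ 2) : ℝ) : ℂ) * F (sec p.1 0) ∂μw.prod volume =
      (∫ τ : ℍ, F (sec τ 0) ∂μw) * (√Real.pi : ℂ) := by
    have h6 := integral_prod_mul (μ := μw) (ν := (volume : Measure ℝ)) (fun τ : ℍ => F (sec τ 0))
      (fun s : ℝ => ((Real.exp (-s ^ 2) : ℝ) : ℂ))
    have h7 : ∫ s : ℝ, ((Real.exp (-s ^ 2) : ℝ) : ℂ) = (√Real.pi : ℂ) := by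
      rw [integral_complex_ofReal]
      have := integral_gaussian 1
      simp only [neg_one_mul, div_one] at this
      rw [this]
    rw [h7] at h6
    rw [← h6]
    refine integral_congr_ae (Eventually.of_forall fun p => ?_)
    simp only
    ring
  rw [h5] at h4
  have hpi : (√Real.pi : ℂ) ≠ 0 :=
    Complex.ofReal_ne_zero.mpr (Real.sqrt_pos.mpr Real.pi_pos).ne'
  have h8 : (√Real.pi : ℂ) * (∫ τ : ℍ, F (sec τ 0) ∂μw) = (√Real.pi : ℂ) * A := by
    rw [mul_comm, h4]
  rw [← mul_left_cancel₀ hpi h8]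
  simp only [sec_zero]

end Fermat.Agent.LT.Theta31
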