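import Fermat.Agent.LT.Defs
import Fermat.Agent.LT.Period.Unfold
import Fermat.Agent.LT.Theta31.Period31

/-!
# The Gaussian integral over the quotient by the stabiliser of the real plane does not vanish
-/

set_option autoImplicit false

open MeasureTheory Set Filter Topology UpperHalfPlane NumberField
open scoped ENNReal MatrixGroups Modular

noncomputable section

namespace Fermat.Agent.LT.Theta31

open H3

/-- `SL₂(ℤ)` in `GL₂(ℂ)`. -/
def izC : SL(2, ℤ) →* GL (Fin 2) ℂ :=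
  Matrix.SpecialLinearGroup.toGL.comp (Matrix.SpecialLinearGroup.map (Int.castRingHom ℂ))

theorem izC_apply (γ : SL(2, ℤ)) (i j : Fin 2) :
    (izC γ : Matrix (Fin 2) (Fin 2) ℂ) i j = ((γ i j : ℤ) : ℂ) := rfl

theorem izC_eq {K : Type} [Field K] [NumberField K] (σ : K →+* ℂ) (γ : SL(2, ℤ)) :
    toGLC σ (Period.slK γ) = izC γ := by
  apply Units.ext
  ext i j
  rw [Period.toGLC_slK_apply, izC_apply]

theorem izC_injective : Function.Injective izC := by
  intro γ γ' h
  ext i j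
  have h1 := congrArg (fun g : GL (Fin 2) ℂ => (g : Matrix (Fin 2) (Fin 2) ℂ) i j) h
  simp only [izC_apply] at h1
  exact_mod_cast h1

theorem izC_smul (γ : SL(2, ℤ)) (P : H3) :
    tau (izC γ • P) = tau P ∧ foot (izC γ • P) = γ • foot P := by
  have hdet : ((γ 0 0 : ℤ) : ℝ) * (γ 1 1 : ℤ) - ((γ 0 1 : ℤ) : ℝ) * (γ 1 0 : ℤ) = 1 := by
    have := γ.det_coe
    rw [Matrix.det_fin_two] at this
    exact_mod_cast this
  set a : ℝ := ((γ 0 0 : ℤ) : ℝ) with ha
  set b : ℝ := ((γ 0 1 : ℤ) : ℝ) with hb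
  set c : ℝ := ((γ 1 0 : ℤ) : ℝ) with hc
  set d : ℝ := ((γ 1 1 : ℤ) : ℝ) with hd
  have e00 : (izC γ : Matrix (Fin 2) (Fin 2) ℂ) 0 0 = (a : ℂ) := by
    rw [izC_apply, ha]; push_cast; rfl
  have e01 : (izC γ : Matrix (Fin 2) (Fin 2) ℂ) 0 1 = (b : ℂ) := by
    rw [izC_apply, hb]; push_cast; rfl
  have e10 : (izC γ : Matrix (Fin 2) (Fin 2) ℂ) 1 0 = (c : ℂ) := by
    rw [izC_apply, hc]; push_cast; rfl
  have e11 : (izC γ : Matrix (Fin 2) (Fin 2) ℂ) 1 1 = (d : ℂ) := by
    rw [izC_apply, hd]; push_cast; rfl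
  have hadet : adet (izC γ) = 1 := by
    unfold adet
    rw [Matrix.det_fin_two, e00, e01, e10, e11, ← Complex.ofReal_mul, ← Complex.ofReal_mul,
      ← Complex.ofReal_sub, hdet]
    simp
  have hy := P.y_pos
  have hden : H3.den (izC γ) P = (c * P.z.re + d) ^ 2 + c ^ 2 * (P.z.im ^ 2 + P.y ^ 2) := by
    unfold H3.den
    rw [e10, e11]
    simp only [Complex.normSq_apply, Complex.add_re, Complex.add_im, Complex.mul_re, Complex.mul_im,
      Complex.ofReal_re, Complex.ofReal_im]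
    ring
  set D := H3.den (izC γ) P with hD
  have hDpos : 0 < D := den_pos _ _
  have hnre : (H3.num (izC γ) P).re = a * c * (P.z.re ^ 2 + (P.z.im ^ 2 + P.y ^ 2)) +
      (a * d + b * c) * P.z.re + b * d := by
    unfold H3.num
    rw [e00, e01, e10, e11, ← Complex.ofReal_pow]
    simp only [Complex.add_re, Complex.add_im, Complex.mul_re, Complex.mul_im, Complex.conj_re,
      Complex.conj_im, Complex.ofReal_re, Complex.ofReal_im]
    ring
  have hnim : (H3.num (izC γ) P).im = P.z.im := by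
    unfold H3.num
    rw [e00, e01, e10, e11, ← Complex.ofReal_pow]
    simp only [Complex.add_re, Complex.add_im, Complex.mul_re, Complex.mul_im, Complex.conj_re,
      Complex.conj_im, Complex.ofReal_re, Complex.ofReal_im]
    linear_combination P.z.im * hdet
  have hzre : (izC γ • P).z.re = (H3.num (izC γ) P).re / D := by
    rw [z_smul, ← hD, Complex.div_ofReal_re]
  have hzim : (izC γ • P).z.im = P.z.im / D := by
    rw [z_smul, ← hD, Complex.div_ofReal_im, hnim]
  have hys : (izC γ • P).y = P.y / D := by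
    rw [y_smul, hadet, one_mul]
  refine ⟨?_, ?_⟩
  · unfold tau
    rw [hzim, hys]
    field_simp
  · set ρ := √(P.z.im ^ 2 + P.y ^ 2) with hρ
    have hρ2 : ρ ^ 2 = P.z.im ^ 2 + P.y ^ 2 := Real.sq_sqrt (by positivity)
    have hρ0 : 0 < ρ := Real.sqrt_pos.mpr (by positivity)
    have hτre : ((foot P : ℍ) : ℂ).re = P.z.re := re_foot P
    have hτim : ((foot P : ℍ) : ℂ).im = ρ := im_foot P
    have hcoe : ((γ • foot P : ℍ) : ℂ) = ((a : ℂ) * (foot P : ℍ) + b) / ((c : ℂ) * (foot P : ℍ) + d) := by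
      rw [UpperHalfPlane.specialLinearGroup_apply]
      simp only [ha, hb, hc, hd]
      simp
    have hns : Complex.normSq ((c : ℂ) * (foot P : ℍ) + d) = D := by
      rw [Complex.normSq_apply]
      simp only [Complex.add_re, Complex.add_im, Complex.mul_re, Complex.mul_im,
        Complex.ofReal_re, Complex.ofReal_im, hτre, hτim]
      rw [hden]
      linear_combination c ^ 2 * hρ2
    apply UpperHalfPlane.ext
    apply Complex.ext
    · rw [re_foot, hzre, hnre, hcoe, Complex.div_re, hns]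
      simp only [Complex.add_re, Complex.add_im, Complex.mul_re, Complex.mul_im,
        Complex.ofReal_re, Complex.ofReal_im, hτre, hτim]
      rw [← add_div]
      congr 1
      linear_combination (-a * c) * hρ2
    · rw [im_foot, hzim, hys, hcoe, Complex.div_im, hns]
      simp only [Complex.add_re, Complex.add_im, Complex.mul_re, Complex.mul_im,
        Complex.ofReal_re, Complex.ofReal_im, hτre, hτim]
      rw [← sub_div, div_pow, div_pow, ← add_div, ← hρ2, ← div_pow, Real.sqrt_sq (by positivity)]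
      congr 1
      linear_combination (-ρ) * hdet

/-- `{γ ∈ SL₂(ℤ) : m ∣ γ₀₁, γ₁₀}`. -/
def GZ (m : ℕ) : Subgroup SL(2, ℤ) where
  carrier := {γ | (m : ℤ) ∣ γ 0 1 ∧ (m : ℤ) ∣ γ 1 0}
  one_mem' := by simp
  mul_mem' := by
    rintro γ γ' ⟨h1, h2⟩ ⟨h3, h4⟩
    refine ⟨?_, ?_⟩
    · rw [Matrix.SpecialLinearGroup.coe_mul, Matrix.mul_apply, Fin.sum_univ_two]
      exact dvd_add (h3.mul_left _) (h1.mul_right _)
    · rw [Matrix.SpecialLinearGroup.coe_mul, Matrix.mul_apply, Fin.sum_univ_two]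
      exact dvd_add (h2.mul_right _) (h4.mul_left _)
  inv_mem' := by
    rintro γ ⟨h1, h2⟩
    rw [mem_ofPred_eq, Matrix.SpecialLinearGroup.SL2_inv_expl]
    refine ⟨?_, ?_⟩
    · show (m : ℤ) ∣ -γ 0 1
      exact h1.neg_right
    · show (m : ℤ) ∣ -γ 1 0
      exact h2.neg_right

theorem mem_GZ {m : ℕ} {γ : SL(2, ℤ)} : γ ∈ GZ m ↔ (m : ℤ) ∣ γ 0 1 ∧ (m : ℤ) ∣ γ 1 0 := Iff.rfl

theorem Gamma_le_GZ (m : ℕ) : CongruenceSubgroup.Gamma m ≤ GZ m := by
  intro γ hγ
  rw [CongruenceSubgroup.Gamma_mem] at hγ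
  exact ⟨(ZMod.intCast_zmod_eq_zero_iff_dvd _ _).mp hγ.2.1,
    (ZMod.intCast_zmod_eq_zero_iff_dvd _ _).mp hγ.2.2.1⟩

theorem GZ_le_Gamma0 {N m : ℕ} (h : N ∣ m) : GZ m ≤ CongruenceSubgroup.Gamma0 N := by
  intro γ hγ
  rw [CongruenceSubgroup.Gamma0_mem, ZMod.intCast_zmod_eq_zero_iff_dvd]
  exact (Int.natCast_dvd_natCast.mpr h).trans hγ.2

instance finiteIndex_GZ (m : ℕ) [NeZero m] : (GZ m).FiniteIndex :=
  Subgroup.finiteIndex_of_le (Gamma_le_GZ m)

/-- The weight of a subgroup of finite index of `SL₂(ℤ)` on the upper half plane. -/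
theorem exists_isWeight_SL (G : Subgroup SL(2, ℤ)) [G.FiniteIndex] :
    ∃ w : ℍ → ℝ≥0∞, IsWeight G w ∧ ∫⁻ τ, w τ ≠ ∞ := by
  refine ⟨_, Period.isWeight_wSL.sub G, ?_⟩
  have : Finite (SL(2, ℤ) ⧸ G) := Subgroup.finite_quotient_of_finiteIndex
  have := Fintype.ofFinite (SL(2, ℤ) ⧸ G)
  have hm := Period.isWeight_wSL.meas
  simp only [tsum_fintype]
  rw [lintegral_finsetSum Finset.univ
    (f := fun (r : SL(2, ℤ) ⧸ G) (τ : ℍ) => Period.wSL (r.out • τ))
    (fun r _ => hm.comp (measurable_const_smul r.out))]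
  refine ENNReal.sum_ne_top.mpr fun r _ => ?_
  have h1 : ∫⁻ τ : ℍ, Period.wSL (r.out • τ) = ∫⁻ τ : ℍ, Period.wSL τ :=
    (measurePreserving_smul r.out (volume : Measure ℍ)).lintegral_comp_emb
      (measurableEmbedding_const_smul r.out) _
  rw [h1]
  refine ne_top_of_le_ne_top LTF.Pet.volume_fd_ne_top ?_
  calc ∫⁻ τ : ℍ, Period.wSL τ ≤ ∫⁻ τ : ℍ, (𝒟 : Set ℍ).indicator 1 τ :=
        lintegral_mono fun τ => Period.wSL_le τ
    _ = volume (𝒟 : Set ℍ) := lintegral_indicator_one ModularGroup.isClosed_fd.measurableSet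

instance countable_map_izC (G : Subgroup SL(2, ℤ)) : Countable (G.map izC) :=
  (G.equivMapOfInjective izC izC_injective).toEquiv.symm.injective.countable

/-- The weight pulled back from the plane. -/
theorem isWeight_map_izC {G : Subgroup SL(2, ℤ)} {w : ℍ → ℝ≥0∞} (hw : IsWeight G w) :
    IsWeight (G.map izC) (fun P : H3 => w (foot P)) where
  meas := hw.meas.comp continuous_foot.measurable
  sum_eq P := by
    let e : G ≃ G.map izC := (G.equivMapOfInjective izC izC_injective).toEquiv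
    rw [← hw.sum_eq (foot P)]
    refine (e.tsum_eq (fun g : G.map izC => w (foot (g • P)))).symm.trans (tsum_congr fun γ => ?_)
    congr 1
    exact (izC_smul γ P).2

/-- `GZ m` in `GL₂(ℂ)`. -/
abbrev PZ (m : ℕ) : Subgroup (GL (Fin 2) ℂ) := (GZ m).map izC

theorem RadEig_of_eig {F : H3 → ℂ} (h : ∀ k : ℝ → ℂ, Continuous k →
    (∃ R : ℝ, ∀ t, R < t → k t = 0) → ∀ P : H3,
    (∫ Q : H3, k (cu P Q) * F Q) = (∫ t : ℝ, H3.abel k t) * F P) : RadEig F := by
  intro k hk hc P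
  obtain ⟨R, hR⟩ := hc.isCompact.isBounded.subset_closedBall 0
  have h1 := h (fun t => (k t : ℂ)) (Complex.continuous_ofReal.comp hk) ⟨R, fun t ht => by
    have h2 : t ∉ tsupport k := fun h3 => by
      have h4 := hR h3
      rw [Metric.mem_closedBall, dist_zero_right, Real.norm_eq_abs] at h4
      exact absurd ((le_abs_self t).trans h4) (not_le.mpr ht)
    rw [image_eq_zero_of_notMem_tsupport h2, Complex.ofReal_zero]⟩ P
  rw [h1]
  congr 1
  rw [← integral_complex_ofReal]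
  refine integral_congr_ae (Eventually.of_forall fun t => ?_)
  simp only [H3.abel]
  rw [integral_complex_ofReal, Complex.real_smul, smul_eq_mul]
  push_cast
  ring

variable {K : Type} [Field K] [NumberField K] {σ : K →+* ℂ} {s : 𝓞 K} {N : ℕ}

omit [NumberField K] in
theorem radEig_kform (Φ : KForm σ s N) : RadEig Φ.F := RadEig_of_eig Φ.eig

theorem pl_eq (τ : ℍ) : Period.pl τ = mk (τ.re : ℂ) τ.im τ.im_pos := rfl

/-- **Non-vanishing.** -/
theorem plane_coeff (Φ : KForm σ s N) (hper : HasPeriod Φ) (G : Subgroup SL(2, ℤ))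
    [hfi : G.FiniteIndex] (hG : G ≤ CongruenceSubgroup.Gamma0 N) :
    ∃ v : H3 → ℝ≥0∞, IsWeight (G.map izC) v ∧
      (∀ κ : ℝ, 0 < κ → ∫⁻ P, ENNReal.ofReal (Real.exp (-κ * tau P ^ 2))
        ∂(volume : Measure H3).withDensity v ≠ ∞) ∧
      ∃ A : ℂ, A ≠ 0 ∧ ∀ κ : ℝ, 0 < κ → ∫ P, (Real.exp (-κ * tau P ^ 2) : ℂ) * Φ.F P
        ∂(volume : Measure H3).withDensity v = (√(Real.pi / κ) : ℂ) * A := by
  obtain ⟨w, hw, hwf⟩ := exists_isWeight_SL G
  have hv := isWeight_map_izC hw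
  obtain ⟨B, hB⟩ := Φ.bdd
  have hfin : ∀ κ : ℝ, 0 < κ → ∫⁻ P, ENNReal.ofReal (Real.exp (-κ * tau P ^ 2))
        ∂(volume : Measure H3).withDensity (fun P => w (foot P)) ≠ ∞ := by
    intro κ hκ
    have hm1 : Measurable fun P : H3 => ENNReal.ofReal (Real.exp (-κ * tau P ^ 2)) := by
      have := measurable_tau
      fun_prop
    have hS := continuous_sec.measurable
    rw [withDensity_foot hw.meas, lintegral_map hm1 hS]
    simp only [tau_sec]
    have hfm : IsFiniteMeasure ((volume : Measure ℍ).withDensity w) := isFiniteMeasure_withDensity hwf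
    rw [lintegral_prod _ (by fun_prop)]
    show ∫⁻ _ : ℍ, (∫⁻ y : ℝ, ENNReal.ofReal (Real.exp (-κ * Real.sinh y ^ 2))
      ∂(volume : Measure ℝ).withDensity fun σ => ENNReal.ofReal (Real.cosh σ ^ 2))
      ∂(volume : Measure ℍ).withDensity w ≠ ∞
    rw [lintegral_const]
    refine ENNReal.mul_ne_top ?_ (measure_ne_top _ _)
    rw [lintegral_withDensity_eq_lintegral_mul _ (by fun_prop) (by fun_prop)]
    have h3 : Integrable (fun x : ℝ => √(1 + x ^ 2) * Real.exp (-κ * x ^ 2)) := by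
      have h4 := (integrable_pow_gauss hκ 0).add (integrable_pow_gauss hκ 2)
      refine h4.mono' (by fun_prop) (Eventually.of_forall fun x => ?_)
      rw [Real.norm_eq_abs, abs_of_nonneg (by positivity)]
      simp only [Pi.add_apply, pow_zero, ← add_mul]
      gcongr
      rw [Real.sqrt_le_left (by positivity)]
      nlinarith [sq_nonneg x]
    rw [← integrable_sinh] at h3
    have h5 := h3.lintegral_lt_top.ne
    refine ne_of_eq_of_ne (lintegral_congr fun σ => ?_) h5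
    simp only [Pi.mul_apply, smul_eq_mul]
    rw [← ENNReal.ofReal_mul (by positivity), show 1 + Real.sinh σ ^ 2 = Real.cosh σ ^ 2 by
        rw [Real.cosh_sq]; ring, Real.sqrt_sq (Real.cosh_pos σ).le]
    congr 1
    ring
  have hinvF : ∀ (g : G.map izC) P, Φ.F (g • P) = Φ.F P := by
    rintro ⟨_, γ, hγ, rfl⟩ P
    show Φ.F (izC γ • P) = Φ.F P
    rw [← izC_eq σ, Φ.inv]
    have h1 := hG hγ
    rw [CongruenceSubgroup.Gamma0_mem, ZMod.intCast_zmod_eq_zero_iff_dvd] at h1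
    obtain ⟨k, hk⟩ := h1
    rw [Period.slK_apply, hk]
    push_cast
    exact ⟨(k : 𝓞 K), rfl⟩
  refine ⟨_, hv, hfin, ?_⟩
  have hτ : ∀ (g : G.map izC) (P : H3), tau (g • P) = tau P := by
    rintro ⟨_, γ, hγ, rfl⟩ P
    exact (izC_smul γ P).1
  have hcu : ∀ (g : G.map izC) (P Q : H3), cu (g • P) (g • Q) = cu P Q := fun g P Q =>
    cu_smul (g : GL (Fin 2) ℂ) P Q
  have aux : ∀ {κ κ' : ℝ}, 0 < κ → 0 < κ' → _ := fun {κ κ'} hκ hκ' =>
    pos_coeff_aux (G := G.map izC) hv hcu (1 : GL (Fin 2) ℂ)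
      (fun g P => by rw [one_smul, one_smul, hτ]) (radEig_kform Φ) Φ.cont.measurable hB hinvF
      (by simpa only [one_smul] using hfin) hκ hκ'
  simp only [one_smul] at aux
  have hpi : 0 < √Real.pi := Real.sqrt_pos.mpr Real.pi_pos
  have h4 : (√Real.pi : ℂ) ≠ 0 := Complex.ofReal_ne_zero.mpr hpi.ne'
  set A : ℂ := (√Real.pi : ℂ)⁻¹ * ∫ P, (Real.exp (-1 * tau P ^ 2) : ℂ) * Φ.F P
    ∂(volume : Measure H3).withDensity (fun P => w (foot P)) with hA
  have hAκ : ∀ κ : ℝ, 0 < κ → ∫ P, (Real.exp (-κ * tau P ^ 2) : ℂ) * Φ.F P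
      ∂(volume : Measure H3).withDensity (fun P => w (foot P)) = (√(Real.pi / κ) : ℂ) * A := by
    intro κ hκ
    have key := aux one_pos hκ
    rw [div_one] at key
    apply mul_left_cancel₀ h4
    rw [key, hA, mul_left_comm (√Real.pi : ℂ), ← mul_assoc (√Real.pi : ℂ), mul_inv_cancel₀ h4,
      one_mul]
  refine ⟨A, ?_, hAκ⟩
  rw [coeff_eq_period hw.meas hwf Φ.cont hB hAκ]
  exact hper G hG hfi w hw

end Fermat.Agent.LT.Theta31
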