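import Fermat.Agent.LT.Theta31.Expand
import Fermat.Agent.LT.Theta31.CuspLift
import Fermat.Agent.LT.Theta31.IntK
import Fermat.Agent.LT.Theta31.Inst
import Fermat.Agent.LT.Theta31.PlaneCoeff

/-!
# The theta lift of a `KForm`: periodic coefficient functions, weights, expansions
-/

set_option autoImplicit false

noncomputable section

open MeasureTheory Matrix Complex ComplexConjugate NumberField
open scoped MatrixGroups ENNReal UpperHalfPlane

namespace Fermat.Agent.LT.Theta31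

open H3

/-! ### Periodic functions -/

lemma integral_periodic_mul {f : ℝ → ℂ} (hf : Function.Periodic f 1) (hc : Continuous f) {k : ℕ}
    (hk : k ≠ 0) : ∫ x in (0 : ℝ)..1, f (k * x) = ∫ x in (0 : ℝ)..1, f x := by
  have hk' : (k : ℝ) ≠ 0 := by exact_mod_cast hk
  rw [intervalIntegral.integral_comp_mul_left _ hk', mul_zero, mul_one]
  have h1 := hf.intervalIntegral_add_zsmul_eq (k : ℤ) 0 fun a b => hc.intervalIntegrable a b
  rw [zero_add, zero_add] at h1
  have h2 : ((k : ℤ) • (1 : ℝ)) = (k : ℝ) := by simp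
  rw [h2] at h1
  rw [h1]
  have hk'' : (k : ℂ) ≠ 0 := by exact_mod_cast hk
  rw [zsmul_eq_mul, Int.cast_natCast, real_smul, ofReal_inv, ofReal_natCast, ← mul_assoc,
    inv_mul_cancel₀ hk'', one_mul]

lemma integral_periodic_mul₂ {h : ℝ → ℝ → ℂ} (hp1 : ∀ x x', h (x + 1) x' = h x x')
    (hp2 : ∀ x x', h x (x' + 1) = h x x') (hc : Continuous fun p : ℝ × ℝ => h p.1 p.2) {k : ℕ}
    (hk : k ≠ 0) : ∫ x in (0 : ℝ)..1, ∫ x' in (0 : ℝ)..1, h (k * x) (k * x') =
      ∫ x in (0 : ℝ)..1, ∫ x' in (0 : ℝ)..1, h x x' := by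
  have hc2 : ∀ x, Continuous (h x) := fun x =>
    hc.comp (continuous_const.prodMk continuous_id)
  have h2 : ∀ x : ℝ, ∫ x' in (0 : ℝ)..1, h (k * x) (k * x') = ∫ x' in (0 : ℝ)..1, h (k * x) x' :=
    fun x => integral_periodic_mul (fun x' => hp2 _ x') (hc2 _) hk
  simp only [h2]
  have h3 : Continuous fun x : ℝ => ∫ x' in (0 : ℝ)..1, h x x' :=
    intervalIntegral.continuous_parametric_intervalIntegral_of_continuous' hc 0 1
  have h4 : Function.Periodic (fun x : ℝ => ∫ x' in (0 : ℝ)..1, h x x') 1 := by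
    intro x
    simp only [hp1]
  exact integral_periodic_mul h4 h3 hk

section Actm

variable {O : Type*} [CommRing O] [StarRing O] [CharZero O] (D : NTData O)

omit [CharZero O] in
lemma dvd_star_of_natCast {m : ℕ} {x : O} (h : (m : O) ∣ x) : (m : O) ∣ star x := by
  obtain ⟨y, rfl⟩ := h
  exact ⟨star y, by rw [star_mul', star_natCast]⟩

omit [CharZero O] in
/-- The principal congruence subgroup acts trivially modulo `m`. -/
theorem actM_sub {m : ℕ} (hdvd : ∀ a : ℤ, (m : O) ∣ (a : O) → (m : ℤ) ∣ a)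
    {g : GL (Fin 2) O} (hg : g ∈ (redHom O m).ker) (X : ℤ × O × ℤ) :
    ∃ Y : ℤ × O × ℤ, D.actM (g : Matrix (Fin 2) (Fin 2) O) X = X + (m : ℤ) • Y := by
  obtain ⟨h00, h01, h10, h11⟩ := mem_ker_redHom.mp hg
  obtain ⟨a, b, d⟩ := X
  set p := (g : Matrix (Fin 2) (Fin 2) O) 0 0 with hp
  set q := (g : Matrix (Fin 2) (Fin 2) O) 0 1 with hq
  set r := (g : Matrix (Fin 2) (Fin 2) O) 1 0 with hr
  set t := (g : Matrix (Fin 2) (Fin 2) O) 1 1 with ht
  have k00 : (m : O) ∣ star p - 1 := by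
    have := dvd_star_of_natCast h00
    rwa [star_sub, star_one] at this
  have k11 : (m : O) ∣ star t - 1 := by
    have := dvd_star_of_natCast h11
    rwa [star_sub, star_one] at this
  have k01 : (m : O) ∣ star q := dvd_star_of_natCast h01
  have k10 : (m : O) ∣ star r := dvd_star_of_natCast h10
  have e1 : (m : ℤ) ∣ (D.actM (g : Matrix (Fin 2) (Fin 2) O) (a, b, d)).1 - a := by
    apply hdvd
    have : (((D.actM (g : Matrix (Fin 2) (Fin 2) O) (a, b, d)).1 - a : ℤ) : O) =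
        (p - 1) * (star p * a) + (star p - 1) * a + (star q * (p * b) + q * (star p * star b)) +
          q * (star q * d) := by
      simp only [NTData.actM, ← hp, ← hq]
      push_cast
      simp only [D.nrm_eq, D.tr_eq, star_mul', star_star]
      ring
    rw [this]
    exact dvd_add (dvd_add (dvd_add (h00.mul_right _) (k00.mul_right _))
      (dvd_add (k01.mul_right _) (h01.mul_right _))) (h01.mul_right _)
  have e3 : (m : ℤ) ∣ (D.actM (g : Matrix (Fin 2) (Fin 2) O) (a, b, d)).2.2 - d := by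
    apply hdvd
    have : (((D.actM (g : Matrix (Fin 2) (Fin 2) O) (a, b, d)).2.2 - d : ℤ) : O) =
        (t - 1) * (star t * d) + (star t - 1) * d + (r * (star t * b) + star r * (t * star b)) +
          r * (star r * a) := by
      simp only [NTData.actM, ← hr, ← ht]
      push_cast
      simp only [D.nrm_eq, D.tr_eq, star_mul', star_star]
      ring
    rw [this]
    exact dvd_add (dvd_add (dvd_add (h11.mul_right _) (k11.mul_right _))
      (dvd_add (h10.mul_right _) (k10.mul_right _))) (h10.mul_right _)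
  have e2 : (m : O) ∣ (D.actM (g : Matrix (Fin 2) (Fin 2) O) (a, b, d)).2.1 - b := by
    have : (D.actM (g : Matrix (Fin 2) (Fin 2) O) (a, b, d)).2.1 - b =
        (p - 1) * (star t * b) + (star t - 1) * b + (q * (star r * star b)) +
          (star r * (p * a) + q * (star t * d)) := by
      simp only [NTData.actM, ← hp, ← hq, ← hr, ← ht]
      ring
    rw [this]
    exact dvd_add (dvd_add (dvd_add (h00.mul_right _) (k11.mul_right _)) (h01.mul_right _))
      (dvd_add (k10.mul_right _) (h01.mul_right _))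
  obtain ⟨a', ha'⟩ := e1
  obtain ⟨b', hb'⟩ := e2
  obtain ⟨d', hd'⟩ := e3
  refine ⟨(a', b', d'), Prod.ext ?_ (Prod.ext ?_ ?_)⟩
  · simp only [Prod.fst_add, Prod.smul_mk, smul_eq_mul]
    omega
  · simp only [Prod.snd_add, Prod.fst_add, Prod.smul_mk, zsmul_eq_mul, Int.cast_natCast]
    linear_combination hb'
  · simp only [Prod.snd_add, Prod.smul_mk, smul_eq_mul]
    omega

omit [CharZero O] in
theorem PerT.actM {m : ℕ} (hdvd : ∀ a : ℤ, (m : O) ∣ (a : O) → (m : ℤ) ∣ a)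
    {c : ℤ × O × ℤ → ℂ} (hc : PerT m c) {g : GL (Fin 2) O} (hg : g ∈ (redHom O m).ker)
    (X : ℤ × O × ℤ) : c (D.actM (g : Matrix (Fin 2) (Fin 2) O) X) = c X := by
  obtain ⟨Y, hY⟩ := actM_sub D hdvd hg X
  rw [hY, hc]

end Actm

/-! ### The cusp condition for sublattices -/

section Cusp

variable {K : Type} [Field K] [NumberField K] {σ : K →+* ℂ} {s : 𝓞 K} {M : ℕ} (Φ : KForm σ s M)

omit [NumberField K] in
lemma F_ker {m : ℕ} (hm : M ∣ m) {A : GL (Fin 2) (𝓞 K)} (hA : A ∈ (redHom (𝓞 K) m).ker) (P : H3) :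
    Φ.F (toGLC σ A • P) = Φ.F P := by
  refine Φ.inv A ?_ P
  have h1 : (M : 𝓞 K) ∣ (m : 𝓞 K) := by exact_mod_cast Nat.cast_dvd_cast hm
  exact h1.trans (mem_ker_redHom.mp hA).2.2.1

omit [NumberField K] in
/-- translations by the period lattice, at any cusp -/
lemma F_trans (g : GL (Fin 2) (𝓞 K)) (b : 𝓞 K) (z : ℂ) (y : ℝ) (hy : 0 < y) :
    Φ.F (toGLC σ g • H3.mk (z + M * σ (b : K)) y hy) = Φ.F (toGLC σ g • H3.mk z y hy) := by
  set u : GL (Fin 2) (𝓞 K) := Matrix.GeneralLinearGroup.mk'' !![1, (M : 𝓞 K) * b; 0, 1]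
    (by simp) with hu
  have hmem : u ∈ (redHom (𝓞 K) M).ker := by
    rw [mem_ker_redHom]
    refine ⟨?_, ?_, ?_, ?_⟩
    · simp [hu]
    · exact ⟨b, by simp [hu]⟩
    · simp [hu]
    · simp [hu]
  have h2 := F_ker Φ dvd_rfl ((MonoidHom.normal_ker (redHom (𝓞 K) M)).conj_mem u hmem g)
    (toGLC σ g • H3.mk z y hy)
  rw [← h2, smul_smul, ← map_mul]
  have h3 : g * u * g⁻¹ * g = g * u := by group
  rw [h3, map_mul, mul_smul]
  congr 2
  have h4 : toGLC σ u = H3.ut 1 (M * σ (b : K)) 1 one_ne_zero one_ne_zero := by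
    apply Units.ext
    rw [H3.coe_ut]
    ext i j
    fin_cases i <;> fin_cases j <;> simp [toGLC, hu]
  rw [h4]
  apply H3.ext
  · rw [z_ut_smul, z_mk, z_mk, one_mul, div_one]
  · rw [y_ut_smul, y_mk, y_mk, div_one, norm_one, one_mul]

omit [NumberField K] in
/-- **The constant terms for sublattices of the period lattice.** -/
theorem cusp_mul {k : ℕ} (hk : k ≠ 0) (g : GL (Fin 2) (𝓞 K)) (y : ℝ) (hy : 0 < y) :
    ∫ x in (0 : ℝ)..1, ∫ x' in (0 : ℝ)..1,
      Φ.F (toGLC σ g • H3.mk (((M * k : ℕ) : ℂ) * ((x : ℂ) + (x' : ℂ) * σ s)) y hy) = 0 := by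
  obtain ⟨h, hh⟩ : ∃ h : ℝ → ℝ → ℂ, ∀ x x', h x x' =
    Φ.F (toGLC σ g • H3.mk ((M : ℂ) * ((x : ℂ) + (x' : ℂ) * σ s)) y hy) := ⟨_, fun _ _ => rfl⟩
  have hmk : Continuous fun p : ℝ × ℝ =>
      H3.mk ((M : ℂ) * ((p.1 : ℂ) + (p.2 : ℂ) * σ s)) y hy := by
    rw [H3.continuous_iff]
    constructor
    · simp only [z_mk]
      fun_prop
    · simp only [y_mk]
      fun_prop
  have hc : Continuous fun p : ℝ × ℝ => h p.1 p.2 := by
    simp only [hh]
    exact Φ.cont.comp ((continuous_const_smul (toGLC σ g)).comp hmk)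
  have hp2 : ∀ x x', h x (x' + 1) = h x x' := by
    intro x x'
    have e := F_trans Φ g s ((M : ℂ) * ((x : ℂ) + (x' : ℂ) * σ s)) y hy
    rw [hh, hh, ← e]
    congr 3
    push_cast
    ring
  have hp1 : ∀ x x', h (x + 1) x' = h x x' := by
    intro x x'
    have e := F_trans Φ g 1 ((M : ℂ) * ((x : ℂ) + (x' : ℂ) * σ s)) y hy
    rw [hh, hh, ← e]
    congr 3
    push_cast
    rw [map_one]
    ring
  have h1 : ∀ x x' : ℝ, Φ.F (toGLC σ g • H3.mk (((M * k : ℕ) : ℂ) *
      ((x : ℂ) + (x' : ℂ) * σ s)) y hy) = h (k * x) (k * x') := by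
    intro x x'
    rw [hh]
    congr 3
    push_cast
    ring
  simp only [h1]
  rw [integral_periodic_mul₂ hp1 hp2 hc hk]
  simp only [hh]
  exact Φ.cusp g y hy

end Cusp

/-! ### Constants -/

theorem HasExp.const_mul {f : ℍ → ℂ} (h : HasExp f) (r : ℂ) : HasExp fun τ => r * f τ := by
  obtain ⟨κ, ι, n, m, a, b, δ, hδ, hn, hm, ha, hb, hf⟩ := h
  refine ⟨κ, ι, n, m, fun i => r * a i, fun j => r * b j, δ, hδ, hn, hm, fun y hy => ?_,
    fun y hy => ?_, fun τ => ?_⟩
  · refine ((ha y hy).mul_left ‖r‖).congr fun i => ?_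
    rw [norm_mul]
    ring
  · refine ((hb y hy).mul_left ‖r‖).congr fun i => ?_
    rw [norm_mul]
    ring
  · simp only
    rw [hf τ, mul_add, ← tsum_mul_left, ← tsum_mul_left]
    congr 1
    · exact tsum_congr fun i => by ring
    · exact tsum_congr fun i => by ring

/-! ### The data -/

section Data

variable {K : Type} [Field K] [NumberField K] [IsCyclotomicExtension {3} ℚ K] {σ : K →+* ℂ}
  {s : 𝓞 K} {M : ℕ} (Φ : KForm σ s M)

attribute [local instance] EisK.starO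

omit [NumberField K] [IsCyclotomicExtension {3} ℚ K] in
lemma im_σ_ne (hs : s ^ 2 = -3) : (σO σ s).im ≠ 0 := by
  intro h0
  have h1 : (σO σ s) ^ 2 = -3 := by
    rw [← map_pow, hs, map_neg, map_ofNat]
  have h2 := congrArg Complex.re h1
  simp only [pow_two, mul_re, neg_re, re_ofNat, h0] at h2
  nlinarith [sq_nonneg (σO σ s).re]

/-- The data of `exists_expansion` for periodic coefficient functions. -/
theorem liftData {m : ℕ} (hm : m ≠ 0) (hMm : M ∣ m) {c : ℤ × 𝓞 K × ℤ → ℂ} (hc : PerT m c) :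
    LiftData (σO σ) (ntO K) (redHom (𝓞 K) m).ker Φ.F c := by
  obtain ⟨ω, hω, hrep⟩ := exists_ωK σ
  have hm' : NeZero m := ⟨hm⟩
  refine ⟨fun x => EisK.map_star' σ x, eisEmb_K σ, ?_, Φ.cont, Φ.bdd, radEig_kform Φ,
    fun g hg P => F_ker Φ hMm hg P, ?_, fun g hg X => hc.actM (ntO K) (fun a h => dvd_of_dvd_O h)
      hg X⟩
  · obtain ⟨k, rfl⟩ := hMm
    have hk : k ≠ 0 := fun h => hm (by rw [h, mul_zero])
    exact ⟨M * k, s, hm, im_σ_ne Φ.s_sq, le_rfl, fun g y hy => cusp_mul Φ hk g y hy⟩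
  · obtain ⟨B, -, hB⟩ := hc.bounded hω hrep
    exact ⟨B, hB⟩

theorem hasExp_of_perT {m : ℕ} (hm : m ≠ 0) (hMm : M ∣ m) {c : ℤ × 𝓞 K × ℤ → ℂ} (hc : PerT m c)
    {w : H3 → ℝ≥0∞} (hw : IsW (σO σ) (redHom (𝓞 K) m).ker w) :
    HasExp fun z : ℍ => ∫ P, Φ.F P * (ntO K).theta (σO σ) c (z : ℂ) P
      ∂(volume : Measure H3).withDensity w := by
  have := EisK.isPrincipalIdealRing K
  obtain ⟨ι, κ, n, a, m', b, hn, hm', ha, hb, h⟩ := (liftData Φ hm hMm hc).exists_expansion hw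
  refine ⟨ι, κ, n, m', a, b, 1, one_pos, fun i => ?_, fun i => ?_, ha, hb, fun τ => h τ τ.im_pos⟩
  · obtain ⟨k, hk, h1⟩ := hn i
    rw [h1]
    exact_mod_cast hk
  · obtain ⟨k, hk, h1⟩ := hm' i
    rw [h1]
    exact_mod_cast hk

end Data

/-! ### Weights -/

section Weights

variable {O : Type*} [CommRing O] {σ : O →+* ℂ}

/-- A weight of a smaller group gives one of the bigger group. -/
theorem isW_over {G G' : Subgroup (GL (Fin 2) O)} (hle : G' ≤ G) [G'.FiniteIndex]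
    {w : H3 → ℝ≥0∞} (hw : IsW σ G' w) :
    ∃ n : ℕ, n ≠ 0 ∧ IsW σ G (fun P => (n : ℝ≥0∞)⁻¹ * w P) := by
  let _ := h3Act σ
  have hfi : (G'.subgroupOf G).FiniteIndex := inferInstance
  have h1 : IsWeight (G'.subgroupOf G) w := by
    have hw' : IsWeight G' w := hw
    refine ⟨hw'.meas, fun P => ?_⟩
    rw [← hw'.sum_eq P, ← (Subgroup.subgroupOfEquivOfLe hle).toEquiv.tsum_eq]
    rfl
  exact ⟨(G'.subgroupOf G).index, hfi.index_ne_zero, IsWeight.over h1⟩

theorem isWeight_GamD {N : ℕ} (hi : Function.Injective σ) {w : H3 → ℝ≥0∞}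
    (hw : IsW σ (GO N ⊥) w) : IsWeight (GamD σ N) w := by
  rw [GamD_eq_GamU, GamU]
  have hinj : Function.Injective (Matrix.GeneralLinearGroup.map (n := Fin 2) σ) := by
    intro g g' hgg
    apply Units.ext
    ext i j
    have := congrArg (fun m : GL (Fin 2) ℂ => m i j) hgg
    exact hi this
  exact (isWeight_map_iff hinj _).mpr (isW_iff.mp hw)

theorem ker_le_GO (h : EisEmb σ) {N m : ℕ} (hNm : N ∣ m) (hm : 3 ≤ m) :
    (redHom O m).ker ≤ GO N ⊥ := by
  intro g hg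
  obtain ⟨h00, h01, h10, h11⟩ := mem_ker_redHom.mp hg
  have h1 : (N : O) ∣ (m : O) := Nat.cast_dvd_cast hNm
  refine ⟨h1.trans h01, h1.trans h10, ?_⟩
  rw [Subgroup.mem_bot]
  apply Units.ext
  refine unit_eq_one h hm (h.unit _) ?_
  rw [Matrix.GeneralLinearGroup.val_det_apply, Matrix.det_fin_two]
  have e : (g : Matrix (Fin 2) (Fin 2) O) 0 0 * (g : Matrix (Fin 2) (Fin 2) O) 1 1 -
      (g : Matrix (Fin 2) (Fin 2) O) 0 1 * (g : Matrix (Fin 2) (Fin 2) O) 1 0 - 1 =
      ((g : Matrix (Fin 2) (Fin 2) O) 0 0 - 1) * (g : Matrix (Fin 2) (Fin 2) O) 1 1 +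
      ((g : Matrix (Fin 2) (Fin 2) O) 1 1 - 1) -
      (g : Matrix (Fin 2) (Fin 2) O) 0 1 * (g : Matrix (Fin 2) (Fin 2) O) 1 0 := by ring
  rw [e]
  exact dvd_sub (dvd_add (h00.mul_right _) h11) (h01.mul_right _)

end Weights

end Fermat.Agent.LT.Theta31
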