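import Fermat.Agent.LT.Theta31.Nonzero
import Fermat.Agent.LT.Theta31.Glue

/-!
# Step (D): from a form on hyperbolic 3-space with non-vanishing period to a weight one form
-/

set_option autoImplicit false

noncomputable section

open MeasureTheory Matrix Complex ComplexConjugate NumberField
open scoped MatrixGroups ENNReal UpperHalfPlane ModularForm

local notation "Γℚ" => (AlgebraicClosure ℚ ≃ₐ[ℚ] AlgebraicClosure ℚ)

namespace Fermat.Agent.LT.Theta31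

open H3

attribute [local instance] EisK.starO

section K

variable {K : Type} [Field K] [NumberField K] [IsCyclotomicExtension {3} ℚ K] {σ : K →+* ℂ}
  {s : 𝓞 K} {M : ℕ} (Φ : KForm σ s M)

include Φ in
/-- The weights used for the lift. -/
theorem exists_weights : ∃ (w w' : H3 → ℝ≥0∞) (n : ℕ), n ≠ 0 ∧
    IsW (σO σ) (redHom (𝓞 K) (3 * (3 * M) ^ 2)).ker w' ∧ IsW (σO σ) (GO (3 * M) ⊥) w ∧
    w = fun P => (n : ℝ≥0∞)⁻¹ * w' P := by
  have hM := Φ.N_ne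
  have h9 : 9 ≤ (3 * M) ^ 2 := by
    have : 3 ≤ 3 * M := by omega
    calc 9 = 3 ^ 2 := by norm_num
      _ ≤ (3 * M) ^ 2 := Nat.pow_le_pow_left this 2
  obtain ⟨w', hm, hw'⟩ := exists_weight (eisEmb_K σ) (redHom (𝓞 K) (3 * (3 * M) ^ 2)).ker
  have hw : IsW (σO σ) (redHom (𝓞 K) (3 * (3 * M) ^ 2)).ker w' := isW_iff.mpr ⟨hm, hw'⟩
  have hle : (redHom (𝓞 K) (3 * (3 * M) ^ 2)).ker ≤ GO (3 * M) ⊥ :=
    ker_le_GO (eisEmb_K σ) (Dvd.intro (3 * (3 * M)) (by ring)) (by omega)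
  have := finiteIndex_ker (eisEmb_K σ) (M := 3 * (3 * M) ^ 2) (by omega)
  obtain ⟨n, hn, hw2⟩ := isW_over hle hw
  exact ⟨_, w', n, hn, hw, hw2, rfl⟩

/-- The lift has an expansion at every cusp. -/
theorem hasExp_fK {w w' : H3 → ℝ≥0∞} {n : ℕ}
    (hw' : IsW (σO σ) (redHom (𝓞 K) (3 * (3 * M) ^ 2)).ker w')
    (hw : w = fun P => (n : ℝ≥0∞)⁻¹ * w' P) (γ : SL(2, ℤ)) :
    HasExp ((fun τ : ℍ => fK Φ (ntO K) w τ) ∣[(1 : ℤ)] γ) := by
  have hM := Φ.N_ne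
  obtain ⟨ω, hω, hrep⟩ := exists_ωK σ
  have h3M : NeZero (3 * M) := ⟨by omega⟩
  have hm0 : 3 * (3 * M) ^ 2 ≠ 0 := by positivity
  have hMm : M ∣ 3 * (3 * M) ^ 2 := Dvd.intro (27 * M) (by ring)
  have hwm : Measurable w' := (isW_iff.mp hw').1
  have hν : (volume : Measure H3).withDensity w =
      (n : ℝ≥0∞)⁻¹ • (volume : Measure H3).withDensity w' := by
    rw [hw, ← withDensity_smul _ hwm]
    rfl
  refine hasExp_lift_slash (ntO K) (fun x => EisK.map_star' σ x) hω hrep (cN_perT (3 * M)) ?_ γ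
  intro c' hc'
  have h1 := (hasExp_of_perT Φ hm0 hMm hc' hw').const_mul (((n : ℝ≥0∞)⁻¹).toReal : ℂ)
  rw [hν]
  simp only [integral_smul_measure]
  exact h1

/-- The Hecke operators at `p ≡ 1 mod 3`. -/
theorem exists_hecke_fK {w : H3 → ℝ≥0∞} (hw : IsW (σO σ) (GO (3 * M) ⊥) w)
    (hfin : ∀ y : ℝ, 0 < y →
      ∫⁻ P, thAbs (σO σ) (ntO K) y P ∂(volume : Measure H3).withDensity w ≠ ∞)
    {p : ℕ} (hp : p.Prime) (hpM : ¬ p ∣ 3 * M) (hp1 : p % 3 = 1) :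
    ∃ ϖ : 𝓞 K, Prime ϖ ∧ ϖ ∣ (p : 𝓞 K) ∧ ∀ τ : ℍ,
      (p : ℂ)⁻¹ * ∑ j ∈ Finset.range p, fK Φ (ntO K) w ((ModularForm.heckeMatrix p j • τ : ℍ) : ℂ) +
        fK Φ (ntO K) w ((ModularForm.heckeDiagMatrix p • τ : ℍ) : ℂ) =
          ((Φ.lam ϖ : ℝ) : ℂ) * fK Φ (ntO K) w τ := by
  have hM := Φ.N_ne
  have h3M : NeZero (3 * M) := ⟨by omega⟩
  have : Fact p.Prime := ⟨hp⟩
  have hσ : ∀ x, σO σ (star x) = conj (σO σ x) := fun x => EisK.map_star' σ x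
  obtain ⟨ω, hω, hrep⟩ := exists_ωK σ
  obtain ⟨π, hπ⟩ := EisK.exists_split (K := K) hp1
  have h3 : p ≠ 3 := by
    rintro rfl
    norm_num at hp1
  set D : SplitPrime (𝓞 K) p := splitO hπ h3 with hD
  refine ⟨D.π, D.prime_π, ⟨star D.π, D.mul_star.symm⟩, fun τ => ?_⟩
  have hwG : IsWeight (GamU (σO σ) (3 * M) ⊥) w := by
    have := isWeight_GamD (σO_injective σ) hw
    rwa [GamD_eq_GamU] at this
  refine hecke_upper hp.ne_zero (fun z hz => ?_) τ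
  exact hecke_fK Φ D (ntO K) hσ hpM hwG
    (fun P z hz => summable_theta_K (ntO K) hσ (cN_perT (3 * M)) P z hz)
    (fun z hz => measurable_theta_K (ntO K) hσ (cN_perT (3 * M)) z hz)
    (fun z hz => integrable_theta (ntO K) hσ hω hrep (cN_perT (3 * M)) z hz _
      (hfin _ (by positivity))) hz

end K

/-- **Step (D).** -/
theorem stepD {ρ : Γℚ →* GL (Fin 2) (ZMod 3)}
    (hdet : ∀ τ : Γℚ, Matrix.GeneralLinearGroup.det (ρ τ) =
      WeierstrassCurve.modThreeCyclotomicChar τ) : StepD ρ := by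
  intro K _ _ σ s M Φ hsys hper
  have hcyc : IsCyclotomicExtension {3} ℚ K := isCyc_of_sq hsys.deg Φ.s_sq
  have hM := Φ.N_ne
  have hσ : ∀ x, σO σ (star x) = conj (σO σ x) := fun x => EisK.map_star' σ x
  obtain ⟨w, w', n, hn, hw', hw, hww⟩ := exists_weights Φ
  have h27 : 27 * M ^ 2 ≠ 0 := by positivity
  have hN : NeZero (27 * M ^ 2) := ⟨h27⟩
  have hfi : (GO (O := 𝓞 K) (3 * M) ⊥).FiniteIndex := by
    have := finiteIndex_ker (eisEmb_K σ) (M := 3 * M) (by omega)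
    exact Subgroup.finiteIndex_of_le (ker_le_GO (eisEmb_K σ) dvd_rfl (by omega))
  have hfin : ∀ y : ℝ, 0 < y →
      ∫⁻ P, thAbs (σO σ) (ntO K) y P ∂(volume : Measure H3).withDensity w ≠ ∞ :=
    fun y hy => lintegral_thAbs_ne_top (ntO K) hσ (eisEmb_K σ) hw hy
  obtain ⟨τ₀, hτ₀⟩ := fK_ne_zero Φ hper (isWeight_GamD (σO_injective σ) hw) hfin
  refine wtOneInput_of_lift ρ hdet (N := 27 * M ^ 2) (Dvd.intro (9 * M ^ 2) (by ring))
    (f := fun τ : ℍ => fK Φ (ntO K) w τ) (fun h => hτ₀ (congrFun h τ₀)) ?_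
    (fun γ => hasExp_fK Φ hw' hww γ) ∅ ?_
  · intro g hg hg1
    rw [CongruenceSubgroup.Gamma0_mem, ZMod.intCast_zmod_eq_zero_iff_dvd] at hg
    push_cast at hg
    rw [fK_slash Φ (ntO K) hσ w g hg, chi3, if_pos hg1, one_smul]
  · intro p hp _ hpN hp1 x hx τ
    have hpM' : ¬ p ∣ M := fun h => hpN ((h.pow two_ne_zero).mul_left 27)
    have hpM : ¬ p ∣ 3 * M := by
      intro h
      rcases (Nat.Prime.dvd_mul hp).mp h with h | h
      · rw [(Nat.prime_dvd_prime_iff_eq hp Nat.prime_three).mp h] at hp1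
        norm_num at hp1
      · exact hpM' h
    obtain ⟨ϖ, h1, h2, h3⟩ := exists_hecke_fK Φ hw hfin hp hpM hp1
    obtain ⟨A, hA, φ, hφ, hx⟩ := hx
    have h4 : Φ.lam ϖ = x := by
      rcases hx with ⟨h5, h6⟩ | ⟨h5, h6⟩
      · rw [h6]
        exact hsys.split_one p hp hpM' A hA φ hφ h5 ϖ h1 h2
      · rw [h6]
        exact hsys.split_neg p hp hpM' A hA φ hφ h5 ϖ h1 h2
    rw [← h4]
    exact h3 τ

end Fermat.Agent.LT.Theta31
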