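import Fermat.Agent.LT.Theta31.Ode

/-!
# The function `gFun k = √k ∫_0^∞ e^{-k cosh² r} r sinh r dr`

`gFun' = -(√π/4) e^{-k}/k` and `(√π/4) e^{-k}/(k+1) ≤ gFun k ≤ (√π/4) e^{-k}/k`.
-/

set_option autoImplicit false

noncomputable section

open Real MeasureTheory Set Filter Topology

namespace Fermat.Agent.LT.Theta31

/-- the spherical integral of the Gaussian -/
def jFun (k : ℝ) : ℝ := ∫ r in Ioi (0 : ℝ), exp (-k * cosh r ^ 2) * (r * sinh r)

def gFun (k : ℝ) : ℝ := √k * jFun k

theorem gFun_pos {k : ℝ} (hk : 0 < k) : 0 < gFun k :=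
  mul_pos (sqrt_pos.2 hk) (integral_point_pos hk)

theorem integrableOn_jFun {k : ℝ} (hk : 0 < k) :
    IntegrableOn (fun r : ℝ => exp (-k * cosh r ^ 2) * (r * sinh r)) (Ioi 0) := by
  refine integrableOn_of_cosh_gauss hk (by fun_prop) (C := 2) (by norm_num) (k := 2) ?_
  intro r hr
  have hs : 0 ≤ sinh r := sinh_nonneg_iff.2 hr
  have hsc : sinh r ≤ cosh r := (sinh_lt_cosh r).le
  rw [abs_of_nonneg (by positivity)]
  calc exp (-k * cosh r ^ 2) * (r * sinh r)
      ≤ exp (-k * cosh r ^ 2) * ((2 * cosh r) * cosh r) := by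
        have := cosh_pos r
        gcongr
        exact self_le_two_cosh r
    _ = 2 * (cosh r ^ 2 * exp (-k * cosh r ^ 2)) := by ring

theorem integrableOn_jFun' {k : ℝ} (hk : 0 < k) :
    IntegrableOn (fun r : ℝ => cosh r ^ 2 * (exp (-k * cosh r ^ 2) * (r * sinh r))) (Ioi 0) := by
  refine integrableOn_of_cosh_gauss hk (by fun_prop) (C := 2) (by norm_num) (k := 4) ?_
  intro r hr
  have hs : 0 ≤ sinh r := sinh_nonneg_iff.2 hr
  have hsc : sinh r ≤ cosh r := (sinh_lt_cosh r).le
  rw [abs_of_nonneg (by positivity)]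
  calc cosh r ^ 2 * (exp (-k * cosh r ^ 2) * (r * sinh r))
      ≤ cosh r ^ 2 * (exp (-k * cosh r ^ 2) * ((2 * cosh r) * cosh r)) := by
        have := cosh_pos r
        gcongr
        exact self_le_two_cosh r
    _ = 2 * (cosh r ^ 4 * exp (-k * cosh r ^ 2)) := by ring

theorem hasDerivAt_jFun {k : ℝ} (hk : 0 < k) :
    HasDerivAt jFun (∫ r in Ioi (0 : ℝ), -(cosh r ^ 2 * (exp (-k * cosh r ^ 2) * (r * sinh r)))) k := by
  have hk2 : 0 < k / 2 := by positivity
  refine (hasDerivAt_integral_of_dominated_loc_of_deriv_le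
    (F := fun (x : ℝ) (r : ℝ) => exp (-x * cosh r ^ 2) * (r * sinh r))
    (F' := fun (x : ℝ) (r : ℝ) => -(cosh r ^ 2 * (exp (-x * cosh r ^ 2) * (r * sinh r))))
    (bound := fun r => cosh r ^ 2 * (exp (-(k / 2) * cosh r ^ 2) * (r * sinh r)))
    (s := Ioo (k / 2) (k + 1)) (Ioo_mem_nhds (by linarith) (by linarith)) ?_ ?_ ?_ ?_ ?_ ?_).2
  · exact Eventually.of_forall fun x =>
      (by fun_prop : Continuous fun r : ℝ => exp (-x * cosh r ^ 2) * (r * sinh r)).aestronglyMeasurable
  · exact integrableOn_jFun hk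
  · exact (by fun_prop : Continuous fun r : ℝ =>
      -(cosh r ^ 2 * (exp (-k * cosh r ^ 2) * (r * sinh r)))).aestronglyMeasurable
  · filter_upwards [ae_restrict_mem measurableSet_Ioi] with r hr x hx
    have hr' : (0 : ℝ) < r := hr
    have hs : 0 ≤ sinh r := sinh_nonneg_iff.2 hr'.le
    have hc := cosh_pos r
    rw [norm_neg, Real.norm_of_nonneg (by positivity)]
    have : exp (-x * cosh r ^ 2) ≤ exp (-(k / 2) * cosh r ^ 2) := by
      apply exp_le_exp.2
      have h1 := hx.1
      have h2 : 0 ≤ cosh r ^ 2 := by positivity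
      nlinarith
    gcongr
  · exact integrableOn_jFun' hk2
  · refine Eventually.of_forall fun r x _ => ?_
    have h1 : HasDerivAt (fun x : ℝ => -x * cosh r ^ 2) (-1 * cosh r ^ 2) x :=
      (hasDerivAt_neg x).mul_const _
    have h2 := (h1.exp).mul_const (r * sinh r)
    refine h2.congr_deriv ?_
    ring

theorem hasDerivAt_gFun {k : ℝ} (hk : 0 < k) :
    HasDerivAt gFun (-(√π / 4 * (exp (-k) / k))) k := by
  have h1 := (hasDerivAt_sqrt hk.ne').mul (hasDerivAt_jFun hk)
  have hs : 0 < √k := sqrt_pos.2 hk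
  have hsq : √k ^ 2 = k := sq_sqrt hk.le
  refine h1.congr_deriv ?_
  have h2 : jFun k / 2 + k * (∫ r in Ioi (0 : ℝ),
      -(cosh r ^ 2 * (exp (-k * cosh r ^ 2) * (r * sinh r)))) = -(exp (-k) * √(π / k) / 4) := by
    rw [← integral_point_lower hk]
    unfold jFun
    rw [← integral_div, ← integral_const_mul, ← integral_add]
    · refine setIntegral_congr_fun measurableSet_Ioi fun r _ => ?_
      ring
    · exact (integrableOn_jFun hk).div_const 2
    · exact (integrableOn_jFun' hk).neg.const_mul k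
  have h3 : √(π / k) = √π / √k := sqrt_div pi_pos.le k
  rw [h3] at h2
  have h4 : 1 / (2 * √k) * jFun k + √k * (∫ r in Ioi (0 : ℝ),
      -(cosh r ^ 2 * (exp (-k * cosh r ^ 2) * (r * sinh r)))) = (√k)⁻¹ * (jFun k / 2 + k *
      (∫ r in Ioi (0 : ℝ), -(cosh r ^ 2 * (exp (-k * cosh r ^ 2) * (r * sinh r))))) := by
    set A := ∫ r in Ioi (0 : ℝ), -(cosh r ^ 2 * (exp (-k * cosh r ^ 2) * (r * sinh r)))
    field_simp
    rw [hsq]
    ring
  rw [h4, h2]
  have h5 : (√k)⁻¹ * -(exp (-k) * (√π / √k) / 4) = -(√π / 4 * (exp (-k) / √k ^ 2)) := by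
    field_simp
  rw [h5, hsq]

theorem tendsto_gFun : Tendsto gFun atTop (𝓝 0) := by
  have hb : ∀ k : ℝ, 1 ≤ k → gFun k ≤ jFun 1 * exp 1 * (k * exp (-k)) := by
    intro k hk
    have hk0 : 0 < k := by linarith
    have h1 : jFun k ≤ exp (-(k - 1)) * jFun 1 := by
      unfold jFun
      rw [← integral_const_mul]
      refine setIntegral_mono_on (integrableOn_jFun hk0)
        ((integrableOn_jFun one_pos).const_mul _) measurableSet_Ioi fun r hr => ?_
      have hr' : (0 : ℝ) < r := hr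
      have hs : 0 ≤ sinh r := sinh_nonneg_iff.2 hr'.le
      have h2 : 1 ≤ cosh r ^ 2 := one_le_pow₀ (one_le_cosh r)
      have h6 : exp (-k * cosh r ^ 2) ≤ exp (-(k - 1)) * exp (-1 * cosh r ^ 2) := by
        rw [← exp_add]
        exact exp_le_exp.2 (by nlinarith)
      calc exp (-k * cosh r ^ 2) * (r * sinh r)
          ≤ exp (-(k - 1)) * exp (-1 * cosh r ^ 2) * (r * sinh r) :=
            mul_le_mul_of_nonneg_right h6 (by positivity)
        _ = exp (-(k - 1)) * (exp (-1 * cosh r ^ 2) * (r * sinh r)) := by ring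
    have h3 : √k ≤ k := by
      rw [sqrt_le_left (by linarith)]
      nlinarith
    have hj : 0 < jFun 1 := integral_point_pos one_pos
    calc gFun k = √k * jFun k := rfl
      _ ≤ k * (exp (-(k - 1)) * jFun 1) := by
          refine mul_le_mul h3 h1 ?_ hk0.le
          exact (integral_point_pos hk0).le
      _ = jFun 1 * exp 1 * (k * exp (-k)) := by
          have : exp (-(k - 1)) = exp 1 * exp (-k) := by
            rw [← exp_add]; congr 1; ring
          rw [this]; ring
  have h0 : Tendsto (fun k : ℝ => jFun 1 * exp 1 * (k * exp (-k))) atTop (𝓝 0) := by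
    have h1 := tendsto_pow_mul_exp_neg_atTop_nhds_zero 1
    have h2 := h1.const_mul (jFun 1 * exp 1)
    simpa using h2
  refine squeeze_zero' ?_ ?_ h0
  · filter_upwards [eventually_gt_atTop (0 : ℝ)] with k hk using (gFun_pos hk).le
  · filter_upwards [eventually_ge_atTop (1 : ℝ)] with k hk using hb k hk

/-- a function on `(0,∞)` with nonpositive derivative and limit `0` is nonnegative -/
theorem nonneg_of_deriv_nonpos {f f' : ℝ → ℝ} (hd : ∀ k, 0 < k → HasDerivAt f (f' k) k)
    (hn : ∀ k, 0 < k → f' k ≤ 0) (hl : Tendsto f atTop (𝓝 0)) {k : ℝ} (hk : 0 < k) :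
    0 ≤ f k := by
  have hanti : AntitoneOn f (Ioi 0) := by
    refine antitoneOn_of_deriv_nonpos (convex_Ioi 0)
      (fun x hx => (hd x hx).continuousAt.continuousWithinAt) ?_ ?_
    · intro x hx
      rw [interior_Ioi] at hx
      exact (hd x hx).differentiableAt.differentiableWithinAt
    · intro x hx
      rw [interior_Ioi] at hx
      rw [(hd x hx).deriv]
      exact hn x hx
  refine le_of_tendsto hl ?_
  filter_upwards [eventually_ge_atTop k] with x hx
  exact hanti hk (lt_of_lt_of_le hk hx) hx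

theorem gFun_le {k : ℝ} (hk : 0 < k) : gFun k ≤ √π / 4 * (exp (-k) / k) := by
  have hpi : 0 < √π := sqrt_pos.2 pi_pos
  have h := nonneg_of_deriv_nonpos (f := fun k => √π / 4 * (exp (-k) / k) - gFun k)
    (f' := fun k => -(√π / 4 * (exp (-k) / k ^ 2))) ?_ ?_ ?_ hk
  · linarith
  · intro x hx
    have h1 : HasDerivAt (fun x : ℝ => exp (-x)) (exp (-x) * -1) x := (hasDerivAt_neg x).exp
    have h2 := ((h1.div (hasDerivAt_id x) hx.ne').const_mul (√π / 4)).sub (hasDerivAt_gFun hx)
    refine h2.congr_deriv ?_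
    simp only [id]
    field_simp
    ring
  · intro x hx
    have : 0 ≤ √π / 4 * (exp (-x) / x ^ 2) := by positivity
    linarith
  · have h1 : Tendsto (fun x : ℝ => √π / 4 * (exp (-x) / x)) atTop (𝓝 (√π / 4 * 0)) := by
      refine Tendsto.const_mul _ ?_
      have h2 := tendsto_exp_neg_atTop_nhds_zero
      have h3 := h2.mul tendsto_inv_atTop_zero
      simpa [div_eq_mul_inv] using h3
    have h4 := h1.sub tendsto_gFun
    simpa using h4

theorem le_gFun {k : ℝ} (hk : 0 < k) : √π / 4 * (exp (-k) / (k + 1)) ≤ gFun k := by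
  have hpi : 0 < √π := sqrt_pos.2 pi_pos
  have h := nonneg_of_deriv_nonpos (f := fun k => gFun k - √π / 4 * (exp (-k) / (k + 1)))
    (f' := fun k => -(√π / 4 * (exp (-k) / (k * (k + 1) ^ 2)))) ?_ ?_ ?_ hk
  · linarith
  · intro x hx
    have h1 : HasDerivAt (fun x : ℝ => exp (-x)) (exp (-x) * -1) x := (hasDerivAt_neg x).exp
    have h5 : HasDerivAt (fun x : ℝ => x + 1) 1 x := (hasDerivAt_id x).add_const 1
    have h2 := (hasDerivAt_gFun hx).sub ((h1.div h5 (by positivity)).const_mul (√π / 4))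
    refine h2.congr_deriv ?_
    field_simp
    ring
  · intro x hx
    have : 0 ≤ √π / 4 * (exp (-x) / (x * (x + 1) ^ 2)) := by positivity
    linarith
  · have h1 : Tendsto (fun x : ℝ => √π / 4 * (exp (-x) / (x + 1))) atTop (𝓝 (√π / 4 * 0)) := by
      refine Tendsto.const_mul _ ?_
      have h2 := tendsto_exp_neg_atTop_nhds_zero
      have h6 : Tendsto (fun x : ℝ => x + 1) atTop atTop := tendsto_atTop_add_const_right _ _ tendsto_id
      have h3 := h2.mul (tendsto_inv_atTop_zero.comp h6)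
      simpa [div_eq_mul_inv] using h3
    have h4 := tendsto_gFun.sub h1
    simpa using h4

end Fermat.Agent.LT.Theta31
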