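import Fermat.Agent.LT.H3.Abel
import Fermat.Agent.LT.Theta31.ExpInt

/-!
# The Abel transform of the Gaussian `exp (-κ u²)`

`∫ abel (exp (-κ u²)) = 4 π jFun κ`.
-/

set_option autoImplicit false

open MeasureTheory Set Filter Topology

noncomputable section

namespace Fermat.Agent.LT.Theta31

theorem integrable_gaussE {κ : ℝ} (hκ : 0 < κ) : Integrable fun u : ℝ => Real.exp (-κ * u ^ 2) :=
  integrable_exp_neg_mul_sq hκ

theorem hasDerivAt_abel_gauss {κ : ℝ} (hκ : 0 < κ) (r : ℝ) :
    HasDerivAt (H3.abel fun u : ℝ => Real.exp (-κ * u ^ 2))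
      (-(2 * Real.pi * (Real.exp (-κ * Real.cosh r ^ 2) * Real.sinh r))) r := by
  have hi : ∀ a, IntegrableOn (fun u : ℝ => Real.exp (-κ * u ^ 2)) (Ioi a) := fun a =>
    (integrable_gaussE hκ).integrableOn
  have h0 : (H3.abel fun u : ℝ => Real.exp (-κ * u ^ 2)) = fun r => (2 * Real.pi) *
      ((∫ t in Ioi (0 : ℝ), Real.exp (-κ * t ^ 2)) -
        ∫ t in (0 : ℝ)..Real.cosh r, Real.exp (-κ * t ^ 2)) := by
    ext r
    rw [H3.abel, ← intervalIntegral.integral_interval_add_Ioi (hi 0) (hi (Real.cosh r)),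
      add_sub_cancel_left, smul_eq_mul]
  rw [h0]
  have hc : Continuous fun u : ℝ => Real.exp (-κ * u ^ 2) := by fun_prop
  have h1 : HasDerivAt (fun t => ∫ s in (0 : ℝ)..t, Real.exp (-κ * s ^ 2))
      (Real.exp (-κ * Real.cosh r ^ 2)) (Real.cosh r) :=
    hc.integral_hasStrictDerivAt 0 (Real.cosh r) |>.hasDerivAt
  have h2 : HasDerivAt (fun r => ∫ s in (0 : ℝ)..Real.cosh r, Real.exp (-κ * s ^ 2))
      (Real.exp (-κ * Real.cosh r ^ 2) * Real.sinh r) r :=
    HasDerivAt.comp (h₂ := fun t => ∫ s in (0 : ℝ)..t, Real.exp (-κ * s ^ 2)) r h1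
      (Real.hasDerivAt_cosh r)
  have h3 := (h2.const_sub (∫ t in Ioi (0 : ℝ), Real.exp (-κ * t ^ 2))).const_mul (2 * Real.pi)
  refine h3.congr_deriv ?_
  ring

theorem abel_gauss_nonneg (κ : ℝ) (r : ℝ) :
    0 ≤ H3.abel (fun u : ℝ => Real.exp (-κ * u ^ 2)) r := by
  rw [H3.abel, smul_eq_mul]
  refine mul_nonneg (by have := Real.pi_pos; positivity) ?_
  exact integral_nonneg fun u => (Real.exp_pos _).le

theorem abel_gauss_le {κ : ℝ} (hκ : 0 < κ) (r : ℝ) :
    H3.abel (fun u : ℝ => Real.exp (-κ * u ^ 2)) r ≤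
      Real.pi / κ * Real.exp (-κ * Real.cosh r ^ 2) := by
  set c := Real.cosh r with hc
  have hc1 : 1 ≤ c := Real.one_le_cosh r
  have hc0 : 0 < c := by linarith
  have hd : ∀ u ∈ Ici c, HasDerivAt (fun u : ℝ => -(Real.exp (-κ * u ^ 2) / (2 * κ)))
      (u * Real.exp (-κ * u ^ 2)) u := by
    intro u _
    have h1 : HasDerivAt (fun u : ℝ => -κ * u ^ 2) (-κ * (2 * u)) u := by
      simpa using (hasDerivAt_pow 2 u).const_mul (-κ)
    have h2 := (h1.exp.div_const (2 * κ)).fun_neg
    refine h2.congr_deriv ?_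
    field_simp
  have hint : IntegrableOn (fun u : ℝ => u * Real.exp (-κ * u ^ 2)) (Ioi c) :=
    (integrable_mul_exp_neg_mul_sq hκ).integrableOn
  have hl : Tendsto (fun u : ℝ => -(Real.exp (-κ * u ^ 2) / (2 * κ))) atTop (𝓝 0) := by
    have h3 : Tendsto (fun u : ℝ => κ * u ^ 2) atTop atTop :=
      (tendsto_pow_atTop two_ne_zero).const_mul_atTop hκ
    have h4 := (Real.tendsto_exp_neg_atTop_nhds_zero.comp h3).div_const (2 * κ)
    have h5 := h4.neg
    simp only [zero_div, neg_zero] at h5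
    refine h5.congr fun u => ?_
    simp only [Function.comp_apply]
    rw [neg_mul]
  have hI := integral_Ioi_of_hasDerivAt_of_tendsto' hd hint hl
  have hle : ∫ u in Ioi c, Real.exp (-κ * u ^ 2) ≤ ∫ u in Ioi c, u * Real.exp (-κ * u ^ 2) := by
    refine setIntegral_mono_on (integrable_gaussE hκ).integrableOn hint measurableSet_Ioi
      fun u hu => ?_
    have hu' : c < u := hu
    have : 1 ≤ u := by linarith
    nlinarith [Real.exp_pos (-κ * u ^ 2)]
  rw [hI] at hle
  rw [H3.abel, smul_eq_mul]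
  have hpi := Real.pi_pos
  calc 2 * Real.pi * ∫ u in Ioi c, Real.exp (-κ * u ^ 2)
      ≤ 2 * Real.pi * (0 - -(Real.exp (-κ * c ^ 2) / (2 * κ))) := by gcongr
    _ = Real.pi / κ * Real.exp (-κ * c ^ 2) := by
        field_simp
        ring

theorem continuous_abel_gauss {κ : ℝ} (hκ : 0 < κ) :
    Continuous (H3.abel fun u : ℝ => Real.exp (-κ * u ^ 2)) :=
  continuous_iff_continuousAt.mpr fun r => (hasDerivAt_abel_gauss hκ r).continuousAt

theorem integrableOn_abel_gauss {κ : ℝ} (hκ : 0 < κ) :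
    IntegrableOn (H3.abel fun u : ℝ => Real.exp (-κ * u ^ 2)) (Ioi 0) := by
  refine integrableOn_of_cosh_gauss hκ (continuous_abel_gauss hκ) (C := Real.pi / κ)
    (by have := Real.pi_pos; positivity) (k := 0) fun r _ => ?_
  rw [abs_of_nonneg (abel_gauss_nonneg κ r), pow_zero, one_mul]
  exact abel_gauss_le hκ r

/-- **The total mass of the Abel transform of the Gaussian.** -/
theorem integral_abel_gauss {κ : ℝ} (hκ : 0 < κ) :
    ∫ t, H3.abel (fun u : ℝ => Real.exp (-κ * u ^ 2)) t = 4 * Real.pi * jFun κ := by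
  have hpi := Real.pi_pos
  set A := H3.abel fun u : ℝ => Real.exp (-κ * u ^ 2) with hA
  have h1 : ∫ t, A t = 2 * ∫ t in Ioi (0 : ℝ), A t := by
    have h2 := integral_comp_abs (f := A)
    rw [← h2]
    refine integral_congr_ae (Eventually.of_forall fun t => ?_)
    exact (H3.abel_abs _ t).symm
  have hd : ∀ t ∈ Ici (0 : ℝ), HasDerivAt (fun t => t * A t)
      (A t + -(2 * Real.pi) * (Real.exp (-κ * Real.cosh t ^ 2) * (t * Real.sinh t))) t := by
    intro t _
    have h3 := (hasDerivAt_id t).mul (hasDerivAt_abel_gauss hκ t)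
    have h4 : HasDerivAt (fun t => t * A t) _ t := h3
    refine h4.congr_deriv ?_
    simp only [id]
    ring
  have hJ : IntegrableOn (fun t : ℝ => -(2 * Real.pi) *
      (Real.exp (-κ * Real.cosh t ^ 2) * (t * Real.sinh t))) (Ioi 0) :=
    (integrableOn_jFun hκ).const_mul _
  have hl : Tendsto (fun t => t * A t) atTop (𝓝 0) := by
    have hb : ∀ t, 0 ≤ t → t * A t ≤ (2 * (Real.pi / κ) * ((2 : ℕ).factorial / κ ^ 2)) *
        Real.exp (-t) := by
      intro t ht
      have e1 := cosh_gauss_le hκ 2 t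
      have hc := Real.cosh_pos t
      have hc1 := Real.one_le_cosh t
      rw [Real.exp_neg, ← div_eq_mul_inv, le_div_iff₀ (Real.exp_pos _)]
      have ht2 : t ≤ Real.cosh t ^ 2 := by
        have h5 := exp_le_two_cosh t
        have h6 := Real.quadratic_le_exp_of_nonneg ht
        nlinarith
      calc t * A t * Real.exp t
          ≤ Real.cosh t ^ 2 * (Real.pi / κ * Real.exp (-κ * Real.cosh t ^ 2)) *
              (2 * Real.cosh t) := by
            have h7 := abel_gauss_le hκ t
            have h8 := abel_gauss_nonneg κ t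
            gcongr
            exact exp_le_two_cosh t
        _ = 2 * (Real.pi / κ) * (Real.cosh t ^ 3 * Real.exp (-κ * Real.cosh t ^ 2)) := by ring
        _ ≤ 2 * (Real.pi / κ) * (Real.cosh t ^ (2 * 2) * Real.exp (-κ * Real.cosh t ^ 2)) := by
            have h9 : Real.cosh t ^ 3 ≤ Real.cosh t ^ (2 * 2) :=
              pow_le_pow_right₀ hc1 (by norm_num)
            gcongr
        _ ≤ 2 * (Real.pi / κ) * ((2 : ℕ).factorial / κ ^ 2) := by gcongr
    have h0 : Tendsto (fun t : ℝ => (2 * (Real.pi / κ) * ((2 : ℕ).factorial / κ ^ 2)) *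
        Real.exp (-t)) atTop (𝓝 0) := by
      have := Real.tendsto_exp_neg_atTop_nhds_zero.const_mul
        (2 * (Real.pi / κ) * (((2 : ℕ).factorial : ℝ) / κ ^ 2))
      rwa [mul_zero] at this
    refine squeeze_zero' ?_ ?_ h0
    · filter_upwards [eventually_ge_atTop (0 : ℝ)] with t ht
      exact mul_nonneg ht (abel_gauss_nonneg κ t)
    · filter_upwards [eventually_ge_atTop (0 : ℝ)] with t ht using hb t ht
  have hsum := integral_Ioi_of_hasDerivAt_of_tendsto' hd
    ((integrableOn_abel_gauss hκ).add hJ) hl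
  have hadd := integral_add (integrableOn_abel_gauss hκ) hJ
  rw [zero_mul, sub_zero] at hsum
  have h6 : ∫ t in Ioi (0 : ℝ), (A t + -(2 * Real.pi) *
      (Real.exp (-κ * Real.cosh t ^ 2) * (t * Real.sinh t))) = 0 := hsum
  rw [hadd, integral_const_mul] at h6
  rw [h1]
  unfold jFun
  linarith

end Fermat.Agent.LT.Theta31
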