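import Fermat.Agent.LT.Theta31.HeckeCount

/-!
# The Hecke operator at a split prime and the theta kernel

`kern n w z = √y e(n z) exp (-4 π y w²)` and, for `W : ℤ × O × ℤ → ℝ` (`W X = B(X, P)`, `P ∈ H3`),
`theta c W z = ∑ X, c X * kern (q X) (W X) z`. If `W (β i X β i^*) = √p * W' i X` and
`c X = c' (β i X β i^*)`, then

`∑ i, theta c (W' i) z = √p * (p⁻¹ * ∑ j, theta c' W ((z + j) / p) + theta (c' (p ·)) W (p z))`.
-/

set_option autoImplicit false

noncomputable section

open Complex

namespace Fermat.Agent.LT.Theta31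

/-- The kernel. -/
def kern (n : ℤ) (w : ℝ) (z : ℂ) : ℂ :=
  (Real.sqrt z.im : ℂ) * cexp (2 * Real.pi * I * n * z) * (Real.exp (-(4 * Real.pi * z.im * w ^ 2)) : ℂ)

lemma norm_kern (n : ℤ) (w : ℝ) (z : ℂ) : ‖kern n w z‖ =
    Real.sqrt z.im * Real.exp (-(2 * Real.pi * z.im * (n + 2 * w ^ 2))) := by
  rw [kern, norm_mul, norm_mul, Complex.norm_exp, Complex.norm_real, Complex.norm_real,
    Real.norm_of_nonneg (Real.sqrt_nonneg _), Real.norm_of_nonneg (Real.exp_nonneg _), mul_assoc,
    ← Real.exp_add]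
  congr 2
  simp
  ring

/-- `kern` at `z` in terms of `z / p`. -/
lemma kern_div {p : ℕ} (hp : p ≠ 0) (n : ℤ) {w w' : ℝ} (hw : w' = Real.sqrt p * w) (z : ℂ) :
    kern n w z = Real.sqrt p * kern (p * n) w' (z / p) := by
  have hp' : (0 : ℝ) < p := by exact_mod_cast Nat.pos_of_ne_zero hp
  have him : (z / p).im = z.im / p := by
    rw [← Complex.ofReal_natCast, Complex.div_ofReal_im]
  have h1 : Real.sqrt z.im = Real.sqrt p * Real.sqrt (z / p).im := by
    rw [him, ← Real.sqrt_mul hp'.le]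
    congr 1
    field_simp
  have h2 : 4 * Real.pi * z.im * w ^ 2 = 4 * Real.pi * (z / p).im * w' ^ 2 := by
    rw [him, hw, mul_pow, Real.sq_sqrt hp'.le]
    field_simp
  have h3 : 2 * Real.pi * I * n * z = 2 * Real.pi * I * ((p * n : ℤ) : ℂ) * (z / p) := by
    have : (p : ℂ) ≠ 0 := by exact_mod_cast hp
    push_cast
    field_simp
  rw [kern, kern, h1, h2, h3]
  push_cast
  ring

/-- `kern` at `p z` in terms of `z / p`. -/
lemma kern_mul {p : ℕ} (hp : p ≠ 0) (n : ℤ) (w : ℝ) (z : ℂ) :
    kern n w (p * z) = p * kern (p ^ 2 * n) (p * w) (z / p) := by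
  have hp' : (0 : ℝ) < p := by exact_mod_cast Nat.pos_of_ne_zero hp
  have him : (z / p).im = z.im / p := by
    rw [← Complex.ofReal_natCast, Complex.div_ofReal_im]
  have him' : (p * z).im = p * z.im := by
    rw [← Complex.ofReal_natCast, Complex.im_ofReal_mul]
  have h1 : Real.sqrt (p * z).im = p * Real.sqrt (z / p).im := by
    rw [him, him', ← Real.sqrt_sq hp'.le, ← Real.sqrt_mul (sq_nonneg _), Real.sqrt_sq hp'.le]
    congr 1
    field_simp
  have h2 : 4 * Real.pi * (p * z).im * w ^ 2 = 4 * Real.pi * (z / p).im * (p * w) ^ 2 := by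
    rw [him, him']
    field_simp
  have h3 : 2 * Real.pi * I * n * (p * z) = 2 * Real.pi * I * ((p ^ 2 * n : ℤ) : ℂ) * (z / p) := by
    have : (p : ℂ) ≠ 0 := by exact_mod_cast hp
    push_cast
    field_simp
  rw [kern, kern, h1, h2, h3]
  push_cast
  ring

/-- The sum over the translates `(z + j) / p`. -/
lemma sum_kern_add {p : ℕ} [hp : Fact p.Prime] (n : ℤ) (w : ℝ) (z : ℂ) :
    ∑ j : Fin p, kern n w ((z + (j : ℕ)) / p) =
      if (p : ℤ) ∣ n then p * kern n w (z / p) else 0 := by
  have hp0 : (p : ℂ) ≠ 0 := by exact_mod_cast hp.out.ne_zero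
  have him : ∀ j : ℕ, ((z + j) / p).im = (z / p).im := by
    intro j
    rw [← Complex.ofReal_natCast, ← Complex.ofReal_natCast, Complex.div_ofReal_im,
      Complex.div_ofReal_im, Complex.add_im, Complex.ofReal_im, add_zero]
  have h1 : ∀ j : ℕ, kern n w ((z + j) / p) =
      kern n w (z / p) * cexp (2 * Real.pi * I * n / p) ^ j := by
    intro j
    rw [kern, kern, him, ← Complex.exp_nat_mul]
    have : cexp (2 * Real.pi * I * n * ((z + j) / p)) =
        cexp (2 * Real.pi * I * n * (z / p)) * cexp (j * (2 * Real.pi * I * n / p)) := by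
      rw [← Complex.exp_add]
      congr 1
      field_simp
    rw [this]
    ring
  simp only [h1]
  rw [← Finset.mul_sum, Fin.sum_univ_eq_sum_range (fun j => cexp (2 * Real.pi * I * n / p) ^ j) p]
  split_ifs with hd
  · obtain ⟨m, rfl⟩ := hd
    have : cexp (2 * Real.pi * I * ((p * m : ℤ) : ℂ) / p) = 1 := by
      rw [Complex.exp_eq_one_iff]
      refine ⟨m, ?_⟩
      push_cast
      field_simp
    rw [this]
    simp only [one_pow, Finset.sum_const, Finset.card_range, nsmul_eq_mul, mul_one]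
    ring
  · have hne : cexp (2 * Real.pi * I * n / p) ≠ 1 := by
      intro h
      rw [Complex.exp_eq_one_iff] at h
      obtain ⟨m, hm⟩ := h
      apply hd
      refine ⟨m, ?_⟩
      have h2pi : (2 * Real.pi * I : ℂ) ≠ 0 := Complex.two_pi_I_ne_zero
      have h3 : (2 * Real.pi * I : ℂ) * n = (2 * Real.pi * I) * (p * m) := by
        rw [div_eq_iff hp0] at hm
        linear_combination hm
      have h4 := mul_left_cancel₀ h2pi h3
      exact_mod_cast h4
    rw [geom_sum_eq hne, ← Complex.exp_nat_mul]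
    have : cexp (p * (2 * Real.pi * I * n / p)) = 1 := by
      rw [Complex.exp_eq_one_iff]
      refine ⟨n, ?_⟩
      field_simp
    rw [this, sub_self, zero_div, mul_zero]

namespace SplitPrime

variable {O : Type*} [CommRing O] [StarRing O] {p : ℕ} (D : SplitPrime O p)

/-- The theta function. -/
def theta (c : ℤ × O × ℤ → ℂ) (W : ℤ × O × ℤ → ℝ) (z : ℂ) : ℂ :=
  ∑' X, c X * kern (D.q X) (W X) z

variable {D} [CharZero O] [IsDomain O] [hp : Fact p.Prime] {ι : Type*} [Fintype ι] {t : ι → ℤ}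
  {c c' : ℤ × O × ℤ → ℂ} {W : ℤ × O × ℤ → ℝ} {W' : Option ι → ℤ × O × ℤ → ℝ} {z : ℂ}

omit [IsDomain O] hp in
lemma q_pmul (Z : ℤ × O × ℤ) : D.q (pmul p Z) = p ^ 2 * D.q Z := by
  have hinj : Function.Injective (Int.cast : ℤ → O) := Int.cast_injective
  apply hinj
  simp only [q, pmul]
  push_cast
  rw [D.nrm_eq, D.nrm_eq]
  simp only [star_mul', star_natCast]
  ring

/-- **Eichler's commutation relation at a split prime.** -/
theorem sum_theta (ht : Function.Bijective fun i => (t i : ZMod p))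
    (hc : ∀ i X, c X = c' (D.act t i X))
    (hW : ∀ i X, W (D.act t i X) = Real.sqrt p * W' i X)
    (hWp : ∀ X, W (pmul p X) = p * W X)
    (hs : ∀ z : ℂ, 0 < z.im → Summable fun X => c' X * kern (D.q X) (W X) z) (hz : 0 < z.im) :
    ∑ i, D.theta c (W' i) z =
      Real.sqrt p * ((p : ℂ)⁻¹ * ∑ j : Fin p, D.theta c' W ((z + (j : ℕ)) / p) +
        D.theta (fun Z => c' (pmul p Z)) W (p * z)) := by
  have hp0 : p ≠ 0 := hp.out.ne_zero
  have hpC : (p : ℂ) ≠ 0 := by exact_mod_cast hp0
  have hpR : (0 : ℝ) < p := by exact_mod_cast Nat.pos_of_ne_zero hp0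
  have him : ∀ j : ℕ, 0 < ((z + j) / p).im := by
    intro j
    rw [← Complex.ofReal_natCast, ← Complex.ofReal_natCast, Complex.div_ofReal_im,
      Complex.add_im, Complex.ofReal_im, add_zero]
    positivity
  have him0 : 0 < (z / p).im := by simpa using him 0
  have h1 : ∀ i, D.theta c (W' i) z = Real.sqrt p *
      ∑' X, c' (D.act t i X) * kern (D.q (D.act t i X)) (W (D.act t i X)) (z / p) := by
    intro i
    rw [theta, ← tsum_mul_left]
    refine tsum_congr fun X => ?_
    rw [kern_div hp0 _ (hW i X), hc i X, q_act]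
    ring
  have h2 := D.tsum_hecke t (c' := c') (g := fun Y => kern (D.q Y) (W Y) (z / p)) ht (hs _ him0)
  simp only [h1]
  rw [← Finset.mul_sum, h2]
  congr 2
  · simp only [theta]
    rw [← Summable.tsum_finsetSum fun (j : Fin p) _ => hs _ (him j), ← tsum_mul_left]
    refine tsum_congr fun Y => ?_
    rw [← Finset.mul_sum, sum_kern_add]
    by_cases hY : (p : ℤ) ∣ D.q Y
    · rw [if_pos hY, Set.indicator_of_mem (by exact hY)]
      field_simp
    · rw [if_neg hY, Set.indicator_of_notMem (by exact hY), mul_zero, mul_zero]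
  · rw [theta, ← tsum_mul_left]
    refine tsum_congr fun Z => ?_
    rw [kern_mul hp0, q_pmul, hWp]
    ring

end SplitPrime

end Fermat.Agent.LT.Theta31
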