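import Fermat.Agent.LT.H3.Basic
import Fermat.Agent.LT.Theta31.HeckeTheta

/-!
# The pairing of Hermitian matrices with points of hyperbolic 3-space

`lin σ X P = B(X, P) = (a - 2 Re (b conj z) + d (|z|² + y²)) / (2 y)` for `X = (a, b; conj b, d)`.
-/

set_option autoImplicit false

noncomputable section

open Complex ComplexConjugate Matrix

namespace Fermat.Agent.LT.Theta31

open H3

/-- The pairing of a matrix with a point of `H3`. -/
def bil (X : Matrix (Fin 2) (Fin 2) ℂ) (P : H3) : ℝ := (X * hermInv P).trace.re / 2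

lemma bil_smul (g : GL (Fin 2) ℂ) (X : Matrix (Fin 2) (Fin 2) ℂ) (P : H3) :
    bil ((g : Matrix (Fin 2) (Fin 2) ℂ) * X * (g : Matrix (Fin 2) (Fin 2) ℂ)ᴴ) (g • P) =
      adet g * bil X P := by
  have h2 : (g : Matrix (Fin 2) (Fin 2) ℂ)ᴴ *
      ((g⁻¹ : GL (Fin 2) ℂ) : Matrix (Fin 2) (Fin 2) ℂ)ᴴ = 1 := by
    rw [← Matrix.conjTranspose_mul, ← Units.val_mul, inv_mul_cancel, Units.val_one,
      Matrix.conjTranspose_one]
  have h3 : ((g⁻¹ : GL (Fin 2) ℂ) : Matrix (Fin 2) (Fin 2) ℂ) *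
      (g : Matrix (Fin 2) (Fin 2) ℂ) = 1 := by
    rw [← Units.val_mul, inv_mul_cancel, Units.val_one]
  have key : ((g : Matrix (Fin 2) (Fin 2) ℂ) * X * (g : Matrix (Fin 2) (Fin 2) ℂ)ᴴ *
      hermInv (g • P)).trace = adet g * (X * hermInv P).trace := by
    rw [hermInv_smul, Matrix.mul_smul, Matrix.trace_smul, smul_eq_mul]
    congr 1
    calc _ = ((g : Matrix (Fin 2) (Fin 2) ℂ) * (X * ((g : Matrix (Fin 2) (Fin 2) ℂ)ᴴ *
          ((g⁻¹ : GL (Fin 2) ℂ) : Matrix (Fin 2) (Fin 2) ℂ)ᴴ) * hermInv P *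
            ((g⁻¹ : GL (Fin 2) ℂ) : Matrix (Fin 2) (Fin 2) ℂ))).trace := by
            simp only [Matrix.mul_assoc]
      _ = (X * hermInv P).trace := by
            rw [h2, Matrix.mul_one, Matrix.trace_mul_comm, Matrix.mul_assoc, h3, Matrix.mul_one]
  rw [bil, bil, key, Complex.re_ofReal_mul, mul_div_assoc]

lemma bil_mk (a d : ℝ) (b : ℂ) (P : H3) : bil !![(a : ℂ), b; conj b, (d : ℂ)] P =
    (a - 2 * (b * conj P.z).re + d * (normSq P.z + P.y ^ 2)) / (2 * P.y) := by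
  have hy : P.y ≠ 0 := P.y_ne
  rw [bil, hermInv, Matrix.mul_smul, Matrix.trace_smul, smul_eq_mul, Matrix.mul_fin_two,
    Matrix.trace_fin_two_of, ← Complex.ofReal_inv, Complex.re_ofReal_mul]
  simp only [mul_one, mul_neg, add_re, neg_re, mul_re, conj_re, conj_im, ofReal_re, ofReal_im,
    normSq_apply, pow_two, add_im, mul_im]
  field_simp
  ring

variable {O : Type*} [CommRing O] [StarRing O] (σ : O →+* ℂ)

/-- The Hermitian matrix of a triple. -/
def mat (X : ℤ × O × ℤ) : Matrix (Fin 2) (Fin 2) ℂ :=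
  !![(X.1 : ℂ), σ X.2.1; conj (σ X.2.1), (X.2.2 : ℂ)]

/-- The pairing of a triple with a point of `H3`. -/
def lin (X : ℤ × O × ℤ) (P : H3) : ℝ :=
  (X.1 - 2 * (σ X.2.1 * conj P.z).re + X.2.2 * (normSq P.z + P.y ^ 2)) / (2 * P.y)

omit [StarRing O] in
lemma bil_mat (X : ℤ × O × ℤ) (P : H3) : bil (mat σ X) P = lin σ X P := by
  have := bil_mk X.1 X.2.2 (σ X.2.1) P
  rw [lin, ← this, mat]
  push_cast
  rfl

omit [StarRing O] in
lemma mat_injective {σ : O →+* ℂ} (hσ : Function.Injective σ) : Function.Injective (mat σ) := by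
  rintro ⟨a, b, d⟩ ⟨a', b', d'⟩ h
  have h00 := congrFun (congrFun h 0) 0
  have h01 := congrFun (congrFun h 0) 1
  have h11 := congrFun (congrFun h 1) 1
  simp only [mat, Matrix.of_apply, Matrix.cons_val', Matrix.cons_val_zero,
    Matrix.cons_val_one] at h00 h01 h11
  rw [Int.cast_injective h00, hσ h01, Int.cast_injective h11]

end Fermat.Agent.LT.Theta31
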