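import Fermat.Agent.LT.HeckeAdj
import Fermat.Agent.LT.Theta31.ActM

/-!
# Representatives of the Hecke correspondence at a split prime

`Γ = {γ ∈ GL₂(O) : det γ ∈ U, N ∣ γ₀₁, γ₁₀}`, `U ≤ Oˣ` arbitrary (`⊥`: `SL₂`, `⊤`: `GL₂`),
`Δ = {δ ∈ M₂(O) : det δ ∈ U π, N ∣ δ₀₁, δ₁₀}`. The matrices `bet i` represent `Δ / Γ`, the matrices
`alp i` represent `Γ \ Δ`.
-/

set_option autoImplicit false

noncomputable section

open Complex ComplexConjugate Matrix

namespace Fermat.Agent.LT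

section General

variable {𝒢 : Type*} [Group 𝒢] {Γ : Subgroup 𝒢} {Δ : Set 𝒢} {ι : Type*} {α : ι → 𝒢}

lemma isRightReps_of (h1 : ∀ γ ∈ Γ, ∀ i, α i * γ ∈ Δ)
    (h2 : ∀ i j, (α i)⁻¹ * α j ∈ Γ → i = j) (h3 : ∀ δ ∈ Δ, ∃ i, (α i)⁻¹ * δ ∈ Γ) :
    IsRightReps Γ Δ α := by
  refine ⟨fun p _ => h1 _ p.1.2 _, ?_, ?_⟩
  · rintro ⟨γ, i⟩ - ⟨γ', j⟩ - h
    simp only at h
    have h4 : (α i)⁻¹ * α j = γ * (γ' : 𝒢)⁻¹ := by
      rw [inv_mul_eq_iff_eq_mul, ← mul_assoc, h, mul_inv_cancel_right]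
    have h5 : i = j := h2 i j (h4 ▸ mul_mem γ.2 (inv_mem γ'.2))
    subst h5
    rw [Subtype.ext (mul_left_cancel h)]
  · intro δ hδ
    obtain ⟨i, hi⟩ := h3 δ hδ
    exact ⟨(⟨_, hi⟩, i), Set.mem_univ _, mul_inv_cancel_left _ _⟩

lemma isLeftReps_of (h1 : ∀ γ ∈ Γ, ∀ i, γ * α i ∈ Δ)
    (h2 : ∀ i j, α j * (α i)⁻¹ ∈ Γ → i = j) (h3 : ∀ δ ∈ Δ, ∃ i, δ * (α i)⁻¹ ∈ Γ) :
    IsLeftReps Γ Δ α := by
  refine ⟨fun p _ => h1 _ p.1.2 _, ?_, ?_⟩
  · rintro ⟨γ, i⟩ - ⟨γ', j⟩ - h
    simp only at h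
    have h4 : α j * (α i)⁻¹ = (γ' : 𝒢)⁻¹ * γ := by
      rw [mul_inv_eq_iff_eq_mul, mul_assoc, h, inv_mul_cancel_left]
    have h5 : i = j := h2 i j (h4 ▸ mul_mem (inv_mem γ'.2) γ.2)
    subst h5
    rw [Subtype.ext (mul_right_cancel h)]
  · intro δ hδ
    obtain ⟨i, hi⟩ := h3 δ hδ
    exact ⟨(⟨_, hi⟩, i), Set.mem_univ _, inv_mul_cancel_right _ _⟩

end General

namespace Theta31

variable {O : Type*} [CommRing O]

/-- `{g ∈ GL₂(O) : N ∣ g₀₁, N ∣ g₁₀, det g ∈ U}`. -/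
def GO (N : ℕ) (U : Subgroup Oˣ) : Subgroup (GL (Fin 2) O) where
  carrier := {g | (N : O) ∣ g 0 1 ∧ (N : O) ∣ g 1 0 ∧ Matrix.GeneralLinearGroup.det g ∈ U}
  one_mem' := ⟨by simp, by simp, by rw [map_one]; exact one_mem U⟩
  mul_mem' := by
    rintro g g' ⟨h1, h2, h3⟩ ⟨k1, k2, k3⟩
    refine ⟨?_, ?_, by rw [map_mul]; exact mul_mem h3 k3⟩
    · rw [Units.val_mul, Matrix.mul_apply, Fin.sum_univ_two]
      exact dvd_add (k1.mul_left _) (h1.mul_right _)
    · rw [Units.val_mul, Matrix.mul_apply, Fin.sum_univ_two]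
      exact dvd_add (h2.mul_right _) (k2.mul_left _)
  inv_mem' := by
    rintro g ⟨h1, h2, h3⟩
    have h4 : ((g⁻¹ : GL (Fin 2) O) : Matrix (Fin 2) (Fin 2) O) =
        (((Matrix.GeneralLinearGroup.det g)⁻¹ : Oˣ) : O) •
          (g : Matrix (Fin 2) (Fin 2) O).adjugate := by
      have h5 : (g : Matrix (Fin 2) (Fin 2) O) *
          ((((Matrix.GeneralLinearGroup.det g)⁻¹ : Oˣ) : O) •
            (g : Matrix (Fin 2) (Fin 2) O).adjugate) = 1 := by
        rw [Matrix.mul_smul, Matrix.mul_adjugate, smul_smul,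
          ← Matrix.GeneralLinearGroup.val_det_apply, Units.inv_mul, one_smul]
      calc _ = ((g⁻¹ : GL (Fin 2) O) : Matrix (Fin 2) (Fin 2) O) *
            ((g : Matrix (Fin 2) (Fin 2) O) * _) := by rw [h5, mul_one]
        _ = _ := by rw [← mul_assoc, ← Units.val_mul, inv_mul_cancel, Units.val_one, one_mul]
    refine ⟨?_, ?_, by rw [map_inv]; exact inv_mem h3⟩
    · rw [h4, Matrix.smul_apply, adjugate_fin_two]
      simpa using h1
    · rw [h4, Matrix.smul_apply, adjugate_fin_two]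
      simpa using h2

/-- `{γ ∈ GL₂(O) : det γ ∈ U, N ∣ γ₀₁, γ₁₀}` in `GL₂(ℂ)`. -/
def GamU (σ : O →+* ℂ) (N : ℕ) (U : Subgroup Oˣ) : Subgroup (GL (Fin 2) ℂ) :=
  (GO N U).map (Matrix.GeneralLinearGroup.map σ)

/-- `{δ ∈ M₂(O) : det δ ∈ U π, N ∣ δ₀₁, δ₁₀}` in `GL₂(ℂ)`. -/
def DelD (σ : O →+* ℂ) (N : ℕ) (U : Subgroup Oˣ) (π : O) : Set (GL (Fin 2) ℂ) :=
  {g | ∃ A : Matrix (Fin 2) (Fin 2) O, (∃ u ∈ U, A.det = (u : O) * π) ∧ (N : O) ∣ A 0 1 ∧
    (N : O) ∣ A 1 0 ∧ (g : Matrix (Fin 2) (Fin 2) ℂ) = A.map σ}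

lemma mem_GamU {σ : O →+* ℂ} {N : ℕ} {U : Subgroup Oˣ} {g : GL (Fin 2) ℂ} :
    g ∈ GamU σ N U ↔ ∃ A : Matrix (Fin 2) (Fin 2) O, (∃ u ∈ U, A.det = (u : O)) ∧
      (N : O) ∣ A 0 1 ∧ (N : O) ∣ A 1 0 ∧ (g : Matrix (Fin 2) (Fin 2) ℂ) = A.map σ := by
  constructor
  · rintro ⟨A, ⟨h1, h2, h3⟩, rfl⟩
    exact ⟨A, ⟨_, h3, rfl⟩, h1, h2, rfl⟩
  · rintro ⟨A, ⟨u, hu, h1⟩, h2, h3, h4⟩
    have h5 : IsUnit A.det := h1 ▸ u.isUnit
    have h6 : Matrix.GeneralLinearGroup.det (Matrix.GeneralLinearGroup.mk'' A h5) = u :=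
      Units.ext h1
    exact ⟨Matrix.GeneralLinearGroup.mk'' A h5, ⟨h2, h3, by rw [h6]; exact hu⟩, Units.ext h4.symm⟩

/-- `{γ ∈ SL₂(O) : N ∣ γ₀₁, γ₁₀}` in `GL₂(ℂ)`. -/
def GamD (σ : O →+* ℂ) (N : ℕ) : Subgroup (GL (Fin 2) ℂ) where
  carrier := {g | ∃ A : Matrix (Fin 2) (Fin 2) O, A.det = 1 ∧ (N : O) ∣ A 0 1 ∧ (N : O) ∣ A 1 0 ∧
    (g : Matrix (Fin 2) (Fin 2) ℂ) = A.map σ}
  one_mem' := ⟨1, det_one, by simp, by simp, by simp⟩
  mul_mem' := by
    rintro g g' ⟨A, h1, h2, h3, h4⟩ ⟨B, k1, k2, k3, k4⟩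
    refine ⟨A * B, by rw [det_mul, h1, k1, one_mul], ?_, ?_, ?_⟩
    · rw [Matrix.mul_apply, Fin.sum_univ_two]
      exact dvd_add (k2.mul_left _) (h2.mul_right _)
    · rw [Matrix.mul_apply, Fin.sum_univ_two]
      exact dvd_add (h3.mul_right _) (k3.mul_left _)
    · rw [Units.val_mul, h4, k4, Matrix.map_mul]
  inv_mem' := by
    rintro g ⟨A, h1, h2, h3, h4⟩
    refine ⟨A.adjugate, ?_, ?_, ?_, ?_⟩
    · rw [det_adjugate, h1, one_pow]
    · rw [adjugate_fin_two]
      simpa using h2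
    · rw [adjugate_fin_two]
      simpa using h3
    · have h5 : (g : Matrix (Fin 2) (Fin 2) ℂ) * A.adjugate.map σ = 1 := by
        rw [h4, ← Matrix.map_mul, mul_adjugate, h1, one_smul, Matrix.map_one _ (map_zero _) (map_one _)]
      calc ((g⁻¹ : GL (Fin 2) ℂ) : Matrix (Fin 2) (Fin 2) ℂ) =
          ((g⁻¹ : GL (Fin 2) ℂ) : Matrix (Fin 2) (Fin 2) ℂ) *
            ((g : Matrix (Fin 2) (Fin 2) ℂ) * A.adjugate.map σ) := by rw [h5, mul_one]
        _ = A.adjugate.map σ := by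
          rw [← mul_assoc, ← Units.val_mul, inv_mul_cancel, Units.val_one, one_mul]

/-- `GamD` is the case `U = ⊥` of `GamU`. -/
theorem GamD_eq_GamU (σ : O →+* ℂ) (N : ℕ) : GamD σ N = GamU σ N ⊥ := by
  ext g
  rw [mem_GamU]
  constructor
  · rintro ⟨A, h1, h2, h3, h4⟩
    exact ⟨A, ⟨1, one_mem _, by rw [h1, Units.val_one]⟩, h2, h3, h4⟩
  · rintro ⟨A, ⟨u, hu, h1⟩, h2, h3, h4⟩
    rw [Subgroup.mem_bot.mp hu, Units.val_one] at h1
    exact ⟨A, h1, h2, h3, h4⟩

instance instCountableGL [Countable O] : Countable (GL (Fin 2) O) := by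
  have h1 : Countable (Fin 2 → Fin 2 → O) := inferInstance
  have h2 : Countable (Matrix (Fin 2) (Fin 2) O) := h1
  exact Function.Injective.countable (f := fun g : GL (Fin 2) O => (g : Matrix (Fin 2) (Fin 2) O))
    Units.val_injective

instance instCountableGamU [Countable O] (σ : O →+* ℂ) (N : ℕ) (U : Subgroup Oˣ) :
    Countable (GamU σ N U) := by
  have h1 : Function.Surjective fun g : GO N U =>
      (⟨Matrix.GeneralLinearGroup.map σ g, ⟨g, g.2, rfl⟩⟩ : GamU σ N U) := by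
    rintro ⟨_, g, hg, rfl⟩
    exact ⟨⟨g, hg⟩, rfl⟩
  exact h1.countable

instance instCountableGamD' [Countable O] (σ : O →+* ℂ) (N : ℕ) : Countable (GamD σ N) := by
  rw [GamD_eq_GamU]
  infer_instance

lemma field_aux {F : Type*} [Field F] {a b c d : F} (h : a * d = b * c) :
    (c = 0 ∧ d = 0) ∨ ∃ t, a = t * c ∧ b = t * d := by
  by_cases hc : c = 0
  · by_cases hd : d = 0
    · exact Or.inl ⟨hc, hd⟩
    · refine Or.inr ⟨b / d, ?_, by field_simp⟩
      rw [hc, mul_zero] at h ⊢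
      exact (mul_eq_zero.mp h).resolve_right hd
  · exact Or.inr ⟨a / c, by field_simp, by field_simp; linear_combination -h⟩

lemma map_inj {σ : O →+* ℂ} (hi : Function.Injective σ) {A B : Matrix (Fin 2) (Fin 2) O}
    (h : A.map σ = B.map σ) : A = B :=
  Matrix.map_injective hi h

namespace SplitPrime

variable [StarRing O] {p : ℕ} (D : SplitPrime O p) {ι : Type*} (t : ι → ℤ) {σ : O →+* ℂ}
  (hσ : ∀ x, σ (star x) = conj (σ x)) [hp : Fact p.Prime]

include hσ in
lemma σπ_ne : σ D.π ≠ 0 := by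
  rw [← norm_pos_iff, D.norm_π hσ]
  exact Real.sqrt_pos.mpr (by exact_mod_cast hp.out.pos)

/-- The representatives of `Δ / Γ`. -/
def betG (i : Option ι) : GL (Fin 2) ℂ :=
  Matrix.GeneralLinearGroup.mkOfDetNeZero ((D.bet t i).map σ) (by
    rw [← RingHom.mapMatrix_apply, ← RingHom.map_det, det_bet]
    exact D.σπ_ne hσ)

/-- The representatives of `Γ \ Δ`. -/
def alpG (i : Option ι) : GL (Fin 2) ℂ :=
  Matrix.GeneralLinearGroup.mkOfDetNeZero ((D.alp t i).map σ) (by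
    rw [← RingHom.mapMatrix_apply, ← RingHom.map_det, det_alp]
    exact D.σπ_ne hσ)

lemma coe_betG (i : Option ι) :
    (D.betG t hσ i : Matrix (Fin 2) (Fin 2) ℂ) = (D.bet t i).map σ := rfl

lemma coe_alpG (i : Option ι) :
    (D.alpG t hσ i : Matrix (Fin 2) (Fin 2) ℂ) = (D.alp t i).map σ := rfl

omit hp in
lemma isCoprime {N : ℕ} (hN : N.Coprime p) : IsCoprime (N : O) D.π := by
  have h1 : IsCoprime (N : ℤ) (p : ℤ) := Nat.isCoprime_iff_coprime.mpr hN
  obtain ⟨u, v, h⟩ := h1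
  refine ⟨(u : O), (v : O) * star D.π, ?_⟩
  have h2 : (u : O) * (N : O) + (v : O) * (p : O) = 1 := by exact_mod_cast congrArg (Int.cast : ℤ → O) h
  rw [← D.mul_star] at h2
  linear_combination h2

lemma not_unit {x : O} (h : D.π * x = 1) : False := by
  have h1 : D.r D.π = 0 := (D.ker _).mpr dvd_rfl
  have h2 := congrArg D.r h
  rw [map_mul, h1, zero_mul, map_one] at h2
  exact zero_ne_one h2

variable [IsDomain O] [CharZero O] {N : ℕ} (hN : N.Coprime p) (hi : Function.Injective σ)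
  (ht : Function.Bijective fun i => (t i : ZMod p)) (htN : ∀ i, (N : ℤ) ∣ t i) (U : Subgroup Oˣ)

include hN hi ht htN

theorem isRightReps : IsRightReps (GamU σ N U) (DelD σ N U D.π) (D.betG t hσ) := by
  have htO : ∀ i, (N : O) ∣ (t i : O) := fun i => by exact_mod_cast Int.cast_dvd_cast _ _ (htN i)
  refine isRightReps_of ?_ ?_ ?_
  · rintro γ hγ i
    obtain ⟨G, ⟨u, hu, h1⟩, h2, h3, h4⟩ := mem_GamU.mp hγ
    refine ⟨D.bet t i * G, ⟨u, hu, by rw [det_mul, h1, det_bet, mul_comm]⟩, ?_, ?_, ?_⟩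
    · rw [Matrix.mul_apply, Fin.sum_univ_two]
      cases i with
      | some i => exact dvd_add (h2.mul_left _) ((htO i).mul_right _)
      | none => exact dvd_add (h2.mul_left _) (by simp [bet])
    · rw [Matrix.mul_apply, Fin.sum_univ_two]
      cases i with
      | some i => exact dvd_add (by simp [bet]) (h3.mul_left _)
      | none => exact dvd_add (by simp [bet]) (h3.mul_left _)
    · rw [Units.val_mul, h4, coe_betG, Matrix.map_mul]
  · rintro i j hij
    obtain ⟨G, -, -, -, h4⟩ := mem_GamU.mp hij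
    have h5 : D.bet t j = D.bet t i * G := by
      apply map_inj hi
      rw [Matrix.map_mul, ← h4, ← D.coe_betG t hσ, ← D.coe_betG t hσ, ← Units.val_mul,
        mul_inv_cancel_left]
    have h00 := congrFun (congrFun h5 0) 0
    have h01 := congrFun (congrFun h5 0) 1
    have h10 := congrFun (congrFun h5 1) 0
    have h11 := congrFun (congrFun h5 1) 1
    rw [Matrix.mul_apply, Fin.sum_univ_two] at h00 h01 h10 h11
    have hπ : D.r D.π = 0 := (D.ker _).mpr dvd_rfl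
    cases i with
    | some i =>
      cases j with
      | some j =>
        simp [bet] at h00 h01 h10 h11
        rw [← h11, mul_one] at h01
        have h6 := congrArg D.r h01
        rw [map_add, map_mul, hπ, zero_mul, zero_add, map_intCast, map_intCast] at h6
        rw [ht.1 h6]
      | none =>
        simp [bet] at h00 h01 h10 h11
        rw [← h10, mul_zero, add_zero] at h00
        exact (D.not_unit h00.symm).elim
    | none =>
      cases j with
      | some j =>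
        simp [bet] at h00 h01 h10 h11
        exact (D.not_unit h11.symm).elim
      | none => rfl
  · rintro δ ⟨A, ⟨w, hw, h1⟩, h2, h3, h4⟩
    have hπ : D.r D.π = 0 := (D.ker _).mpr dvd_rfl
    have key : ∀ i G, A = D.bet t i * G → (N : O) ∣ G 0 1 → (N : O) ∣ G 1 0 →
        (D.betG t hσ i)⁻¹ * δ ∈ GamU σ N U := by
      intro i G hA h01 h10
      refine mem_GamU.mpr ⟨G, ⟨w, hw, ?_⟩, h01, h10, ?_⟩
      · have h5 := congrArg Matrix.det hA
        rw [det_mul, h1, det_bet, mul_comm] at h5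
        exact (mul_left_cancel₀ D.π_ne h5).symm
      · rw [Units.val_mul, h4, hA, Matrix.map_mul, ← D.coe_betG t hσ, ← mul_assoc,
          ← Units.val_mul, inv_mul_cancel, Units.val_one, one_mul]
    have h5 : D.r (A 0 0) * D.r (A 1 1) = D.r (A 0 1) * D.r (A 1 0) := by
      rw [← map_mul, ← map_mul, ← sub_eq_zero, ← map_sub, ← det_fin_two, h1, map_mul, hπ, mul_zero]
    rcases field_aux h5 with ⟨h6, h7⟩ | ⟨c, h6, h7⟩
    · obtain ⟨u, hu⟩ := (D.ker _).mp h6
      obtain ⟨v, hv⟩ := (D.ker _).mp h7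
      refine ⟨none, key none !![A 0 0, A 0 1; u, v] ?_ (by simpa using h2) ?_⟩
      · ext i j
        fin_cases i <;> fin_cases j <;> simp [bet, Matrix.mul_apply, Fin.sum_univ_two, hu, hv]
      · have : (N : O) ∣ D.π * u := hu ▸ h3
        simpa using (D.isCoprime hN).dvd_of_dvd_mul_left this
    · obtain ⟨i, rfl⟩ := ht.2 c
      have h8 : D.r (A 0 0 - (t i : O) * A 1 0) = 0 := by
        rw [map_sub, map_mul, map_intCast, h6, sub_self]
      have h9 : D.r (A 0 1 - (t i : O) * A 1 1) = 0 := by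
        rw [map_sub, map_mul, map_intCast, h7, sub_self]
      obtain ⟨u, hu⟩ := (D.ker _).mp h8
      obtain ⟨v, hv⟩ := (D.ker _).mp h9
      refine ⟨some i, key (some i) !![u, v; A 1 0, A 1 1] ?_ ?_ (by simpa using h3)⟩
      · ext i' j'
        fin_cases i' <;> fin_cases j' <;> simp [bet, Matrix.mul_apply, Fin.sum_univ_two]
        · linear_combination hu
        · linear_combination hv
      · have : (N : O) ∣ D.π * v := hv ▸ dvd_sub h2 ((htO i).mul_right _)
        simpa using (D.isCoprime hN).dvd_of_dvd_mul_left this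

theorem isLeftReps : IsLeftReps (GamU σ N U) (DelD σ N U D.π) (D.alpG t hσ) := by
  have htO : ∀ i, (N : O) ∣ (t i : O) := fun i => by exact_mod_cast Int.cast_dvd_cast _ _ (htN i)
  refine isLeftReps_of ?_ ?_ ?_
  · rintro γ hγ i
    obtain ⟨G, ⟨u, hu, h1⟩, h2, h3, h4⟩ := mem_GamU.mp hγ
    refine ⟨G * D.alp t i, ⟨u, hu, by rw [det_mul, h1, det_alp]⟩, ?_, ?_, ?_⟩
    · rw [Matrix.mul_apply, Fin.sum_univ_two]
      cases i with
      | some i => exact dvd_add ((htO i).mul_left _) (h2.mul_right _)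
      | none => exact dvd_add (by simp [alp]) (h2.mul_right _)
    · rw [Matrix.mul_apply, Fin.sum_univ_two]
      cases i with
      | some i => exact dvd_add (h3.mul_right _) (by simp [alp])
      | none => exact dvd_add (h3.mul_right _) (by simp [alp])
    · rw [Units.val_mul, h4, coe_alpG, Matrix.map_mul]
  · rintro i j hij
    obtain ⟨G, -, -, -, h4⟩ := mem_GamU.mp hij
    have h5 : D.alp t j = G * D.alp t i := by
      apply map_inj hi
      rw [Matrix.map_mul, ← h4, ← D.coe_alpG t hσ, ← D.coe_alpG t hσ, ← Units.val_mul,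
        inv_mul_cancel_right]
    have h00 := congrFun (congrFun h5 0) 0
    have h01 := congrFun (congrFun h5 0) 1
    have h10 := congrFun (congrFun h5 1) 0
    have h11 := congrFun (congrFun h5 1) 1
    rw [Matrix.mul_apply, Fin.sum_univ_two] at h00 h01 h10 h11
    have hπ : D.r D.π = 0 := (D.ker _).mpr dvd_rfl
    cases i with
    | some i =>
      cases j with
      | some j =>
        simp [alp] at h00 h01 h10 h11
        rw [← h00, one_mul] at h01
        have h6 := congrArg D.r h01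
        rw [map_add, map_mul, hπ, mul_zero, add_zero, map_intCast, map_intCast] at h6
        rw [ht.1 h6]
      | none =>
        simp [alp] at h00 h01 h10 h11
        rw [← h10, zero_mul, zero_add, mul_comm] at h11
        exact (D.not_unit h11.symm).elim
    | none =>
      cases j with
      | some j =>
        simp [alp] at h00 h01 h10 h11
        rw [mul_comm] at h00
        exact (D.not_unit h00.symm).elim
      | none => rfl
  · rintro δ ⟨A, ⟨w, hw, h1⟩, h2, h3, h4⟩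
    have hπ : D.r D.π = 0 := (D.ker _).mpr dvd_rfl
    have key : ∀ i G, A = G * D.alp t i → (N : O) ∣ G 0 1 → (N : O) ∣ G 1 0 →
        δ * (D.alpG t hσ i)⁻¹ ∈ GamU σ N U := by
      intro i G hA h01 h10
      refine mem_GamU.mpr ⟨G, ⟨w, hw, ?_⟩, h01, h10, ?_⟩
      · have h5 := congrArg Matrix.det hA
        rw [det_mul, h1, det_alp] at h5
        exact (mul_right_cancel₀ D.π_ne h5).symm
      · rw [Units.val_mul, h4, hA, Matrix.map_mul, ← D.coe_alpG t hσ, mul_assoc,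
          ← Units.val_mul, mul_inv_cancel, Units.val_one, mul_one]
    have h5 : D.r (A 0 1) * D.r (A 1 0) = D.r (A 1 1) * D.r (A 0 0) := by
      rw [mul_comm (D.r (A 1 1)), ← map_mul, ← map_mul, eq_comm, ← sub_eq_zero, ← map_sub,
        ← det_fin_two, h1, map_mul, hπ, mul_zero]
    rcases field_aux h5 with ⟨h6, h7⟩ | ⟨c, h6, h7⟩
    · obtain ⟨u, hu⟩ := (D.ker _).mp h6
      obtain ⟨v, hv⟩ := (D.ker _).mp h7
      refine ⟨none, key none !![u, A 0 1; v, A 1 1] ?_ (by simpa using h2) ?_⟩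
      · ext i j
        fin_cases i <;> fin_cases j <;>
          simp [alp, Matrix.mul_apply, Fin.sum_univ_two, hu, hv, mul_comm]
      · have : (N : O) ∣ D.π * v := hv ▸ h3
        simpa using (D.isCoprime hN).dvd_of_dvd_mul_left this
    · obtain ⟨i, rfl⟩ := ht.2 c
      have h8 : D.r (A 0 1 - (t i : O) * A 0 0) = 0 := by
        rw [map_sub, map_mul, map_intCast, h6, sub_self]
      have h9 : D.r (A 1 1 - (t i : O) * A 1 0) = 0 := by
        rw [map_sub, map_mul, map_intCast, h7, sub_self]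
      obtain ⟨u, hu⟩ := (D.ker _).mp h8
      obtain ⟨v, hv⟩ := (D.ker _).mp h9
      refine ⟨some i, key (some i) !![A 0 0, u; A 1 0, v] ?_ ?_ (by simpa using h3)⟩
      · ext i' j'
        fin_cases i' <;> fin_cases j' <;> simp [alp, Matrix.mul_apply, Fin.sum_univ_two]
        · linear_combination hu
        · linear_combination hv
      · have : (N : O) ∣ D.π * u := hu ▸ dvd_sub h2 ((htO i).mul_right _)
        simpa using (D.isCoprime hN).dvd_of_dvd_mul_left this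

end SplitPrime

end Theta31

end Fermat.Agent.LT
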