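import Fermat.Agent.LT.Theta31.NonVan
import Fermat.Agent.LT.Theta31.OrbitDiag
import Fermat.Agent.LT.Theta31.Reps
import Fermat.Agent.LT.H3.Measure
import Mathlib.NumberTheory.ModularForms.CongruenceSubgroups

/-!
# The coefficient at `3` of the theta lift

`G = {g ∈ SL₂(O) : g ≡ diagonal mod 3M}`, `P = Γ(3M) ⊆ SL₂(ℤ)`, `X0 = (0, s, 0)`. For every even
measurable `g : ℝ → ℂ` the integral over `G \ H3` of
`F(z) * ∑_{X = (a, b, d), 3M ∣ a, 3M ∣ d, q X = 3} g (B(X, z))` is a constant (independent of `g`)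
times the integral over `P \ H3` of `F(z) * g (B(X0, z))`.
-/

set_option autoImplicit false

noncomputable section

open MeasureTheory Matrix Complex ComplexConjugate
open scoped MatrixGroups

namespace Fermat.Agent.LT.Theta31

open H3

variable {O : Type*} [CommRing O]

lemma sl_mul_apply (A B : SpecialLinearGroup (Fin 2) O) (i j : Fin 2) :
    ((A * B : SpecialLinearGroup (Fin 2) O) : Matrix (Fin 2) (Fin 2) O) i j =
      (A : Matrix (Fin 2) (Fin 2) O) i 0 * (B : Matrix (Fin 2) (Fin 2) O) 0 j +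
      (A : Matrix (Fin 2) (Fin 2) O) i 1 * (B : Matrix (Fin 2) (Fin 2) O) 1 j := by
  have h : ((A : Matrix (Fin 2) (Fin 2) O) * (B : Matrix (Fin 2) (Fin 2) O)) i j = _ :=
    Matrix.mul_apply
  rw [Fin.sum_univ_two] at h
  exact h

lemma sl_inv_01 (A : SpecialLinearGroup (Fin 2) O) :
    ((A⁻¹ : SpecialLinearGroup (Fin 2) O) : Matrix (Fin 2) (Fin 2) O) 0 1 =
      -(A : Matrix (Fin 2) (Fin 2) O) 0 1 := by
  have h : (adjugate (A : Matrix (Fin 2) (Fin 2) O)) 0 1 = _ :=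
    congrFun (congrFun (Matrix.adjugate_fin_two _) 0) 1
  exact h

lemma sl_inv_10 (A : SpecialLinearGroup (Fin 2) O) :
    ((A⁻¹ : SpecialLinearGroup (Fin 2) O) : Matrix (Fin 2) (Fin 2) O) 1 0 =
      -(A : Matrix (Fin 2) (Fin 2) O) 1 0 := by
  have h : (adjugate (A : Matrix (Fin 2) (Fin 2) O)) 1 0 = _ :=
    congrFun (congrFun (Matrix.adjugate_fin_two _) 1) 0
  exact h

/-- Matrices of determinant one which are diagonal modulo `n`. -/
def Gd (n : O) : Subgroup (SpecialLinearGroup (Fin 2) O) where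
  carrier := {A | n ∣ (A : Matrix (Fin 2) (Fin 2) O) 0 1 ∧ n ∣ (A : Matrix (Fin 2) (Fin 2) O) 1 0}
  mul_mem' := by
    intro A B hA hB
    refine ⟨?_, ?_⟩
    · exact (sl_mul_apply A B 0 1) ▸
        dvd_add (dvd_mul_of_dvd_right hB.1 _) (dvd_mul_of_dvd_left hA.1 _)
    · exact (sl_mul_apply A B 1 0) ▸
        dvd_add (dvd_mul_of_dvd_left hA.2 _) (dvd_mul_of_dvd_right hB.2 _)
  one_mem' := by
    refine ⟨?_, ?_⟩
    · exact dvd_zero n
    · exact dvd_zero n
  inv_mem' := by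
    intro A hA
    refine ⟨?_, ?_⟩
    · exact (sl_inv_01 A) ▸ dvd_neg.mpr hA.1
    · exact (sl_inv_10 A) ▸ dvd_neg.mpr hA.2

lemma mem_Gd {n : O} {A : SpecialLinearGroup (Fin 2) O} :
    A ∈ Gd n ↔ n ∣ (A : Matrix (Fin 2) (Fin 2) O) 0 1 ∧ n ∣ (A : Matrix (Fin 2) (Fin 2) O) 1 0 :=
  Iff.rfl

/-- `SL₂(O)` as complex matrices. -/
def slC (σ : O →+* ℂ) : SpecialLinearGroup (Fin 2) O →* GL (Fin 2) ℂ :=
  SpecialLinearGroup.toGL.comp (SpecialLinearGroup.map σ)

lemma coe_slC (σ : O →+* ℂ) (A : SpecialLinearGroup (Fin 2) O) :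
    (slC σ A : Matrix (Fin 2) (Fin 2) ℂ) = (A : Matrix (Fin 2) (Fin 2) O).map σ := rfl

lemma slC_injective {σ : O →+* ℂ} (hi : Function.Injective σ) : Function.Injective (slC σ) := by
  intro A B h
  have h1 := congrArg (fun g : GL (Fin 2) ℂ => (g : Matrix (Fin 2) (Fin 2) ℂ)) h
  simp only [coe_slC] at h1
  exact Subtype.ext (Matrix.map_injective hi h1)

lemma adet_slC (σ : O →+* ℂ) (A : SpecialLinearGroup (Fin 2) O) : adet (slC σ A) = 1 := by
  rw [adet, coe_slC, ← RingHom.mapMatrix_apply, ← RingHom.map_det, A.2, map_one, norm_one]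

/-- `SL₂(ℤ)` as matrices over `O`. -/
def slZ (O : Type*) [CommRing O] : SL(2, ℤ) →* SpecialLinearGroup (Fin 2) O :=
  SpecialLinearGroup.map (Int.castRingHom O)

variable [StarRing O]

section Action

variable (D : NTData O) {σ : O →+* ℂ} (hσ : ∀ x, σ (star x) = conj (σ x))
  (hi : Function.Injective σ)

/-- The action of `SL₂(O)` on triples. -/
@[reducible] def actV : MulAction (SpecialLinearGroup (Fin 2) O) (ℤ × O × ℤ) where
  smul A X := D.actM A X
  one_smul X := D.actM_one hσ hi X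
  mul_smul A B X := D.actM_mul hσ hi A B X

end Action

/-! ### The set of vectors of norm `m` -/

/-- `X = (a, b, d)`, `n ∣ a`, `n ∣ d`, `q X = m`. -/
def Dl (D : NTData O) (n m : ℤ) : Type _ :=
  {X : ℤ × O × ℤ // n ∣ X.1 ∧ n ∣ X.2.2 ∧ D.q X = m}

omit [StarRing O] in
lemma ofInt_inj [CharZero O] {a b : ℤ} : (a : O) = b ↔ a = b := Int.cast_inj

lemma NTData.tr_mul_int [CharZero O] (D : NTData O) (n : ℤ) (x : O) :
    D.tr ((n : O) * x) = n * D.tr x := by
  rw [← ofInt_inj (O := O)]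
  push_cast
  rw [D.tr_eq, D.tr_eq, star_mul', star_intCast]
  ring

lemma NTData.dvd_tr [CharZero O] (D : NTData O) {n : ℤ} {x : O} (h : (n : O) ∣ x) :
    n ∣ D.tr x := by
  obtain ⟨y, rfl⟩ := h
  rw [D.tr_mul_int]
  exact dvd_mul_right _ _

lemma int_dvd_star {n : ℤ} {x : O} (h : (n : O) ∣ x) : (n : O) ∣ star x := by
  obtain ⟨y, rfl⟩ := h
  exact ⟨star y, by rw [star_mul', star_intCast]⟩

lemma NTData.actM_mem [CharZero O] (D : NTData O) {n m : ℤ} {A : SpecialLinearGroup (Fin 2) O}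
    (hA : A ∈ Gd (n : O)) {X : ℤ × O × ℤ} (hX : n ∣ X.1 ∧ n ∣ X.2.2 ∧ D.q X = m) :
    n ∣ (D.actM A X).1 ∧ n ∣ (D.actM A X).2.2 ∧ D.q (D.actM A X) = m := by
  obtain ⟨h1, h2⟩ := mem_Gd.mp hA
  obtain ⟨h3, h4, h5⟩ := hX
  have h01 := D.nrm_eq ((A : Matrix (Fin 2) (Fin 2) O) 0 1)
  refine ⟨?_, ?_, ?_⟩
  · refine dvd_add (dvd_add (dvd_mul_of_dvd_right h3 _) ?_) (dvd_mul_of_dvd_right h4 _)
    exact D.dvd_tr (dvd_mul_of_dvd_right (int_dvd_star h1) _)
  · refine dvd_add (dvd_add (dvd_mul_of_dvd_right h3 _) ?_) (dvd_mul_of_dvd_right h4 _)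
    exact D.dvd_tr (dvd_mul_of_dvd_left (dvd_mul_of_dvd_left h2 _) _)
  · rw [D.q_actM, A.2, D.nrm_one, one_mul, h5]

section Action2

variable [CharZero O] (D : NTData O) {σ : O →+* ℂ} (hσ : ∀ x, σ (star x) = conj (σ x))
  (hi : Function.Injective σ) (n m : ℤ)

/-- The action of the group `Gd n` on the vectors of norm `m`. -/
@[reducible] def actDl : MulAction (Gd (n : O)) (Dl D n m) where
  smul A X := ⟨D.actM (A : SpecialLinearGroup (Fin 2) O) X.1, D.actM_mem A.2 X.2⟩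
  one_smul X := Subtype.ext (D.actM_one hσ hi X.1)
  mul_smul _ _ X := Subtype.ext (D.actM_mul hσ hi _ _ X.1)

/-- The group `Gd n` in `GL₂(ℂ)`. -/
def GdC (σ : O →+* ℂ) (n : O) : Subgroup (GL (Fin 2) ℂ) := (Gd n).map (slC σ)

/-- The isomorphism. -/
def gdEquiv (n : O) : Gd n ≃* GdC σ n := Subgroup.equivMapOfInjective _ _ (slC_injective hi)

omit [StarRing O] [CharZero O] in
lemma coe_gdEquiv (n : O) (A : Gd n) : (gdEquiv hi n A : GL (Fin 2) ℂ) = slC σ A := rfl

/-- The action of the image of `Gd n` on the vectors of norm `m`. -/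
@[reducible] def actDlC : MulAction (GdC σ (n : O)) (Dl D n m) :=
  letI := actDl D hσ hi n m
  MulAction.compHom (Dl D n m) (gdEquiv hi (n : O)).symm.toMonoidHom

end Action2

/-! ### Orbits -/

/-- Multiplication of a triple by an integer. -/
def scal (η : ℤ) (X : ℤ × O × ℤ) : ℤ × O × ℤ := (η * X.1, (η : O) * X.2.1, η * X.2.2)

omit [StarRing O] in
lemma lin_scal (σ : O →+* ℂ) (η : ℤ) (X : ℤ × O × ℤ) (P : H3) :
    lin σ (scal η X) P = η * lin σ X P := by
  have h1 : (σ ((η : O) * X.2.1) * conj P.z).re = η * (σ X.2.1 * conj P.z).re := by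
    rw [map_mul, map_intCast, mul_assoc, ← ofReal_intCast, re_ofReal_mul]
  unfold lin scal
  simp only [h1]
  push_cast
  ring

lemma NTData.actM_scal [CharZero O] (D : NTData O) (A : Matrix (Fin 2) (Fin 2) O) (η : ℤ)
    (X : ℤ × O × ℤ) : D.actM A (scal η X) = scal η (D.actM A X) := by
  refine Prod.ext ((ofInt_inj (O := O)).mp ?_) (Prod.ext ?_ ((ofInt_inj (O := O)).mp ?_))
  · simp only [NTData.actM, scal]
    push_cast
    simp only [D.tr_eq, star_mul', star_intCast, star_star]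
    ring
  · simp only [NTData.actM, scal]
    push_cast
    simp only [star_mul', star_intCast]
    ring
  · simp only [NTData.actM, scal]
    push_cast
    simp only [D.tr_eq, star_mul', star_intCast, star_star]
    ring

omit [StarRing O] in
lemma scal_injective [CharZero O] [NoZeroDivisors O] {η : ℤ} (hη : η ≠ 0) :
    Function.Injective (scal (O := O) η) := by
  rintro ⟨a, b, d⟩ ⟨a', b', d'⟩ h
  simp only [scal, Prod.mk.injEq] at h
  obtain ⟨h1, h2, h3⟩ := h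
  have hηO : (η : O) ≠ 0 := Int.cast_ne_zero.mpr hη
  rw [mul_left_cancel₀ hη h1, mul_left_cancel₀ hηO h2, mul_left_cancel₀ hη h3]

open Eis in
theorem exists_orbit [Eis O] [CharZero O] (D : NTData O) {M : ℤ} (hM : M ≠ 0) {X : ℤ × O × ℤ}
    (hX : 3 * M ∣ X.1 ∧ 3 * M ∣ X.2.2 ∧ D.q X = 3) :
    ∃ (A : SpecialLinearGroup (Fin 2) O) (η : ℤ), (η = 1 ∨ η = -1) ∧ A ∈ Gd (M : O) ∧
      X = scal η (D.actM A (0, Eis.s, 0)) := by
  obtain ⟨h1, h2, h3⟩ := hX
  have hdet : X.2.1 * star X.2.1 - (X.1 : O) * (X.2.2 : O) = 3 := by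
    rw [← D.nrm_eq]
    have := congrArg (Int.cast : ℤ → O) h3
    rw [NTData.q] at this
    push_cast at this
    exact this
  obtain ⟨p, q, r, t, η, hη, hd, hq, hr, e1, e2, e3⟩ := Eis.orbit hM hdet h1 h2
  refine ⟨⟨!![p, q; r, t], by rw [Matrix.det_fin_two_of, hd]⟩, η, hη, mem_Gd.mpr ⟨hq, hr⟩, ?_⟩
  refine Prod.ext ((ofInt_inj (O := O)).mp ?_) (Prod.ext ?_ ((ofInt_inj (O := O)).mp ?_))
  · rw [e1]
    simp only [NTData.actM, scal, Matrix.of_apply, Matrix.cons_val', Matrix.cons_val_zero,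
      Matrix.cons_val_one]
    push_cast
    simp only [D.tr_eq, star_mul', star_star, star_s]
    ring
  · rw [e2]
    simp only [NTData.actM, scal, Matrix.of_apply, Matrix.cons_val', Matrix.cons_val_zero,
      Matrix.cons_val_one]
    push_cast
    simp only [star_s]
    ring
  · rw [e3]
    simp only [NTData.actM, scal, Matrix.of_apply, Matrix.cons_val', Matrix.cons_val_zero,
      Matrix.cons_val_one]
    push_cast
    simp only [D.tr_eq, star_mul', star_star, star_s]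
    ring

open Eis in
/-- The stabiliser of `X0` in `SL₂(O)` is `SL₂(ℤ)`. -/
theorem exists_int_of_fix [Eis O] [CharZero O] (D : NTData O) (A : SpecialLinearGroup (Fin 2) O)
    (hA : D.actM A (0, Eis.s, 0) = (0, Eis.s, 0)) : ∃ B : SL(2, ℤ), slZ O B = A := by
  obtain ⟨p, hp⟩ : ∃ p, p = (A : Matrix (Fin 2) (Fin 2) O) 0 0 := ⟨_, rfl⟩
  obtain ⟨q, hq⟩ : ∃ q, q = (A : Matrix (Fin 2) (Fin 2) O) 0 1 := ⟨_, rfl⟩
  obtain ⟨r, hr⟩ : ∃ r, r = (A : Matrix (Fin 2) (Fin 2) O) 1 0 := ⟨_, rfl⟩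
  obtain ⟨t, ht⟩ : ∃ t, t = (A : Matrix (Fin 2) (Fin 2) O) 1 1 := ⟨_, rfl⟩
  have hdet : p * t - q * r = 1 := by
    have := A.2
    rw [Matrix.det_fin_two] at this
    rw [hp, hq, hr, ht]
    exact this
  have k1 := congrArg (fun X : ℤ × O × ℤ => (X.1 : O)) hA
  have k2 := congrArg (fun X : ℤ × O × ℤ => X.2.1) hA
  have k3 := congrArg (fun X : ℤ × O × ℤ => (X.2.2 : O)) hA
  simp only [NTData.actM, ← hp, ← hq, ← hr, ← ht] at k1 k2 k3
  push_cast at k1 k2 k3
  simp only [D.tr_eq, star_mul', star_star, star_s] at k1 k2 k3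
  have c1 : p * star q = q * star p := by
    have : (s : O) * (p * star q - q * star p) = 0 := by linear_combination k1
    rcases mul_eq_zero.mp this with h | h
    · exact absurd h s_ne
    · linear_combination h
  have c3 : r * star t = t * star r := by
    have : (s : O) * (r * star t - t * star r) = 0 := by linear_combination k3
    rcases mul_eq_zero.mp this with h | h
    · exact absurd h s_ne
    · linear_combination h
  have c2 : p * star t - q * star r = 1 := by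
    have : (s : O) * (p * star t - q * star r - 1) = 0 := by linear_combination k2
    rcases mul_eq_zero.mp this with h | h
    · exact absurd h s_ne
    · linear_combination h
  have c2' : star p * t - star q * r = 1 := by
    have := congrArg star c2
    rw [star_sub, star_mul', star_mul', star_star, star_star, star_one] at this
    exact this
  have e1 : star p = p := by
    linear_combination (-star p) * hdet + r * c1 + p * c2'
  have e2 : star q = q := by
    linear_combination (-star q) * hdet + t * c1 + q * c2'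
  have e3 : star r = r := by
    linear_combination (-star r) * hdet - p * c3 + r * c2
  have e4 : star t = t := by
    linear_combination (-star t) * hdet - q * c3 + t * c2
  obtain ⟨p', hp'⟩ := eq_int_of_star e1
  obtain ⟨q', hq'⟩ := eq_int_of_star e2
  obtain ⟨r', hr'⟩ := eq_int_of_star e3
  obtain ⟨t', ht'⟩ := eq_int_of_star e4
  have hd : p' * t' - q' * r' = 1 := by
    rw [← ofInt_inj (O := O)]
    push_cast
    rw [← hp', ← hq', ← hr', ← ht', hdet]
  refine ⟨⟨!![p', q'; r', t'], by rw [Matrix.det_fin_two_of, hd]⟩, ?_⟩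
  apply Subtype.ext
  ext i j
  fin_cases i <;> fin_cases j
  · exact (hp'.symm.trans hp : (p' : O) = _)
  · exact (hq'.symm.trans hq : (q' : O) = _)
  · exact (hr'.symm.trans hr : (r' : O) = _)
  · exact (ht'.symm.trans ht : (t' : O) = _)

/-! ### The group `P = Γ(n) ⊆ SL₂(ℤ)` -/

lemma coe_slZ (O : Type*) [CommRing O] (B : SL(2, ℤ)) (i j : Fin 2) :
    (slZ O B : Matrix (Fin 2) (Fin 2) O) i j = ((B : Matrix (Fin 2) (Fin 2) ℤ) i j : O) := rfl

lemma slZ_injective (O : Type*) [CommRing O] [CharZero O] : Function.Injective (slZ O) := by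
  intro A B h
  apply Subtype.ext
  ext i j
  have h1 := congrArg (fun g : SpecialLinearGroup (Fin 2) O =>
    (g : Matrix (Fin 2) (Fin 2) O) i j) h
  simp only [coe_slZ] at h1
  exact Int.cast_injective h1

/-- `Γ(n)` in `GL₂(ℂ)`. -/
def GamC (n : ℕ) : Subgroup (GL (Fin 2) ℂ) :=
  (CongruenceSubgroup.Gamma n).map ((slC (RingHom.id ℂ)).comp (slZ ℂ))

omit [StarRing O] in
lemma slC_slZ (σ : O →+* ℂ) (B : SL(2, ℤ)) :
    slC σ (slZ O B) = ((slC (RingHom.id ℂ)).comp (slZ ℂ)) B := by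
  apply Units.ext
  ext i j
  show σ ((B : Matrix (Fin 2) (Fin 2) ℤ) i j : O) = ((B : Matrix (Fin 2) (Fin 2) ℤ) i j : ℂ)
  rw [map_intCast]

/-- `X0` is fixed by `SL₂(ℤ)`. -/
lemma actM_slZ [Eis O] [CharZero O] (D : NTData O) (B : SL(2, ℤ)) :
    D.actM (slZ O B) (0, Eis.s, 0) = (0, Eis.s, 0) := by
  have hdet := B.2
  rw [Matrix.det_fin_two] at hdet
  have hdetO := congrArg (Int.cast : ℤ → O) hdet
  push_cast at hdetO
  refine Prod.ext ((ofInt_inj (O := O)).mp ?_) (Prod.ext ?_ ((ofInt_inj (O := O)).mp ?_))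
  · simp only [NTData.actM, coe_slZ]
    push_cast
    simp only [D.tr_eq, star_mul', star_intCast, Eis.star_s]
    ring
  · simp only [NTData.actM, coe_slZ]
    push_cast
    simp only [star_intCast, Eis.star_s]
    linear_combination (Eis.s : O) * hdetO
  · simp only [NTData.actM, coe_slZ]
    push_cast
    simp only [D.tr_eq, star_mul', star_intCast, Eis.star_s]
    ring

omit [StarRing O] in
/-- conjugates of `Γ(n)` are in `Gd n` -/
lemma conj_mem_Gd {n : ℕ} {B : SL(2, ℤ)} (hB : B ∈ CongruenceSubgroup.Gamma n)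
    (A : SpecialLinearGroup (Fin 2) O) : A * slZ O B * A⁻¹ ∈ Gd ((n : ℤ) : O) := by
  obtain ⟨h00, h01, h10, h11⟩ := CongruenceSubgroup.Gamma_mem.mp hB
  have k01 := (ZMod.intCast_zmod_eq_zero_iff_dvd _ _).mp h01
  have k10 := (ZMod.intCast_zmod_eq_zero_iff_dvd _ _).mp h10
  have k0 : (n : ℤ) ∣ (B : Matrix (Fin 2) (Fin 2) ℤ) 1 1 - (B : Matrix (Fin 2) (Fin 2) ℤ) 0 0 := by
    rw [← ZMod.intCast_zmod_eq_zero_iff_dvd]
    push_cast
    rw [h00, h11, sub_self]
  obtain ⟨x, hx⟩ := k01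
  obtain ⟨y, hy⟩ := k10
  obtain ⟨z, hz⟩ := k0
  have hx' := congrArg (Int.cast : ℤ → O) hx
  have hy' := congrArg (Int.cast : ℤ → O) hy
  have hz' := congrArg (Int.cast : ℤ → O) hz
  push_cast at hx' hy' hz'
  have e00 : ((A⁻¹ : SpecialLinearGroup (Fin 2) O) : Matrix (Fin 2) (Fin 2) O) 0 0 =
      (A : Matrix (Fin 2) (Fin 2) O) 1 1 :=
    congrFun (congrFun (Matrix.adjugate_fin_two (A : Matrix (Fin 2) (Fin 2) O)) 0) 0
  have e11 : ((A⁻¹ : SpecialLinearGroup (Fin 2) O) : Matrix (Fin 2) (Fin 2) O) 1 1 =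
      (A : Matrix (Fin 2) (Fin 2) O) 0 0 :=
    congrFun (congrFun (Matrix.adjugate_fin_two (A : Matrix (Fin 2) (Fin 2) O)) 1) 1
  have e01 := sl_inv_01 A
  have e10 := sl_inv_10 A
  refine mem_Gd.mpr ⟨?_, ?_⟩
  · have h1 := sl_mul_apply (A * slZ O B) A⁻¹ 0 1
    have h2 := sl_mul_apply A (slZ O B) 0 0
    have h3 := sl_mul_apply A (slZ O B) 0 1
    rw [h2, h3, e01, e11, coe_slZ, coe_slZ, coe_slZ, coe_slZ] at h1
    rw [h1]
    refine ⟨(A : Matrix (Fin 2) (Fin 2) O) 0 0 * (A : Matrix (Fin 2) (Fin 2) O) 0 1 * z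
      + (A : Matrix (Fin 2) (Fin 2) O) 0 0 ^ 2 * x - (A : Matrix (Fin 2) (Fin 2) O) 0 1 ^ 2 * y, ?_⟩
    push_cast
    linear_combination ((A : Matrix (Fin 2) (Fin 2) O) 0 0 * (A : Matrix (Fin 2) (Fin 2) O) 0 1) * hz'
      + ((A : Matrix (Fin 2) (Fin 2) O) 0 0 ^ 2) * hx'
      - ((A : Matrix (Fin 2) (Fin 2) O) 0 1 ^ 2) * hy'
  · have h1 := sl_mul_apply (A * slZ O B) A⁻¹ 1 0
    have h2 := sl_mul_apply A (slZ O B) 1 0
    have h3 := sl_mul_apply A (slZ O B) 1 1
    rw [h2, h3, e00, e10, coe_slZ, coe_slZ, coe_slZ, coe_slZ] at h1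
    rw [h1]
    refine ⟨-((A : Matrix (Fin 2) (Fin 2) O) 1 0 * (A : Matrix (Fin 2) (Fin 2) O) 1 1 * z)
      - (A : Matrix (Fin 2) (Fin 2) O) 1 0 ^ 2 * x + (A : Matrix (Fin 2) (Fin 2) O) 1 1 ^ 2 * y, ?_⟩
    push_cast
    linear_combination (-(A : Matrix (Fin 2) (Fin 2) O) 1 0 * (A : Matrix (Fin 2) (Fin 2) O) 1 1) * hz'
      - ((A : Matrix (Fin 2) (Fin 2) O) 1 0 ^ 2) * hx'
      + ((A : Matrix (Fin 2) (Fin 2) O) 1 1 ^ 2) * hy'

/-! ### The main statement -/

lemma countable_of_eis [Eis O] : Countable O := by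
  have : Function.Surjective fun p : ℤ × ℤ => (p.1 : O) + p.2 * Eis.ω := by
    intro x
    obtain ⟨a, b, h⟩ := Eis.basis x
    exact ⟨(a, b), h.symm⟩
  exact this.countable

omit [StarRing O] in
lemma gamD_eq (σ : O →+* ℂ) (n : ℕ) : GamD σ n = GdC σ (n : O) := by
  ext g
  constructor
  · rintro ⟨A, h1, h2, h3, h4⟩
    refine ⟨⟨A, h1⟩, mem_Gd.mpr ⟨h2, h3⟩, ?_⟩
    apply Units.ext
    exact h4.symm
  · rintro ⟨A, hA, rfl⟩
    exact ⟨A, A.2, (mem_Gd.mp hA).1, (mem_Gd.mp hA).2, rfl⟩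

section Main

variable [Eis O] [CharZero O] (D : NTData O) {σ : O →+* ℂ} (hσ : ∀ x, σ (star x) = conj (σ x))
  (hi : Function.Injective σ)

omit [StarRing O] [Eis O] [CharZero O] in
lemma gamC_le_range (n : ℕ) : GamC n ≤ ((slC (RingHom.id ℂ)).comp (slZ ℂ)).range := by
  rintro _ ⟨B, -, rfl⟩
  exact ⟨B, rfl⟩

include hσ hi in
/-- `Γ(n)` has finite index in the conjugate of the stabiliser of every vector. -/
lemma comm_of_orbit {n : ℕ} (hn : n ≠ 0) {m : ℤ} (X : Dl D n m)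
    (A : SpecialLinearGroup (Fin 2) O) {η : ℤ} (hη : η ≠ 0)
    (hX : X.1 = scal η (D.actM A (0, Eis.s, 0))) :
    letI := actDlC D hσ hi n m
    Comm (GdC σ ((n : ℤ) : O)) (GamC n) X (slC σ A) := by
  letI := actDlC D hσ hi n m
  have hsm : ∀ (g : GdC σ ((n : ℤ) : O)) (Y : Dl D n m), (g • Y).1 =
      D.actM ((gdEquiv hi ((n : ℤ) : O)).symm g : SpecialLinearGroup (Fin 2) O) Y.1 :=
    fun g Y => rfl
  refine ⟨?_, ?_⟩
  · rintro _ ⟨B, hB, rfl⟩
    refine mem_conjStab.mpr ⟨gdEquiv hi ((n : ℤ) : O) ⟨A * slZ O B * A⁻¹, conj_mem_Gd hB A⟩, ?_, ?_⟩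
    · apply Subtype.ext
      rw [hsm, MulEquiv.symm_apply_apply, hX, D.actM_scal]
      congr 1
      show D.actM ((A * slZ O B * A⁻¹ : SpecialLinearGroup (Fin 2) O) :
        Matrix (Fin 2) (Fin 2) O) (D.actM A (0, Eis.s, 0)) = _
      rw [← D.actM_mul hσ hi]
      have h1 : ((A * slZ O B * A⁻¹ : SpecialLinearGroup (Fin 2) O) : Matrix (Fin 2) (Fin 2) O) *
          (A : Matrix (Fin 2) (Fin 2) O) =
          (A : Matrix (Fin 2) (Fin 2) O) * (slZ O B : Matrix (Fin 2) (Fin 2) O) := by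
        have : A * slZ O B * A⁻¹ * A = A * slZ O B := by group
        exact congrArg Subtype.val this
      rw [h1, D.actM_mul hσ hi, actM_slZ]
    · rw [coe_gdEquiv]
      show slC σ (A * slZ O B * A⁻¹) = _
      rw [map_mul, map_mul, map_inv, slC_slZ]
  · set T := ((slC (RingHom.id ℂ)).comp (slZ ℂ)).range with hT
    have hle : conjStab (GdC σ ((n : ℤ) : O)) X (slC σ A) ≤ T := by
      intro h hh
      obtain ⟨g, hg, h1⟩ := mem_conjStab.mp hh
      obtain ⟨A', hA'⟩ : ∃ A' : SpecialLinearGroup (Fin 2) O,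
          A' = (gdEquiv hi ((n : ℤ) : O)).symm g := ⟨_, rfl⟩
      have h2 : (g : GL (Fin 2) ℂ) = slC σ A' := by
        rw [hA', ← coe_gdEquiv hi, MulEquiv.apply_symm_apply]
      have h3 : D.actM A' X.1 = X.1 := by
        rw [hA', ← hsm, hg]
      rw [hX, D.actM_scal] at h3
      have h4 := scal_injective hη h3
      rw [← D.actM_mul hσ hi] at h4
      have h5 : D.actM ((A⁻¹ * A' * A : SpecialLinearGroup (Fin 2) O) :
          Matrix (Fin 2) (Fin 2) O) (0, Eis.s, 0) = (0, Eis.s, 0) := by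
        have e1 : ((A⁻¹ * A' * A : SpecialLinearGroup (Fin 2) O) : Matrix (Fin 2) (Fin 2) O) =
            ((A⁻¹ : SpecialLinearGroup (Fin 2) O) : Matrix (Fin 2) (Fin 2) O) *
            ((A' : Matrix (Fin 2) (Fin 2) O) * (A : Matrix (Fin 2) (Fin 2) O)) := by
          have : A⁻¹ * A' * A = A⁻¹ * (A' * A) := by group
          exact congrArg Subtype.val this
        rw [e1, D.actM_mul hσ hi, h4, ← D.actM_mul hσ hi]
        have e2 : ((A⁻¹ : SpecialLinearGroup (Fin 2) O) : Matrix (Fin 2) (Fin 2) O) *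
            (A : Matrix (Fin 2) (Fin 2) O) = 1 :=
          congrArg Subtype.val (inv_mul_cancel A)
        rw [e2, D.actM_one hσ hi]
      obtain ⟨B, hB⟩ := exists_int_of_fix D _ h5
      refine ⟨B, ?_⟩
      rw [← slC_slZ σ, hB, map_mul, map_mul, map_inv, ← h2, h1]
      group
    intro h0
    have h1 := Subgroup.relIndex_eq_zero_of_le_right hle h0
    have hφ1 : Function.Injective (slC (RingHom.id ℂ)) := slC_injective fun _ _ h => h
    have hφ2 : Function.Injective (slZ ℂ) := slZ_injective ℂ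
    have hφ : Function.Injective ((slC (RingHom.id ℂ)).comp (slZ ℂ)) :=
      fun a b h => hφ2 (hφ1 h)
    rw [hT, MonoidHom.range_eq_map, GamC, Subgroup.relIndex_map_map_of_injective _ _ hφ,
      Subgroup.relIndex_top_right] at h1
    have : NeZero n := ⟨hn⟩
    exact (CongruenceSubgroup.instFiniteIndexGamma n).index_ne_zero h1

omit [StarRing O] [Eis O] [CharZero O] in
lemma measurable_lin (σ : O →+* ℂ) (X : ℤ × O × ℤ) : Measurable (lin σ X) := by
  unfold lin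
  have h1 : Measurable fun P : H3 => (σ X.2.1 * conj P.z).re :=
    Complex.measurable_re.comp ((Complex.continuous_conj.measurable.comp measurable_z).const_mul _)
  have h2 : Measurable fun P : H3 => normSq P.z := Complex.continuous_normSq.measurable.comp
    measurable_z
  exact ((measurable_const.sub (h1.const_mul 2)).add
    ((h2.add (measurable_y.pow_const 2)).const_mul _)).div (measurable_y.const_mul 2)

include hσ hi in
/-- **The coefficient at `3`.** -/
theorem coeff_three {M : ℕ} (hM : M ≠ 0) {w v : H3 → ENNReal}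
    (hw : IsWeight (GamD σ (3 * M)) w) (hv : IsWeight (GamC (3 * M)) v) {F : H3 → ℂ}
    (hF : Measurable F)
    (hFinv : ∀ A ∈ Gd ((M : ℤ) : O), ∀ P, F (slC σ A • P) = F P) :
    ∃ κ : ENNReal, κ ≠ 0 ∧ ∀ g : ℝ → ℂ, Measurable g → (∀ t, g (-t) = g t) →
      (∫⁻ P, ∑' X : Dl D ((3 * M : ℕ) : ℤ) 3, ‖F P * g (lin σ X.1 P)‖ₑ
        ∂volume.withDensity w ≠ ⊤) →
      (∫ P, ∑' X : Dl D ((3 * M : ℕ) : ℤ) 3, F P * g (lin σ X.1 P) ∂volume.withDensity w =
        (κ.toReal : ℂ) * ∫ P, F P * g (lin σ (0, Eis.s, 0) P) ∂volume.withDensity v) ∧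
      (∫ P, F P * g (lin σ (0, Eis.s, 0) P) ∂volume.withDensity v ≠ 0 → κ ≠ ⊤) := by
  have hcO : Countable O := countable_of_eis
  have h3M : 3 * M ≠ 0 := by omega
  rw [gamD_eq] at hw
  have hcast : (((3 * M : ℕ) : ℤ) : O) = ((3 * M : ℕ) : O) := by push_cast; rfl
  rw [← hcast] at hw
  letI := actDlC D hσ hi ((3 * M : ℕ) : ℤ) 3
  have hsm : ∀ (g : GdC σ (((3 * M : ℕ) : ℤ) : O)) (Y : Dl D ((3 * M : ℕ) : ℤ) 3), (g • Y).1 =
      D.actM ((gdEquiv hi (((3 * M : ℕ) : ℤ) : O)).symm g : SpecialLinearGroup (Fin 2) O) Y.1 :=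
    fun g Y => rfl
  have hcG : Countable (GdC σ (((3 * M : ℕ) : ℤ) : O)) := by
    have h1 : Countable (Matrix (Fin 2) (Fin 2) O) := inferInstanceAs (Countable (Fin 2 → Fin 2 → O))
    have h2 : Countable (SpecialLinearGroup (Fin 2) O) := Subtype.countable
    exact (gdEquiv hi (((3 * M : ℕ) : ℤ) : O)).symm.injective.countable
  have hcD : Countable (Dl D ((3 * M : ℕ) : ℤ) 3) := Subtype.countable
  have hne : Nonempty (Dl D ((3 * M : ℕ) : ℤ) 3) := by
    refine ⟨⟨(0, Eis.s, 0), dvd_zero _, dvd_zero _, ?_⟩⟩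
    rw [← ofInt_inj (O := O), NTData.q]
    push_cast
    rw [D.nrm_eq, Eis.star_s]
    linear_combination -(Eis.s_sq (O := O))
  have hMz : (M : ℤ) ≠ 0 := by exact_mod_cast hM
  have hX : ∀ X : Dl D ((3 * M : ℕ) : ℤ) 3, ∃ (A : SpecialLinearGroup (Fin 2) O) (η : ℤ),
      (η = 1 ∨ η = -1) ∧ A ∈ Gd (((M : ℤ)) : O) ∧ X.1 = scal η (D.actM A (0, Eis.s, 0)) := by
    intro X
    have := X.2
    push_cast at this
    exact exists_orbit D hMz this
  choose A η hη hA hXA using hX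
  have hη0 : ∀ X, η X ≠ 0 := fun X => by rcases hη X with h | h <;> rw [h] <;> norm_num
  have hcomm : ∀ X, Comm (GdC σ (((3 * M : ℕ) : ℤ) : O)) (GamC (3 * M)) X (slC σ (A X)) :=
    fun X => comm_of_orbit D hσ hi h3M X (A X) (hη0 X) (hXA X)
  refine ⟨kap (GdC σ (((3 * M : ℕ) : ℤ) : O)) (GamC (3 * M)) (fun X => slC σ (A X)),
    kap_ne_zero _, fun g hg hev hfin => ?_⟩
  have hE : ∀ X : Dl D ((3 * M : ℕ) : ℤ) 3, Measurable fun P => F P * g (lin σ X.1 P) :=
    fun X => hF.mul (hg.comp (measurable_lin σ X.1))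
  have hinv : ∀ (h : GdC σ (((3 * M : ℕ) : ℤ) : O)) (X : Dl D ((3 * M : ℕ) : ℤ) 3) (P : H3),
      F (h • P) * g (lin σ (h • X).1 (h • P)) = F P * g (lin σ X.1 P) := by
    intro h X P
    obtain ⟨B, hB⟩ : ∃ B, B = (gdEquiv hi (((3 * M : ℕ) : ℤ) : O)).symm h := ⟨_, rfl⟩
    have h2 : (h : GL (Fin 2) ℂ) = slC σ B := by
      rw [hB, ← coe_gdEquiv hi, MulEquiv.apply_symm_apply]
    rw [hsm, ← hB]
    show F ((h : GL (Fin 2) ℂ) • P) * g (lin σ _ ((h : GL (Fin 2) ℂ) • P)) = _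
    rw [h2, D.lin_actM hσ B (coe_slC σ B), adet_slC, one_mul, hFinv]
    have h3 := mem_Gd.mp B.2
    refine mem_Gd.mpr ⟨?_, ?_⟩
    · refine dvd_trans ⟨3, ?_⟩ h3.1
      push_cast; ring
    · refine dvd_trans ⟨3, ?_⟩ h3.2
      push_cast; ring
  have hE0 : ∀ (X : Dl D ((3 * M : ℕ) : ℤ) 3) (P : H3),
      F (slC σ (A X) • P) * g (lin σ X.1 (slC σ (A X) • P)) =
        F P * g (lin σ (0, Eis.s, 0) P) := by
    intro X P
    rw [hXA X, lin_scal, D.lin_actM hσ (A X) (coe_slC σ (A X)), adet_slC, one_mul,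
      hFinv _ (hA X)]
    congr 1
    rcases hη X with h | h
    · rw [h]; simp
    · rw [h]
      push_cast
      rw [neg_one_mul, hev]
  exact ⟨integral_alike (μ := (volume : Measure H3)) hw hv hcomm hE hinv hE0 hfin,
    kap_ne_top (μ := (volume : Measure H3)) hw hv hcomm hE hinv hE0 hfin⟩

end Main

end Fermat.Agent.LT.Theta31
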