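import Fermat.Agent.LT.Theta31.Conv

/-!
# Principal congruence subgroups of `GL₂(O)`; isotropic vectors
-/

set_option autoImplicit false

noncomputable section

open Matrix Complex MeasureTheory ENNReal
open scoped ComplexConjugate

namespace Fermat.Agent.LT.Theta31

variable {O : Type*} [CommRing O] {σ : O →+* ℂ}

/-- reduction modulo `M` -/
def redHom (O : Type*) [CommRing O] (M : ℕ) :
    GL (Fin 2) O →* GL (Fin 2) (O ⧸ Ideal.span {(M : O)}) :=
  Matrix.GeneralLinearGroup.map (Ideal.Quotient.mk _)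

lemma mem_ker_redHom {M : ℕ} {g : GL (Fin 2) O} : g ∈ (redHom O M).ker ↔
    (M : O) ∣ g 0 0 - 1 ∧ (M : O) ∣ g 0 1 ∧ (M : O) ∣ g 1 0 ∧ (M : O) ∣ g 1 1 - 1 := by
  have key : ∀ i j, (redHom O M g) i j = Ideal.Quotient.mk (Ideal.span {(M : O)}) (g i j) :=
    fun i j => rfl
  have h1 : g ∈ (redHom O M).ker ↔ ∀ i j, (redHom O M g) i j = (1 : GL (Fin 2) _) i j := by
    rw [MonoidHom.mem_ker]
    exact ⟨fun h => by simp [h], fun h => Units.ext (Matrix.ext h)⟩
  rw [h1]
  simp only [key, Fin.forall_fin_two, Units.val_one, Matrix.one_apply_eq, ne_eq, zero_ne_one,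
    not_false_eq_true, Matrix.one_apply_ne, one_ne_zero]
  rw [← map_one (Ideal.Quotient.mk (Ideal.span {(M : O)})), Ideal.Quotient.mk_eq_mk_iff_sub_mem,
    Ideal.Quotient.mk_eq_mk_iff_sub_mem, Ideal.Quotient.eq_zero_iff_mem,
    Ideal.Quotient.eq_zero_iff_mem]
  simp only [Ideal.mem_span_singleton]
  tauto

lemma finite_quot (h : EisEmb σ) {M : ℕ} (hM : M ≠ 0) :
    Finite (O ⧸ Ideal.span {(M : O)}) := by
  obtain ⟨ω, -, hgen⟩ := h.gen
  have : NeZero M := ⟨hM⟩
  refine Finite.of_surjective (fun p : ZMod M × ZMod M =>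
    Ideal.Quotient.mk (Ideal.span {(M : O)}) ((p.1.val : O) + p.2.val * ω)) ?_
  intro x
  obtain ⟨x, rfl⟩ := Ideal.Quotient.mk_surjective x
  obtain ⟨m, n, rfl⟩ := hgen x
  refine ⟨((m : ZMod M), (n : ZMod M)), ?_⟩
  rw [Ideal.Quotient.mk_eq_mk_iff_sub_mem, Ideal.mem_span_singleton]
  obtain ⟨a, ha⟩ : (M : ℤ) ∣ ((m : ZMod M).val : ℤ) - m := by
    rw [← ZMod.intCast_eq_intCast_iff_dvd_sub]
    simp
  obtain ⟨b, hb⟩ : (M : ℤ) ∣ ((n : ZMod M).val : ℤ) - n := by
    rw [← ZMod.intCast_eq_intCast_iff_dvd_sub]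
    simp
  refine ⟨a + b * ω, ?_⟩
  have ha' : (((m : ZMod M).val : ℤ) : O) - m = M * a := by exact_mod_cast congrArg (Int.cast) ha
  have hb' : (((n : ZMod M).val : ℤ) : O) - n = M * b := by exact_mod_cast congrArg (Int.cast) hb
  simp only [Int.cast_natCast] at ha' hb'
  linear_combination ha' + ω * hb'

lemma finiteIndex_ker (h : EisEmb σ) {M : ℕ} (hM : M ≠ 0) : (redHom O M).ker.FiniteIndex := by
  have := finite_quot h hM
  have : Finite (Matrix (Fin 2) (Fin 2) (O ⧸ Ideal.span {(M : O)})) :=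
    inferInstanceAs (Finite (Fin 2 → Fin 2 → O ⧸ Ideal.span {(M : O)}))
  have : Finite (GL (Fin 2) (O ⧸ Ideal.span {(M : O)})) := inferInstance
  infer_instance

/-- a unit which is `1` modulo `M ≥ 3` is `1` -/
lemma unit_eq_one (h : EisEmb σ) {M : ℕ} (hM : 3 ≤ M) {u : O} (hu : ‖σ u‖ = 1)
    (hd : (M : O) ∣ u - 1) : u = 1 := by
  obtain ⟨x, hx⟩ := hd
  by_contra hne
  have hx0 : x ≠ 0 := by
    rintro rfl
    rw [mul_zero, sub_eq_zero] at hx
    exact hne hx
  have h1 := h.one_le_norm hx0
  have h2 : ‖σ (u - 1)‖ = M * ‖σ x‖ := by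
    rw [hx, map_mul, map_natCast, norm_mul, Complex.norm_natCast]
  have h3 : ‖σ (u - 1)‖ ≤ 2 := by
    rw [map_sub, map_one]
    refine (norm_sub_le _ _).trans ?_
    rw [hu, norm_one]
    norm_num
  have h4 : (3 : ℝ) ≤ M := by exact_mod_cast hM
  nlinarith

/-- an isotropic integral matrix can be moved to `(t, 0; 0, 0)` -/
theorem exists_isotropic [StarRing O] (D : NTData O) (hσ : ∀ x, σ (star x) = conj (σ x))
    [IsDomain O] [IsPrincipalIdealRing O] (h : EisEmb σ) {X : ℤ × O × ℤ} (hX : X ≠ 0)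
    (hq : D.q X = 0) : ∃ (γ : GL (Fin 2) O) (t : ℤ), t ≠ 0 ∧
      D.actM (γ : Matrix (Fin 2) (Fin 2) O) X = (t, 0, 0) := by
  have hqR := q_eq_real D hσ X
  rw [hq, Int.cast_zero] at hqR
  obtain ⟨a, b, d⟩ := X
  by_cases hd : d = 0
  · subst hd
    have hb : b = 0 := by
      simp only [Int.cast_zero, mul_zero, sub_zero] at hqR
      exact h.inj (by rw [normSq_eq_zero.mp hqR.symm, map_zero])
    subst hb
    refine ⟨1, a, fun ha => hX (by rw [ha]; rfl), ?_⟩
    rw [Units.val_one, D.actM_one hσ h.inj]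
  · -- the gcd of `b` and `d`
    obtain ⟨g₀, hg₀⟩ := IsPrincipalIdealRing.principal (Ideal.span ({b, (d : O)} : Set O))
    have hb : b ∈ Ideal.span ({b, (d : O)} : Set O) := Ideal.subset_span (by simp)
    have hd' : (d : O) ∈ Ideal.span ({b, (d : O)} : Set O) := Ideal.subset_span (by simp)
    have hg : g₀ ∈ Ideal.span ({b, (d : O)} : Set O) := by
      rw [hg₀]
      exact Ideal.mem_span_singleton_self g₀
    rw [hg₀] at hb hd'
    obtain ⟨b', hb'⟩ := Ideal.mem_span_singleton.mp hb
    obtain ⟨d', hd''⟩ := Ideal.mem_span_singleton.mp hd'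
    obtain ⟨u, v, huv⟩ := Ideal.mem_span_pair.mp hg
    have hdO : (d : O) ≠ 0 := by
      intro h0
      have := congrArg σ h0
      rw [map_intCast, map_zero] at this
      exact hd (by exact_mod_cast this)
    have hg₀0 : g₀ ≠ 0 := by
      rintro rfl
      rw [zero_mul] at hd''
      exact hdO hd''
    have hdet : u * b' + v * d' = 1 := by
      refine mul_left_cancel₀ hg₀0 ?_
      calc g₀ * (u * b' + v * d') = u * (g₀ * b') + v * (g₀ * d') := by ring
        _ = g₀ * 1 := by rw [← hb', ← hd'', huv, mul_one]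
    let γ : GL (Fin 2) O :=
      { val := !![u, v; -d', b']
        inv := !![b', -v; d', u]
        val_inv := by
          rw [Matrix.mul_fin_two, Matrix.one_fin_two]
          ext i j
          fin_cases i <;> fin_cases j <;>
            simp only [Matrix.of_apply, Matrix.cons_val', Matrix.cons_val_zero, Matrix.cons_val_one,
              Fin.zero_eta, Fin.mk_one] <;>
            first | linear_combination hdet | ring
        inv_val := by
          rw [Matrix.mul_fin_two, Matrix.one_fin_two]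
          ext i j
          fin_cases i <;> fin_cases j <;>
            simp only [Matrix.of_apply, Matrix.cons_val', Matrix.cons_val_zero, Matrix.cons_val_one,
              Fin.zero_eta, Fin.mk_one] <;>
            first | linear_combination hdet | ring }
    have hmat := D.mat_actM hσ (γ : Matrix (Fin 2) (Fin 2) O) (a, b, d)
    set Y := D.actM (γ : Matrix (Fin 2) (Fin 2) O) (a, b, d) with hY
    have hdC : (d : ℂ) ≠ 0 := by exact_mod_cast hd
    have hab : normSq (σ b) = a * d := by
      simp only at hqR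
      linarith
    have habC : σ b * conj (σ b) = a * d := by
      rw [Complex.mul_conj, hab]
      push_cast
      rfl
    have hγ : (γ : Matrix (Fin 2) (Fin 2) O).map σ = !![σ u, σ v; -σ d', σ b'] := by
      ext i j
      fin_cases i <;> fin_cases j <;> simp [γ]
    have hγH : ((γ : Matrix (Fin 2) (Fin 2) O).map σ)ᴴ =
        !![conj (σ u), -conj (σ d'); conj (σ v), conj (σ b')] := by
      rw [hγ]
      ext i j
      fin_cases i <;> fin_cases j <;> simp
    have hrow0 : σ u * σ b + σ v * d = σ g₀ := by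
      rw [← huv, map_add, map_mul, map_mul, map_intCast]
    have hrow1 : -σ d' * σ b + σ b' * d = 0 := by
      have e1 : σ b = σ g₀ * σ b' := by rw [← map_mul, ← hb']
      have e2 : (d : ℂ) = σ g₀ * σ d' := by rw [← map_mul, ← hd'', map_intCast]
      rw [e1, e2]
      ring
    have hrow0' := congrArg conj hrow0
    have hrow1' := congrArg conj hrow1
    simp only [map_add, map_mul, map_neg, map_zero, map_intCast] at hrow0' hrow1'
    rw [hγH, hγ, mat, mat, Matrix.mul_fin_two, Matrix.mul_fin_two] at hmat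
    have e00 := congrFun (congrFun hmat 0) 0
    have e01 := congrFun (congrFun hmat 0) 1
    have e11 := congrFun (congrFun hmat 1) 1
    simp only [Matrix.of_apply, Matrix.cons_val', Matrix.cons_val_zero,
      Matrix.cons_val_one] at e00 e01 e11
    have f00 : (d : ℂ) * (Y.1 : ℂ) = σ g₀ * conj (σ g₀) := by
      rw [e00, ← hrow0, map_add, map_mul, map_mul, map_intCast]
      linear_combination (-(σ u * conj (σ u))) * habC
    have f01 : σ Y.2.1 = 0 := by
      refine mul_left_cancel₀ hdC ?_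
      rw [e01, mul_zero]
      linear_combination (σ u * conj (σ d')) * habC + (σ u * σ b + σ v * d) * hrow1'
    have f11 : (Y.2.2 : ℂ) = 0 := by
      refine mul_left_cancel₀ hdC ?_
      rw [e11, mul_zero]
      linear_combination (-(σ d' * conj (σ d'))) * habC + (-σ d' * σ b + σ b' * d) * hrow1'
    refine ⟨γ, Y.1, ?_, ?_⟩
    · intro h0
      rw [h0, Int.cast_zero, mul_zero, Complex.mul_conj] at f00
      have := normSq_eq_zero.mp (by exact_mod_cast f00.symm)
      exact hg₀0 (h.inj (by rw [this, map_zero]))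
    · rw [← hY]
      refine Prod.ext rfl (Prod.ext ?_ ?_)
      · exact h.inj (by rw [f01, map_zero])
      · exact_mod_cast f11

end Fermat.Agent.LT.Theta31

end
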