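import Fermat.Agent.LT.H3.Measure

/-!
# The kernel of the theta lift from `SO(3,1)` to weight one: real variables

A Hermitian matrix `X = (a, b; conj b, d)` is given by `a d : ℝ`, `b : ℂ`;
`qR a b d = |b|² - a d = -det X`, `tR a b d P = -⟨X, herm P⟩` (so that `qR + tR² ≥ 0`),
`kR a b d z P = √(im z) e(q z) exp(-4 π (im z) t²)`.
`GL₂(ℂ)` acts by `X ↦ |det g|⁻¹ g X g^*`.
-/

set_option autoImplicit false

open Complex Matrix
open scoped ComplexConjugate MatrixGroups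

noncomputable section

namespace Fermat.Agent.LT.Theta31

open H3

/-- The quadratic form `|b|² - a d` on Hermitian matrices. -/
def qR (a : ℝ) (b : ℂ) (d : ℝ) : ℝ := normSq b - a * d

/-- The linear form `-⟨X, herm P⟩`. -/
def tR (a : ℝ) (b : ℂ) (d : ℝ) (P : H3) : ℝ :=
  (a - 2 * (b * conj P.z).re + d * (normSq P.z + P.y ^ 2)) / (2 * P.y)

/-- The kernel. -/
def kR (a : ℝ) (b : ℂ) (d : ℝ) (z : ℂ) (P : H3) : ℂ :=
  (√z.im : ℂ) * cexp (2 * Real.pi * I * (qR a b d * z)) *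
    cexp ((-(4 * Real.pi * z.im * tR a b d P ^ 2) : ℝ) : ℂ)

/-- The Hermitian matrix. -/
def hM (a : ℝ) (b : ℂ) (d : ℝ) : Matrix (Fin 2) (Fin 2) ℂ := !![(a : ℂ), b; conj b, (d : ℂ)]

theorem det_hM (a : ℝ) (b : ℂ) (d : ℝ) : (hM a b d).det = ((-qR a b d : ℝ) : ℂ) := by
  unfold hM qR
  rw [det_fin_two_of, mul_conj]
  push_cast
  ring

/-- The majorant is positive definite: `q + 2 t² = |b - d z|² + A²/(2y²) + d² y²/2`. -/
theorem maj_eq (a : ℝ) (b : ℂ) (d : ℝ) (P : H3) :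
    qR a b d + 2 * tR a b d P ^ 2 = normSq (b - d * P.z) +
      (a - 2 * (b * conj P.z).re + d * normSq P.z) ^ 2 / (2 * P.y ^ 2) + d ^ 2 * P.y ^ 2 / 2 := by
  have hy := P.y_ne
  unfold qR tR
  simp only [normSq_apply, sub_re, sub_im, mul_re, mul_im, conj_re, conj_im, ofReal_re, ofReal_im]
  field_simp
  ring

theorem tR_eq_trace (a : ℝ) (b : ℂ) (d : ℝ) (P : H3) :
    2 * (tR a b d P : ℂ) = (hM a b d + herm P).det - (hM a b d).det - (herm P).det := by
  have hy : (P.y : ℂ) ≠ 0 := ofReal_ne_zero.mpr P.y_ne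
  have h1 : (((b * conj P.z).re : ℝ) : ℂ) = (b * conj P.z + conj b * P.z) / 2 := by
    rw [re_eq_add_conj, map_mul, conj_conj]
  unfold tR hM herm
  rw [Matrix.smul_of, Matrix.of_add_of, det_fin_two, det_fin_two, det_fin_two]
  push_cast
  rw [h1, ← mul_conj]
  simp
  field_simp
  ring

/-- Transformation of the linear form, for Hermitian matrices related by
`X' = |det g|⁻¹ g X g^*`. -/
theorem tR_smul {a a' d d' : ℝ} {b b' : ℂ} (g : GL (Fin 2) ℂ)
    (h : hM a' b' d' = ((adet g : ℂ)⁻¹) • ((g : Matrix (Fin 2) (Fin 2) ℂ) * hM a b d * gᴴ))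
    (P : H3) : tR a' b' d' (g • P) = tR a b d P := by
  have hA : (adet g : ℂ) ≠ 0 := ofReal_ne_zero.mpr (adet_pos g).ne'
  have hdet : ∀ M : Matrix (Fin 2) (Fin 2) ℂ,
      (((adet g : ℂ)⁻¹) • ((g : Matrix (Fin 2) (Fin 2) ℂ) * M * gᴴ)).det = M.det := by
    intro M
    rw [det_smul, det_mul, det_mul, det_conjTranspose, Fintype.card_fin]
    have h1 : (g : Matrix (Fin 2) (Fin 2) ℂ).det * star (g : Matrix (Fin 2) (Fin 2) ℂ).det =
        (adet g : ℂ) ^ 2 := by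
      unfold adet
      rw [← starRingEnd_apply, mul_conj, normSq_eq_norm_sq]
      push_cast
      rfl
    linear_combination (M.det * ((adet g : ℂ)⁻¹) ^ 2) * h1 +
      M.det * (((adet g : ℂ)⁻¹ * adet g + 1) * (inv_mul_cancel₀ hA))
  have h2 : (2 : ℂ) * (tR a' b' d' (g • P) : ℂ) = 2 * (tR a b d P : ℂ) := by
    rw [tR_eq_trace, tR_eq_trace, h, herm_smul, ← smul_add, ← Matrix.add_mul, ← Matrix.mul_add,
      hdet, hdet, hdet]
  exact ofReal_injective (mul_left_cancel₀ two_ne_zero h2)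

theorem qR_smul {a a' d d' : ℝ} {b b' : ℂ} (g : GL (Fin 2) ℂ)
    (h : hM a' b' d' = ((adet g : ℂ)⁻¹) • ((g : Matrix (Fin 2) (Fin 2) ℂ) * hM a b d * gᴴ)) :
    qR a' b' d' = qR a b d := by
  have hA : (adet g : ℂ) ≠ 0 := ofReal_ne_zero.mpr (adet_pos g).ne'
  have h1 : (g : Matrix (Fin 2) (Fin 2) ℂ).det * star (g : Matrix (Fin 2) (Fin 2) ℂ).det =
      (adet g : ℂ) ^ 2 := by
    unfold adet
    rw [← starRingEnd_apply, mul_conj, normSq_eq_norm_sq]
    push_cast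
    rfl
  have h2 := congrArg Matrix.det h
  rw [det_smul, det_mul, det_mul, det_conjTranspose, Fintype.card_fin, det_hM, det_hM] at h2
  have h3 : ((-qR a' b' d' : ℝ) : ℂ) = ((-qR a b d : ℝ) : ℂ) := by
    rw [h2]
    linear_combination (((-qR a b d : ℝ) : ℂ) * ((adet g : ℂ)⁻¹) ^ 2) * h1 +
      ((-qR a b d : ℝ) : ℂ) * (((adet g : ℂ)⁻¹ * adet g + 1) * (inv_mul_cancel₀ hA))
  have h4 := ofReal_injective h3
  linarith

theorem kR_smul {a a' d d' : ℝ} {b b' : ℂ} (g : GL (Fin 2) ℂ)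
    (h : hM a' b' d' = ((adet g : ℂ)⁻¹) • ((g : Matrix (Fin 2) (Fin 2) ℂ) * hM a b d * gᴴ))
    (z : ℂ) (P : H3) : kR a' b' d' z (g • P) = kR a b d z P := by
  unfold kR
  rw [qR_smul g h, tR_smul g h]

theorem kR_smul_vec (r : ℝ) (a : ℝ) (b : ℂ) (d : ℝ) (P : H3) :
    tR (r * a) (r * b) (r * d) P = r * tR a b d P := by
  have hy := P.y_ne
  have h1 : ((r : ℂ) * b * conj P.z).re = r * (b * conj P.z).re := by
    rw [mul_assoc, re_ofReal_mul]
  unfold tR
  rw [h1]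
  ring

/-- A positive vector: the surface `t = 0` is the real half plane for `X = (0, -i; i, 0)`. -/
theorem tR_plane (P : H3) : tR 0 (-I) 0 P = P.z.im / P.y := by
  have hy := P.y_ne
  unfold tR
  simp
  field_simp

/-- A negative vector: `t (herm Q) P = cosh d (Q, P)`. -/
theorem tR_herm (P Q : H3) :
    tR ((normSq Q.z + Q.y ^ 2) / Q.y) (Q.z / Q.y) (1 / Q.y) P = cu Q P := by
  have h1 := P.y_ne
  have h2 := Q.y_ne
  have h3 : ((Q.z / (Q.y : ℂ)) * conj P.z).re = (Q.z * conj P.z).re / Q.y := by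
    rw [div_mul_eq_mul_div, div_ofReal_re]
  unfold tR cu
  rw [h3]
  simp only [normSq_apply, sub_re, sub_im, mul_re, conj_re, conj_im]
  field_simp
  ring

end Fermat.Agent.LT.Theta31
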