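import Fermat.Agent.LT.Theta31.Defs
import Fermat.Agent.LT.Theta31.ActM

/-!
# `kern` and `lin` in terms of the real kernel `kR`
-/

set_option autoImplicit false

noncomputable section

open Complex ComplexConjugate Matrix

namespace Fermat.Agent.LT.Theta31

variable {O : Type*} [CommRing O] [StarRing O] {σ : O →+* ℂ}

omit [StarRing O] in
lemma lin_eq_tR (X : ℤ × O × ℤ) (P : H3) : lin σ X P = tR X.1 (σ X.2.1) X.2.2 P := rfl

omit [StarRing O] in
lemma mat_eq_hM (X : ℤ × O × ℤ) : mat σ X = hM X.1 (σ X.2.1) X.2.2 := by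
  rw [mat, hM]
  push_cast
  rfl

lemma NTData.q_eq_qR (D : NTData O) (hσ : ∀ x, σ (star x) = conj (σ x)) (X : ℤ × O × ℤ) :
    ((D.q X : ℤ) : ℝ) = qR X.1 (σ X.2.1) X.2.2 := by
  have h1 := D.map_nrm hσ X.2.1
  rw [mul_conj] at h1
  have h2 : ((D.nrm X.2.1 : ℤ) : ℝ) = normSq (σ X.2.1) := by exact_mod_cast h1
  rw [NTData.q, qR, ← h2]
  push_cast
  ring

lemma NTData.kern_eq_kR (D : NTData O) (hσ : ∀ x, σ (star x) = conj (σ x)) (X : ℤ × O × ℤ)
    (z : ℂ) (P : H3) : kern (D.q X) (lin σ X P) z = kR X.1 (σ X.2.1) X.2.2 z P := by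
  rw [kern, kR, ← D.q_eq_qR hσ, lin_eq_tR, Complex.ofReal_exp]
  congr 3
  push_cast
  ring

/-- The theta function in terms of the real kernel. -/
lemma NTData.theta_eq_kR (D : NTData O) (hσ : ∀ x, σ (star x) = conj (σ x))
    (c : ℤ × O × ℤ → ℂ) (z : ℂ) (P : H3) :
    D.theta σ c z P = ∑' X : ℤ × O × ℤ, c X * kR X.1 (σ X.2.1) X.2.2 z P :=
  tsum_congr fun X => by rw [D.kern_eq_kR hσ]

end Fermat.Agent.LT.Theta31
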