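import Fermat.Agent.LT.H3.Basic

/-!
# Reduction theory for `GL₂` of the Eisenstein integers acting on hyperbolic 3-space
-/

set_option autoImplicit false

noncomputable section

open Matrix Complex

namespace Fermat.Agent.LT.Theta31

variable {O : Type*} [CommRing O] {σ : O →+* ℂ}

/-- `O = ℤ[ω]` embedded in `ℂ`, `ω² + ω + 1 = 0`. -/
structure EisEmb (σ : O →+* ℂ) : Prop where
  inj : Function.Injective σ
  gen : ∃ ω : O, (σ ω) ^ 2 + σ ω + 1 = 0 ∧ ∀ x : O, ∃ m n : ℤ, x = m + n * ω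

lemma omega_re_im {z : ℂ} (h : z ^ 2 + z + 1 = 0) : z.re = -1 / 2 ∧ z.im ^ 2 = 3 / 4 := by
  have h1 := congrArg Complex.re h
  have h2 := congrArg Complex.im h
  simp only [pow_two, add_re, mul_re, one_re, zero_re, add_im, mul_im, one_im, zero_im] at h1 h2
  have h3 : z.im * (2 * z.re + 1) = 0 := by linarith
  have h4 : z.im ≠ 0 := by
    intro h0
    rw [h0] at h1
    nlinarith [sq_nonneg (z.re + 1 / 2)]
  have h5 : z.re = -1 / 2 := by
    rcases mul_eq_zero.mp h3 with h | h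
    · exact absurd h h4
    · linarith
  refine ⟨h5, ?_⟩
  rw [h5] at h1
  nlinarith

lemma normSq_combine {z : ℂ} (h : z ^ 2 + z + 1 = 0) (u v : ℝ) :
    normSq ((u : ℂ) + v * z) = u ^ 2 - u * v + v ^ 2 := by
  obtain ⟨h1, h2⟩ := omega_re_im h
  rw [normSq_apply]
  simp only [add_re, add_im, ofReal_re, ofReal_im, mul_re, mul_im, zero_mul, sub_zero, add_zero,
    zero_add]
  rw [h1]
  nlinarith

namespace EisEmb

lemma normSq_eq {σ : O →+* ℂ} {ω : O} (hω : (σ ω) ^ 2 + σ ω + 1 = 0) (m n : ℤ) :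
    normSq (σ (m + n * ω)) = ((m ^ 2 - m * n + n ^ 2 : ℤ) : ℝ) := by
  have h1 : σ (m + n * ω) = ((m : ℝ) : ℂ) + ((n : ℝ) : ℂ) * σ ω := by
    rw [map_add, map_mul, map_intCast, map_intCast]
    push_cast
    rfl
  rw [h1, normSq_combine hω]
  push_cast
  rfl

lemma fin (h : EisEmb σ) (R : ℝ) : {x : O | ‖σ x‖ ≤ R}.Finite := by
  obtain ⟨ω, hω, hgen⟩ := h.gen
  let B : ℤ := ⌈2 * R⌉
  refine (((Set.finite_Icc (-B) B).prod (Set.finite_Icc (-B) B)).image
    (fun p : ℤ × ℤ => (p.1 : O) + p.2 * ω)).subset ?_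
  intro x hx
  obtain ⟨m, n, rfl⟩ := hgen x
  have hx' : ‖σ (m + n * ω)‖ ≤ R := hx
  have hR : 0 ≤ R := (norm_nonneg _).trans hx'
  have h1 : normSq (σ (m + n * ω)) ≤ R ^ 2 := by
    rw [normSq_eq_norm_sq]
    exact pow_le_pow_left₀ (norm_nonneg _) hx' 2
  rw [normSq_eq hω] at h1
  push_cast at h1
  have hB : 2 * R ≤ B := Int.le_ceil _
  have key : ∀ a b : ℤ, (a : ℝ) ^ 2 - a * b + (b : ℝ) ^ 2 ≤ R ^ 2 → a ∈ Set.Icc (-B) B := by
    intro a b hab
    have h2 : (a : ℝ) ^ 2 ≤ (2 * R) ^ 2 := by nlinarith [sq_nonneg ((a : ℝ) - 2 * b)]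
    have h3 := abs_le_of_sq_le_sq' h2 (by positivity)
    constructor
    · have : ((-B : ℤ) : ℝ) ≤ a := by push_cast; linarith [h3.1]
      exact_mod_cast this
    · have : (a : ℝ) ≤ B := by linarith [h3.2]
      exact_mod_cast this
  refine ⟨(m, n), ⟨key m n h1, key n m (by linarith)⟩, rfl⟩

lemma cov (h : EisEmb σ) (z : ℂ) : ∃ x : O, ‖z - σ x‖ ^ 2 ≤ 3 / 4 := by
  obtain ⟨ω, hω, hgen⟩ := h.gen
  obtain ⟨h1, h2⟩ := omega_re_im hω
  have him : (σ ω).im ≠ 0 := by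
    intro h0
    rw [h0] at h2
    norm_num at h2
  set v := z.im / (σ ω).im with hv
  set u := z.re - v * (σ ω).re with hu
  refine ⟨(round u : ℤ) + (round v : ℤ) * ω, ?_⟩
  have h3 : z - σ ((round u : ℤ) + (round v : ℤ) * ω) =
      ((u - round u : ℝ) : ℂ) + ((v - round v : ℝ) : ℂ) * σ ω := by
    have h4 : z = (u : ℂ) + v * σ ω := by
      apply Complex.ext
      · simp [hu]
      · simp [hv, him]
    rw [map_add, map_mul, map_intCast, map_intCast]
    nth_rewrite 1 [h4]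
    push_cast
    ring
  rw [h3, ← normSq_eq_norm_sq, normSq_combine hω]
  have ha := abs_le.mp (abs_sub_round u)
  have hb := abs_le.mp (abs_sub_round v)
  nlinarith [mul_nonneg (sub_nonneg.mpr ha.2) (sub_nonneg.mpr hb.2),
    mul_nonneg (sub_nonneg.mpr ha.2) (by linarith [hb.1] : (0 : ℝ) ≤ 1 / 2 + (v - round v)),
    mul_nonneg (by linarith [ha.1] : (0 : ℝ) ≤ 1 / 2 + (u - round u)) (sub_nonneg.mpr hb.2),
    mul_nonneg (by linarith [ha.1] : (0 : ℝ) ≤ 1 / 2 + (u - round u))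
      (by linarith [hb.1] : (0 : ℝ) ≤ 1 / 2 + (v - round v))]

lemma one_le_normSq (h : EisEmb σ) {x : O} (hx : x ≠ 0) : 1 ≤ normSq (σ x) := by
  obtain ⟨ω, hω, hgen⟩ := h.gen
  have h2 : 0 < normSq (σ x) := normSq_pos.mpr fun h0 => hx (h.inj (by rw [h0, map_zero]))
  obtain ⟨m, n, rfl⟩ := hgen x
  rw [normSq_eq hω] at h2 ⊢
  exact_mod_cast h2

lemma one_le_norm (h : EisEmb σ) {x : O} (hx : x ≠ 0) : 1 ≤ ‖σ x‖ := by
  have h1 := h.one_le_normSq hx
  rw [normSq_eq_norm_sq] at h1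
  by_contra h2
  rw [not_le] at h2
  nlinarith [norm_nonneg (σ x)]

lemma unit (h : EisEmb σ) (u : Oˣ) : ‖σ u‖ = 1 := by
  have hnt : Nontrivial O := ⟨⟨1, 0, fun h0 => by
    have := congrArg σ h0
    rw [map_one, map_zero] at this
    exact one_ne_zero this⟩⟩
  have h1 := h.one_le_norm u.ne_zero
  have h2 := h.one_le_norm (u⁻¹).ne_zero
  have h3 : ‖σ u‖ * ‖σ (u⁻¹ : Oˣ)‖ = 1 := by
    rw [← norm_mul, ← map_mul, Units.mul_inv, map_one, norm_one]
  nlinarith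

lemma charZero (h : EisEmb σ) : CharZero O :=
  ⟨fun m n hmn => by
    have _ := h.inj
    have := congrArg σ hmn
    rw [map_natCast, map_natCast] at this
    exact_mod_cast this⟩

lemma countable (h : EisEmb σ) : Countable O := by
  obtain ⟨ω, -, hgen⟩ := h.gen
  have hsurj : Function.Surjective (fun p : ℤ × ℤ => (p.1 : O) + p.2 * ω) := by
    intro x
    obtain ⟨m, n, hmn⟩ := hgen x
    exact ⟨(m, n), hmn.symm⟩
  exact hsurj.countable

end EisEmb

/-- Matrices over `O` as complex matrices. -/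
abbrev gl (σ : O →+* ℂ) : GL (Fin 2) O →* GL (Fin 2) ℂ := Matrix.GeneralLinearGroup.map σ

lemma gl_apply (g : GL (Fin 2) O) (i j : Fin 2) : gl σ g i j = σ (g i j) := rfl

/-- translations -/
def nO (x : O) : GL (Fin 2) O where
  val := !![1, x; 0, 1]
  inv := !![1, -x; 0, 1]
  val_inv := by simp [Matrix.one_fin_two]
  inv_val := by simp [Matrix.one_fin_two]

/-- the Weyl element -/
def wO : GL (Fin 2) O where
  val := !![0, -1; 1, 0]
  inv := !![0, 1; -1, 0]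
  val_inv := by simp [Matrix.one_fin_two]
  inv_val := by simp [Matrix.one_fin_two]

lemma gl_wO : gl σ wO = H3.wl := by
  apply Units.ext
  ext i j
  rw [H3.coe_wl]
  fin_cases i <;> fin_cases j <;> simp [wO, gl, Matrix.GeneralLinearGroup.map]

lemma gl_nO (x : O) : gl σ (nO x) = H3.ut 1 (σ x) 1 one_ne_zero one_ne_zero := by
  apply Units.ext
  ext i j
  rw [H3.coe_ut]
  fin_cases i <;> fin_cases j <;> simp [nO, gl, Matrix.GeneralLinearGroup.map]

lemma adet_gl (h : EisEmb σ) (g : GL (Fin 2) O) : H3.adet (gl σ g) = 1 := by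
  have h1 : H3.adet (gl σ g) = ‖σ ((Matrix.GeneralLinearGroup.det g : Oˣ) : O)‖ := by
    unfold H3.adet
    congr 1
    have := RingHom.map_det σ (g : Matrix (Fin 2) (Fin 2) O)
    rw [Matrix.GeneralLinearGroup.val_det_apply, this]
    rfl
  rw [h1, h.unit]

lemma y_gl_smul (h : EisEmb σ) (g : GL (Fin 2) O) (P : H3) :
    (gl σ g • P).y = P.y / H3.den (gl σ g) P := by
  rw [H3.y_smul, adet_gl h, one_mul]

/-- the height is bounded on the orbit, and the bound is attained -/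
theorem exists_max_height (h : EisEmb σ) (P : H3) :
    ∃ g₀ : GL (Fin 2) O, ∀ g : GL (Fin 2) O, (gl σ g • P).y ≤ (gl σ g₀ • P).y := by
  let f : O × O → ℝ := fun p => normSq (σ p.1 * P.z + σ p.2) + normSq (σ p.1) * P.y ^ 2
  let s : Set (O × O) := {p | ∃ g : GL (Fin 2) O, p = (g 1 0, g 1 1) ∧ f p ≤ 1}
  have hf : ∀ g : GL (Fin 2) O, f (g 1 0, g 1 1) = H3.den (gl σ g) P := fun g => rfl
  have hy := P.y_pos
  have hfin : s.Finite := by
    refine ((h.fin (1 / P.y)).prod (h.fin (1 + 1 / P.y * ‖P.z‖))).subset ?_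
    rintro ⟨c, d⟩ ⟨g, -, hg⟩
    have h1 : normSq (σ c) * P.y ^ 2 ≤ 1 := by
      have := normSq_nonneg (σ c * P.z + σ d)
      simp only [f] at hg
      linarith
    have h2 : normSq (σ c * P.z + σ d) ≤ 1 := by
      have := mul_nonneg (normSq_nonneg (σ c)) (sq_nonneg P.y)
      simp only [f] at hg
      linarith
    rw [normSq_eq_norm_sq] at h1 h2
    have h3 : ‖σ c‖ ≤ 1 / P.y := by
      rw [le_div_iff₀ hy]
      refine abs_le_of_sq_le_sq' (b := 1) ?_ zero_le_one |>.2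
      rw [mul_pow, one_pow]
      exact h1
    refine ⟨h3, ?_⟩
    have h4 : ‖σ c * P.z + σ d‖ ≤ 1 :=
      abs_le_of_sq_le_sq' (b := 1) (by rw [one_pow]; exact h2) zero_le_one |>.2
    calc ‖σ d‖ = ‖(σ c * P.z + σ d) - σ c * P.z‖ := by rw [add_sub_cancel_left]
      _ ≤ ‖σ c * P.z + σ d‖ + ‖σ c * P.z‖ := norm_sub_le _ _
      _ ≤ 1 + 1 / P.y * ‖P.z‖ := by
        rw [norm_mul]
        gcongr
  have hne : s.Nonempty := ⟨((1 : GL (Fin 2) O) 1 0, (1 : GL (Fin 2) O) 1 1), 1, rfl, by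
    simp [f]⟩
  obtain ⟨p, ⟨g₀, rfl, hg₀⟩, hmin⟩ := Set.exists_min_image s f hfin hne
  refine ⟨g₀, fun g => ?_⟩
  rw [y_gl_smul h, y_gl_smul h]
  refine div_le_div_of_nonneg_left hy.le (H3.den_pos _ _) ?_
  rw [← hf, ← hf]
  by_cases h1 : f (g 1 0, g 1 1) ≤ 1
  · exact hmin _ ⟨g, rfl, h1⟩
  · exact hg₀.trans (not_le.mp h1).le

/-- **Reduction theory.** -/
theorem exists_reduce (h : EisEmb σ) (P : H3) :
    ∃ g : GL (Fin 2) O, ‖(gl σ g • P).z‖ ^ 2 ≤ 3 / 4 ∧ 1 / 2 ≤ (gl σ g • P).y := by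
  obtain ⟨g₀, hmax⟩ := exists_max_height h P
  obtain ⟨x, hx⟩ := h.cov (gl σ g₀ • P).z
  set Q := gl σ (nO (-x) * g₀) • P with hQ
  have hQ1 : Q = H3.ut 1 (σ (-x)) 1 one_ne_zero one_ne_zero • gl σ g₀ • P := by
    rw [hQ, map_mul, mul_smul, gl_nO]
  have hQz : Q.z = (gl σ g₀ • P).z - σ x := by
    rw [hQ1, H3.z_ut_smul]
    simp [sub_eq_add_neg]
  have hQy : Q.y = (gl σ g₀ • P).y := by
    rw [hQ1, H3.y_ut_smul]
    simp
  refine ⟨nO (-x) * g₀, ?_, ?_⟩
  · rw [← hQ, hQz]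
    exact hx
  · rw [← hQ]
    have h1 := hmax (wO * (nO (-x) * g₀))
    rw [map_mul, mul_smul, ← hQ, gl_wO, H3.y_wl_smul, ← hQy] at h1
    have hy := Q.y_pos
    have h2 : 0 < normSq Q.z + Q.y ^ 2 := by
      have := normSq_nonneg Q.z
      positivity
    rw [div_le_iff₀ h2] at h1
    have h3 : 1 ≤ normSq Q.z + Q.y ^ 2 := by
      by_contra hlt
      rw [not_le] at hlt
      nlinarith
    rw [normSq_eq_norm_sq, hQz] at h3
    nlinarith

end Fermat.Agent.LT.Theta31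

end
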