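import Fermat.Agent.LT.H3.Measure
import Fermat.Agent.LT.Unfold
import Fermat.Agent.LT.Theta31.Reduce

/-!
# Existence of weights on hyperbolic 3-space

* `exists_isWeight_of_cover` : a measurable covering set with finite multiplicity gives a weight.
* `isWeight_map_iff` : weights of the image of a subgroup under an injective homomorphism.
* `exists_weight` : weights for all subgroups of `GL₂(O)`, `O` the Eisenstein integers.
-/

set_option autoImplicit false

noncomputable section

open MeasureTheory ENNReal Matrix Complex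

namespace Fermat.Agent.LT

section Abstract

variable {G Z : Type*} [Group G] [MeasurableSpace Z] [MulAction G Z]

/-- A measurable covering set of finite multiplicity gives a weight. -/
theorem exists_isWeight_of_cover [Countable G] [MeasurableConstSMul G Z] {S : Set Z}
    (hS : MeasurableSet S) (hcov : ∀ z, ∃ g : G, g • z ∈ S)
    (hfin : ∀ z, {g : G | g • z ∈ S}.Finite) :
    ∃ w : Z → ℝ≥0∞, IsWeight G w ∧ ∀ z, w z ≤ S.indicator 1 z := by
  let n : Z → ℝ≥0∞ := fun z => ∑' g : G, S.indicator 1 (g • z)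
  have hind : Measurable (S.indicator (1 : Z → ℝ≥0∞)) := measurable_one.indicator hS
  have hn : Measurable n := Measurable.tsum fun g => hind.comp (measurable_const_smul g)
  have hninv : ∀ (g : G) z, n (g • z) = n z := by
    intro g z
    show ∑' g' : G, S.indicator 1 (g' • g • z) = ∑' g' : G, S.indicator 1 (g' • z)
    rw [← (Equiv.mulRight g).tsum_eq (fun g' => S.indicator (1 : Z → ℝ≥0∞) (g' • z))]
    refine tsum_congr fun g' => ?_
    rw [Equiv.coe_mulRight, mul_smul]
  have h1 : ∀ z, 1 ≤ n z := by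
    intro z
    obtain ⟨g, hg⟩ := hcov z
    calc (1 : ℝ≥0∞) = S.indicator 1 (g • z) := by rw [Set.indicator_of_mem hg]; rfl
      _ ≤ n z := ENNReal.le_tsum g
  have h2 : ∀ z, n z ≠ ∞ := by
    intro z
    have h3 : n z = ∑ g ∈ (hfin z).toFinset, S.indicator (1 : Z → ℝ≥0∞) (g • z) := by
      refine tsum_eq_sum fun g hg => ?_
      rw [Set.Finite.mem_toFinset] at hg
      exact Set.indicator_of_notMem (f := (1 : Z → ℝ≥0∞)) (show g • z ∉ S from hg)
    rw [h3]
    refine ENNReal.sum_ne_top.mpr fun g _ => ?_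
    by_cases hg : g • z ∈ S
    · rw [Set.indicator_of_mem hg]
      exact one_ne_top
    · rw [Set.indicator_of_notMem hg]
      exact zero_ne_top
  have h3 : ∀ z, n z ≠ 0 := fun z => (zero_lt_one.trans_le (h1 z)).ne'
  refine ⟨fun z => S.indicator 1 z * (n z)⁻¹, ⟨hind.mul hn.inv, fun z => ?_⟩, fun z => ?_⟩
  · simp only [hninv]
    rw [ENNReal.tsum_mul_right]
    exact ENNReal.mul_inv_cancel (h3 z) (h2 z)
  · calc S.indicator 1 z * (n z)⁻¹ ≤ S.indicator 1 z * 1 :=
          mul_le_mul_right (ENNReal.inv_le_one.mpr (h1 z)) _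
      _ = S.indicator 1 z := mul_one _

/-- Weights of the image of a subgroup. -/
theorem isWeight_map_iff {H : Type*} [Group H] {φ : H →* G} (hφ : Function.Injective φ)
    (K : Subgroup H) {w : Z → ℝ≥0∞} :
    IsWeight (K.map φ) w ↔ Measurable w ∧ ∀ z, ∑' k : K, w (φ k • z) = 1 := by
  have h1 : ∀ z, ∑' g : K.map φ, w (g • z) = ∑' k : K, w (φ k • z) := by
    intro z
    rw [← (K.equivMapOfInjective φ hφ).toEquiv.tsum_eq]
    rfl
  exact ⟨fun h => ⟨h.meas, fun z => by rw [← h1, h.sum_eq]⟩,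
    fun h => ⟨h.1, fun z => by rw [h1, h.2]⟩⟩

end Abstract

namespace Theta31

variable {O : Type*} [CommRing O] {σ : O →+* ℂ}

/-- The covering set. -/
def siegK : Set H3 := {P | ‖P.z‖ ≤ 1 ∧ 1 / 2 ≤ P.y}

lemma measurableSet_siegK : MeasurableSet siegK :=
  (measurableSet_le (H3.measurable_z.norm) measurable_const).inter
    (measurableSet_le measurable_const H3.measurable_y)

lemma exists_siegK (h : EisEmb σ) (P : H3) : ∃ g : GL (Fin 2) O, gl σ g • P ∈ siegK := by
  obtain ⟨g, h1, h2⟩ := exists_reduce h P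
  refine ⟨g, ?_, h2⟩
  nlinarith [norm_nonneg (gl σ g • P).z]

/-- finiteness of rows -/
lemma finite_rows (h : EisEmb σ) (P : H3) (R : ℝ) :
    {r : O × O | normSq (σ r.1 * P.z + σ r.2) + normSq (σ r.1) * P.y ^ 2 ≤ R}.Finite := by
  have hy := P.y_pos
  refine ((h.fin (Real.sqrt R / P.y)).prod
    (h.fin (Real.sqrt R + Real.sqrt R / P.y * ‖P.z‖))).subset ?_
  rintro ⟨c, d⟩ hcd
  simp only [Set.mem_ofPred_eq] at hcd
  have h1 : normSq (σ c) * P.y ^ 2 ≤ R := by
    have := normSq_nonneg (σ c * P.z + σ d)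
    linarith
  have h2 : normSq (σ c * P.z + σ d) ≤ R := by
    have := mul_nonneg (normSq_nonneg (σ c)) (sq_nonneg P.y)
    linarith
  rw [normSq_eq_norm_sq] at h1 h2
  have h3 : ‖σ c‖ ≤ Real.sqrt R / P.y := by
    rw [le_div_iff₀ hy]
    refine Real.le_sqrt_of_sq_le ?_
    rw [mul_pow]
    exact h1
  refine ⟨h3, ?_⟩
  have h4 : ‖σ c * P.z + σ d‖ ≤ Real.sqrt R := Real.le_sqrt_of_sq_le h2
  calc ‖σ d‖ = ‖(σ c * P.z + σ d) - σ c * P.z‖ := by rw [add_sub_cancel_left]
    _ ≤ ‖σ c * P.z + σ d‖ + ‖σ c * P.z‖ := norm_sub_le _ _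
    _ ≤ Real.sqrt R + Real.sqrt R / P.y * ‖P.z‖ := by
      rw [norm_mul]
      gcongr

/-- finite multiplicity -/
lemma finite_siegK (h : EisEmb σ) (P : H3) : {g : GL (Fin 2) O | gl σ g • P ∈ siegK}.Finite := by
  have hy := P.y_pos
  obtain ⟨g₀, hmax⟩ := exists_max_height h P
  set Y := (gl σ g₀ • P).y with hY
  have h1 := finite_rows h P (2 * P.y)
  have h2 := finite_rows h P (2 * P.y + P.y * Y)
  refine Set.Finite.of_finite_image (f := fun g : GL (Fin 2) O =>
    (((g 0 0, g 0 1) : O × O), ((g 1 0, g 1 1) : O × O))) ((h2.prod h1).subset ?_) ?_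
  · rintro _ ⟨g, ⟨hg1, hg2⟩, rfl⟩
    have hden : normSq (σ (g 1 0) * P.z + σ (g 1 1)) + normSq (σ (g 1 0)) * P.y ^ 2 =
        H3.den (gl σ g) P := rfl
    have hdp := H3.den_pos (gl σ g) P
    have hyg := y_gl_smul h g P
    have h3 : H3.den (gl σ g) P ≤ 2 * P.y := by
      rw [hyg, div_le_div_iff₀ two_pos hdp] at hg2
      linarith
    refine ⟨?_, ?_⟩
    · show normSq (σ (g 0 0) * P.z + σ (g 0 1)) + normSq (σ (g 0 0)) * P.y ^ 2 ≤
        2 * P.y + P.y * Y
      have h4 := H3.normSq_num (gl σ g) P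
      rw [adet_gl h, one_mul] at h4
      have h5 : ‖H3.num (gl σ g) P‖ ≤ H3.den (gl σ g) P := by
        rw [H3.z_smul, norm_div, Complex.norm_real, Real.norm_of_nonneg hdp.le,
          div_le_one hdp] at hg1
        exact hg1
      have h6 : normSq (H3.num (gl σ g) P) ≤ H3.den (gl σ g) P ^ 2 := by
        rw [normSq_eq_norm_sq]
        gcongr
      have h7 : P.y ≤ H3.den (gl σ g) P * Y := by
        have := hmax g
        rwa [hyg, div_le_iff₀ hdp, mul_comm] at this
      have h8 : H3.den (gl σ g) P * (normSq (σ (g 0 0) * P.z + σ (g 0 1)) +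
          normSq (σ (g 0 0)) * P.y ^ 2) ≤ H3.den (gl σ g) P * (2 * P.y + P.y * Y) := by
        calc _ = normSq (H3.num (gl σ g) P) + P.y ^ 2 := h4.symm
          _ ≤ H3.den (gl σ g) P ^ 2 + P.y * (H3.den (gl σ g) P * Y) := by
            refine add_le_add h6 ?_
            rw [pow_two]
            exact mul_le_mul_of_nonneg_left h7 hy.le
          _ ≤ H3.den (gl σ g) P * (2 * P.y) + P.y * (H3.den (gl σ g) P * Y) := by
            rw [pow_two]
            gcongr
          _ = _ := by ring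
      exact le_of_mul_le_mul_left h8 hdp
    · show normSq (σ (g 1 0) * P.z + σ (g 1 1)) + normSq (σ (g 1 0)) * P.y ^ 2 ≤ 2 * P.y
      rw [hden]
      exact h3
  · intro g _ g' _ hgg
    simp only [Prod.mk.injEq] at hgg
    obtain ⟨⟨h00, h01⟩, h10, h11⟩ := hgg
    apply Units.ext
    ext i j
    fin_cases i <;> fin_cases j <;> assumption

/-- **Weights exist for all subgroups of `GL₂(O)`.** -/
theorem exists_weight (h : EisEmb σ) (G : Subgroup (GL (Fin 2) O)) :
    ∃ w : H3 → ℝ≥0∞, Measurable w ∧ ∀ P, ∑' g : G, w (gl σ g • P) = 1 := by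
  let _ : MulAction (GL (Fin 2) O) H3 := MulAction.compHom H3 (gl σ)
  have hsm : ∀ (g : GL (Fin 2) O) (P : H3), g • P = gl σ g • P := fun _ _ => rfl
  have : Countable O := by
    have h1 : (⋃ n : ℕ, {x : O | ‖σ x‖ ≤ n}) = Set.univ := by
      ext x
      simp only [Set.mem_iUnion, Set.mem_ofPred_eq, Set.mem_univ, iff_true]
      exact exists_nat_ge _
    rw [← Set.countable_univ_iff, ← h1]
    exact Set.countable_iUnion fun n => (h.fin n).countable
  have : Countable (GL (Fin 2) O) := by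
    have h1 : Countable (Fin 2 → Fin 2 → O) := inferInstance
    have h2 : Countable (Matrix (Fin 2) (Fin 2) O) := h1
    exact Function.Injective.countable
      (f := fun g : GL (Fin 2) O => (g : Matrix (Fin 2) (Fin 2) O)) Units.val_injective
  have : MeasurableConstSMul (GL (Fin 2) O) H3 :=
    ⟨fun g => (measurable_const_smul (gl σ g) : Measurable fun P : H3 => gl σ g • P)⟩
  obtain ⟨w, hw, -⟩ := exists_isWeight_of_cover (G := GL (Fin 2) O) measurableSet_siegK
    (exists_siegK h) (finite_siegK h)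
  have h3 := hw.sub G
  exact ⟨_, h3.meas, h3.sum_eq⟩

/-- The same for subgroups of `GL₂(ℂ)`. -/
theorem exists_isWeight_map (h : EisEmb σ) (G : Subgroup (GL (Fin 2) O)) :
    ∃ w : H3 → ℝ≥0∞, IsWeight (G.map (gl σ)) w := by
  have hinj : Function.Injective (gl σ) := by
    intro g g' hgg
    apply Units.ext
    ext i j
    have := congrArg (fun m : GL (Fin 2) ℂ => m i j) hgg
    exact h.inj this
  obtain ⟨w, hw⟩ := exists_weight h G
  exact ⟨w, (isWeight_map_iff hinj G).mpr hw⟩

end Theta31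

end Fermat.Agent.LT
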