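import Fermat.Agent.LT.Theta31.Conv
import Fermat.Agent.LT.Theta31.WeightEx
import Fermat.Agent.LT.Theta31.KernR
import Fermat.Agent.LT.Theta31.PosCoeff
import Fermat.Agent.LT.Theta31.AbelGauss

/-!
# The negative terms of the theta integral
-/

set_option autoImplicit false

noncomputable section

open Matrix Complex MeasureTheory ENNReal
open scoped ComplexConjugate

namespace Fermat.Agent.LT.Theta31

/-- **Normal form of negative vectors.** -/
theorem exists_point_neg {a d : ℝ} {b : ℂ} (hq : qR a b d < 0) :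
    ∃ Q : H3, ∀ P : H3, tR a b d P ^ 2 = -qR a b d * H3.cu Q P ^ 2 := by
  set m := -qR a b d with hm
  have hm0 : 0 < m := by linarith
  have hd : d ≠ 0 := by
    rintro rfl
    rw [hm, qR, mul_zero, sub_zero] at hm0
    linarith [normSq_nonneg b]
  have hy : 0 < √m / |d| := div_pos (Real.sqrt_pos.mpr hm0) (abs_pos.mpr hd)
  refine ⟨H3.mk (b / d) (√m / |d|) hy, fun P => ?_⟩
  set Q := H3.mk (b / d) (√m / |d|) hy with hQ
  have hQy : Q.y = √m / |d| := rfl
  have hQz : Q.z = b / d := rfl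
  set r : ℝ := d * Q.y with hr
  have hr2 : r ^ 2 = m := by
    rw [hr, hQy, mul_pow, div_pow, sq_abs, Real.sq_sqrt hm0.le]
    field_simp
  have hdC : (d : ℂ) ≠ 0 := ofReal_ne_zero.mpr hd
  have hQne := Q.y_ne
  have hQneC : (Q.y : ℂ) ≠ 0 := ofReal_ne_zero.mpr hQne
  have h1 := tR_herm P Q
  have h2 := kR_smul_vec r ((normSq Q.z + Q.y ^ 2) / Q.y) (Q.z / Q.y) (1 / Q.y) P
  have e3 : r * (1 / Q.y) = d := by
    rw [hr]
    field_simp
  have e2 : (r : ℂ) * (Q.z / Q.y) = b := by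
    rw [hr, hQz]
    push_cast
    field_simp
  have e1 : r * ((normSq Q.z + Q.y ^ 2) / Q.y) = a := by
    have h3 : normSq Q.z = normSq b / d ^ 2 := by
      rw [hQz, normSq_div, normSq_ofReal]
      ring
    have h4 : Q.y ^ 2 = m / d ^ 2 := by
      rw [hQy, div_pow, sq_abs, Real.sq_sqrt hm0.le]
    have h5 : r * ((normSq Q.z + Q.y ^ 2) / Q.y) = d * (normSq Q.z + Q.y ^ 2) := by
      rw [hr]
      field_simp
    rw [h5, h3, h4, hm, qR]
    field_simp
    ring
  rw [e1, e2, e3, h1] at h2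
  rw [h2, mul_pow, hr2]

variable {O : Type*} [CommRing O] {σ : O →+* ℂ}

lemma finite_fix (h : EisEmb σ) (Q : H3) : {g : GL (Fin 2) O | gl σ g • Q = Q}.Finite := by
  obtain ⟨g₀, hg₀⟩ := exists_siegK h Q
  refine Set.Finite.of_finite_image (f := fun g => g₀ * g)
    ((finite_siegK h Q).subset ?_) (mul_right_injective g₀).injOn
  rintro _ ⟨g, hg, rfl⟩
  have hg' : gl σ g • Q = Q := hg
  show gl σ (g₀ * g) • Q ∈ siegK
  rw [map_mul, mul_smul, hg']
  exact hg₀

variable [StarRing O] (D : NTData O)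

lemma exists_point (hσ : ∀ x, σ (star x) = conj (σ x)) {X : ℤ × O × ℤ} (hX : D.q X < 0) :
    ∃ Q : H3, ∀ P : H3, lin σ X P ^ 2 = -(D.q X : ℝ) * H3.cu Q P ^ 2 := by
  have h1 : qR X.1 (σ X.2.1) X.2.2 < 0 := by
    rw [← D.q_eq_qR hσ]
    exact_mod_cast hX
  obtain ⟨Q, hQ⟩ := exists_point_neg h1
  refine ⟨Q, fun P => ?_⟩
  rw [lin_eq_tR, hQ, D.q_eq_qR hσ]

/-- the stabiliser of a negative vector is finite -/
lemma finite_stab_neg (hσ : ∀ x, σ (star x) = conj (σ x)) (h : EisEmb σ)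
    (G : Subgroup (GL (Fin 2) O)) {X : ℤ × O × ℤ} (hX : D.q X < 0) :
    letI := hermAct D hσ h.inj; Finite (MulAction.stabilizer G X) := by
  let _ := hermAct D hσ h.inj
  obtain ⟨Q, hQ⟩ := exists_point D hσ hX
  have h1 := finite_fix h Q
  have h2 : ∀ g : MulAction.stabilizer G X, gl σ ((g : G) : GL (Fin 2) O) • Q = Q := by
    intro g
    have h3 : D.actM (((g : G) : GL (Fin 2) O) : Matrix (Fin 2) (Fin 2) O) X = X := g.2
    have h4 := lin_actM_gl D hσ h ((g : G) : GL (Fin 2) O) X Q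
    rw [h3] at h4
    have h5 := hQ (gl σ ((g : G) : GL (Fin 2) O) • Q)
    rw [h4, hQ Q, H3.cu_self] at h5
    have hq : -(D.q X : ℝ) ≠ 0 := by
      have : (D.q X : ℝ) < 0 := by exact_mod_cast hX
      linarith
    have h6 := mul_left_cancel₀ hq h5
    have h7 := H3.cu_pos Q (gl σ ((g : G) : GL (Fin 2) O) • Q)
    have h8 : H3.cu Q (gl σ ((g : G) : GL (Fin 2) O) • Q) = 1 := by nlinarith
    exact (H3.cu_eq_one_iff.mp h8).symm
  have := h1.to_subtype
  refine Finite.of_injective (fun g : MulAction.stabilizer G X =>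
    (⟨((g : G) : GL (Fin 2) O), h2 g⟩ : {g : GL (Fin 2) O | gl σ g • Q = Q})) ?_
  intro g g' hgg
  have h3 := congrArg (Subtype.val : {g : GL (Fin 2) O | gl σ g • Q = Q} → GL (Fin 2) O) hgg
  exact Subtype.ext (Subtype.ext h3)

/-- **The negative terms.** -/
theorem integral_negative (hσ : ∀ x, σ (star x) = conj (σ x)) (h : EisEmb σ)
    {G : Subgroup (GL (Fin 2) O)} {F : H3 → ℂ} (hF : RadEig F) (hFm : Measurable F) {B : ℝ}
    (hB : ∀ P, ‖F P‖ ≤ B) (hFi : ∀ g ∈ G, ∀ P, F (gl σ g • P) = F P)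
    {X : ℤ × O × ℤ} (hX : D.q X < 0) {wX : H3 → ℝ≥0∞}
    (hw : letI := h3Act σ; letI := hermAct D hσ h.inj; IsWeight (MulAction.stabilizer G X) wX) :
    ∃ A : ℂ, ∀ κ : ℝ, 0 < κ → ∫ P, (Real.exp (-κ * lin σ X P ^ 2) : ℂ) * F P
      ∂volume.withDensity wX = A * (jFun (κ * -(D.q X : ℝ)) : ℂ) := by
  let _ := h3Act σ
  let _ := hermAct D hσ h.inj
  have _ := h.countable
  have : Countable (GL (Fin 2) O) := countable_gl
  have : MeasurableConstSMul (GL (Fin 2) O) H3 :=
    ⟨fun g => (measurable_const_smul (gl σ g) : Measurable fun P : H3 => gl σ g • P)⟩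
  have : SMulInvariantMeasure (GL (Fin 2) O) H3 volume :=
    ⟨fun g s hs => measure_preimage_smul_of_nullMeasurableSet hs.nullMeasurableSet (gl σ g)⟩
  have hfin : Finite (MulAction.stabilizer G X) := finite_stab_neg D hσ h G hX
  obtain ⟨Q, hQ⟩ := exists_point D hσ hX
  have hw₁ := isWeight_const (G := MulAction.stabilizer G X) (Z := H3)
  refine ⟨((Nat.card (MulAction.stabilizer G X) : ℝ≥0∞)⁻¹).toReal * (4 * Real.pi) * F Q,
    fun κ hκ => ?_⟩
  have hm : 0 < -(D.q X : ℝ) := by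
    have : (D.q X : ℝ) < 0 := by exact_mod_cast hX
    linarith
  have hlm : Measurable fun P : H3 => (Real.exp (-κ * lin σ X P ^ 2) : ℂ) := by
    have := continuous_lin (σ := σ) X
    refine Continuous.measurable ?_
    fun_prop
  have hfm : Measurable fun P => (Real.exp (-κ * lin σ X P ^ 2) : ℂ) * F P := hlm.mul hFm
  have hfi : ∀ (g : MulAction.stabilizer G X) P,
      (Real.exp (-κ * lin σ X (g • P) ^ 2) : ℂ) * F (g • P) =
        (Real.exp (-κ * lin σ X P ^ 2) : ℂ) * F P := by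
    intro g P
    have h1 : g • P = gl σ ((g : G) : GL (Fin 2) O) • P := rfl
    have h2 : lin σ X (gl σ ((g : G) : GL (Fin 2) O) • P) = lin σ X P := by
      have h3 : D.actM (((g : G) : GL (Fin 2) O) : Matrix (Fin 2) (Fin 2) O) X = X := g.2
      nth_rewrite 1 [← h3]
      exact lin_actM_gl D hσ h _ X P
    rw [h1, h2, hFi _ (g : G).2]
  rw [hw.integral_eq (μ := volume) hw₁ hfm hfi, withDensity_const, integral_smul_measure]
  have h1 : ∀ P, (Real.exp (-κ * lin σ X P ^ 2) : ℂ) * F P =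
      (((fun u : ℝ => Real.exp (-(κ * -(D.q X : ℝ)) * u ^ 2)) (H3.cu Q P) : ℝ) : ℂ) * F P := by
    intro P
    rw [hQ]
    congr 3
    ring
  have hκm : 0 < κ * -(D.q X : ℝ) := mul_pos hκ hm
  simp only [h1]
  rw [hF.of_decay hFm hB (k := fun u : ℝ => Real.exp (-(κ * -(D.q X : ℝ)) * u ^ 2))
    (by fun_prop) (C := 2 / (κ * -(D.q X : ℝ)) ^ 2) (by positivity) ?_ Q,
    integral_abel_gauss hκm, real_smul]
  · push_cast
    ring
  · intro u hu
    have h2 := pow_mul_exp_le hκm 2 u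
    have h3 : ((2 : ℕ).factorial : ℝ) = 2 := by norm_num [Nat.factorial]
    rw [h3] at h2
    rw [abs_of_pos (Real.exp_pos _), le_div_iff₀ (by positivity), mul_comm]
    exact h2

end Fermat.Agent.LT.Theta31

end
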