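import Fermat.Agent.LT.Theta31.Conv
import Fermat.Agent.LT.Theta31.WeightEx

/-!
# Finiteness of the integrals over `Stab(X) \ H3`
-/

set_option autoImplicit false

noncomputable section

open Matrix Complex MeasureTheory ENNReal MulAction
open scoped ComplexConjugate

namespace Fermat.Agent.LT.Theta31

section Abstract

variable {G Z Δ : Type*} [Group G] [MeasurableSpace Z] [MulAction G Z] [MulAction G Δ]

/-- representatives of the orbits, one of them prescribed -/
theorem exists_reps (X : Δ) : ∃ (r : Quotient (orbitRel G Δ) → Δ),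
    r (Quotient.mk _ X) = X ∧ (∀ d, ∃ i, ∃ g : G, g • d = r i) ∧
      ∀ i j, (∃ g : G, g • r i = r j) → i = j := by
  classical
  let r : Quotient (orbitRel G Δ) → Δ := fun o => if o = Quotient.mk _ X then X else o.out
  have hmk : ∀ o, (Quotient.mk _ (r o) : Quotient (orbitRel G Δ)) = o := by
    intro o
    by_cases ho : o = Quotient.mk _ X
    · simp only [r, if_pos ho]
      exact ho.symm
    · simp only [r, if_neg ho]
      exact Quotient.out_eq o
  refine ⟨r, if_pos rfl, fun d => ?_, fun i j hij => ?_⟩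
  · refine ⟨Quotient.mk _ d, ?_⟩
    have h1 := hmk (Quotient.mk _ d)
    have h2 : (orbitRel G Δ) (r (Quotient.mk _ d)) d := Quotient.exact h1
    exact h2
  · obtain ⟨g, hg⟩ := hij
    rw [← hmk i, ← hmk j]
    refine (Quotient.sound ?_).symm
    exact ⟨g, hg⟩

variable [Countable G] [MeasurableConstSMul G Z] [Countable Δ] {w : Z → ℝ≥0∞}
  {μ : Measure Z} [SMulInvariantMeasure G Z μ]

/-- The contribution of one orbit is bounded by the sum over all orbits. -/
theorem lintegral_stab_le (h : IsWeight G w) {X : Δ} {wX : Z → ℝ≥0∞}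
    (hX : IsWeight (stabilizer G X) wX) {F : Δ → Z → ℝ≥0∞}
    (hF : ∀ d, Measurable (F d)) (hinv : ∀ (g : G) d z, F (g • d) (g • z) = F d z) :
    ∫⁻ z, F X z ∂μ.withDensity wX ≤ ∫⁻ z, ∑' d, F d z ∂μ.withDensity w := by
  obtain ⟨r, hrX, hr, hr'⟩ := exists_reps (G := G) X
  rw [lunfold_reps h hr hr' (wo := fun i z => ∑' s : G ⧸ stabilizer G (r i), w (s.out • z))
    (fun i => h.sub _) hF hinv]
  refine le_trans (le_of_eq ?_) (ENNReal.le_tsum (Quotient.mk _ X))
  have key : ∀ Y : Δ, r (Quotient.mk _ X) = Y → ∀ wY : Z → ℝ≥0∞, IsWeight (stabilizer G Y) wY →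
      ∫⁻ z, F Y z ∂μ.withDensity wY = ∫⁻ z, F (r (Quotient.mk _ X)) z ∂μ.withDensity fun z =>
        ∑' s : G ⧸ stabilizer G (r (Quotient.mk _ X)), w (s.out • z) := by
    rintro Y rfl wY hY
    refine hY.lintegral_eq (h.sub _) (hF _) ?_
    intro g z
    have h1 := hinv (g : G) (r (Quotient.mk _ X)) z
    have h2 : (g : G) • r (Quotient.mk _ X) = r (Quotient.mk _ X) := g.2
    rw [h2] at h1
    exact h1
  exact key X hrX wX hX

end Abstract

variable {O : Type*} [CommRing O] {σ : O →+* ℂ} [StarRing O] (D : NTData O)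

/-- **Finiteness of the Gaussian integrals over `Stab(X) \ H3`.** -/
theorem lintegral_stab_ne_top (hσ : ∀ x, σ (star x) = conj (σ x)) (h : EisEmb σ)
    {G : Subgroup (GL (Fin 2) O)} [G.FiniteIndex] {κ : ℝ} (hκ : 0 < κ) (X : ℤ × O × ℤ)
    {wX : H3 → ℝ≥0∞}
    (hw : letI := h3Act σ; letI := hermAct D hσ h.inj; IsWeight (stabilizer G X) wX) :
    ∫⁻ P, ENNReal.ofReal (Real.exp (-κ * lin σ X P ^ 2)) ∂volume.withDensity wX ≠ ∞ := by
  let _ := h3Act σ
  let _ := hermAct D hσ h.inj
  have _ := h.countable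
  have : Countable (GL (Fin 2) O) := countable_gl
  have : MeasurableConstSMul (GL (Fin 2) O) H3 :=
    ⟨fun g => (measurable_const_smul (gl σ g) : Measurable fun P : H3 => gl σ g • P)⟩
  have : SMulInvariantMeasure (GL (Fin 2) O) H3 volume :=
    ⟨fun g s hs => measure_preimage_smul_of_nullMeasurableSet hs.nullMeasurableSet (gl σ g)⟩
  obtain ⟨w, hwm, hw1⟩ := exists_weight h G
  have hwG : IsWeight G w := ⟨hwm, hw1⟩
  have h1 := lintegral_thAbs_ne_top D hσ h (G := G) (w := w) (show IsW σ G w from hwG)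
    (half_pos hκ)
  have h2 := lintegral_stab_le (μ := volume) hwG hw
    (F := fun Y P => ENNReal.ofReal (Real.exp (-(κ / 2 * (D.q Y + 2 * lin σ Y P ^ 2)))))
    (fun Y => by
      have := (continuous_lin (σ := σ) Y)
      refine ENNReal.measurable_ofReal.comp (Continuous.measurable ?_)
      fun_prop)
    (fun g Y P => by
      have h3 : g • Y = D.actM ((g : GL (Fin 2) O) : Matrix (Fin 2) (Fin 2) O) Y := rfl
      have h4 : g • P = gl σ (g : GL (Fin 2) O) • P := rfl
      simp only [h3, h4]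
      rw [q_actM_gl D hσ h, lin_actM_gl D hσ h])
  have h3 := ne_top_of_le_ne_top h1 h2
  have h4 : ∀ P, ENNReal.ofReal (Real.exp (-(κ / 2 * (D.q X + 2 * lin σ X P ^ 2)))) =
      ENNReal.ofReal (Real.exp (-(κ / 2 * D.q X))) *
        ENNReal.ofReal (Real.exp (-κ * lin σ X P ^ 2)) := by
    intro P
    rw [← ENNReal.ofReal_mul (Real.exp_pos _).le, ← Real.exp_add]
    congr 2
    ring
  simp only [h4] at h3
  rw [lintegral_const_mul' _ _ ENNReal.ofReal_ne_top] at h3
  intro h5
  rw [h5, ENNReal.mul_top] at h3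
  · exact h3 rfl
  · simp only [ne_eq, ENNReal.ofReal_eq_zero, not_le]
    exact Real.exp_pos _

end Fermat.Agent.LT.Theta31

end
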