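import Fermat.Agent.LT.Theta31.PosCoeff

/-!
# The term `X = 0` of the theta lift

A bounded `G`-invariant eigenfunction of the radial kernels with the eigenvalue at `ν = 0` has
integral zero over `G \ H3` (of finite volume): the constant function has the eigenvalue at `ν = 1`,
and the two eigenvalues are different for the kernel `kk 1`.
-/

set_option autoImplicit false

open MeasureTheory Set Filter Topology
open scoped ENNReal

noncomputable section

namespace Fermat.Agent.LT.Theta31

open H3

lemma tau_j : tau j = 0 := by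
  rw [tau, z_j, Complex.zero_im, zero_div]

lemma sg_j : sg j = 0 := by
  rw [sg, tau_j, Real.arsinh_zero]

/-- The mass of a radial kernel. -/
lemma integral_kk_cu (Q : H3) : ∫ P : H3, kk 1 (cu Q P) =
    ∫ t : ℝ, Real.cosh t * (Real.cosh t * Real.exp (-1 * Real.sinh t ^ 2)) := by
  obtain ⟨C, hC0, hC⟩ := abs_kk_le one_pos
  have h1 := integral_smul_eq (fun P : H3 => kk 1 (cu Q P)) (toGL Q)
  rw [← h1]
  have h2 : ∀ P : H3, cu Q (toGL Q • P) = cu j P := by
    intro P
    conv_lhs => rw [← toGL_smul_j Q]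
    rw [toGL_smul_j, ← cu_smul (toGL Q) j P, toGL_smul_j]
  simp only [h2]
  have h3 := integral_sg (continuous_kk 1).measurable hC0 hC (φ := fun _ => 1) measurable_const
    (B := 1) (fun _ => by simp) j
  simp only [mul_one] at h3
  rw [h3, sg_j, Real.cosh_zero]
  refine integral_congr_ae (Eventually.of_forall fun t => ?_)
  simp only
  rw [abel_kk one_pos, zero_sub, Real.cosh_neg, Real.sinh_neg, div_one]
  congr 3
  ring

lemma integrable_cosh_gauss_aux :
    Integrable fun t : ℝ => Real.cosh t * Real.exp (-1 * Real.sinh t ^ 2) := by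
  have h1 := (integrable_sinh (fun s : ℝ => Real.exp (-1 * s ^ 2))).mpr
    (integrable_exp_neg_mul_sq one_pos)
  simpa only [smul_eq_mul] using h1

lemma integrable_cosh_sq_gauss_aux :
    Integrable fun t : ℝ => Real.cosh t * (Real.cosh t * Real.exp (-1 * Real.sinh t ^ 2)) := by
  have h0 : Integrable fun s : ℝ => (1 + s ^ 2) * Real.exp (-1 * s ^ 2) := by
    have h1 := integrable_pow_gauss one_pos 0
    have h2 := integrable_pow_gauss one_pos 2
    refine (h1.add h2).congr (Eventually.of_forall fun s => ?_)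
    simp only [Pi.add_apply]
    ring
  have h1 := (integrable_sinh (fun s : ℝ => (1 + s ^ 2) * Real.exp (-1 * s ^ 2))).mpr h0
  refine h1.mono' (by fun_prop) (Eventually.of_forall fun t => ?_)
  have hc := Real.one_le_cosh t
  have hc0 := Real.cosh_pos t
  have hs : 1 + Real.sinh t ^ 2 = Real.cosh t ^ 2 := by rw [Real.cosh_sq]; ring
  rw [Real.norm_of_nonneg (by positivity), smul_eq_mul, hs]
  refine mul_le_mul_of_nonneg_left ?_ hc0.le
  refine mul_le_mul_of_nonneg_right ?_ (Real.exp_pos _).le
  nlinarith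

lemma integral_cosh_sq_gt : √(Real.pi / 1) <
    ∫ t : ℝ, Real.cosh t * (Real.cosh t * Real.exp (-1 * Real.sinh t ^ 2)) := by
  have h1 : ∫ t : ℝ, Real.cosh t * Real.exp (-1 * Real.sinh t ^ 2) = √(Real.pi / 1) := by
    have h2 := integral_sinh (fun s : ℝ => Real.exp (-1 * s ^ 2))
    rw [integral_gaussian] at h2
    simpa only [smul_eq_mul] using h2
  rw [← h1, ← sub_pos, ← integral_sub integrable_cosh_sq_gauss_aux integrable_cosh_gauss_aux]
  refine integral_pos_of_integrable_nonneg_nonzero (x := 1) (by fun_prop)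
    (integrable_cosh_sq_gauss_aux.sub integrable_cosh_gauss_aux) (fun t => ?_) ?_
  · have hc := Real.one_le_cosh t
    have he := Real.exp_pos (-1 * Real.sinh t ^ 2)
    show 0 ≤ Real.cosh t * (Real.cosh t * Real.exp (-1 * Real.sinh t ^ 2)) -
      Real.cosh t * Real.exp (-1 * Real.sinh t ^ 2)
    have h3 : Real.cosh t * (Real.cosh t * Real.exp (-1 * Real.sinh t ^ 2)) -
      Real.cosh t * Real.exp (-1 * Real.sinh t ^ 2) =
      (Real.cosh t - 1) * (Real.cosh t * Real.exp (-1 * Real.sinh t ^ 2)) := by ring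
    rw [h3]
    have hc0 := Real.cosh_pos t
    have := sub_nonneg.mpr hc
    positivity
  · have hc : 1 < Real.cosh 1 := Real.one_lt_cosh.mpr one_ne_zero
    have h3 : Real.cosh 1 * (Real.cosh 1 * Real.exp (-1 * Real.sinh 1 ^ 2)) -
      Real.cosh 1 * Real.exp (-1 * Real.sinh 1 ^ 2) =
      (Real.cosh 1 - 1) * (Real.cosh 1 * Real.exp (-1 * Real.sinh 1 ^ 2)) := by ring
    rw [h3]
    have hc0 := Real.cosh_pos 1
    have := sub_pos.mpr hc
    positivity

/-- **The term `X = 0` vanishes.** -/
theorem integral_zero_term {G : Type*} [Group G] [Countable G] [MulAction G H3]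
    [MeasurableConstSMul G H3] [SMulInvariantMeasure G H3 volume] {w : H3 → ℝ≥0∞}
    (hw : IsWeight G w) (hcu : ∀ (g : G) (P Q : H3), cu (g • P) (g • Q) = cu P Q)
    {F : H3 → ℂ} (hF : RadEig F) (hFm : Measurable F) {B : ℝ} (hB : ∀ P, ‖F P‖ ≤ B)
    (hFinv : ∀ (g : G) P, F (g • P) = F P) (hfin : ∫⁻ P, w P ≠ ∞) :
    ∫ P, F P ∂volume.withDensity w = 0 := by
  obtain ⟨C, hC0, hC⟩ := abs_kk_le one_pos
  let H : H3 → H3 → ℂ := fun P Q => (kk 1 (cu P Q) : ℂ) * F Q
  have hH : Measurable (Function.uncurry H) := by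
    refine Measurable.mul ?_ (hFm.comp measurable_snd)
    exact Complex.measurable_ofReal.comp
      ((continuous_kk 1).measurable.comp continuous_cu.measurable)
  have hinv : ∀ (g : G) P Q, H (g • P) (g • Q) = H P Q := by
    intro g P Q
    simp only [H]
    rw [hcu, hFinv]
  have hK : ∀ P : H3, ∫⁻ Q, ‖kk 1 (cu P Q)‖ₑ ≤ ENNReal.ofReal (4 * Real.pi * C / 3 * Real.pi) :=
    fun P => lintegral_radial_le (continuous_kk 1).measurable hC0 hC P
  have hint : Integrable (Function.uncurry H) ((volume.withDensity w).prod volume) := by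
    refine ⟨hH.aestronglyMeasurable, ?_⟩
    rw [HasFiniteIntegral, lintegral_prod _ hH.enorm.aemeasurable]
    calc ∫⁻ P, ∫⁻ Q, ‖Function.uncurry H (P, Q)‖ₑ ∂volume ∂volume.withDensity w
        ≤ ∫⁻ _ : H3, (ENNReal.ofReal (4 * Real.pi * C / 3 * Real.pi) * ENNReal.ofReal B)
            ∂volume.withDensity w := by
          refine lintegral_mono fun P => ?_
          refine (lintegral_mono (g := fun Q => ‖kk 1 (cu P Q)‖ₑ * ENNReal.ofReal B)
            fun Q => ?_).trans ?_
          · simp only [Function.uncurry_apply_pair, H]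
            rw [enorm_mul, ← ofReal_norm ((kk 1 (cu P Q) : ℝ) : ℂ), Complex.norm_real, ofReal_norm]
            refine mul_le_mul' le_rfl ?_
            rw [← ofReal_norm]
            exact ENNReal.ofReal_le_ofReal (hB Q)
          · rw [lintegral_mul_const' _ _ ENNReal.ofReal_ne_top]
            exact mul_le_mul' (hK P) le_rfl
      _ < ∞ := by
          rw [lintegral_const, withDensity_apply _ MeasurableSet.univ, Measure.restrict_univ]
          exact ENNReal.mul_lt_top (by finiteness) (lt_top_iff_ne_top.mpr hfin)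
  have h1 := swap_weight hw hH hinv hint
  set c : ℝ := ∫ t : ℝ, Real.cosh t * (Real.cosh t * Real.exp (-1 * Real.sinh t ^ 2)) with hc
  have h2 : ∀ P, ∫ Q, H P Q = (√(Real.pi / 1) : ℂ) * F P := by
    intro P
    simp only [H]
    rw [hF.of_decay hFm hB (continuous_kk 1) hC0 hC P, integral_abel_kk one_pos]
  have h3 : ∀ Q, ∫ P, H P Q = (c : ℂ) * F Q := by
    intro Q
    simp only [H]
    rw [integral_mul_const, hc, ← integral_kk_cu Q, ← integral_complex_ofReal]
    congr 1
    refine integral_congr_ae (Eventually.of_forall fun P => ?_)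
    simp only
    rw [cu_comm P Q]
  simp only [h2, h3] at h1
  rw [integral_const_mul, integral_const_mul, ← sub_eq_zero, ← sub_mul, mul_eq_zero] at h1
  refine h1.resolve_left ?_
  have h4 : √(Real.pi / 1) - c ≠ 0 := (sub_neg.mpr integral_cosh_sq_gt).ne
  rw [← Complex.ofReal_sub]
  exact Complex.ofReal_ne_zero.mpr h4

end Fermat.Agent.LT.Theta31
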