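import Fermat.Agent.LT.Theta31.Isotropic
import Fermat.Agent.LT.Theta31.StabFin
import Fermat.Agent.LT.Theta31.Neg
import Fermat.Agent.LT.Theta31.NormalPos
import Fermat.Agent.LT.Theta31.Zero
import Fermat.Agent.LT.Theta31.ShadowExp

/-!
# The expansion of the theta lift
-/

set_option autoImplicit false

noncomputable section

open Matrix Complex MeasureTheory ENNReal MulAction
open scoped ComplexConjugate

namespace Fermat.Agent.LT.Theta31

/-- a sum, split by the sign of an invariant -/
lemma tsum_split {ι : Type*} {f : ι → ℂ} (hf : Summable f) (q : ι → ℤ)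
    (h0 : ∀ i, q i = 0 → f i = 0) :
    ∑' i, f i = ∑' i : {i // 0 < q i}, f i + ∑' i : {i // q i < 0}, f i := by
  have h1 := tsum_subtype {i | 0 < q i} f
  have h2 := tsum_subtype {i | q i < 0} f
  have e1 : ∑' i : {i // 0 < q i}, f i = ∑' i, ({i | 0 < q i} : Set ι).indicator f i := h1
  have e2 : ∑' i : {i // q i < 0}, f i = ∑' i, ({i | q i < 0} : Set ι).indicator f i := h2
  rw [e1, e2, ← (hf.indicator _).tsum_add (hf.indicator _)]
  refine tsum_congr fun i => ?_
  rcases lt_trichotomy (q i) 0 with h | h | h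
  · rw [Set.indicator_of_notMem (show i ∉ {i | 0 < q i} from fun h' => by
        have : 0 < q i := h'
        omega), Set.indicator_of_mem (show i ∈ {i | q i < 0} from h), zero_add]
  · rw [Set.indicator_of_notMem (show i ∉ {i | 0 < q i} from fun h' => by
        have : 0 < q i := h'
        omega), Set.indicator_of_notMem (show i ∉ {i | q i < 0} from fun h' => by
        have : q i < 0 := h'
        omega), h0 i h, zero_add]
  · rw [Set.indicator_of_mem (show i ∈ {i | 0 < q i} from h),
      Set.indicator_of_notMem (show i ∉ {i | q i < 0} from fun h' => by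
        have : q i < 0 := h'
        omega), add_zero]

universe u

variable {O : Type u} [CommRing O] {σ : O →+* ℂ} [StarRing O] (D : NTData O)

/-- The norm of the terms. -/
lemma enorm_term_le {F : H3 → ℂ} {B : ℝ} (hB : ∀ P, ‖F P‖ ≤ B) {c : ℤ × O × ℤ → ℂ} {C : ℝ}
    (hC : ∀ X, ‖c X‖ ≤ C) (z : ℂ) (X : ℤ × O × ℤ) (P : H3) :
    ‖F P * (c X * kern (D.q X) (lin σ X P) z)‖ₑ ≤ ENNReal.ofReal (B * (C * √z.im)) *
      ENNReal.ofReal (Real.exp (-(2 * Real.pi * z.im * (D.q X + 2 * lin σ X P ^ 2)))) := by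
  have hB0 : 0 ≤ B := (norm_nonneg _).trans (hB H3.j)
  have hC0 : 0 ≤ C := (norm_nonneg _).trans (hC X)
  rw [← ofReal_norm, norm_mul, norm_mul, norm_kern, ← ENNReal.ofReal_mul (by positivity)]
  refine ENNReal.ofReal_le_ofReal ?_
  calc ‖F P‖ * (‖c X‖ * (√z.im * Real.exp (-(2 * Real.pi * z.im * (D.q X + 2 * lin σ X P ^ 2)))))
      ≤ B * (C * (√z.im * Real.exp (-(2 * Real.pi * z.im * (D.q X + 2 * lin σ X P ^ 2))))) := by
        gcongr
        · exact hB P
        · exact hC X
    _ = _ := by ring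

/-- The data of the theta integral. -/
structure LiftData (σ : O →+* ℂ) (D : NTData O) (G : Subgroup (GL (Fin 2) O)) (F : H3 → ℂ)
    (c : ℤ × O × ℤ → ℂ) : Prop where
  star_map : ∀ x, σ (star x) = conj (σ x)
  eis : EisEmb σ
  /-- `G` contains a principal congruence subgroup, at the level of the cusp condition -/
  cusp : ∃ (N : ℕ) (s : O), N ≠ 0 ∧ (σ s).im ≠ 0 ∧ (redHom O N).ker ≤ G ∧
    ∀ (g : GL (Fin 2) O) (y : ℝ) (hy : 0 < y), ∫ x in (0 : ℝ)..1, ∫ x' in (0 : ℝ)..1,
      F (gl σ g • H3.mk (N * (x + x' * σ s)) y hy) = 0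
  cont : Continuous F
  bdd : ∃ B : ℝ, ∀ P, ‖F P‖ ≤ B
  eig : RadEig F
  inv : ∀ g ∈ G, ∀ P, F (gl σ g • P) = F P
  c_bdd : ∃ C : ℝ, ∀ X, ‖c X‖ ≤ C
  c_inv : ∀ g ∈ G, ∀ X, c (D.actM (g : Matrix (Fin 2) (Fin 2) O) X) = c X

namespace LiftData

variable {D} {G : Subgroup (GL (Fin 2) O)} {F : H3 → ℂ} {c : ℤ × O × ℤ → ℂ}

lemma finiteIndex (H : LiftData σ D G F c) : G.FiniteIndex := by
  obtain ⟨N, s, hN, -, hG, -⟩ := H.cusp
  have := finiteIndex_ker H.eis hN
  exact Subgroup.finiteIndex_of_le hG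

/-- absolute convergence -/
lemma lintegral_ne_top (H : LiftData σ D G F c) {w : H3 → ℝ≥0∞} (hw : IsW σ G w) {z : ℂ}
    (hz : 0 < z.im) : ∫⁻ P, ∑' X, ‖F P * (c X * kern (D.q X) (lin σ X P) z)‖ₑ
      ∂volume.withDensity w ≠ ∞ := by
  obtain ⟨B, hB⟩ := H.bdd
  obtain ⟨C, hC⟩ := H.c_bdd
  have := H.finiteIndex
  have h1 := lintegral_thAbs_ne_top D H.star_map H.eis hw (κ := 2 * Real.pi * z.im)
    (by positivity)
  refine ne_top_of_le_ne_top (ENNReal.mul_ne_top (ENNReal.ofReal_ne_top
    (r := B * (C * √z.im))) h1) ?_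
  rw [← lintegral_const_mul' _ _ ENNReal.ofReal_ne_top]
  refine lintegral_mono fun P => ?_
  show _ ≤ _ * thAbs σ D _ P
  rw [thAbs, ← ENNReal.tsum_mul_left]
  exact ENNReal.tsum_le_tsum fun X => enorm_term_le D hB hC z X P

lemma measurable_term (H : LiftData σ D G F c) (z : ℂ) (X : ℤ × O × ℤ) :
    Measurable fun P => F P * (c X * kern (D.q X) (lin σ X P) z) := by
  have h1 := continuous_lin (σ := σ) X
  have h2 : Continuous fun P : H3 => kern (D.q X) (lin σ X P) z := by
    unfold kern
    fun_prop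
  exact (H.cont.mul (continuous_const.mul h2)).measurable

lemma term_smul (H : LiftData σ D G F c) (z : ℂ) {g : GL (Fin 2) O} (hg : g ∈ G)
    (X : ℤ × O × ℤ) (P : H3) :
    F (gl σ g • P) * (c (D.actM (g : Matrix (Fin 2) (Fin 2) O) X) *
      kern (D.q (D.actM (g : Matrix (Fin 2) (Fin 2) O) X))
        (lin σ (D.actM (g : Matrix (Fin 2) (Fin 2) O) X) (gl σ g • P)) z) =
      F P * (c X * kern (D.q X) (lin σ X P) z) := by
  rw [H.inv g hg, H.c_inv g hg, q_actM_gl D H.star_map H.eis, lin_actM_gl D H.star_map H.eis]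

/-- **The coefficients at one vector.** -/
theorem exists_coeff [IsDomain O] [IsPrincipalIdealRing O] (H : LiftData σ D G F c)
    (X : ℤ × O × ℤ) {wX : H3 → ℝ≥0∞}
    (hw : letI := h3Act σ; letI := hermAct D H.star_map H.eis.inj;
      IsWeight (stabilizer G X) wX) :
    ∃ A : ℂ, ∀ z : ℂ, 0 < z.im →
      ∫ P, F P * (c X * kern (D.q X) (lin σ X P) z) ∂volume.withDensity wX =
        if 0 < D.q X then A * cexp (2 * Real.pi * I * ((D.q X : ℤ) : ℝ) * z) else
        if D.q X < 0 then A * (gFun (4 * Real.pi * ((-D.q X : ℤ) : ℝ) * z.im) : ℂ) *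
          cexp (-(2 * Real.pi * I * (((-D.q X : ℤ) : ℝ) : ℂ) * z)) else 0 := by
  let _ := h3Act σ
  let _ := hermAct D H.star_map H.eis.inj
  have _ := H.eis.countable
  have : Countable (GL (Fin 2) O) := countable_gl
  have : MeasurableConstSMul (GL (Fin 2) O) H3 :=
    ⟨fun g => (measurable_const_smul (gl σ g) : Measurable fun P : H3 => gl σ g • P)⟩
  have : SMulInvariantMeasure (GL (Fin 2) O) H3 volume :=
    ⟨fun g s hs => measure_preimage_smul_of_nullMeasurableSet hs.nullMeasurableSet (gl σ g)⟩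
  have := H.finiteIndex
  obtain ⟨B, hB⟩ := H.bdd
  -- the integrand
  have hval : ∀ (z : ℂ) (P : H3), F P * (c X * kern (D.q X) (lin σ X P) z) =
      (c X * (√z.im : ℂ) * cexp (2 * Real.pi * I * ((D.q X : ℤ) : ℝ) * z)) *
        ((Real.exp (-(4 * Real.pi * z.im) * lin σ X P ^ 2) : ℂ) * F P) := by
    intro z P
    rw [kern, neg_mul]
    push_cast
    ring
  rcases lt_trichotomy (D.q X) 0 with hq | hq | hq
  · -- negative
    obtain ⟨A, hA⟩ := integral_negative D H.star_map H.eis H.eig H.cont.measurable hB H.inv hq hw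
    have hm : (0 : ℝ) < ((-D.q X : ℤ) : ℝ) := by
      have : 0 < -D.q X := by omega
      exact_mod_cast this
    set m : ℝ := ((-D.q X : ℤ) : ℝ) with hmd
    refine ⟨c X * A / (√(4 * Real.pi * m) : ℂ), fun z hz => ?_⟩
    rw [if_neg (by omega), if_pos hq]
    simp only [hval]
    rw [integral_const_mul, hA _ (by positivity), gFun]
    have e1 : 4 * Real.pi * z.im * -((D.q X : ℤ) : ℝ) = 4 * Real.pi * m * z.im := by
      rw [hmd]
      push_cast
      ring
    have e2 : √(4 * Real.pi * m * z.im) = √(4 * Real.pi * m) * √z.im :=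
      Real.sqrt_mul (by positivity) _
    have e3 : (√(4 * Real.pi * m) : ℂ) ≠ 0 :=
      ofReal_ne_zero.mpr (Real.sqrt_pos.mpr (by positivity)).ne'
    have e4 : (2 * Real.pi * I * ((D.q X : ℤ) : ℝ) * z : ℂ) = -(2 * Real.pi * I * (m : ℂ) * z) := by
      rw [hmd]
      push_cast
      ring
    rw [e1, e2, e4]
    push_cast
    field_simp
  · -- zero
    refine ⟨0, fun z hz => ?_⟩
    rw [if_neg (by omega), if_neg (by omega)]
    simp only [hval]
    rw [integral_const_mul]
    refine mul_eq_zero_of_right _ ?_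
    by_cases hX : X = 0
    · subst hX
      have h1 : ∀ P : H3, (Real.exp (-(4 * Real.pi * z.im) * lin σ (0 : ℤ × O × ℤ) P ^ 2) : ℂ) *
          F P = F P := by
        intro P
        have : lin σ (0 : ℤ × O × ℤ) P = 0 := by simp [lin]
        rw [this]
        simp
      simp only [h1]
      obtain ⟨w, hwm, hw1⟩ := exists_weight H.eis G
      have hwG : IsWeight G w := ⟨hwm, hw1⟩
      have hst : ∀ g : G, g ∈ stabilizer G (0 : ℤ × O × ℤ) := by
        intro g
        show D.actM ((g : GL (Fin 2) O) : Matrix (Fin 2) (Fin 2) O) 0 = 0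
        apply mat_injective H.eis.inj
        rw [D.mat_actM H.star_map]
        have : mat σ (0 : ℤ × O × ℤ) = 0 := by
          ext i j
          fin_cases i <;> fin_cases j <;> simp [mat]
        rw [this]
        simp
      have hw2 : IsWeight (stabilizer G (0 : ℤ × O × ℤ)) w := by
        refine ⟨hwm, fun P => ?_⟩
        rw [← hw1 P]
        let e : G ≃ stabilizer G (0 : ℤ × O × ℤ) :=
          { toFun := fun g => ⟨g, hst g⟩
            invFun := fun g => g.1
            left_inv := fun g => rfl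
            right_inv := fun g => rfl }
        rw [← e.tsum_eq]
        rfl
      rw [hw.integral_eq (μ := volume) hw2 H.cont.measurable fun g P => H.inv _ (g : G).2 P]
      have hf := lintegral_stab_ne_top D H.star_map H.eis (G := G) one_pos 0 hw2
      have hf2 : ∀ P : H3, ENNReal.ofReal (Real.exp (-1 * lin σ (0 : ℤ × O × ℤ) P ^ 2)) = 1 := by
        intro P
        have : lin σ (0 : ℤ × O × ℤ) P = 0 := by simp [lin]
        rw [this]
        simp
      simp only [hf2] at hf
      rw [lintegral_one, withDensity_apply _ MeasurableSet.univ, setLIntegral_univ] at hf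
      exact integral_zero_term hwG (fun g P Q => H3.cu_smul (gl σ (g : GL (Fin 2) O)) P Q) H.eig
        H.cont.measurable hB (fun g P => H.inv _ g.2 P) hf
    · obtain ⟨N, s, hN, hs, hG, hcusp⟩ := H.cusp
      have h1 := integral_isotropic D H.star_map H.eis hN hG H.cont H.inv hs hcusp hX hq
        (k := fun t : ℝ => (Real.exp (-(4 * Real.pi * z.im) * t ^ 2) : ℂ)) (by fun_prop) hw
      rw [← h1]
      simp only [mul_comm]
  · -- positive
    have hqR : 0 < qR X.1 (σ X.2.1) X.2.2 := by
      rw [← D.q_eq_qR H.star_map]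
      exact_mod_cast hq
    have hlin : ∀ (g : stabilizer G X) (P : H3), lin σ X (g • P) = lin σ X P := by
      intro g P
      have h1 : g • P = gl σ ((g : G) : GL (Fin 2) O) • P := rfl
      have h3 : D.actM (((g : G) : GL (Fin 2) O) : Matrix (Fin 2) (Fin 2) O) X = X := g.2
      rw [h1]
      nth_rewrite 1 [← h3]
      exact lin_actM_gl D H.star_map H.eis _ X P
    obtain ⟨A, hA⟩ := pos_coeff hw
      (fun g P Q => H3.cu_smul (gl σ ((g : G) : GL (Fin 2) O)) P Q) hqR
      (fun g P => by rw [← lin_eq_tR, ← lin_eq_tR, hlin]) H.eig H.cont.measurable hB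
      (fun g P => H.inv _ (g : G).2 P)
      (fun κ hκ => by
        have := lintegral_stab_ne_top D H.star_map H.eis hκ X hw
        exact this)
    refine ⟨c X * A / 2, fun z hz => ?_⟩
    rw [if_pos hq]
    simp only [hval]
    have h2 : ∫ P, (Real.exp (-(4 * Real.pi * z.im) * lin σ X P ^ 2) : ℂ) * F P
        ∂volume.withDensity wX = (√(Real.pi / (4 * Real.pi * z.im)) : ℂ) * A :=
      hA (4 * Real.pi * z.im) (by positivity)
    rw [integral_const_mul, h2]
    have e1 : √(Real.pi / (4 * Real.pi * z.im)) = (2 * √z.im)⁻¹ := by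
      have hpi := Real.pi_pos
      have h3 : Real.pi / (4 * Real.pi * z.im) = ((2 * √z.im)⁻¹) ^ 2 := by
        rw [inv_pow, mul_pow, Real.sq_sqrt hz.le]
        field_simp
        norm_num
      rw [h3, Real.sqrt_sq (by positivity)]
    have e2 : (√z.im : ℂ) ≠ 0 := ofReal_ne_zero.mpr (Real.sqrt_pos.mpr hz).ne'
    rw [e1]
    push_cast
    field_simp

/-- **The expansion of the theta lift.** -/
theorem exists_expansion [IsDomain O] [IsPrincipalIdealRing O] (H : LiftData σ D G F c)
    {w : H3 → ℝ≥0∞} (hw : IsW σ G w) :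
    ∃ (ι κ : Type u) (n : ι → ℝ) (a : ι → ℂ) (m : κ → ℝ) (b : κ → ℂ),
      (∀ i, ∃ k : ℕ, 0 < k ∧ n i = k) ∧ (∀ i, ∃ k : ℕ, 0 < k ∧ m i = k) ∧
      ExpSummable n a ∧ GSummable m b ∧
      ∀ z : ℂ, 0 < z.im → ∫ P, F P * D.theta σ c z P ∂volume.withDensity w =
        ∑' i, a i * cexp (2 * Real.pi * I * n i * z) +
        ∑' i, b i * (gFun (4 * Real.pi * m i * z.im) : ℂ) *
          cexp (-(2 * Real.pi * I * m i * z)) := by
  let _ := h3Act σ
  let _ := hermAct D H.star_map H.eis.inj
  have _ := H.eis.countable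
  have : Countable (GL (Fin 2) O) := countable_gl
  have : MeasurableConstSMul (GL (Fin 2) O) H3 :=
    ⟨fun g => (measurable_const_smul (gl σ g) : Measurable fun P : H3 => gl σ g • P)⟩
  have : SMulInvariantMeasure (GL (Fin 2) O) H3 volume :=
    ⟨fun g s hs => measure_preimage_smul_of_nullMeasurableSet hs.nullMeasurableSet (gl σ g)⟩
  have := H.finiteIndex
  have hwG : IsWeight G w := hw
  let Q := Quotient (orbitRel G (ℤ × O × ℤ))
  let wo : Q → H3 → ℝ≥0∞ := fun o z => ∑' s : G ⧸ stabilizer G o.out, w (s.out • z)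
  have hwo : ∀ o : Q, IsWeight (stabilizer G o.out) (wo o) := fun o => hwG.sub _
  let E : ℂ → ℤ × O × ℤ → H3 → ℂ := fun z X P => F P * (c X * kern (D.q X) (lin σ X P) z)
  have hE : ∀ z X, Measurable (E z X) := fun z X => H.measurable_term z X
  have hinv : ∀ (z : ℂ) (g : G) X P, E z (g • X) (g • P) = E z X P := fun z g X P =>
    H.term_smul z g.2 X P
  have hfin : ∀ z : ℂ, 0 < z.im → ∫⁻ P, ∑' X, ‖E z X P‖ₑ ∂volume.withDensity w ≠ ∞ :=
    fun z hz => H.lintegral_ne_top hw hz
  choose A hA using fun o : Q => H.exists_coeff o.out (hwo o)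
  have hsum : ∀ z : ℂ, 0 < z.im →
      Summable fun o : Q => ‖∫ P, E z o.out P ∂volume.withDensity (wo o)‖ := by
    intro z hz
    have h1 := summable_unfold (μ := volume) hwG hwo (hE z) (hinv z) (hfin z hz)
    have h2 : Summable fun o : Q => ∫ P, E z o.out P ∂volume.withDensity (wo o) := by
      refine Summable.of_enorm ?_
      refine ne_top_of_le_ne_top h1 (ENNReal.tsum_le_tsum fun o => ?_)
      exact enorm_integral_le_lintegral_enorm _
    exact h2.norm
  refine ⟨{o : Q // 0 < D.q o.out}, {o : Q // D.q o.out < 0}, fun i => ((D.q i.1.out : ℤ) : ℝ),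
    fun i => A i.1, fun i => ((-D.q i.1.out : ℤ) : ℝ), fun i => A i.1, ?_, ?_, ?_, ?_, ?_⟩
  · intro i
    refine ⟨(D.q i.1.out).toNat, ?_, ?_⟩
    · have := i.2
      omega
    · show ((D.q i.1.out : ℤ) : ℝ) = _
      rw [← Int.cast_natCast (R := ℝ), Int.toNat_of_nonneg i.2.le]
  · intro i
    refine ⟨(-D.q i.1.out).toNat, ?_, ?_⟩
    · have := i.2
      omega
    · show ((-D.q i.1.out : ℤ) : ℝ) = _
      rw [← Int.cast_natCast (R := ℝ), Int.toNat_of_nonneg (by have := i.2; omega)]
  · intro y hy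
    have hz : 0 < ((y : ℂ) * I).im := by simpa using hy
    have h1 := (hsum _ hz).comp_injective
      (Subtype.val_injective : Function.Injective (Subtype.val : {o : Q // 0 < D.q o.out} → Q))
    refine h1.congr fun i => ?_
    rw [Function.comp_apply, hA i.1 _ hz, if_pos i.2, norm_mul, norm_cexp_pos]
    simp
  · intro y hy
    have hz : 0 < ((y : ℂ) * I).im := by simpa using hy
    have h1 := (hsum _ hz).comp_injective
      (Subtype.val_injective : Function.Injective (Subtype.val : {o : Q // D.q o.out < 0} → Q))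
    refine h1.congr fun i => ?_
    have hi := i.2
    have hm : (0 : ℝ) < ((-D.q i.1.out : ℤ) : ℝ) := by
      have : 0 < -D.q i.1.out := by omega
      exact_mod_cast this
    rw [Function.comp_apply, hA i.1 _ hz, if_neg (by omega), if_pos hi, norm_mul, norm_mul,
      norm_cexp_neg, Complex.norm_real, Real.norm_eq_abs, mul_assoc]
    have him : ((y : ℂ) * I).im = y := by simp
    rw [him, abs_of_pos (gFun_pos (by positivity))]
  · intro z hz
    have h1 : ∫ P, F P * D.theta σ c z P ∂volume.withDensity w =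
        ∫ P, ∑' X, E z X P ∂volume.withDensity w := by
      refine integral_congr_ae (Filter.Eventually.of_forall fun P => ?_)
      show F P * D.theta σ c z P = ∑' X, F P * (c X * kern (D.q X) (lin σ X P) z)
      rw [tsum_mul_left]
      rfl
    rw [h1, unfold hwG hwo (hE z) (hinv z) (hfin z hz),
      tsum_split (hsum z hz).of_norm (fun o : Q => D.q o.out) (fun o ho => ?_)]
    · congr 1
      · refine tsum_congr fun i => ?_
        show ∫ P, E z i.1.out P ∂volume.withDensity (wo i.1) = _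
        rw [hA i.1 z hz, if_pos i.2]
      · refine tsum_congr fun i => ?_
        have hi := i.2
        show ∫ P, E z i.1.out P ∂volume.withDensity (wo i.1) = _
        rw [hA i.1 z hz, if_neg (by omega), if_pos hi]
    · rw [hA o z hz, if_neg (by omega), if_neg (by omega)]

end LiftData

end Fermat.Agent.LT.Theta31

end
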