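import Fermat.Agent.LT.Theta31.Plane

/-!
# Fermi coordinates along the real plane in hyperbolic three-space
-/

set_option autoImplicit false

open MeasureTheory Set UpperHalfPlane
open scoped ENNReal

noncomputable section

namespace Fermat.Agent.LT.Theta31

open H3

/-- Integration over the upper half plane. -/
theorem lintegral_uhp {g : ℍ → ℝ≥0∞} (hg : Measurable g) :
    ∫⁻ τ, g τ = ∫⁻ r in Ioi (0 : ℝ), ∫⁻ x : ℝ,
      ENNReal.ofReal (1 / r ^ 2) * g (ofComplex ((x : ℂ) + r * Complex.I)) := by
  have h : MeasurePreserving UpperHalfPlane.coe (volume.comap UpperHalfPlane.coe)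
      ((volume : Measure ℂ).restrict (Set.range UpperHalfPlane.coe)) :=
    ⟨UpperHalfPlane.measurable_coe, by rw [UpperHalfPlane.measurableEmbedding_coe.map_comap]⟩
  have hd : Measurable fun z : ℍ => ((((1 / NNReal.mk z.im z.im_pos.le : NNReal) ^ 2 : NNReal)) : ℝ≥0∞) := by
    refine measurable_coe_nnreal_ennreal.comp (Measurable.pow_const (Measurable.div measurable_const ?_) 2)
    exact UpperHalfPlane.continuous_im.measurable.subtype_mk
  have hd2 : ∀ z : ℍ, ((((1 / NNReal.mk z.im z.im_pos.le : NNReal) ^ 2 : NNReal)) : ℝ≥0∞) =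
      ENNReal.ofReal (1 / (z : ℂ).im ^ 2) := by
    intro z
    rw [ENNReal.ofReal]
    congr 1
    ext
    rw [Real.coe_toNNReal _ (by positivity)]
    simp
  have hr : Set.range UpperHalfPlane.coe = {z : ℂ | 0 < z.im} := UpperHalfPlane.range_coe
  have hof : Measurable (fun z : ℂ => if h : 0 < z.im then (⟨z, h⟩ : ℍ) else UpperHalfPlane.I) := by
    refine UpperHalfPlane.measurableEmbedding_coe.measurable_comp_iff.mp ?_
    have : (fun z : ℂ => UpperHalfPlane.coe (if h : 0 < z.im then (⟨z, h⟩ : ℍ)
        else UpperHalfPlane.I)) = fun z : ℂ => if 0 < z.im then z else Complex.I := by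
      funext z
      split_ifs <;> rfl
    show Measurable (fun z : ℂ => UpperHalfPlane.coe (if h : 0 < z.im then (⟨z, h⟩ : ℍ)
        else UpperHalfPlane.I))
    rw [this]
    exact Measurable.ite (measurableSet_lt measurable_const Complex.measurable_im) measurable_id
      measurable_const
  let q : ℂ → ℝ≥0∞ := fun z => ENNReal.ofReal (1 / z.im ^ 2) *
    g (if h : 0 < z.im then (⟨z, h⟩ : ℍ) else UpperHalfPlane.I)
  have hq : Measurable q := by
    refine Measurable.mul ?_ (hg.comp hof)
    exact (measurable_const.div (Complex.measurable_im.pow_const 2)).ennreal_ofReal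
  have e1 : ∫⁻ τ, g τ = ∫⁻ z in {z : ℂ | 0 < z.im}, q z := by
    rw [UpperHalfPlane.volume_def, lintegral_withDensity_eq_lintegral_mul _ hd hg, ← hr,
      ← h.lintegral_comp_emb UpperHalfPlane.measurableEmbedding_coe]
    refine lintegral_congr fun z => ?_
    simp only [Pi.mul_apply, q]
    rw [hd2]
    congr 2
    rw [dif_pos (show 0 < (z : ℂ).im from z.im_pos)]
  have hS : MeasurableSet {z : ℂ | 0 < z.im} := measurableSet_lt measurable_const Complex.measurable_im
  rw [e1, ← lintegral_indicator hS,
    ← (Complex.volume_preserving_equiv_real_prod.symm).lintegral_comp_emb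
      (MeasurableEquiv.measurableEmbedding _), Measure.volume_eq_prod, lintegral_prod_symm']
  · rw [← lintegral_indicator measurableSet_Ioi]
    refine lintegral_congr fun r => ?_
    by_cases hr : 0 < r
    · rw [indicator_of_mem (show r ∈ Ioi (0 : ℝ) from hr)]
      refine lintegral_congr fun x => ?_
      have e2 : Complex.measurableEquivRealProd.symm (x, r) = (x : ℂ) + r * Complex.I := by
        rw [Complex.measurableEquivRealProd_symm_apply]
        apply Complex.ext <;> simp
      have e3 : ((x : ℂ) + r * Complex.I).im = r := by simp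
      rw [e2, indicator_of_mem (show ((x : ℂ) + r * Complex.I) ∈ {z : ℂ | 0 < z.im} by
        rw [mem_ofPred_eq, e3]; exact hr)]
      simp only [q]
      have e4 : ENNReal.ofReal (1 / ((x : ℂ) + r * Complex.I).im ^ 2) =
        ENNReal.ofReal (1 / r ^ 2) := by rw [e3]
      rw [dif_pos (by rw [e3]; exact hr), ofComplex_apply_of_im_pos (by rw [e3]; exact hr), e4]
    · rw [indicator_of_notMem (show r ∉ Ioi (0 : ℝ) from hr)]
      have : ∀ x : ℝ, {z : ℂ | 0 < z.im}.indicator q
          (Complex.measurableEquivRealProd.symm (x, r)) = 0 := by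
        intro x
        rw [indicator_of_notMem]
        rw [Complex.measurableEquivRealProd_symm_apply]
        exact hr
      simp only [this, lintegral_zero]
  · exact (hq.indicator hS).comp (MeasurableEquiv.measurable _)

/-- Fermi coordinates. -/
def sec (τ : ℍ) (σ : ℝ) : H3 :=
  mk (((τ : ℂ).re : ℂ) + ((τ.im * Real.sinh σ / Real.cosh σ : ℝ) : ℂ) * Complex.I)
    (τ.im / Real.cosh σ) (div_pos τ.im_pos (Real.cosh_pos σ))

theorem tau_sec (τ : ℍ) (σ : ℝ) : tau (sec τ σ) = Real.sinh σ := by
  have h1 := Real.cosh_pos σ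
  have h2 := τ.im_pos
  unfold tau sec
  rw [z_mk, y_mk, Complex.add_im, Complex.ofReal_im, zero_add,
    Complex.im_ofReal_mul, Complex.I_im, mul_one]
  field_simp

theorem sg_sec (τ : ℍ) (σ : ℝ) : sg (sec τ σ) = σ := by
  unfold sg
  rw [tau_sec, Real.arsinh_sinh]

theorem continuous_sec : Continuous fun p : ℍ × ℝ => sec p.1 p.2 := by
  refine H3.continuous_iff.mpr ⟨?_, ?_⟩
  · simp only [sec, z_mk]
    have h1 : Continuous fun p : ℍ × ℝ => (p.1 : ℂ).re :=
      Complex.continuous_re.comp (UpperHalfPlane.continuous_coe.comp continuous_fst)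
    have h2 : Continuous fun p : ℍ × ℝ => p.1.im := UpperHalfPlane.continuous_im.comp continuous_fst
    have h3 : Continuous fun p : ℍ × ℝ => p.1.im * Real.sinh p.2 / Real.cosh p.2 :=
      (h2.mul (Real.continuous_sinh.comp continuous_snd)).div
        (Real.continuous_cosh.comp continuous_snd) fun p => (Real.cosh_pos _).ne'
    exact (Complex.continuous_ofReal.comp h1).add
      ((Complex.continuous_ofReal.comp h3).mul continuous_const)
  · simp only [sec, y_mk]
    exact (UpperHalfPlane.continuous_im.comp continuous_fst).div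
      (Real.continuous_cosh.comp continuous_snd) fun p => (Real.cosh_pos _).ne'

theorem lintegral_sec {f : H3 → ℝ≥0∞} (hf : Measurable f) :
    ∫⁻ P, f P = ∫⁻ τ : ℍ, ∫⁻ σ : ℝ, ENNReal.ofReal (Real.cosh σ ^ 2) * f (sec τ σ) := by
  have hm : Measurable fun q : (ℝ × ℝ) × ℝ => ENNReal.ofReal (1 / q.1.2 ^ 3) *
      f (ofPair ((q.2 : ℂ) + q.1.1 * Complex.I, q.1.2)) := by
    refine Measurable.mul (by fun_prop) (hf.comp (measurable_ofPair.comp ?_))
    exact Measurable.prodMk (by fun_prop) (by fun_prop)
  have hm2 : Measurable fun q : ℍ × ℝ => ENNReal.ofReal (Real.cosh q.2 ^ 2) * f (sec q.1 q.2) :=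
    Measurable.mul (by fun_prop) (hf.comp continuous_sec.measurable)
  rw [lintegral_real hf, lintegral_upper hm.lintegral_prod_right',
    lintegral_uhp hm2.lintegral_prod_right']
  refine setLIntegral_congr_fun measurableSet_Ioi fun r hr => ?_
  have hr' : 0 < r := hr
  have e1 : ∀ x : ℝ, ENNReal.ofReal (1 / r ^ 2) * ∫⁻ σ : ℝ, ENNReal.ofReal (Real.cosh σ ^ 2) *
      f (sec (ofComplex ((x : ℂ) + r * Complex.I)) σ) =
      ∫⁻ σ : ℝ, ENNReal.ofReal (Real.cosh σ ^ 2 / r ^ 2) *
        f (ofPair ((x : ℂ) + ((r * Real.sinh σ / Real.cosh σ : ℝ) : ℂ) * Complex.I,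
          r / Real.cosh σ)) := by
    intro x
    rw [← lintegral_const_mul' _ _ ENNReal.ofReal_ne_top]
    refine lintegral_congr fun σ => ?_
    have e3 : ((x : ℂ) + r * Complex.I).im = r := by simp
    have e4 : ((x : ℂ) + r * Complex.I).re = x := by simp
    rw [← mul_assoc, ← ENNReal.ofReal_mul (by positivity),
      ofComplex_apply_of_im_pos (by rw [e3]; exact hr'), ofPair_of_pos (by
        show 0 < r / Real.cosh σ
        exact div_pos hr' (Real.cosh_pos σ))]
    congr 2
    · ring
    · unfold sec
      apply H3.ext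
      · rw [z_mk, z_mk]
        show ((((x : ℂ) + r * Complex.I).re : ℝ) : ℂ) +
          (((((x : ℂ) + r * Complex.I).im) * Real.sinh σ / Real.cosh σ : ℝ) : ℂ) * Complex.I = _
        rw [e3, e4]
      · rw [y_mk, y_mk]
        show (((x : ℂ) + r * Complex.I).im) / Real.cosh σ = _
        rw [e3]
  simp only [e1]
  have hm3 : Measurable fun q : ℝ × ℝ => ENNReal.ofReal (Real.cosh q.2 ^ 2 / r ^ 2) *
      f (ofPair ((q.1 : ℂ) + ((r * Real.sinh q.2 / Real.cosh q.2 : ℝ) : ℂ) * Complex.I,
        r / Real.cosh q.2)) := by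
    refine Measurable.mul (by fun_prop) (hf.comp (measurable_ofPair.comp ?_))
    exact Measurable.prodMk (by fun_prop) (by fun_prop)
  rw [lintegral_lintegral_swap hm3.aemeasurable]
  refine lintegral_congr fun σ => ?_
  rw [← lintegral_const_mul' _ _ ENNReal.ofReal_ne_top]
  refine lintegral_congr fun x => ?_
  have hc := Real.cosh_pos σ
  rw [← mul_assoc, ← ENNReal.ofReal_mul (by positivity)]
  congr 2
  field_simp

/-- Fermi coordinates as an equality of measures. -/
theorem map_sec : ((volume : Measure ℍ).prod ((volume : Measure ℝ).withDensity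
    fun σ => ENNReal.ofReal (Real.cosh σ ^ 2))).map (fun p => sec p.1 p.2) = volume := by
  ext s hs
  have hc : Measurable fun σ : ℝ => ENNReal.ofReal (Real.cosh σ ^ 2) := by fun_prop
  rw [Measure.map_apply continuous_sec.measurable hs, ← lintegral_indicator_one hs,
    lintegral_sec (measurable_one.indicator hs), Measure.prod_apply (continuous_sec.measurable hs)]
  refine lintegral_congr fun τ => ?_
  have hs' : MeasurableSet (Prod.mk τ ⁻¹' ((fun p : ℍ × ℝ => sec p.1 p.2) ⁻¹' s)) :=
    (continuous_sec.measurable hs).preimage measurable_prodMk_left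
  rw [withDensity_apply _ hs', ← lintegral_indicator hs']
  refine lintegral_congr fun σ => ?_
  by_cases h : sec τ σ ∈ s
  · rw [indicator_of_mem h, indicator_of_mem (show σ ∈ _ from h)]
    simp
  · rw [indicator_of_notMem h, indicator_of_notMem (show σ ∉ _ from h), mul_zero]

end Fermat.Agent.LT.Theta31
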