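import Mathlib

/-!
# Gaussian sums in one variable: `∑ n, exp (-κ (n + x)²) ≤ C (1 + 1 / √κ)`, uniformly in `x`
-/

set_option autoImplicit false

noncomputable section

open ENNReal Real

namespace Fermat.Agent.LT.Theta31

namespace Gauss1

theorem sq_quarter_le {x : ℝ} (hx : |x| ≤ 1 / 2) (n : ℤ) : (n : ℝ) ^ 2 / 4 ≤ (n + x) ^ 2 := by
  rcases eq_or_ne n 0 with rfl | hn
  · simpa using sq_nonneg x
  · have h1 : (1 : ℝ) ≤ |(n : ℝ)| := by exact_mod_cast Int.one_le_abs hn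
    have h2 : |(n : ℝ)| / 2 ≤ |(n : ℝ) + x| := by
      have := abs_sub_abs_le_abs_sub (n : ℝ) (-x)
      rw [abs_neg, sub_neg_eq_add] at this
      linarith
    have h3 : (|(n : ℝ)| / 2) ^ 2 ≤ |(n : ℝ) + x| ^ 2 := pow_le_pow_left₀ (by positivity) h2 2
    rw [sq_abs, div_pow, sq_abs] at h3
    linarith

theorem summable_gauss {a : ℝ} (ha : 0 < a) : Summable fun n : ℤ => rexp (-π * a * (n : ℝ) ^ 2) := by
  have h := (summable_jacobiTheta₂_term_iff 0 (Complex.I * a)).mpr (by simpa using ha)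
  have h2 : (fun n : ℤ => ((rexp (-π * a * (n : ℝ) ^ 2) : ℝ) : ℂ)) =
      (jacobiTheta₂_term · 0 (Complex.I * a)) := by
    funext n
    rw [jacobiTheta₂_term, Complex.ofReal_exp]
    congr 1
    push_cast
    linear_combination (-π * a * n ^ 2 : ℂ) * Complex.I_sq
  rw [← h2] at h
  exact Complex.summable_ofReal.mp h

/-- `∑ exp (-π n²)` -/
def θ1 : ℝ := ∑' n : ℤ, rexp (-π * 1 * (n : ℝ) ^ 2)

theorem θ1_nonneg : 0 ≤ θ1 := tsum_nonneg fun _ => (Real.exp_pos _).le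

theorem tsum_le_of_one_le {a : ℝ} (ha : 1 ≤ a) :
    ∑' n : ℤ, rexp (-π * a * (n : ℝ) ^ 2) ≤ θ1 := by
  refine (summable_gauss (by linarith)).tsum_le_tsum (fun n => ?_) (summable_gauss one_pos)
  refine Real.exp_le_exp.mpr ?_
  have : 0 ≤ π * (n : ℝ) ^ 2 := by positivity
  nlinarith

theorem tsum_gauss_zero_le {a : ℝ} (ha : 0 < a) :
    ∑' n : ℤ, rexp (-π * a * (n : ℝ) ^ 2) ≤ θ1 * (1 + 1 / √a) := by
  have h0 := θ1_nonneg
  have h1 : 0 ≤ 1 / √a := by positivity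
  rcases le_or_gt 1 a with h | h
  · exact (tsum_le_of_one_le h).trans (by nlinarith)
  · rw [Real.tsum_exp_neg_mul_int_sq ha, ← Real.sqrt_eq_rpow]
    have h2 : ∑' n : ℤ, rexp (-π / a * (n : ℝ) ^ 2) ≤ θ1 := by
      have := tsum_le_of_one_le (a := 1 / a) (by rw [le_div_iff₀ ha]; linarith)
      simpa [div_eq_mul_inv] using this
    calc 1 / √a * ∑' n : ℤ, rexp (-π / a * (n : ℝ) ^ 2) ≤ 1 / √a * θ1 := by gcongr
      _ ≤ θ1 * (1 + 1 / √a) := by nlinarith

/-- the constant -/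
def gC : ℝ := 4 * θ1

theorem gC_nonneg : 0 ≤ gC := by
  have := θ1_nonneg
  unfold gC
  positivity

/-- **Gaussian sums in one variable**, uniformly in the shift. -/
theorem tsum_gauss_le_sqrt {κ : ℝ} (hκ : 0 < κ) (x : ℝ) :
    ∑' n : ℤ, ENNReal.ofReal (rexp (-(κ * (n + x) ^ 2))) ≤
      ENNReal.ofReal (gC * (1 + 1 / √κ)) := by
  wlog hx : |x| ≤ 1 / 2 generalizing x
  · have h1 := this (x - round x) (by simpa using abs_sub_round x)
    rw [← (Equiv.addRight (round x)).tsum_eq (fun n : ℤ =>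
      ENNReal.ofReal (rexp (-(κ * (n + (x - round x)) ^ 2))))] at h1
    refine le_trans (le_of_eq (tsum_congr fun n => ?_)) h1
    simp
  have ha : 0 < κ / (4 * π) := by positivity
  have h2 : ∀ n : ℤ, ENNReal.ofReal (rexp (-(κ * (n + x) ^ 2))) ≤
      ENNReal.ofReal (rexp (-π * (κ / (4 * π)) * (n : ℝ) ^ 2)) := by
    intro n
    refine ENNReal.ofReal_le_ofReal (Real.exp_le_exp.mpr ?_)
    have h3 := mul_le_mul_of_nonneg_left (sq_quarter_le hx n) hκ.le
    have h4 : -π * (κ / (4 * π)) * (n : ℝ) ^ 2 = -(κ * ((n : ℝ) ^ 2 / 4)) := by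
      field_simp
    rw [h4]
    linarith
  calc _ ≤ _ := ENNReal.tsum_le_tsum h2
    _ = ENNReal.ofReal (∑' n : ℤ, rexp (-π * (κ / (4 * π)) * (n : ℝ) ^ 2)) := by
        rw [ENNReal.ofReal_tsum_of_nonneg (fun n => (Real.exp_pos _).le) (summable_gauss ha)]
    _ ≤ _ := by
        refine ENNReal.ofReal_le_ofReal ((tsum_gauss_zero_le ha).trans ?_)
        have h0 := θ1_nonneg
        have h5 : 1 / √(κ / (4 * π)) ≤ 4 * (1 / √κ) := by
          rw [Real.sqrt_div hκ.le, one_div_div]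
          have h6 : √(4 * π) ≤ 4 := by
            rw [show (4 : ℝ) = √16 by rw [show (16 : ℝ) = 4 ^ 2 by norm_num, Real.sqrt_sq (by norm_num)]]
            refine Real.sqrt_le_sqrt ?_
            rw [show √16 = (4 : ℝ) by rw [show (16 : ℝ) = 4 ^ 2 by norm_num, Real.sqrt_sq (by norm_num)]]
            linarith [Real.pi_le_four]
          calc √(4 * π) / √κ ≤ 4 / √κ := by gcongr
            _ = 4 * (1 / √κ) := by ring
        calc θ1 * (1 + 1 / √(κ / (4 * π))) ≤ θ1 * (1 + 4 * (1 / √κ)) := by gcongr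
          _ ≤ 4 * θ1 * (1 + 1 / √κ) := by
              have h7 : 0 ≤ 1 / √κ := by positivity
              nlinarith
          _ = _ := rfl

end Gauss1

end Fermat.Agent.LT.Theta31
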