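import Mathlib

/-!
# The Hecke operator at a split prime on Hermitian lattices: counting

`O` is a commutative domain of characteristic zero with an involution `star`, `π * star π = p`,
`r : O →+* ZMod p` has kernel `(π)` and `r (star π) ≠ 0`. Hermitian matrices
`(a, b; star b, d)` are triples `(a, b, d) : ℤ × O × ℤ`. The `p + 1` matrices
`β i = (π, t i; 0, 1)`, `t : ι → ℤ` a system of representatives mod `p` (e.g. `t j = N * j` with `N`
prime to `p`), and `β ∞ = (1, 0; 0, π)` act by `X ↦ β X β^*`.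

* `card_actImage` : a Hermitian matrix `Y` is in the image of `[p ∣ q Y] + p * [p ∣ Y]` of them.
* `hasSum_hecke` : the resulting identity of lattice sums.
-/

set_option autoImplicit false

noncomputable section

namespace Fermat.Agent.LT.Theta31

/-- The data of a split prime. -/
structure SplitPrime (O : Type*) [CommRing O] [StarRing O] (p : ℕ) where
  /-- a generator -/
  π : O
  mul_star : π * star π = (p : O)
  /-- the reduction -/
  r : O →+* ZMod p
  ker : ∀ x, r x = 0 ↔ π ∣ x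
  star_ne : r (star π) ≠ 0
  /-- the norm -/
  nrm : O → ℤ
  nrm_eq : ∀ b, (nrm b : O) = b * star b
  /-- the trace -/
  tr : O → ℤ
  tr_eq : ∀ b, (tr b : O) = b + star b

namespace SplitPrime

variable {O : Type*} [CommRing O] [StarRing O] {p : ℕ} (D : SplitPrime O p)

/-- `q X = |b|² - a d`. -/
def q (X : ℤ × O × ℤ) : ℤ := D.nrm X.2.1 - X.1 * X.2.2

variable {ι : Type*} (t : ι → ℤ)

/-- The action of the `p + 1` matrices. -/
def act : Option ι → ℤ × O × ℤ → ℤ × O × ℤ
  | some j, X => (p * X.1 + t j * D.tr (D.π * X.2.1) + t j ^ 2 * X.2.2,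
      D.π * X.2.1 + (t j : O) * (X.2.2 : O), X.2.2)
  | none, X => (X.1, X.2.1 * star D.π, p * X.2.2)

lemma act_some (j : ι) (X : ℤ × O × ℤ) : D.act t (some j) X =
    (p * X.1 + t j * D.tr (D.π * X.2.1) + t j ^ 2 * X.2.2,
      D.π * X.2.1 + (t j : O) * (X.2.2 : O), X.2.2) := rfl

lemma act_none (X : ℤ × O × ℤ) : D.act t none X = (X.1, X.2.1 * star D.π, p * X.2.2) := rfl

variable [CharZero O]

lemma q_act (i : Option ι) (X : ℤ × O × ℤ) : D.q (D.act t i X) = p * D.q X := by
  have hinj : Function.Injective (Int.cast : ℤ → O) := Int.cast_injective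
  apply hinj
  have hp := D.mul_star
  cases i with
  | some j =>
    rw [act_some]
    simp only [q]
    push_cast
    rw [D.nrm_eq, D.nrm_eq, D.tr_eq]
    simp only [star_add, star_mul', star_intCast]
    linear_combination (X.2.1 * star X.2.1) * hp
  | none =>
    rw [act_none]
    simp only [q]
    push_cast
    rw [D.nrm_eq, D.nrm_eq]
    simp only [star_mul', star_star]
    linear_combination (X.2.1 * star X.2.1) * hp

variable [IsDomain O] [hp : Fact p.Prime]

omit [IsDomain O] in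
lemma π_ne : D.π ≠ 0 := by
  intro h
  have h1 := D.mul_star
  rw [h, zero_mul] at h1
  exact hp.out.ne_zero (by exact_mod_cast h1.symm)

omit [IsDomain O] in
lemma starπ_ne : star D.π ≠ 0 := by
  intro h
  have h1 := D.mul_star
  rw [h, mul_zero] at h1
  exact hp.out.ne_zero (by exact_mod_cast h1.symm)

lemma act_injective (i : Option ι) : Function.Injective (D.act t i) := by
  have hp0 : (p : ℤ) ≠ 0 := by exact_mod_cast hp.out.ne_zero
  rintro ⟨a, b, d⟩ ⟨a', b', d'⟩ h
  cases i with
  | some j =>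
    rw [act_some, act_some] at h
    simp only [Prod.mk.injEq] at h
    obtain ⟨h1, h2, h3⟩ := h
    subst h3
    have hb : b = b' := mul_left_cancel₀ D.π_ne (add_right_cancel h2)
    subst hb
    have ha : a = a' := mul_left_cancel₀ hp0 (add_right_cancel (add_right_cancel h1))
    rw [ha]
  | none =>
    rw [act_none, act_none] at h
    simp only [Prod.mk.injEq] at h
    obtain ⟨h1, h2, h3⟩ := h
    rw [h1, mul_right_cancel₀ D.starπ_ne h2, mul_left_cancel₀ hp0 h3]

omit [CharZero O] [IsDomain O] in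
lemma dvd_iff (b : O) : (p : O) ∣ b ↔ D.r b = 0 ∧ D.r (star b) = 0 := by
  constructor
  · rintro ⟨c, rfl⟩
    rw [map_mul, star_mul', star_natCast, map_mul, map_natCast, CharP.cast_eq_zero, zero_mul,
      zero_mul]
    exact ⟨rfl, rfl⟩
  · rintro ⟨h1, h2⟩
    obtain ⟨c, rfl⟩ := (D.ker b).mp h1
    rw [star_mul', map_mul, mul_eq_zero, or_iff_right D.star_ne] at h2
    obtain ⟨e, he⟩ := (D.ker _).mp h2
    refine ⟨star e, ?_⟩
    have h3 : c = star D.π * star e := by rw [← star_star c, he, star_mul']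
    rw [h3, ← mul_assoc, D.mul_star]

omit [CharZero O] [IsDomain O] in
lemma mem_range_some (j : ι) (Y : ℤ × O × ℤ) :
    Y ∈ Set.range (D.act t (some j)) ↔ D.r Y.2.1 = (t j : ZMod p) * (Y.2.2 : ZMod p) ∧
      (Y.1 : ZMod p) = (t j : ZMod p) * D.r (star Y.2.1) := by
  have hpO : (p : ZMod p) = 0 := CharP.cast_eq_zero _ _
  obtain ⟨a, b, d⟩ := Y
  simp only
  constructor
  · rintro ⟨⟨a', b', d'⟩, h⟩
    rw [act_some] at h
    simp only [Prod.mk.injEq] at h
    obtain ⟨h1, h2, h3⟩ := h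
    subst h3
    have hπ : D.r D.π = 0 := (D.ker _).mpr dvd_rfl
    have h4 : D.r b = (t j : ZMod p) * (d' : ZMod p) := by
      rw [← h2, map_add, map_mul, hπ, zero_mul, zero_add, map_mul, map_intCast, map_intCast]
    refine ⟨h4, ?_⟩
    have h5 : D.r (star b) = D.r (star D.π * star b') + (t j : ZMod p) * (d' : ZMod p) := by
      rw [← h2, star_add, star_mul', star_mul', star_intCast, star_intCast, map_add,
        map_mul D.r (t j : O), map_intCast, map_intCast]
    have h6 : ((D.tr (D.π * b') : ℤ) : ZMod p) = D.r (star D.π * star b') := by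
      have := congrArg D.r (D.tr_eq (D.π * b'))
      rw [map_intCast, map_add, map_mul, hπ, zero_mul, zero_add, star_mul'] at this
      exact this
    rw [← h1, h5]
    push_cast
    rw [h6, hpO]
    ring
  · rintro ⟨h1, h2⟩
    have h3 : D.r (b - (t j : O) * (d : O)) = 0 := by
      rw [map_sub, map_mul, map_intCast, map_intCast, h1, sub_self]
    obtain ⟨b0, hb0⟩ := (D.ker _).mp h3
    have hπ : D.r D.π = 0 := (D.ker _).mpr dvd_rfl
    have h6 : ((D.tr (D.π * b0) : ℤ) : ZMod p) = D.r (star b) - (t j : ZMod p) * (d : ZMod p) := by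
      have := congrArg D.r (D.tr_eq (D.π * b0))
      rw [map_intCast, map_add, map_mul D.r D.π, hπ, zero_mul, zero_add] at this
      rw [this, ← hb0, star_sub, star_mul', star_intCast, star_intCast, map_sub, map_mul,
        map_intCast, map_intCast]
    have h7 : ((a - (t j * D.tr (D.π * b0) + t j ^ 2 * d) : ℤ) : ZMod p) = 0 := by
      push_cast
      rw [h6, h2]
      ring
    rw [ZMod.intCast_zmod_eq_zero_iff_dvd] at h7
    obtain ⟨a0, ha0⟩ := h7
    refine ⟨(a0, b0, d), ?_⟩
    rw [act_some]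
    simp only [Prod.mk.injEq, and_true]
    refine ⟨by linarith, ?_⟩
    rw [← hb0]
    ring

omit [CharZero O] [IsDomain O] in
lemma mem_range_none (Y : ℤ × O × ℤ) :
    Y ∈ Set.range (D.act t none) ↔ D.r (star Y.2.1) = 0 ∧ (Y.2.2 : ZMod p) = 0 := by
  obtain ⟨a, b, d⟩ := Y
  simp only
  constructor
  · rintro ⟨⟨a', b', d'⟩, h⟩
    rw [act_none] at h
    simp only [Prod.mk.injEq] at h
    obtain ⟨h1, h2, h3⟩ := h
    have hπ : D.r D.π = 0 := (D.ker _).mpr dvd_rfl
    refine ⟨?_, ?_⟩
    · rw [← h2, star_mul', star_star, map_mul, hπ, mul_zero]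
    · rw [← h3]
      push_cast
      rw [CharP.cast_eq_zero, zero_mul]
  · rintro ⟨h1, h2⟩
    obtain ⟨c, hc⟩ := (D.ker _).mp h1
    rw [ZMod.intCast_zmod_eq_zero_iff_dvd] at h2
    obtain ⟨d0, hd0⟩ := h2
    refine ⟨(a, star c, d0), ?_⟩
    rw [act_none]
    simp only [Prod.mk.injEq, true_and]
    refine ⟨?_, hd0.symm⟩
    rw [← star_star b, hc, star_mul']
    ring

/-- `p ∣ Y`. -/
def pdvd (p : ℕ) (Y : ℤ × O × ℤ) : Prop := (p : ℤ) ∣ Y.1 ∧ (p : O) ∣ Y.2.1 ∧ (p : ℤ) ∣ Y.2.2

/-- multiplication by `p` -/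
def pmul (p : ℕ) (Z : ℤ × O × ℤ) : ℤ × O × ℤ := (p * Z.1, p * Z.2.1, p * Z.2.2)

omit [StarRing O] in
lemma pmul_injective : Function.Injective (pmul (O := O) p) := by
  have hp0 : (p : ℤ) ≠ 0 := by exact_mod_cast hp.out.ne_zero
  have hp1 : (p : O) ≠ 0 := by exact_mod_cast hp.out.ne_zero
  rintro ⟨a, b, d⟩ ⟨a', b', d'⟩ h
  simp only [pmul, Prod.mk.injEq] at h
  rw [mul_left_cancel₀ hp0 h.1, mul_left_cancel₀ hp1 h.2.1, mul_left_cancel₀ hp0 h.2.2]

omit [StarRing O] [CharZero O] [IsDomain O] hp in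
lemma pdvd_iff (Y : ℤ × O × ℤ) : pdvd p Y ↔ Y ∈ Set.range (pmul (O := O) p) := by
  constructor
  · rintro ⟨⟨a, ha⟩, ⟨b, hb⟩, ⟨d, hd⟩⟩
    exact ⟨(a, b, d), by rw [pmul, ← ha, ← hb, ← hd]⟩
  · rintro ⟨Z, rfl⟩
    exact ⟨⟨_, rfl⟩, ⟨_, rfl⟩, ⟨_, rfl⟩⟩

/-- The count over `𝔽_p`. -/
lemma card_lines [Fintype ι] (A B C E : ZMod p) [DecidableEq (ZMod p)] {u : ι → ZMod p}
    (hu : Function.Bijective u) :
    (Finset.univ.filter fun j : ι => B = u j * E ∧ A = u j * C).card +
      (if C = 0 ∧ E = 0 then 1 else 0) =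
    (if B * C - A * E = 0 then 1 else 0) +
      (if A = 0 ∧ B = 0 ∧ C = 0 ∧ E = 0 then p else 0) := by
  classical
  have : NeZero p := ⟨hp.out.ne_zero⟩
  have hcard : Fintype.card ι = p := by
    rw [Fintype.card_of_bijective hu, ZMod.card]
  by_cases hCE : C = 0 ∧ E = 0
  · obtain ⟨rfl, rfl⟩ := hCE
    simp only [mul_zero, and_self, if_true, sub_self]
    by_cases hAB : A = 0 ∧ B = 0
    · obtain ⟨rfl, rfl⟩ := hAB
      simp only [and_self, Finset.filter_true, Finset.card_univ, hcard, if_true]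
      ring
    · have h1 : ¬ (A = 0 ∧ B = 0 ∧ True) := fun h => hAB ⟨h.1, h.2.1⟩
      have h2 : ¬ (B = 0 ∧ A = 0) := fun h => hAB ⟨h.2, h.1⟩
      simp only [h2, Finset.filter_false, Finset.card_empty, and_true, hAB, if_false]
  · have h0 : ¬ (A = 0 ∧ B = 0 ∧ C = 0 ∧ E = 0) := fun h => hCE h.2.2
    rw [if_neg hCE, if_neg h0, add_zero, add_zero]
    by_cases hdet : B * C - A * E = 0
    · rw [if_pos hdet, Finset.card_eq_one]
      obtain ⟨t, ht⟩ : ∃ t : ZMod p, B = t * E ∧ A = t * C := by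
        by_cases hE : E = 0
        · have hC : C ≠ 0 := fun h => hCE ⟨h, hE⟩
          refine ⟨A / C, ?_, by field_simp⟩
          rw [hE, mul_zero, sub_zero, mul_eq_zero, or_iff_left hC] at hdet
          rw [hdet, hE, mul_zero]
        · refine ⟨B / E, by field_simp, ?_⟩
          field_simp
          linear_combination -hdet
      obtain ⟨i, rfl⟩ := hu.2 t
      refine ⟨i, ?_⟩
      ext j
      simp only [Finset.mem_filter, Finset.mem_univ, true_and, Finset.mem_singleton]
      constructor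
      · rintro ⟨h1, h2⟩
        have h3 : (u j - u i) * E = 0 := by
          rw [sub_mul, ← h1, ht.1, sub_self]
        have h4 : (u j - u i) * C = 0 := by
          rw [sub_mul, ← h2, ht.2, sub_self]
        apply hu.1
        rw [← sub_eq_zero]
        by_contra hne
        exact hCE ⟨(mul_eq_zero.mp h4).resolve_left hne, (mul_eq_zero.mp h3).resolve_left hne⟩
      · rintro rfl
        exact ht
    · rw [if_neg hdet, Finset.card_eq_zero]
      ext j
      simp only [Finset.mem_filter, Finset.mem_univ, true_and, Finset.notMem_empty, iff_false]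
      rintro ⟨h1, h2⟩
      apply hdet
      rw [h1, h2]
      ring

omit [CharZero O] [IsDomain O] in
lemma dvd_q_iff (Y : ℤ × O × ℤ) : (p : ℤ) ∣ D.q Y ↔
    D.r Y.2.1 * D.r (star Y.2.1) - (Y.1 : ZMod p) * (Y.2.2 : ZMod p) = 0 := by
  rw [← ZMod.intCast_zmod_eq_zero_iff_dvd]
  have h1 : ((D.nrm Y.2.1 : ℤ) : ZMod p) = D.r Y.2.1 * D.r (star Y.2.1) := by
    have := congrArg D.r (D.nrm_eq Y.2.1)
    rwa [map_intCast, map_mul] at this
  rw [q]
  push_cast
  rw [h1]

omit [CharZero O] [IsDomain O] in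
lemma pdvd_iff' (Y : ℤ × O × ℤ) : pdvd p Y ↔ (Y.1 : ZMod p) = 0 ∧ D.r Y.2.1 = 0 ∧
    D.r (star Y.2.1) = 0 ∧ (Y.2.2 : ZMod p) = 0 := by
  rw [pdvd, D.dvd_iff, ZMod.intCast_zmod_eq_zero_iff_dvd, ZMod.intCast_zmod_eq_zero_iff_dvd,
    and_assoc]

variable [Fintype ι]

open Classical in
omit [CharZero O] [IsDomain O] in
/-- **The count.** -/
theorem card_actImage (ht : Function.Bijective fun i => (t i : ZMod p)) (Y : ℤ × O × ℤ) :
    ∑ i : Option ι, (if Y ∈ Set.range (D.act t i) then 1 else 0) =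
      (if (p : ℤ) ∣ D.q Y then 1 else 0) + (if pdvd p Y then p else 0) := by
  have h1 := card_lines (p := p) (Y.1 : ZMod p) (D.r Y.2.1) (D.r (star Y.2.1)) (Y.2.2 : ZMod p) ht
  rw [Fintype.sum_option]
  simp only [mem_range_some, mem_range_none, D.dvd_q_iff, D.pdvd_iff']
  rw [← h1, add_comm, Finset.card_filter]

section Sums

variable {c' g : ℤ × O × ℤ → ℂ}

omit [Fintype ι] in
/-- One of the `p + 1` sums. -/
lemma hasSum_act (i : Option ι) (hs : Summable fun Y => c' Y * g Y) :
    HasSum (fun X => c' (D.act t i X) * g (D.act t i X))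
      (∑' Y, (Set.range (D.act t i)).indicator (fun Y => c' Y * g Y) Y) := by
  have h1 : Summable ((Set.range (D.act t i)).indicator fun Y => c' Y * g Y) := hs.indicator _
  have h2 := (D.act_injective t i).hasSum_iff (f := (Set.range (D.act t i)).indicator
    fun Y => c' Y * g Y) (a := ∑' Y, (Set.range (D.act t i)).indicator (fun Y => c' Y * g Y) Y)
    (fun Y hY => Set.indicator_of_notMem hY _)
  have h3 := h2.mpr h1.hasSum
  convert h3 using 1
  funext X
  rw [Function.comp_apply, Set.indicator_of_mem (Set.mem_range_self X)]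

/-- **The lattice sum identity for the Hecke operator at a split prime.** -/
theorem tsum_hecke (ht : Function.Bijective fun i => (t i : ZMod p)) (hs : Summable fun Y => c' Y * g Y) :
    ∑ i : Option ι, ∑' X, c' (D.act t i X) * g (D.act t i X) =
      (∑' Y, {Y | (p : ℤ) ∣ D.q Y}.indicator (fun Y => c' Y * g Y) Y) +
        p * ∑' Z, c' (pmul p Z) * g (pmul p Z) := by
  classical
  have h1 : ∀ i : Option ι, ∑' X, c' (D.act t i X) * g (D.act t i X) =
      ∑' Y, (Set.range (D.act t i)).indicator (fun Y => c' Y * g Y) Y := fun i =>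
    (D.hasSum_act t i hs).tsum_eq
  simp only [h1]
  rw [← Summable.tsum_finsetSum fun i _ => hs.indicator _]
  have h2 : ∑' Z, c' (pmul p Z) * g (pmul p Z) =
      ∑' Y, (Set.range (pmul (O := O) p)).indicator (fun Y => c' Y * g Y) Y := by
    have h3 := (pmul_injective (O := O) (p := p)).tsum_eq
      (f := (Set.range (pmul (O := O) p)).indicator fun Y => c' Y * g Y)
      Set.support_indicator_subset
    rw [← h3]
    refine tsum_congr fun Z => ?_
    rw [Set.indicator_of_mem (Set.mem_range_self Z)]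
  rw [h2, ← tsum_mul_left, ← Summable.tsum_add (hs.indicator _) ((hs.indicator _).mul_left _)]
  refine tsum_congr fun Y => ?_
  have h4 := D.card_actImage t ht Y
  have h5 : ∑ i : Option ι, (Set.range (D.act t i)).indicator (fun Y => c' Y * g Y) Y =
      ((∑ i : Option ι, (if Y ∈ Set.range (D.act t i) then 1 else 0) : ℕ) : ℂ) *
        (c' Y * g Y) := by
    push_cast
    rw [Finset.sum_mul]
    refine Finset.sum_congr rfl fun i _ => ?_
    rw [Set.indicator_apply]
    split_ifs <;> simp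
  rw [h5, h4]
  by_cases ha : (p : ℤ) ∣ D.q Y <;> by_cases hb : pdvd p Y
  · rw [if_pos ha, if_pos hb, Set.indicator_of_mem (show Y ∈ {Y | (p : ℤ) ∣ D.q Y} from ha),
      Set.indicator_of_mem ((pdvd_iff Y).mp hb)]
    push_cast
    ring
  · rw [if_pos ha, if_neg hb, Set.indicator_of_mem (show Y ∈ {Y | (p : ℤ) ∣ D.q Y} from ha),
      Set.indicator_of_notMem (fun h => hb ((pdvd_iff Y).mpr h))]
    push_cast
    ring
  · rw [if_neg ha, if_pos hb, Set.indicator_of_notMem (show Y ∉ {Y | (p : ℤ) ∣ D.q Y} from ha),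
      Set.indicator_of_mem ((pdvd_iff Y).mp hb)]
    push_cast
    ring
  · rw [if_neg ha, if_neg hb, Set.indicator_of_notMem (show Y ∉ {Y | (p : ℤ) ∣ D.q Y} from ha),
      Set.indicator_of_notMem (fun h => hb ((pdvd_iff Y).mpr h))]
    push_cast
    ring

end Sums

end SplitPrime

end Fermat.Agent.LT.Theta31
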