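import Fermat.Agent.LT.H3.Measure
import Fermat.Agent.LT.Theta31.Reps

/-!
# The theta lift and the Hecke operators at split primes

`f z = ∫ F P * Θ z P dν`, `ν = w dμ` with a weight `w` of `Γ = GamU σ N U`, `Θ z P` the theta function
of the lattice `{(a, b, d) : N ∣ a, N ∣ d}`. If `∑ i, F (α i P) = √p x F P` then
`p⁻¹ ∑ j, f ((z + j) / p) + f (p z) = x f z`.
-/

set_option autoImplicit false

noncomputable section

open Complex ComplexConjugate Matrix MeasureTheory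
open scoped ENNReal

namespace Fermat.Agent.LT.Theta31

/-- The indicator function of `{(a, b, d) : N ∣ a, N ∣ d}`. -/
def cN {O : Type*} (N : ℕ) (X : ℤ × O × ℤ) : ℂ :=
  if (N : ℤ) ∣ X.1 ∧ (N : ℤ) ∣ X.2.2 then 1 else 0

/-- The theta lift. -/
def lift {O : Type*} [CommRing O] [StarRing O] (D : NTData O) (σ : O →+* ℂ) (N : ℕ)
    (ν : Measure H3) (F : H3 → ℂ) (z : ℂ) : ℂ :=
  ∫ P, F P * D.theta σ (cN N) z P ∂ν

section Inv

variable {O : Type*} [CommRing O] [StarRing O] [CharZero O] (D : NTData O) {σ : O →+* ℂ}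
  (hσ : ∀ x, σ (star x) = conj (σ x)) (hi : Function.Injective σ) {N : ℕ}
  (hdvd : ∀ a : ℤ, (N : O) ∣ (a : O) → (N : ℤ) ∣ a)

omit [CharZero O] in
include hdvd in
lemma dvd_actM_aux {A : Matrix (Fin 2) (Fin 2) O} (h1 : (N : O) ∣ A 0 1) (h2 : (N : O) ∣ A 1 0)
    {X : ℤ × O × ℤ} (hX : (N : ℤ) ∣ X.1 ∧ (N : ℤ) ∣ X.2.2) :
    (N : ℤ) ∣ (D.actM A X).1 ∧ (N : ℤ) ∣ (D.actM A X).2.2 := by
  have hst : ∀ {x : O}, (N : O) ∣ x → (N : O) ∣ star x := by
    rintro x ⟨y, rfl⟩
    exact ⟨star y, by rw [star_mul', star_natCast]⟩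
  constructor
  · refine dvd_add (dvd_add (hX.1.mul_left _) (hdvd _ ?_)) (hX.2.mul_left _)
    rw [D.tr_eq]
    exact dvd_add ((hst h1).mul_left _) (hst ((hst h1).mul_left _))
  · refine dvd_add (dvd_add (hX.1.mul_left _) (hdvd _ ?_)) (hX.2.mul_left _)
    rw [D.tr_eq]
    have h3 : (N : O) ∣ A 1 0 * X.2.1 * star (A 1 1) := (h2.mul_right _).mul_right _
    exact dvd_add h3 (hst h3)

include hσ hi hdvd in
omit [CharZero O] in
lemma cN_actM {U : Subgroup Oˣ} {A : GL (Fin 2) O} (hA : A ∈ GO N U) (X : ℤ × O × ℤ) :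
    cN N (D.actM A X) = cN N X := by
  have h3 : ((N : ℤ) ∣ (D.actM A X).1 ∧ (N : ℤ) ∣ (D.actM A X).2.2) ↔
      ((N : ℤ) ∣ X.1 ∧ (N : ℤ) ∣ X.2.2) := by
    refine ⟨fun h => ?_, dvd_actM_aux D hdvd hA.1 hA.2.1⟩
    have hA' := inv_mem hA
    have h4 := dvd_actM_aux D hdvd hA'.1 hA'.2.1 h
    have h5 : D.actM ((A⁻¹ : GL (Fin 2) O) : Matrix (Fin 2) (Fin 2) O) (D.actM A X) = X :=
      (D.actEquiv hσ hi A).left_inv X
    rwa [h5] at h4
  unfold cN
  exact if_congr h3 rfl rfl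

include hσ hi hdvd in
/-- The theta function is invariant under `GamU σ N U`. -/
theorem theta_cN_smul {U : Subgroup Oˣ} {γ : GL (Fin 2) ℂ} (hγ : γ ∈ GamU σ N U) (z : ℂ)
    (P : H3) : D.theta σ (cN N) z (γ • P) = D.theta σ (cN N) z P := by
  obtain ⟨A, hA, rfl⟩ := hγ
  exact D.theta_smul hσ hi A (cN_actM D hσ hi hdvd hA) z P

end Inv

namespace SplitPrime

variable {O : Type*} [CommRing O] [StarRing O] [IsDomain O] [CharZero O] {p : ℕ}
  [hp : Fact p.Prime] (D : SplitPrime O p) {ι : Type*} [Fintype ι] (t : ι → ℤ) {σ : O →+* ℂ}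
  (hσ : ∀ x, σ (star x) = conj (σ x)) (hi : Function.Injective σ) {N : ℕ} (hN : N.Coprime p)
  (ht : Function.Bijective fun i => (t i : ZMod p)) (htN : ∀ i, (N : ℤ) ∣ t i) {U : Subgroup Oˣ}

omit [StarRing O] [IsDomain O] [CharZero O] in
lemma adet_of_coe {g : GL (Fin 2) ℂ} {A : Matrix (Fin 2) (Fin 2) O}
    (hg : (g : Matrix (Fin 2) (Fin 2) ℂ) = A.map σ) : H3.adet g = ‖σ A.det‖ := by
  rw [H3.adet, hg, ← RingHom.mapMatrix_apply, ← RingHom.map_det]

omit [Fintype ι] [IsDomain O] in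
lemma lin_act (i : Option ι) (X : ℤ × O × ℤ) (P : H3) :
    lin σ (D.act t i X) P = Real.sqrt p * lin σ X ((D.betG t hσ i)⁻¹ • P) := by
  have h1 := D.toNT.lin_actM hσ (D.bet t i) (D.coe_betG t hσ i) X ((D.betG t hσ i)⁻¹ • P)
  rwa [smul_inv_smul, ← D.act_eq, adet_of_coe (D.coe_betG t hσ i), D.det_bet, D.norm_π hσ] at h1

omit [StarRing O] [IsDomain O] [CharZero O] hp in
lemma lin_pmul (X : ℤ × O × ℤ) (P : H3) : lin σ (pmul p X) P = p * lin σ X P := by
  have h1 : σ ((p : O) * X.2.1) * conj P.z = (p : ℝ) * (σ X.2.1 * conj P.z) := by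
    rw [map_mul, map_natCast, ← Complex.ofReal_natCast, mul_assoc]
  simp only [lin, pmul]
  rw [h1, Complex.re_ofReal_mul]
  push_cast
  ring

include hN htN in
omit [Fintype ι] [IsDomain O] [CharZero O] hp in
lemma cN_act (htr : ∀ a : ℤ, (N : ℤ) ∣ a → ∀ b, (N : ℤ) ∣ a * b) (i : Option ι)
    (X : ℤ × O × ℤ) : cN N X = cN N (D.act t i X) := by
  have hNp : IsCoprime (N : ℤ) (p : ℤ) := Nat.isCoprime_iff_coprime.mpr hN
  cases i with
  | some i =>
    rw [act_some]
    unfold cN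
    refine if_congr ?_ rfl rfl
    refine and_congr_left fun h => ?_
    have h1 : (N : ℤ) ∣ t i * D.tr (D.π * X.2.1) := htr _ (htN i) _
    have h2 : (N : ℤ) ∣ t i ^ 2 * X.2.2 := h.mul_left _
    constructor
    · exact fun h3 => dvd_add (dvd_add (h3.mul_left _) h1) h2
    · intro h3
      have h4 := (dvd_add_left h1).mp ((dvd_add_left h2).mp h3)
      exact hNp.dvd_of_dvd_mul_left h4
  | none =>
    rw [act_none]
    unfold cN
    refine if_congr ?_ rfl rfl
    refine and_congr_right fun _ => ?_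
    exact ⟨fun h => h.mul_left _, fun h => hNp.dvd_of_dvd_mul_left h⟩

include hN in
omit [StarRing O] [IsDomain O] [CharZero O] hp in
lemma cN_pmul (X : ℤ × O × ℤ) : cN N (pmul p X) = cN N X := by
  have hNp : IsCoprime (N : ℤ) (p : ℤ) := Nat.isCoprime_iff_coprime.mpr hN
  have h1 : ∀ a : ℤ, (N : ℤ) ∣ p * a ↔ (N : ℤ) ∣ a := fun a =>
    ⟨fun h => hNp.dvd_of_dvd_mul_left h, fun h => h.mul_left _⟩
  unfold cN pmul
  simp only [h1]

include hN ht htN in
/-- **Eichler's commutation relation on `H3`.** -/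
theorem sum_theta_H3 (hs : ∀ (P : H3) (z : ℂ), 0 < z.im →
      Summable fun X : ℤ × O × ℤ => cN N X * kern (D.q X) (lin σ X P) z)
    {z : ℂ} (hz : 0 < z.im) (P : H3) :
    ∑ i, D.toNT.theta σ (cN N) z ((D.betG t hσ i)⁻¹ • P) =
      Real.sqrt p * ((p : ℂ)⁻¹ * ∑ j : Fin p, D.toNT.theta σ (cN N) ((z + (j : ℕ)) / p) P +
        D.toNT.theta σ (cN N) (p * z) P) := by
  have h1 := sum_theta (D := D) (t := t) (c := cN N) (c' := cN N) (W := fun X => lin σ X P)
    (W' := fun i X => lin σ X ((D.betG t hσ i)⁻¹ • P)) (z := z) ht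
    (D.cN_act t hN htN fun a h b => h.mul_right b) (fun i X => D.lin_act t hσ i X P)
    (fun X => lin_pmul X P) (hs P) hz
  simp only [cN_pmul hN] at h1
  exact h1

include hN hi ht htN in
/-- **The Hecke operator at a split prime on the theta lift.** -/
theorem hecke_lift [Countable O] (hdvd : ∀ a : ℤ, (N : O) ∣ (a : O) → (N : ℤ) ∣ a)
    {w : H3 → ℝ≥0∞} (hw : IsWeight (GamU σ N U) w)
    {F : H3 → ℂ} (hFm : Measurable F) (hFi : ∀ γ ∈ GamU σ N U, ∀ P, F (γ • P) = F P) {x : ℂ}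
    (hF : ∀ P, ∑ i, F (D.alpG t hσ i • P) = Real.sqrt p * x * F P)
    (hs : ∀ (P : H3) (z : ℂ), 0 < z.im →
      Summable fun X : ℤ × O × ℤ => cN N X * kern (D.q X) (lin σ X P) z)
    (hΘ : ∀ z : ℂ, 0 < z.im → Measurable (D.toNT.theta σ (cN N) z))
    (hint : ∀ z : ℂ, 0 < z.im → Integrable (fun P => F P * D.toNT.theta σ (cN N) z P)
      ((volume : Measure H3).withDensity w))
    (hint' : ∀ z : ℂ, 0 < z.im → ∀ i, Integrable
      (fun P => F (D.alpG t hσ i • P) * D.toNT.theta σ (cN N) z P)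
      ((volume : Measure H3).withDensity w))
    {z : ℂ} (hz : 0 < z.im) :
    (p : ℂ)⁻¹ * ∑ j : Fin p, lift D.toNT σ N ((volume : Measure H3).withDensity w) F
        ((z + (j : ℕ)) / p) +
      lift D.toNT σ N ((volume : Measure H3).withDensity w) F (p * z) =
      x * lift D.toNT σ N ((volume : Measure H3).withDensity w) F z := by
  set ν := (volume : Measure H3).withDensity w with hν
  have hpR : (0 : ℝ) < p := by exact_mod_cast hp.out.pos
  have hsq : ((Real.sqrt p : ℝ) : ℂ) ≠ 0 := by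
    exact_mod_cast (Real.sqrt_pos.mpr hpR).ne'
  have him : ∀ j : ℕ, 0 < ((z + j) / p).im := by
    intro j
    rw [← Complex.ofReal_natCast, ← Complex.ofReal_natCast, Complex.div_ofReal_im,
      Complex.add_im, Complex.ofReal_im, add_zero]
    positivity
  have him' : 0 < (p * z).im := by
    rw [← Complex.ofReal_natCast, Complex.im_ofReal_mul]
    positivity
  have h1 := integral_hecke_adj (μ := (volume : Measure H3)) hw
    (D.isLeftReps t hσ hN hi ht htN U) (D.isRightReps t hσ hN hi ht htN U) hFm (hΘ z hz) hFi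
    (fun γ hγ P => theta_cN_smul D.toNT hσ hi hdvd hγ z P) (hint' z hz)
  simp only [hF, D.sum_theta_H3 t hσ hN ht htN hs hz] at h1
  have h2 : ∫ P, Real.sqrt p * x * F P * D.toNT.theta σ (cN N) z P ∂ν =
      Real.sqrt p * (x * lift D.toNT σ N ν F z) := by
    rw [lift, ← mul_assoc, ← integral_const_mul]
    simp only [mul_assoc]
  have h3 : ∫ P, F P * (Real.sqrt p * ((p : ℂ)⁻¹ * ∑ j : Fin p,
        D.toNT.theta σ (cN N) ((z + (j : ℕ)) / p) P + D.toNT.theta σ (cN N) (p * z) P)) ∂ν =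
      Real.sqrt p * ((p : ℂ)⁻¹ * ∑ j : Fin p, lift D.toNT σ N ν F ((z + (j : ℕ)) / p) +
        lift D.toNT σ N ν F (p * z)) := by
    simp only [lift]
    rw [← integral_finsetSum _ fun (j : Fin p) _ => hint _ (him j), ← integral_const_mul,
      ← integral_add ((integrable_finsetSum _ fun (j : Fin p) _ =>
        hint _ (him j)).const_mul _) (hint _ him'), ← integral_const_mul]
    refine integral_congr_ae (Filter.Eventually.of_forall fun P => ?_)
    simp only
    rw [← Finset.mul_sum]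
    ring
  rw [← hν, h2, h3] at h1
  exact (mul_left_cancel₀ hsq h1).symm

end SplitPrime

end Fermat.Agent.LT.Theta31
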