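import Fermat.Agent.LT.KForm
import Fermat.Agent.LT.Theta31.HeckeF
import Fermat.Prelude.Def_ModularForm_HeckeOperator

/-!
# The Hecke operator at a split prime on the theta lift of a `KForm`
-/

set_option autoImplicit false

noncomputable section

open Complex ComplexConjugate Matrix MeasureTheory NumberField
open scoped ENNReal

namespace Fermat.Agent.LT

namespace Theta31

/-! ### From `ℂ` to the upper half plane -/

/-- The Hecke identity on the upper half plane. -/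
theorem hecke_upper {p : ℕ} (hp : p ≠ 0) {G : ℂ → ℂ} {x : ℂ}
    (H : ∀ z : ℂ, 0 < z.im → (p : ℂ)⁻¹ * ∑ j : Fin p, G ((z + (j : ℕ)) / p) + G (p * z) = x * G z)
    (τ : UpperHalfPlane) :
    (p : ℂ)⁻¹ * ∑ j ∈ Finset.range p, G ((ModularForm.heckeMatrix p j • τ : UpperHalfPlane) : ℂ) +
      G ((ModularForm.heckeDiagMatrix p • τ : UpperHalfPlane) : ℂ) = x * G (τ : ℂ) := by
  have h1 := H τ τ.im_pos
  rw [Fin.sum_univ_eq_sum_range (fun j => G (((τ : ℂ) + (j : ℕ)) / p)) p] at h1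
  rw [ModularForm.coe_heckeDiagMatrix_smul hp]
  simp only [ModularForm.coe_heckeMatrix_smul hp]
  exact h1

/-! ### General lemmas -/

instance {O : Type*} [CommRing O] [StarRing O] [CharZero O] : Subsingleton (NTData O) := by
  refine ⟨fun D D' => ?_⟩
  have hinj : Function.Injective (Int.cast : ℤ → O) := Int.cast_injective
  obtain ⟨n, hn, t, ht⟩ := D
  obtain ⟨n', hn', t', ht'⟩ := D'
  have h1 : n = n' := funext fun b => hinj (by rw [hn, hn'])
  have h2 : t = t' := funext fun b => hinj (by rw [ht, ht'])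
  subst h1 h2
  rfl

lemma ut_mul {a b d a' b' d' : ℂ} (ha : a ≠ 0) (hd : d ≠ 0) (ha' : a' ≠ 0) (hd' : d' ≠ 0) :
    H3.ut a b d ha hd * H3.ut a' b' d' ha' hd' =
      H3.ut (a * a') (a * b' + b * d') (d * d') (mul_ne_zero ha ha') (mul_ne_zero hd hd') := by
  apply Units.ext
  rw [Units.val_mul, H3.coe_ut, H3.coe_ut, H3.coe_ut, Matrix.mul_fin_two]
  simp

variable {K : Type} [Field K] [NumberField K]

/-- `σ` on integers. -/
def σO (σ : K →+* ℂ) : 𝓞 K →+* ℂ := σ.comp (algebraMap (𝓞 K) K)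

omit [NumberField K] in
lemma σO_apply (σ : K →+* ℂ) (b : 𝓞 K) : σO σ b = σ (b : K) := rfl

omit [NumberField K] in
lemma σO_injective (σ : K →+* ℂ) : Function.Injective (σO σ) :=
  σ.injective.comp RingOfIntegers.coe_injective

instance countable_O : Countable (𝓞 K) :=
  (Module.Free.chooseBasis ℤ (𝓞 K)).equivFun.injective.countable

lemma dvd_of_dvd_O {N : ℕ} {a : ℤ} (h : (N : 𝓞 K) ∣ (a : 𝓞 K)) : (N : ℤ) ∣ a := by
  obtain ⟨x, hx⟩ := h
  by_cases hN : N = 0
  · subst hN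
    rw [Nat.cast_zero, zero_mul] at hx
    have : a = 0 := by exact_mod_cast hx
    rw [this]
    exact dvd_zero _
  · have hNQ : (N : ℚ) ≠ 0 := by exact_mod_cast hN
    have hNK : (N : K) ≠ 0 := by exact_mod_cast hN
    have h1 : (a : K) = N * (x : K) := by
      have := congrArg (algebraMap (𝓞 K) K) hx
      rwa [map_mul, map_natCast, map_intCast] at this
    have h2 : (x : K) = algebraMap ℚ K ((a : ℚ) / N) := by
      rw [map_div₀, map_natCast, map_intCast, h1]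
      field_simp
    have h3 : IsIntegral ℤ ((a : ℚ) / N) := by
      rw [← isIntegral_algebraMap_iff (algebraMap ℚ K).injective, ← h2]
      exact RingOfIntegers.isIntegral_coe x
    obtain ⟨n, hn⟩ := IsIntegrallyClosed.isIntegral_iff.mp h3
    refine ⟨n, ?_⟩
    have h4 : (a : ℚ) = N * n := by
      rw [show ((n : ℤ) : ℚ) = (a : ℚ) / N from by simpa using hn]
      field_simp
    exact_mod_cast h4

/-! ### The form `F` -/

variable {σ : K →+* ℂ} {s : 𝓞 K} {M : ℕ} (Φ : KForm σ s M)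

omit [NumberField K] in
lemma F_smul (A : GL (Fin 2) (𝓞 K)) (h : (M : 𝓞 K) ∣ A 1 0) (P : H3) :
    Φ.F (Matrix.GeneralLinearGroup.map (σO σ) A • P) = Φ.F P :=
  Φ.inv _ h P

omit [NumberField K] in
lemma F_translate (b : 𝓞 K) (P : H3) :
    Φ.F (H3.ut 1 (σO σ b) 1 one_ne_zero one_ne_zero • P) = Φ.F P := by
  have h1 : Matrix.GeneralLinearGroup.map (σO σ) (Matrix.GeneralLinearGroup.mk'' !![1, b; 0, 1]
      (by simp)) = H3.ut 1 (σO σ b) 1 one_ne_zero one_ne_zero := by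
    apply Units.ext
    rw [H3.coe_ut]
    ext i j
    fin_cases i <;> fin_cases j <;> simp
  rw [← h1]
  exact F_smul Φ _ (by simp) P

omit [NumberField K] in
lemma F_ut_congr {ϖ b b' : 𝓞 K} (hϖ : σO σ ϖ ≠ 0) (h : ϖ ∣ b' - b) (P : H3) :
    Φ.F (H3.ut 1 (σO σ b') (σO σ ϖ) one_ne_zero hϖ • P) =
      Φ.F (H3.ut 1 (σO σ b) (σO σ ϖ) one_ne_zero hϖ • P) := by
  obtain ⟨c, hc⟩ := h
  have h1 : H3.ut 1 (σO σ b') (σO σ ϖ) one_ne_zero hϖ =
      H3.ut 1 (σO σ c) 1 one_ne_zero one_ne_zero * H3.ut 1 (σO σ b) (σO σ ϖ) one_ne_zero hϖ := by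
    apply Units.ext
    rw [Units.val_mul, H3.coe_ut, H3.coe_ut, H3.coe_ut, Matrix.mul_fin_two]
    have h2 : b' = b + c * ϖ := by rw [mul_comm c, ← hc, add_sub_cancel]
    rw [h2, map_add, map_mul]
    simp
  rw [h1, mul_smul, F_translate]

omit [NumberField K] in
lemma F_GamU {U : Subgroup (𝓞 K)ˣ} {γ : GL (Fin 2) ℂ} (hγ : γ ∈ GamU (σO σ) (3 * M) U)
    (P : H3) : Φ.F (γ • P) = Φ.F P := by
  obtain ⟨A, hA, rfl⟩ := hγ
  exact F_smul Φ A ((dvd_mul_left (M : 𝓞 K) 3).trans (by exact_mod_cast hA.2.1)) P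

omit [NumberField K] in
lemma F_GamD {γ : GL (Fin 2) ℂ} (hγ : γ ∈ GamD (σO σ) (3 * M)) (P : H3) :
    Φ.F (γ • P) = Φ.F P := by
  rw [GamD_eq_GamU] at hγ
  exact F_GamU Φ hγ P

section Split

variable [StarRing (𝓞 K)] {p : ℕ} [hp : Fact p.Prime] (D : SplitPrime (𝓞 K) p)

lemma SplitPrime.prime_π : Prime D.π := by
  refine ⟨D.π_ne, fun h => ?_, fun a b h => ?_⟩
  · obtain ⟨u, hu⟩ := h
    exact D.not_unit (x := ((u⁻¹ : (𝓞 K)ˣ) : 𝓞 K)) (by rw [← hu, Units.mul_inv])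
  · rw [← D.ker, map_mul, mul_eq_zero] at h
    rwa [← D.ker, ← D.ker]

omit [NumberField K] in
lemma SplitPrime.not_dvd_natCast {m : ℕ} (hm : ¬ p ∣ m) : ¬ D.π ∣ (m : 𝓞 K) := by
  rw [← D.ker, map_natCast, ZMod.natCast_eq_zero_iff]
  exact hm

variable {ι : Type} [Fintype ι] {t : ι → ℤ} (ht : Function.Bijective fun i => (t i : ZMod p))

include ht in
omit [NumberField K] [Fintype ι] in
lemma SplitPrime.bijective_mk :
    Function.Bijective fun i => Ideal.Quotient.mk (Ideal.span {D.π}) (t i : 𝓞 K) := by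
  constructor
  · intro i j h
    simp only at h
    rw [Ideal.Quotient.mk_eq_mk_iff_sub_mem, Ideal.mem_span_singleton, ← D.ker, map_sub,
      map_intCast, map_intCast, sub_eq_zero] at h
    exact ht.1 h
  · intro x
    obtain ⟨a, rfl⟩ := Ideal.Quotient.mk_surjective x
    obtain ⟨i, hi⟩ := ht.2 (D.r a)
    refine ⟨i, ?_⟩
    simp only at hi ⊢
    rw [Ideal.Quotient.mk_eq_mk_iff_sub_mem, Ideal.mem_span_singleton, ← D.ker, map_sub,
      map_intCast, hi, sub_self]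

include ht in
/-- The eigenvalue equation of `F` with the representatives `alp`. -/
theorem sum_alpG (hσ : ∀ x, σO σ (star x) = conj (σO σ x)) (hM : ¬ p ∣ M) (P : H3) :
    ∑ i, Φ.F (D.alpG t hσ i • P) = Real.sqrt p * ((Φ.lam D.π : ℝ) : ℂ) * Φ.F P := by
  have hπ : σO σ D.π ≠ 0 := D.σπ_ne hσ
  have h1 := Φ.heckeT D.π D.prime_π (D.not_dvd_natCast hM) hπ P
  rw [Fintype.sum_option]
  have h2 : D.alpG t hσ none = H3.ut (σO σ D.π) 0 1 hπ one_ne_zero := by
    apply Units.ext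
    rw [D.coe_alpG, H3.coe_ut]
    ext i j
    fin_cases i <;> fin_cases j <;> simp [SplitPrime.alp]
  have h3 : ∀ i, D.alpG t hσ (some i) = H3.ut 1 (σO σ (t i : 𝓞 K)) (σO σ D.π) one_ne_zero hπ := by
    intro i
    apply Units.ext
    rw [D.coe_alpG, H3.coe_ut]
    ext i j
    fin_cases i <;> fin_cases j <;> simp [SplitPrime.alp]
  have h4 : (∑ᶠ j : 𝓞 K ⧸ Ideal.span {D.π},
      Φ.F (H3.ut 1 (σ ((Quotient.out j : 𝓞 K) : K)) (σ (D.π : K)) one_ne_zero hπ • P)) =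
      ∑ i, Φ.F (D.alpG t hσ (some i) • P) := by
    rw [← finsum_eq_sum_of_fintype]
    refine (finsum_eq_of_bijective _ (D.bijective_mk ht) fun i => ?_).symm
    rw [h3]
    refine (F_ut_congr Φ hπ ?_ P).symm
    have h5 : Ideal.Quotient.mk (Ideal.span {D.π})
        (Quotient.out (Ideal.Quotient.mk (Ideal.span {D.π}) (t i : 𝓞 K))) =
        Ideal.Quotient.mk (Ideal.span {D.π}) (t i : 𝓞 K) := Quotient.out_eq _
    rwa [Ideal.Quotient.mk_eq_mk_iff_sub_mem, Ideal.mem_span_singleton] at h5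
  rw [h4] at h1
  rw [h2]
  refine h1.trans ?_
  rw [← σO_apply, D.norm_π hσ]
  push_cast
  ring

/-- The weight-one function attached to `F`. -/
def fK (DN : NTData (𝓞 K)) (w : H3 → ℝ≥0∞) (z : ℂ) : ℂ :=
  lift DN (σO σ) (3 * M) ((volume : Measure H3).withDensity w) Φ.F z

/-- **`T_p f = λ(π) f`.** -/
theorem hecke_fK {U : Subgroup (𝓞 K)ˣ} (DN : NTData (𝓞 K)) (hσ : ∀ x, σO σ (star x) = conj (σO σ x))
    (hM : ¬ p ∣ 3 * M) {w : H3 → ℝ≥0∞} (hw : IsWeight (GamU (σO σ) (3 * M) U) w)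
    (hs : ∀ (P : H3) (z : ℂ), 0 < z.im →
      Summable fun X : ℤ × 𝓞 K × ℤ => cN (3 * M) X * kern (DN.q X) (lin (σO σ) X P) z)
    (hΘ : ∀ z : ℂ, 0 < z.im → Measurable (DN.theta (σO σ) (cN (3 * M)) z))
    (hΘi : ∀ z : ℂ, 0 < z.im → Integrable (DN.theta (σO σ) (cN (3 * M)) z)
      ((volume : Measure H3).withDensity w)) {z : ℂ} (hz : 0 < z.im) :
    (p : ℂ)⁻¹ * ∑ j : Fin p, fK Φ DN w ((z + (j : ℕ)) / p) + fK Φ DN w (p * z) =
      ((Φ.lam D.π : ℝ) : ℂ) * fK Φ DN w z := by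
  obtain rfl : D.toNT = DN := Subsingleton.elim _ _
  have hN : (3 * M).Coprime p := ((Nat.Prime.coprime_iff_not_dvd hp.out).mpr hM).symm
  have : NeZero p := ⟨hp.out.ne_zero⟩
  -- representatives divisible by `3 M`
  let t : Fin p → ℤ := fun j => ((3 * M : ℕ) : ℤ) * (j : ℕ)
  have ht : Function.Bijective fun i : Fin p => (t i : ZMod p) := by
    have hu : IsUnit (((3 * M : ℕ) : ZMod p)) := by
      rw [isUnit_iff_ne_zero, Ne, ZMod.natCast_eq_zero_iff]
      exact hM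
    rw [Fintype.bijective_iff_injective_and_card]
    refine ⟨fun i j h => ?_, by rw [Fintype.card_fin, ZMod.card]⟩
    simp only [t] at h
    push_cast at h hu
    have h1 := hu.mul_left_cancel h
    rw [ZMod.natCast_eq_natCast_iff', Nat.mod_eq_of_lt i.2, Nat.mod_eq_of_lt j.2] at h1
    exact Fin.ext h1
  have htN : ∀ i, ((3 * M : ℕ) : ℤ) ∣ t i := fun i => dvd_mul_right _ _
  obtain ⟨B, hB⟩ := Φ.bdd
  have hFm : Measurable Φ.F := Φ.cont.measurable
  have hbd : ∀ {G : H3 → H3}, Continuous G → ∀ {z : ℂ}, 0 < z.im → Integrable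
      (fun P => Φ.F (G P) * D.toNT.theta (σO σ) (cN (3 * M)) z P)
      ((volume : Measure H3).withDensity w) := by
    intro G hG z hz
    exact (hΘi z hz).bdd_mul (c := B) (Φ.cont.comp hG).measurable.aestronglyMeasurable
      (Filter.Eventually.of_forall fun P => hB _)
  exact D.hecke_lift t hσ (σO_injective σ) hN ht htN (fun a h => dvd_of_dvd_O h) hw hFm
    (fun γ hγ P => F_GamU Φ hγ P)
    (sum_alpG Φ D ht hσ (fun h => hM (h.mul_left 3))) hs hΘ
    (fun z hz => hbd continuous_id hz) (fun z hz i => hbd (continuous_const_smul _) hz) hz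

end Split

end Theta31

end Fermat.Agent.LT
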