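import Fermat.Agent.LT.Theta31.Gauss1

/-!
# A bound for the Gaussian sums over Hermitian lattices

`majC a b d ζ h = |b - d ζ|² + A² / (2 h²) + d² h² / 2` with `A = a - 2 Re (b ζ̄) + d |ζ|²`.
-/

set_option autoImplicit false

noncomputable section

open ENNReal

namespace Fermat.Agent.LT.Theta31

open Gauss1

/-- The majorant of `|b|² - a d`: `|b - d ζ|² + A² / (2 h²) + d² h² / 2` with
`A = a - 2 Re (b ζ̄) + d |ζ|²`. -/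
def majC (a : ℝ) (b : ℂ) (d : ℝ) (ζ : ℂ) (h : ℝ) : ℝ :=
  ‖b - d * ζ‖ ^ 2 + (a - 2 * (b * (starRingEnd ℂ) ζ).re + d * ‖ζ‖ ^ 2) ^ 2 / (2 * h ^ 2) +
    d ^ 2 * h ^ 2 / 2

/-- The bound for the one-dimensional sums. -/
def gB (κ : ℝ) : ℝ := gC * (1 + 1 / √κ)

lemma gB_nonneg (κ : ℝ) : 0 ≤ gB κ := mul_nonneg gC_nonneg (by positivity)

/-- Bound for the Gaussian sum over a lattice of Hermitian matrices. -/
theorem tsum_majC_le {κ α δ c h : ℝ} (hκ : 0 < κ) (hα : 0 < α) (hδ : 0 < δ) (hc : 0 < c)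
    (hh : 0 < h) {β₁ β₂ : ℂ} (hβ : ∀ u v : ℝ, c * (u ^ 2 + v ^ 2) ≤ ‖(u : ℂ) * β₁ + v * β₂‖ ^ 2)
    (hspan : ∀ w : ℂ, ∃ u v : ℝ, w = (u : ℂ) * β₁ + v * β₂) (ζ : ℂ) :
    ∑' k : ℤ, ∑' n₁ : ℤ, ∑' n₂ : ℤ, ∑' m : ℤ, ENNReal.ofReal (Real.exp
      (-(κ * majC (α * m) (n₁ * β₁ + n₂ * β₂) (δ * k) ζ h))) ≤
      ENNReal.ofReal (gB (κ * α ^ 2 / (2 * h ^ 2))) *
        ENNReal.ofReal (gB (κ * c)) * ENNReal.ofReal (gB (κ * c)) *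
        ENNReal.ofReal (gB (κ * (δ ^ 2 * h ^ 2 / 2))) := by
  have key : ∀ k : ℤ, ∃ u₀ v₀ : ℝ, ∀ n₁ n₂ : ℤ, ∃ s₀ : ℝ, ∀ m : ℤ,
      ENNReal.ofReal (Real.exp (-(κ * majC (α * m) (n₁ * β₁ + n₂ * β₂) (δ * k) ζ h))) ≤
      ENNReal.ofReal (Real.exp (-((κ * α ^ 2 / (2 * h ^ 2)) * (m + s₀) ^ 2))) *
      ENNReal.ofReal (Real.exp (-((κ * c) * (n₂ + v₀) ^ 2))) *
      ENNReal.ofReal (Real.exp (-((κ * c) * (n₁ + u₀) ^ 2))) *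
      ENNReal.ofReal (Real.exp (-((κ * (δ ^ 2 * h ^ 2 / 2)) * (k + 0) ^ 2))) := by
    intro k
    obtain ⟨u₀, v₀, huv⟩ := hspan (-((δ * k : ℝ) * ζ))
    refine ⟨u₀, v₀, fun n₁ n₂ => ?_⟩
    refine ⟨(-2 * (((n₁ : ℂ) * β₁ + n₂ * β₂) * (starRingEnd ℂ) ζ).re + (δ * k) * ‖ζ‖ ^ 2) / α,
      fun m => ?_⟩
    rw [← ENNReal.ofReal_mul (Real.exp_pos _).le, ← ENNReal.ofReal_mul (by positivity),
      ← ENNReal.ofReal_mul (by positivity), ← Real.exp_add, ← Real.exp_add, ← Real.exp_add]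
    refine ENNReal.ofReal_le_ofReal (Real.exp_le_exp.mpr ?_)
    have h1 : c * ((n₁ + u₀) ^ 2 + (n₂ + v₀) ^ 2) ≤
        ‖((n₁ : ℂ) * β₁ + n₂ * β₂) - (δ * k : ℝ) * ζ‖ ^ 2 := by
      have := hβ (n₁ + u₀) (n₂ + v₀)
      have h2 : ((n₁ : ℂ) * β₁ + n₂ * β₂) - (δ * k : ℝ) * ζ =
          ((n₁ + u₀ : ℝ) : ℂ) * β₁ + ((n₂ + v₀ : ℝ) : ℂ) * β₂ := by
        rw [sub_eq_add_neg, huv]
        push_cast
        ring
      rw [h2]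
      exact this
    rw [majC]
    have h3 := mul_le_mul_of_nonneg_left h1 hκ.le
    have h4 : (α * m - 2 * (((n₁ : ℂ) * β₁ + n₂ * β₂) * (starRingEnd ℂ) ζ).re +
        δ * k * ‖ζ‖ ^ 2) ^ 2 / (2 * h ^ 2) = (α ^ 2 / (2 * h ^ 2)) * (m +
        (-2 * (((n₁ : ℂ) * β₁ + n₂ * β₂) * (starRingEnd ℂ) ζ).re + (δ * k) * ‖ζ‖ ^ 2) / α) ^ 2 := by
      field_simp
      ring
    rw [h4]
    generalize (m + (-2 * (((n₁ : ℂ) * β₁ + n₂ * β₂) * (starRingEnd ℂ) ζ).re +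
      (δ * k) * ‖ζ‖ ^ 2) / α : ℝ) = T
    generalize ‖((n₁ : ℂ) * β₁ + n₂ * β₂) - (δ * k : ℝ) * ζ‖ ^ 2 = N at h3 ⊢
    have h6 : κ * (N + α ^ 2 / (2 * h ^ 2) * T ^ 2 + (δ * k) ^ 2 * h ^ 2 / 2) =
        κ * N + κ * α ^ 2 / (2 * h ^ 2) * T ^ 2 + κ * (δ ^ 2 * h ^ 2 / 2) * (k + 0) ^ 2 := by
      ring
    rw [h6]
    linarith
  choose u₀ v₀ hk using key
  choose s₀ hs using hk
  calc _ ≤ ∑' k : ℤ, ∑' n₁ : ℤ, ∑' n₂ : ℤ, ∑' m : ℤ,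
        ENNReal.ofReal (Real.exp (-((κ * α ^ 2 / (2 * h ^ 2)) * (m + s₀ k n₁ n₂) ^ 2))) *
        ENNReal.ofReal (Real.exp (-((κ * c) * (n₂ + v₀ k) ^ 2))) *
        ENNReal.ofReal (Real.exp (-((κ * c) * (n₁ + u₀ k) ^ 2))) *
        ENNReal.ofReal (Real.exp (-((κ * (δ ^ 2 * h ^ 2 / 2)) * (k + 0) ^ 2))) :=
      ENNReal.tsum_le_tsum fun k => ENNReal.tsum_le_tsum fun n₁ => ENNReal.tsum_le_tsum fun n₂ =>
        ENNReal.tsum_le_tsum fun m => hs k n₁ n₂ m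
    _ ≤ _ := by
      have hq1 : 0 < κ * α ^ 2 / (2 * h ^ 2) := by positivity
      have hq2 : 0 < κ * c := by positivity
      have hq3 : 0 < κ * (δ ^ 2 * h ^ 2 / 2) := by positivity
      simp only [ENNReal.tsum_mul_right]
      calc _ ≤ ∑' k : ℤ, ((∑' n₁ : ℤ, (∑' n₂ : ℤ,
            ENNReal.ofReal (gB (κ * α ^ 2 / (2 * h ^ 2))) *
            ENNReal.ofReal (Real.exp (-((κ * c) * (n₂ + v₀ k) ^ 2)))) *
            ENNReal.ofReal (Real.exp (-((κ * c) * (n₁ + u₀ k) ^ 2)))) *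
            ENNReal.ofReal (Real.exp (-((κ * (δ ^ 2 * h ^ 2 / 2)) * (k + 0) ^ 2)))) := by
            refine ENNReal.tsum_le_tsum fun k => mul_le_mul_left ?_ _
            refine ENNReal.tsum_le_tsum fun n₁ => mul_le_mul_left ?_ _
            refine ENNReal.tsum_le_tsum fun n₂ => mul_le_mul_left ?_ _
            exact tsum_gauss_le_sqrt hq1 _
        _ ≤ ∑' k : ℤ, (ENNReal.ofReal (gB (κ * α ^ 2 / (2 * h ^ 2))) *
            ENNReal.ofReal (gB (κ * c)) * ENNReal.ofReal (gB (κ * c)) *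
            ENNReal.ofReal (Real.exp (-((κ * (δ ^ 2 * h ^ 2 / 2)) * (k + 0) ^ 2)))) := by
            refine ENNReal.tsum_le_tsum fun k => mul_le_mul_left ?_ _
            simp only [ENNReal.tsum_mul_left]
            refine mul_le_mul' (mul_le_mul_right (tsum_gauss_le_sqrt hq2 _) _)
              (tsum_gauss_le_sqrt hq2 _)
        _ ≤ _ := by
            rw [ENNReal.tsum_mul_left]
            exact mul_le_mul_right (tsum_gauss_le_sqrt hq3 _) _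

end Fermat.Agent.LT.Theta31

end
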