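import Fermat.Agent.LT.Theta31.Reduce
import Fermat.Agent.LT.Theta31.LatBound
import Fermat.Agent.LT.Theta31.HeckeF

/-!
# The action of `GL₂(O)` on integral Hermitian matrices

`O = ℤ[ω]`, embedded in `ℂ` by `σ`; an integral Hermitian matrix `(a, b; b̄, d)` is the triple
`(a, b, d) : ℤ × O × ℤ`, with the action `NTData.actM`.
-/

set_option autoImplicit false

noncomputable section

open Matrix Complex MeasureTheory ENNReal
open scoped ComplexConjugate

namespace Fermat.Agent.LT.Theta31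

variable {O : Type*} [CommRing O] [StarRing O] (D : NTData O) {σ : O →+* ℂ}
  (hσ : ∀ x, σ (star x) = conj (σ x)) (h : EisEmb σ)

lemma q_eq_real (hσ : ∀ x, σ (star x) = conj (σ x)) (X : ℤ × O × ℤ) :
    ((D.q X : ℤ) : ℝ) = normSq (σ X.2.1) - X.1 * X.2.2 := by
  have h1 := D.map_nrm hσ X.2.1
  rw [Complex.mul_conj] at h1
  have h2 : ((D.nrm X.2.1 : ℤ) : ℝ) = normSq (σ X.2.1) := by exact_mod_cast h1
  rw [NTData.q]
  push_cast
  rw [h2]

/-- the majorant -/
lemma majC_eq (hσ : ∀ x, σ (star x) = conj (σ x)) (X : ℤ × O × ℤ) (P : H3) :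
    majC X.1 (σ X.2.1) X.2.2 P.z P.y = D.q X + 2 * lin σ X P ^ 2 := by
  have hy := P.y_ne
  have h1 : ‖σ X.2.1 - X.2.2 * P.z‖ ^ 2 = normSq (σ X.2.1) -
      2 * X.2.2 * (σ X.2.1 * conj P.z).re + (X.2.2 : ℝ) ^ 2 * normSq P.z := by
    rw [← normSq_eq_norm_sq]
    simp only [normSq_apply, sub_re, sub_im, mul_re, mul_im, conj_re, conj_im, intCast_re,
      intCast_im]
    ring
  have h2 : ((X.2.2 : ℝ) : ℂ) = (X.2.2 : ℂ) := by push_cast; rfl
  rw [majC, q_eq_real D hσ, lin, h2, h1, ← normSq_eq_norm_sq]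
  field_simp
  ring

/-- The action of `GL₂(O)` on integral Hermitian matrices. -/
@[reducible] def hermAct (hσ : ∀ x, σ (star x) = conj (σ x)) (hi : Function.Injective σ) :
    MulAction (GL (Fin 2) O) (ℤ × O × ℤ) where
  smul g X := D.actM (g : Matrix (Fin 2) (Fin 2) O) X
  one_smul X := by
    show D.actM ((1 : GL (Fin 2) O) : Matrix (Fin 2) (Fin 2) O) X = X
    rw [Units.val_one, D.actM_one hσ hi]
  mul_smul g g' X := by
    show D.actM ((g * g' : GL (Fin 2) O) : Matrix (Fin 2) (Fin 2) O) X =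
      D.actM (g : Matrix (Fin 2) (Fin 2) O) (D.actM (g' : Matrix (Fin 2) (Fin 2) O) X)
    rw [Units.val_mul, D.actM_mul hσ hi]

include hσ h in
lemma q_actM_gl (g : GL (Fin 2) O) (X : ℤ × O × ℤ) :
    D.q (D.actM (g : Matrix (Fin 2) (Fin 2) O) X) = D.q X := by
  have := h.charZero
  have h1 : D.nrm (g : Matrix (Fin 2) (Fin 2) O).det = 1 := by
    have h2 := D.map_nrm hσ (g : Matrix (Fin 2) (Fin 2) O).det
    rw [Complex.mul_conj, normSq_eq_norm_sq] at h2
    have h3 : ‖σ (g : Matrix (Fin 2) (Fin 2) O).det‖ = 1 :=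
      h.unit (Matrix.GeneralLinearGroup.det g)
    rw [h3] at h2
    have h4 : ((D.nrm (g : Matrix (Fin 2) (Fin 2) O).det : ℤ) : ℂ) = ((1 : ℤ) : ℂ) := by
      rw [h2]
      norm_num
    exact_mod_cast h4
  rw [D.q_actM, h1, one_mul]

include hσ h in
lemma lin_actM_gl (g : GL (Fin 2) O) (X : ℤ × O × ℤ) (P : H3) :
    lin σ (D.actM (g : Matrix (Fin 2) (Fin 2) O) X) (gl σ g • P) = lin σ X P := by
  rw [D.lin_actM hσ (g : Matrix (Fin 2) (Fin 2) O) (g := gl σ g) rfl, adet_gl h, one_mul]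

omit [StarRing O] in
lemma continuous_lin (X : ℤ × O × ℤ) : Continuous (lin σ X) := by
  unfold lin
  refine Continuous.div ?_ (by fun_prop) fun P => ?_
  · have h1 : Continuous fun P : H3 => (σ X.2.1 * conj P.z).re := by fun_prop
    fun_prop
  · have := P.y_ne
    positivity

end Fermat.Agent.LT.Theta31

end
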