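import Fermat.Agent.LT.Theta31.Congr

/-!
# The isotropic terms of the theta integral vanish
-/

set_option autoImplicit false

noncomputable section

open Matrix Complex MeasureTheory ENNReal
open scoped ComplexConjugate

namespace Fermat.Agent.LT.Theta31

/-- indicator of `[0, 1)` -/
def psi (x : ℝ) : ℝ≥0∞ := (Set.Ico (0 : ℝ) 1).indicator 1 x

lemma psi_le_one (x : ℝ) : psi x ≤ 1 := Set.indicator_le_self' (fun _ _ => zero_le_one) x

lemma measurable_psi : Measurable psi := measurable_one.indicator measurableSet_Ico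

lemma psi_toReal (x : ℝ) : (psi x).toReal = (Set.Ico (0 : ℝ) 1).indicator 1 x := by
  unfold psi
  by_cases h : x ∈ Set.Ico (0 : ℝ) 1
  · rw [Set.indicator_of_mem h, Set.indicator_of_mem h]
    simp
  · rw [Set.indicator_of_notMem h, Set.indicator_of_notMem h]
    simp

lemma tsum_psi (x : ℝ) : ∑' m : ℤ, psi (x + m) = 1 := by
  rw [tsum_eq_single (-⌊x⌋)]
  · unfold psi
    rw [Set.indicator_of_mem]
    · rfl
    · push_cast
      constructor
      · linarith [Int.floor_le x]
      · linarith [Int.lt_floor_add_one x]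
  · intro m hm
    unfold psi
    refine Set.indicator_of_notMem (fun h => hm ?_) _
    have h1 : ⌊x + m⌋ = 0 := Int.floor_eq_iff.mpr (by simpa using h)
    rw [Int.floor_add_intCast] at h1
    omega

/-- The lattice coordinates of a complex number with respect to `N`, `N s`. -/
def co₂ (N : ℝ) (s z : ℂ) : ℝ := z.im / (N * s.im)

/-- The lattice coordinates of a complex number with respect to `N`, `N s`. -/
def co₁ (N : ℝ) (s z : ℂ) : ℝ := z.re / N - co₂ N s z * s.re

section Plane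

variable {N : ℝ} {s : ℂ}

lemma co_combine (hN : N ≠ 0) (hs : s.im ≠ 0) (x x' : ℝ) :
    co₁ N s (N * (x + x' * s)) = x ∧ co₂ N s (N * (x + x' * s)) = x' := by
  have h2 : co₂ N s (N * (x + x' * s)) = x' := by
    unfold co₂
    simp
    field_simp
  refine ⟨?_, h2⟩
  unfold co₁
  rw [h2]
  simp
  field_simp
  ring

lemma co_add (hN : N ≠ 0) (hs : s.im ≠ 0) (z : ℂ) (m n : ℤ) :
    co₁ N s (z + N * (m + n * s)) = co₁ N s z + m ∧
      co₂ N s (z + N * (m + n * s)) = co₂ N s z + n := by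
  have h2 : co₂ N s (z + N * (m + n * s)) = co₂ N s z + n := by
    unfold co₂
    simp
    field_simp
  refine ⟨?_, h2⟩
  unfold co₁
  rw [h2]
  simp
  field_simp
  ring

lemma continuous_co₁ : Continuous (co₁ N s) := by
  unfold co₁ co₂
  fun_prop

lemma continuous_co₂ : Continuous (co₂ N s) := by
  unfold co₂
  fun_prop

lemma re_combine (x x' : ℝ) : ((N : ℂ) * (x + x' * s)).re = N * (x + x' * s.re) := by
  simp

lemma im_combine (x x' : ℝ) : ((N : ℂ) * (x + x' * s)).im = N * (x' * s.im) := by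
  simp

lemma co_right (hN : N ≠ 0) (hs : s.im ≠ 0) (z : ℂ) :
    (N : ℂ) * (co₁ N s z + co₂ N s z * s) = z := by
  apply Complex.ext
  · rw [re_combine]
    unfold co₁ co₂
    field_simp
    ring
  · rw [im_combine]
    unfold co₂
    field_simp

/-- the linear equivalence `(x, x') ↦ N (x + x' s)` -/
def linE (hN : N ≠ 0) (hs : s.im ≠ 0) : (ℝ × ℝ) ≃L[ℝ] ℂ :=
  ({ toFun := fun p => N * (p.1 + p.2 * s)
     invFun := fun z => (co₁ N s z, co₂ N s z)
     map_add' := fun p q => by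
       push_cast [Prod.fst_add, Prod.snd_add]
       ring
     map_smul' := fun c p => by
       simp only [Prod.smul_fst, Prod.smul_snd, smul_eq_mul, RingHom.id_apply, real_smul]
       push_cast
       ring
     left_inv := fun p => Prod.ext (co_combine hN hs p.1 p.2).1 (co_combine hN hs p.1 p.2).2
     right_inv := fun z => co_right hN hs z } : (ℝ × ℝ) ≃ₗ[ℝ] ℂ).toContinuousLinearEquiv

lemma linE_apply (hN : N ≠ 0) (hs : s.im ≠ 0) (p : ℝ × ℝ) :
    linE hN hs p = N * (p.1 + p.2 * s) := rfl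

/-- The integral over the fundamental parallelogram as a double integral. -/
theorem integral_parallelogram (hN : N ≠ 0) (hs : s.im ≠ 0) {Φ : ℂ → ℂ} (hΦ : Continuous Φ)
    (h0 : ∫ x in (0 : ℝ)..1, ∫ x' in (0 : ℝ)..1, Φ (N * (x + x' * s)) = 0) :
    ∫ z, (psi (co₁ N s z) * psi (co₂ N s z)).toReal • Φ z = 0 := by
  let E := linE hN hs
  have hEmeas : MeasurableEmbedding E := E.toHomeomorph.measurableEmbedding
  have : (Measure.map E volume).IsAddHaarMeasure := E.isAddHaarMeasure_map _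
  have hvol := Measure.isAddLeftInvariant_eq_smul (volume : Measure ℂ) (Measure.map E volume)
  rw [hvol, integral_smul_nnreal_measure, hEmeas.integral_map]
  refine smul_eq_zero_of_right _ ?_
  have h1 : ∀ p : ℝ × ℝ, (psi (co₁ N s (E p)) * psi (co₂ N s (E p))).toReal • Φ (E p) =
      (Set.Ico (0 : ℝ) 1 ×ˢ Set.Ico (0 : ℝ) 1).indicator
        (fun p : ℝ × ℝ => Φ (N * (p.1 + p.2 * s))) p := by
    rintro ⟨x, x'⟩
    rw [linE_apply, (co_combine hN hs x x').1, (co_combine hN hs x x').2, ENNReal.toReal_mul,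
      psi_toReal, psi_toReal]
    by_cases hx : x ∈ Set.Ico (0 : ℝ) 1
    · by_cases hx' : x' ∈ Set.Ico (0 : ℝ) 1
      · rw [Set.indicator_of_mem hx, Set.indicator_of_mem hx',
          Set.indicator_of_mem (Set.mk_mem_prod hx hx')]
        simp
      · have h' : (x, x') ∉ Set.Ico (0 : ℝ) 1 ×ˢ Set.Ico (0 : ℝ) 1 := fun h => hx' h.2
        rw [Set.indicator_of_notMem hx', Set.indicator_of_notMem h']
        simp
    · have h' : (x, x') ∉ Set.Ico (0 : ℝ) 1 ×ˢ Set.Ico (0 : ℝ) 1 := fun h => hx h.1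
      rw [Set.indicator_of_notMem hx, Set.indicator_of_notMem h']
      simp
  have hcont : Continuous fun p : ℝ × ℝ => Φ (N * (p.1 + p.2 * s)) := by
    fun_prop
  have hint : IntegrableOn (fun p : ℝ × ℝ => Φ (N * (p.1 + p.2 * s)))
      (Set.Ico (0 : ℝ) 1 ×ˢ Set.Ico (0 : ℝ) 1) :=
    (hcont.continuousOn.integrableOn_compact (isCompact_Icc.prod isCompact_Icc)).mono_set
      (Set.prod_mono Set.Ico_subset_Icc_self Set.Ico_subset_Icc_self)
  rw [integral_congr_ae (Filter.Eventually.of_forall h1),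
    integral_indicator (measurableSet_Ico.prod measurableSet_Ico), Measure.volume_eq_prod,
    setIntegral_prod _ hint]
  have h2 : ∀ x : ℝ, ∫ x' in Set.Ico (0 : ℝ) 1, Φ (N * (((x, x') : ℝ × ℝ).1 +
      ((x, x') : ℝ × ℝ).2 * s)) = ∫ x' in (0 : ℝ)..1, Φ (N * (x + x' * s)) := by
    intro x
    rw [intervalIntegral.integral_of_le zero_le_one, integral_Ico_eq_integral_Ioc]
  simp only [h2]
  rw [integral_Ico_eq_integral_Ioc, ← intervalIntegral.integral_of_le zero_le_one, h0]

end Plane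

/-! ### The translations in the stabiliser of an isotropic vector -/

section Vanish

variable {O : Type*} [CommRing O] {σ : O →+* ℂ}

lemma nO_add (x y : O) : nO (x + y) = nO x * nO y := by
  apply Units.ext
  rw [Units.val_mul]
  simp only [nO, Matrix.mul_fin_two]
  simp [add_comm]

lemma nO_zero : nO (0 : O) = 1 := by
  apply Units.ext
  simp [nO, Matrix.one_fin_two]

/-- the translations `γ⁻¹ n(N (m + n s)) γ` -/
def trHom (γ : GL (Fin 2) O) (N : ℕ) (s : O) : Multiplicative (ℤ × ℤ) →* GL (Fin 2) O where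
  toFun p := γ⁻¹ * nO (N * ((p.toAdd.1 : O) + p.toAdd.2 * s)) * γ
  map_one' := by simp [nO_zero]
  map_mul' p q := by
    have h1 : (N : O) * (((p * q).toAdd.1 : ℤ) + ((p * q).toAdd.2 : ℤ) * s) =
        N * ((p.toAdd.1 : O) + p.toAdd.2 * s) + N * ((q.toAdd.1 : O) + q.toAdd.2 * s) := by
      simp only [toAdd_mul, Prod.fst_add, Prod.snd_add]
      push_cast
      ring
    rw [h1, nO_add]
    group

lemma trHom_apply (γ : GL (Fin 2) O) (N : ℕ) (s : O) (p : Multiplicative (ℤ × ℤ)) :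
    trHom γ N s p = γ⁻¹ * nO (N * ((p.toAdd.1 : O) + p.toAdd.2 * s)) * γ := rfl

lemma trHom_mem_ker (γ : GL (Fin 2) O) (N : ℕ) (s : O) (p : Multiplicative (ℤ × ℤ)) :
    trHom γ N s p ∈ (redHom O N).ker := by
  have h1 : nO (N * ((p.toAdd.1 : O) + p.toAdd.2 * s)) ∈ (redHom O N).ker := by
    rw [mem_ker_redHom]
    simp [nO]
  have h2 := (redHom O N).normal_ker.conj_mem _ h1 γ⁻¹
  rw [inv_inv] at h2
  exact h2

lemma trHom_injective (γ : GL (Fin 2) O) {N : ℕ} (hN : N ≠ 0) {s : O}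
    (hs : (σ s).im ≠ 0) : Function.Injective (trHom γ N s) := by
  intro p q hpq
  rw [trHom_apply, trHom_apply] at hpq
  have h1 := mul_left_cancel (mul_right_cancel hpq)
  have h2 : (N : O) * ((p.toAdd.1 : O) + p.toAdd.2 * s) =
      N * ((q.toAdd.1 : O) + q.toAdd.2 * s) := by
    have h3 := congrArg (fun g : GL (Fin 2) O => (g : Matrix (Fin 2) (Fin 2) O) 0 1) h1
    simpa [nO] using h3
  have h4 := congrArg σ h2
  simp only [map_mul, map_add, map_intCast, map_natCast] at h4
  have hNC : (N : ℂ) ≠ 0 := by exact_mod_cast hN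
  have h5 := mul_left_cancel₀ hNC h4
  have h6 := congrArg Complex.im h5
  have h7 := congrArg Complex.re h5
  simp only [add_im, mul_im, intCast_im, intCast_re, zero_mul, add_zero, zero_add, add_re,
    mul_re, sub_zero] at h6 h7
  have h8 := mul_right_cancel₀ hs h6
  have h9 : p.toAdd.2 = q.toAdd.2 := by exact_mod_cast h8
  rw [h9] at h7
  have h10 : p.toAdd.1 = q.toAdd.1 := by exact_mod_cast (add_right_cancel h7)
  exact Multiplicative.toAdd.injective (Prod.ext h10 h9)

variable [StarRing O] (D : NTData O) (hσ : ∀ x, σ (star x) = conj (σ x)) (h : EisEmb σ)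

include hσ h in
lemma nO_act (x : O) (t : ℤ) :
    D.actM (nO x : Matrix (Fin 2) (Fin 2) O) (t, 0, 0) = (t, 0, 0) := by
  apply mat_injective h.inj
  rw [D.mat_actM hσ]
  have h1 : (nO x : Matrix (Fin 2) (Fin 2) O).map σ = !![1, σ x; 0, 1] := by
    ext i j
    fin_cases i <;> fin_cases j <;> simp [nO]
  rw [h1]
  ext i j
  fin_cases i <;> fin_cases j <;> simp [mat, Matrix.mul_apply, Fin.sum_univ_two]

include hσ h in
lemma trHom_act {γ : GL (Fin 2) O} {X : ℤ × O × ℤ} {t : ℤ}
    (hγ : D.actM (γ : Matrix (Fin 2) (Fin 2) O) X = (t, 0, 0)) (N : ℕ) (s : O)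
    (p : Multiplicative (ℤ × ℤ)) :
    D.actM (trHom γ N s p : Matrix (Fin 2) (Fin 2) O) X = X := by
  rw [trHom_apply, Units.val_mul, Units.val_mul, D.actM_mul hσ h.inj, D.actM_mul hσ h.inj, hγ,
    nO_act D hσ h, ← hγ, ← D.actM_mul hσ h.inj, ← Units.val_mul, inv_mul_cancel, Units.val_one,
    D.actM_one hσ h.inj]

/-- an element of `GL₂(O)` congruent to one modulo `M ≥ 3` which fixes `(t, 0; 0, 0)` is a
translation -/
lemma eq_nO_of_fix (hσ : ∀ x, σ (star x) = conj (σ x)) (h : EisEmb σ) {M : ℕ} (hM : 3 ≤ M)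
    {g : GL (Fin 2) O} (hg : g ∈ (redHom O M).ker) {t : ℤ} (ht : t ≠ 0)
    (hfix : D.actM (g : Matrix (Fin 2) (Fin 2) O) (t, 0, 0) = (t, 0, 0)) :
    g = nO (g 0 1) := by
  rw [mem_ker_redHom] at hg
  obtain ⟨h00, -, -, h11⟩ := hg
  have hmat := D.mat_actM hσ (g : Matrix (Fin 2) (Fin 2) O) (t, 0, 0)
  rw [hfix] at hmat
  have hgm : (g : Matrix (Fin 2) (Fin 2) O).map σ = !![σ (g 0 0), σ (g 0 1); σ (g 1 0), σ (g 1 1)] := by
    ext i j
    fin_cases i <;> fin_cases j <;> rfl
  rw [hgm] at hmat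
  have e00 := congrFun (congrFun hmat 0) 0
  have e11 := congrFun (congrFun hmat 1) 1
  simp only [mat, Matrix.mul_apply, Fin.sum_univ_two, Matrix.of_apply, Matrix.cons_val',
    Matrix.cons_val_zero, Matrix.cons_val_one, Matrix.conjTranspose_apply, map_zero,
    Int.cast_zero, mul_zero, add_zero, zero_mul] at e00 e11
  have htC : (t : ℂ) ≠ 0 := by exact_mod_cast ht
  have h10 : g 1 0 = 0 := by
    have h1 : σ (g 1 0) * star (σ (g 1 0)) = 0 := by
      refine mul_left_cancel₀ htC ?_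
      linear_combination -e11
    rw [← starRingEnd_apply, Complex.mul_conj] at h1
    have h2 := normSq_eq_zero.mp (by exact_mod_cast h1 : normSq (σ (g 1 0)) = 0)
    exact h.inj (by rw [h2, map_zero])
  have hn00 : ‖σ (g 0 0)‖ = 1 := by
    have h1 : σ (g 0 0) * star (σ (g 0 0)) = 1 := by
      refine mul_left_cancel₀ htC ?_
      linear_combination -e00
    rw [← starRingEnd_apply, Complex.mul_conj, normSq_eq_norm_sq] at h1
    have h2 : ‖σ (g 0 0)‖ ^ 2 = 1 := by exact_mod_cast h1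
    nlinarith [norm_nonneg (σ (g 0 0))]
  have h00' := unit_eq_one h hM hn00 h00
  have hdet : (g : Matrix (Fin 2) (Fin 2) O).det = g 1 1 := by
    rw [Matrix.det_fin_two, h10, h00', one_mul, mul_zero, sub_zero]
  have hn11 : ‖σ (g 1 1)‖ = 1 := by
    have := h.unit (Matrix.GeneralLinearGroup.det g)
    rwa [Matrix.GeneralLinearGroup.val_det_apply, hdet] at this
  have h11' := unit_eq_one h hM hn11 h11
  apply Units.ext
  ext i j
  fin_cases i <;> fin_cases j
  · exact h00'
  · rfl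
  · exact h10
  · exact h11'

omit [StarRing O] in
/-- a multiple of every element is in `ℤ + ℤ s` -/
lemma exists_mul_mem (h : EisEmb σ) {s : O} (hs : (σ s).im ≠ 0) :
    ∃ q : ℕ, q ≠ 0 ∧ ∀ x : O, ∃ m n : ℤ, (q : O) * x = m + n * s := by
  obtain ⟨ω, -, hgen⟩ := h.gen
  obtain ⟨a, b, hab⟩ := hgen s
  have hb : b ≠ 0 := by
    rintro rfl
    apply hs
    rw [hab]
    simp
  have key : ∀ x : O, ∃ m n : ℤ, (b : O) * x = m + n * s := by
    intro x
    obtain ⟨m, n, hmn⟩ := hgen x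
    refine ⟨b * m - n * a, n, ?_⟩
    rw [hmn]
    nth_rewrite 1 [hab]
    push_cast
    ring
  refine ⟨b.natAbs, Int.natAbs_ne_zero.mpr hb, fun x => ?_⟩
  obtain ⟨m, n, hmn⟩ := key x
  have h1 : ((b.natAbs : ℕ) : O) = (((b.natAbs : ℕ) : ℤ) : O) := (Int.cast_natCast _).symm
  rcases Int.natAbs_eq b with hb' | hb'
  · refine ⟨m, n, ?_⟩
    rw [h1, ← hb', hmn]
  · refine ⟨-m, -n, ?_⟩
    have h2 : ((b.natAbs : ℤ) : O) = -(b : O) := by
      rw [← Int.cast_neg]
      congr 1
      omega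
    rw [h1, h2, neg_mul, hmn]
    push_cast
    ring

/-- **The isotropic terms vanish.** -/
theorem integral_isotropic [IsDomain O] [IsPrincipalIdealRing O]
    (hσ : ∀ x, σ (star x) = conj (σ x)) (h : EisEmb σ) {N : ℕ} (hN : N ≠ 0)
    {G : Subgroup (GL (Fin 2) O)} (hG : (redHom O N).ker ≤ G) {F : H3 → ℂ} (hF : Continuous F)
    (hFi : ∀ g ∈ G, ∀ P, F (gl σ g • P) = F P) {s : O} (hs : (σ s).im ≠ 0)
    (hcusp : ∀ (g : GL (Fin 2) O) (y : ℝ) (hy : 0 < y), ∫ x in (0 : ℝ)..1, ∫ x' in (0 : ℝ)..1,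
      F (gl σ g • H3.mk (N * (x + x' * σ s)) y hy) = 0)
    {X : ℤ × O × ℤ} (hX : X ≠ 0) (hq : D.q X = 0) {k : ℝ → ℂ} (hk : Measurable k)
    {wX : H3 → ℝ≥0∞}
    (hw : letI := h3Act σ; letI := hermAct D hσ h.inj; IsWeight (MulAction.stabilizer G X) wX) :
    ∫ P, F P * k (lin σ X P) ∂volume.withDensity wX = 0 := by
  let _ := h3Act σ
  let _ := hermAct D hσ h.inj
  have _ := h.countable
  have : Countable (GL (Fin 2) O) := countable_gl
  have : MeasurableConstSMul (GL (Fin 2) O) H3 :=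
    ⟨fun g => (measurable_const_smul (gl σ g) : Measurable fun P : H3 => gl σ g • P)⟩
  have : SMulInvariantMeasure (GL (Fin 2) O) H3 volume :=
    ⟨fun g s hs => measure_preimage_smul_of_nullMeasurableSet hs.nullMeasurableSet (gl σ g)⟩
  obtain ⟨γ, t, ht, hγ⟩ := exists_isotropic D hσ h hX hq
  let S := MulAction.stabilizer G X
  have hNR : (N : ℝ) ≠ 0 := by exact_mod_cast hN
  -- the translations
  let φ : Multiplicative (ℤ × ℤ) →* S :=
    { toFun := fun p => ⟨⟨trHom γ N s p, hG (trHom_mem_ker γ N s p)⟩, trHom_act D hσ h hγ N s p⟩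
      map_one' := Subtype.ext (Subtype.ext (map_one _))
      map_mul' := fun p q => Subtype.ext (Subtype.ext (map_mul _ p q)) }
  have hφ : Function.Injective φ := fun p q hpq =>
    trHom_injective γ hN hs (congrArg (fun g : S => ((g : G) : GL (Fin 2) O)) hpq)
  let T := φ.range
  have hT : T.FiniteIndex := by
    obtain ⟨q, hq0, hqs⟩ := exists_mul_mem h hs
    let ψ : S →* GL (Fin 2) O := G.subtype.comp S.subtype
    have hM : 3 * N * q ≠ 0 := by positivity
    have := finiteIndex_ker h hM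
    have hfi : ((redHom O (3 * N * q)).ker.comap ψ).FiniteIndex :=
      inferInstanceAs (((redHom O (3 * N * q)).ker.subgroupOf G).subgroupOf S).FiniteIndex
    refine Subgroup.finiteIndex_of_le (H := (redHom O (3 * N * q)).ker.comap ψ) ?_
    intro g hg
    have hg1 : ψ g ∈ (redHom O (3 * N * q)).ker := hg
    have hg2 : γ * ψ g * γ⁻¹ ∈ (redHom O (3 * N * q)).ker :=
      (redHom O (3 * N * q)).normal_ker.conj_mem _ hg1 γ
    have hfixX : D.actM (ψ g : Matrix (Fin 2) (Fin 2) O) X = X := g.2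
    have hfix : D.actM ((γ * ψ g * γ⁻¹ : GL (Fin 2) O) : Matrix (Fin 2) (Fin 2) O) (t, 0, 0) =
        (t, 0, 0) := by
      rw [Units.val_mul, Units.val_mul, D.actM_mul hσ h.inj, D.actM_mul hσ h.inj, ← hγ,
        ← D.actM_mul hσ h.inj (γ⁻¹ : GL (Fin 2) O), ← Units.val_mul, inv_mul_cancel,
        Units.val_one, D.actM_one hσ h.inj, hfixX]
    have h3M : 3 ≤ 3 * N * q := by
      have : 1 ≤ N * q := Nat.one_le_iff_ne_zero.mpr (mul_ne_zero hN hq0)
      nlinarith
    have hnO := eq_nO_of_fix D hσ h h3M hg2 ht hfix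
    have hdvd := (mem_ker_redHom.mp hg2).2.1
    obtain ⟨x, hx⟩ := hdvd
    obtain ⟨m, n, hmn⟩ := hqs x
    refine ⟨Multiplicative.ofAdd (3 * m, 3 * n), Subtype.ext (Subtype.ext ?_)⟩
    show trHom γ N s _ = ψ g
    have h4 : (N : O) * (((3 * m : ℤ) : O) + ((3 * n : ℤ) : O) * s) =
        (γ * ψ g * γ⁻¹ : GL (Fin 2) O) 0 1 := by
      rw [hx]
      push_cast
      linear_combination (-3 * (N : O)) * hmn
    rw [trHom_apply]
    simp only [toAdd_ofAdd]
    rw [h4, ← hnO]
    group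
  -- the weight
  let w₀ : H3 → ℝ≥0∞ := fun P =>
    psi (co₁ N (σ s) (gl σ γ • P).z) * psi (co₂ N (σ s) (gl σ γ • P).z)
  have hw₀m : Measurable w₀ := by
    have h1 : Measurable fun P : H3 => (gl σ γ • P).z :=
      H3.measurable_z.comp (measurable_const_smul (gl σ γ))
    exact (measurable_psi.comp (continuous_co₁.measurable.comp h1)).mul
      (measurable_psi.comp (continuous_co₂.measurable.comp h1))
  have hw₀ : IsWeight T w₀ := by
    refine ⟨hw₀m, fun P => ?_⟩
    rw [← (MonoidHom.ofInjective hφ).toEquiv.tsum_eq (fun τ : T => w₀ (τ • P))]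
    have h1 : ∀ p : Multiplicative (ℤ × ℤ), w₀ ((MonoidHom.ofInjective hφ).toEquiv p • P) =
        psi (co₁ N (σ s) (gl σ γ • P).z + p.toAdd.1) *
          psi (co₂ N (σ s) (gl σ γ • P).z + p.toAdd.2) := by
      intro p
      have h2 : (MonoidHom.ofInjective hφ).toEquiv p • P = gl σ (trHom γ N s p) • P := rfl
      have h3 : gl σ γ • gl σ (trHom γ N s p) • P =
          gl σ (nO (N * ((p.toAdd.1 : O) + p.toAdd.2 * s))) • gl σ γ • P := by
        rw [← mul_smul, ← map_mul, trHom_apply, ← mul_smul, ← map_mul]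
        congr 2
        group
      have h4 : (gl σ γ • gl σ (trHom γ N s p) • P).z =
          (gl σ γ • P).z + (N : ℝ) * ((p.toAdd.1 : ℤ) + (p.toAdd.2 : ℤ) * σ s) := by
        rw [h3, gl_nO, H3.z_ut_smul]
        simp
      obtain ⟨h5, h6⟩ := co_add hNR hs (gl σ γ • P).z p.toAdd.1 p.toAdd.2
      show psi (co₁ N (σ s) (gl σ γ • (MonoidHom.ofInjective hφ).toEquiv p • P).z) *
        psi (co₂ N (σ s) (gl σ γ • (MonoidHom.ofInjective hφ).toEquiv p • P).z) = _
      rw [h2, h4, h5, h6]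
    rw [tsum_congr h1, ← Multiplicative.ofAdd.tsum_eq]
    simp only [toAdd_ofAdd]
    rw [ENNReal.tsum_prod' (f := fun p : ℤ × ℤ => psi (co₁ N (σ s) (gl σ γ • P).z + p.1) *
          psi (co₂ N (σ s) (gl σ γ • P).z + p.2))]
    simp only [ENNReal.tsum_mul_left, tsum_psi, mul_one]
  have hw₁ := IsWeight.over hw₀
  have hfm : Measurable fun P => F P * k (lin σ X P) :=
    hF.measurable.mul (hk.comp (continuous_lin X).measurable)
  have hfi : ∀ (g : S) P, F (g • P) * k (lin σ X (g • P)) = F P * k (lin σ X P) := by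
    intro g P
    have h1 : g • P = gl σ ((g : G) : GL (Fin 2) O) • P := rfl
    have h2 : lin σ X (gl σ ((g : G) : GL (Fin 2) O) • P) = lin σ X P := by
      have h3 : D.actM (((g : G) : GL (Fin 2) O) : Matrix (Fin 2) (Fin 2) O) X = X := g.2
      nth_rewrite 1 [← h3]
      exact lin_actM_gl D hσ h _ X P
    rw [h1, h2, hFi _ (g : G).2]
  rw [hw.integral_eq (μ := volume) hw₁ hfm hfi]
  set c : ℝ≥0∞ := (T.index : ℝ≥0∞)⁻¹ with hc
  have hc_top : c ≠ ∞ := ENNReal.inv_ne_top.mpr (by simpa using T.index_ne_zero_of_finite)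
  have hlt : ∀ P, c * w₀ P < ∞ := fun P => ENNReal.mul_lt_top hc_top.lt_top
    ((mul_le_one' (psi_le_one _) (psi_le_one _)).trans_lt one_lt_top)
  have hcm : Measurable fun P => c * w₀ P := measurable_const.mul hw₀m
  rw [integral_withDensity_eq_integral_toReal_smul hcm
    (Filter.Eventually.of_forall hlt), ← H3.integral_smul_eq _ (gl σ γ⁻¹)]
  -- the integrand after translation by `γ⁻¹`
  have hval : ∀ P : H3, (c * w₀ (gl σ γ⁻¹ • P)).toReal •
      (F (gl σ γ⁻¹ • P) * k (lin σ X (gl σ γ⁻¹ • P))) =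
      (psi (co₁ N (σ s) P.z) * psi (co₂ N (σ s) P.z)).toReal •
        (c.toReal * k (t / (2 * P.y)) * F (gl σ γ⁻¹ • P)) := by
    intro P
    have h1 : gl σ γ • gl σ γ⁻¹ • P = P := by
      rw [← mul_smul, ← map_mul, mul_inv_cancel, map_one, one_smul]
    have h2 : lin σ X (gl σ γ⁻¹ • P) = t / (2 * P.y) := by
      have h3 := lin_actM_gl D hσ h γ X (gl σ γ⁻¹ • P)
      rw [h1, hγ] at h3
      rw [← h3]
      simp [lin]
    simp only [w₀]
    rw [h1, h2, ENNReal.toReal_mul]
    simp only [real_smul]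
    push_cast
    ring
  rw [integral_congr_ae (Filter.Eventually.of_forall hval)]
  by_cases hint : Integrable fun P : H3 => (psi (co₁ N (σ s) P.z) * psi (co₂ N (σ s) P.z)).toReal •
        (c.toReal * k (t / (2 * P.y)) * F (gl σ γ⁻¹ • P))
  · rw [H3.integral_eq_iterated hint]
    refine setIntegral_eq_zero_of_forall_eq_zero fun y hy => ?_
    have hy' : (0 : ℝ) < y := hy
    have h1 : ∀ z : ℂ, (psi (co₁ N (σ s) (H3.ofPair (z, y)).z) *
        psi (co₂ N (σ s) (H3.ofPair (z, y)).z)).toReal •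
        (c.toReal * k (t / (2 * (H3.ofPair (z, y)).y)) * F (gl σ γ⁻¹ • H3.ofPair (z, y))) =
        (c.toReal * k (t / (2 * y))) * ((psi (co₁ N (σ s) z) * psi (co₂ N (σ s) z)).toReal •
          F (gl σ γ⁻¹ • H3.mk z y hy')) := by
      intro z
      rw [H3.ofPair_of_pos (show 0 < ((z, y) : ℂ × ℝ).2 from hy'), H3.z_mk, H3.y_mk]
      simp only [real_smul]
      ring
    simp only [h1]
    rw [integral_const_mul, integral_parallelogram hNR hs ?_ ?_, mul_zero, smul_zero]
    · refine hF.comp ((continuous_const_smul (gl σ γ⁻¹)).comp ?_)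
      refine H3.continuous_iff.mpr ⟨?_, ?_⟩
      · exact continuous_id
      · exact continuous_const
    · have h2 := hcusp γ⁻¹ y hy'
      exact_mod_cast h2
  · exact integral_undef hint

end Vanish

end Fermat.Agent.LT.Theta31

end
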