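import Fermat.Agent.LTF.Theta.Gauss
import Fermat.Agent.LTF.Theta.Gamma0

/-!
# Transformation law of theta series attached to `-det` on hermitian matrices

For a kernel `g : ℍ → ℝ⁴ → ℂ` which behaves like a Gaussian of weight one (rules `trans`, `scale`
and Poisson summation) the series `∑ g (t z) (n + x₀)` satisfies a transformation law of weight
one under congruence subgroups. (helper75)
-/

set_option autoImplicit false

namespace Fermat.Agent.LT.Theta31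

open Complex Real Fermat.Agent.LTF.Theta

section Forms

variable {R : Type*} [CommRing R]

/-- the quaternary form `|b₁ + b₂ ω|² - a d` in the coordinates `(a, b₁, b₂, d)` -/
def Q4 (x : Fin 4 → R) : R := x 1 ^ 2 - x 1 * x 2 + x 2 ^ 2 - x 0 * x 3

/-- polar form of `Q4` -/
def B4 (x y : Fin 4 → R) : R :=
  2 * (x 1 * y 1) - x 1 * y 2 - x 2 * y 1 + 2 * (x 2 * y 2) - x 0 * y 3 - x 3 * y 0

/-- three times `Q4` of the dual vector -/
def Q3 (k : Fin 4 → R) : R := k 1 ^ 2 + k 1 * k 2 + k 2 ^ 2 - 3 * (k 0 * k 3)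

/-- the pairing of the dual vector with `n` -/
def pr (k n : Fin 4 → R) : R := k 1 * n 1 + k 2 * n 2 - k 0 * n 3 - k 3 * n 0

theorem Q4_add (x y : Fin 4 → R) : Q4 (x + y) = Q4 x + B4 x y + Q4 y := by
  simp only [Q4, B4, Pi.add_apply]; ring

theorem Q4_smul (s : R) (x : Fin 4 → R) : Q4 (s • x) = s ^ 2 * Q4 x := by
  simp only [Q4, Pi.smul_apply, smul_eq_mul]; ring

theorem B4_comm (x y : Fin 4 → R) : B4 x y = B4 y x := by
  simp only [B4]; ring

theorem B4_add_right (x y z : Fin 4 → R) : B4 x (y + z) = B4 x y + B4 x z := by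
  simp only [B4, Pi.add_apply]; ring

theorem B4_smul_right (s : R) (x y : Fin 4 → R) : B4 x (s • y) = s * B4 x y := by
  simp only [B4, Pi.smul_apply, smul_eq_mul]; ring

end Forms

/-- dual vector -/
noncomputable def du (k : Fin 4 → ℝ) : Fin 4 → ℝ :=
  ![k 0, (2 * k 1 + k 2) / 3, (k 1 + 2 * k 2) / 3, k 3]

theorem B4_du (k n : Fin 4 → ℝ) : B4 (du k) n = pr k n := by
  simp [B4, du, pr]; ring

theorem Q4_du (k : Fin 4 → ℝ) : Q4 (du k) = Q3 k / 3 := by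
  simp [Q4, du, Q3]; ring

/-- integral vectors as real vectors -/
def ic (n : Fin 4 → ℤ) : Fin 4 → ℝ := fun i => (n i : ℝ)

theorem ic_add (m n : Fin 4 → ℤ) : ic (m + n) = ic m + ic n := by
  funext i; simp [ic]

theorem ic_smul (s : ℤ) (n : Fin 4 → ℤ) : ic (s • n) = (s : ℝ) • ic n := by
  funext i; simp [ic]

theorem Q4_ic (n : Fin 4 → ℤ) : Q4 (ic n) = ((Q4 n : ℤ) : ℝ) := by
  simp [Q4, ic]

theorem Q3_ic (n : Fin 4 → ℤ) : Q3 (ic n) = ((Q3 n : ℤ) : ℝ) := by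
  simp [Q3, ic]

theorem pr_ic (k n : Fin 4 → ℤ) : pr (ic k) (ic n) = ((pr k n : ℤ) : ℝ) := by
  simp [pr, ic]

/-- three times the dual vector is integral -/
def du3 (k : Fin 4 → ℤ) : Fin 4 → ℤ := ![3 * k 0, 2 * k 1 + k 2, k 1 + 2 * k 2, 3 * k 3]

theorem ic_du3 (k : Fin 4 → ℤ) : ic (du3 k) = (3 : ℝ) • du (ic k) := by
  funext i
  fin_cases i <;> simp [ic, du3, du] <;> ring

theorem du3_injective : Function.Injective du3 := by
  intro k l h
  have h0 := congrFun h 0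
  have h1 := congrFun h 1
  have h2 := congrFun h 2
  have h3 := congrFun h 3
  simp [du3] at h0 h1 h2 h3
  funext i
  fin_cases i
  · exact h0
  · show k 1 = l 1
    omega
  · show k 2 = l 2
    omega
  · exact h3

/-! ### Residue classes -/

/-- the equivalence `(r, y) ↦ r + m y` in dimension four -/
noncomputable def resEquiv4 (m : ℕ) [NeZero m] : (Fin 4 → ZMod m) × (Fin 4 → ℤ) ≃ (Fin 4 → ℤ) :=
  (Equiv.arrowProdEquivProdArrow (Fin 4) (fun _ => ZMod m) (fun _ => ℤ)).symm.trans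
    (Equiv.piCongrRight fun _ => resEquiv m)

/-- representative of a residue class -/
def rv {m : ℕ} (r : Fin 4 → ZMod m) : Fin 4 → ℤ := fun i => ((r i).val : ℤ)

theorem resEquiv4_apply (m : ℕ) [NeZero m] (r : Fin 4 → ZMod m) (y : Fin 4 → ℤ) :
    resEquiv4 m (r, y) = rv r + (m : ℤ) • y := by
  funext i
  simp [resEquiv4, resEquiv, rv, Equiv.arrowProdEquivProdArrow]

theorem tsum_residues4 (m : ℕ) [NeZero m] (f : (Fin 4 → ℤ) → ℂ) (hf : Summable f) :
    ∑' x, f x = ∑ r : Fin 4 → ZMod m, ∑' y : Fin 4 → ℤ, f (rv r + (m : ℤ) • y) := by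
  have hs : Summable (fun p : (Fin 4 → ZMod m) × (Fin 4 → ℤ) => f (resEquiv4 m p)) :=
    (Equiv.summable_iff (resEquiv4 m)).mpr hf
  rw [← Equiv.tsum_eq (resEquiv4 m) f, hs.tsum_prod, tsum_fintype]
  simp only [resEquiv4_apply]

/-! ### Gauss sums -/

section Gauss

variable (p : ℕ) [Fact p.Prime]

/-- the rank four Gauss sum -/
theorem sum_Q4 (hp : p ≠ 2) (h3 : (3 : ZMod p) ≠ 0) {b : ZMod p} (hb : b ≠ 0) :
    ∑ r : Fin 4 → ZMod p, ZMod.stdAddChar (N := p) (b * Q4 r) = chi p (-3) * (p : ℂ) ^ 2 := by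
  have e1 := sum_form p hp b (-b) b (by
    have : (-b) ^ 2 - 4 * b * b = -(3 * b ^ 2) := by ring
    rw [this, neg_ne_zero]
    exact mul_ne_zero h3 (pow_ne_zero 2 hb))
  have e2 := sum_form p hp 0 (-b) 0 (by
    have : (-b) ^ 2 - 4 * (0 : ZMod p) * 0 = b ^ 2 := by ring
    rw [this]
    exact pow_ne_zero 2 hb)
  have c1 : chi p ((-b) ^ 2 - 4 * b * b) = chi p (-3) := by
    rw [show (-b) ^ 2 - 4 * b * b = (-3) * b ^ 2 by ring, map_mul, chi_sq p hb, mul_one]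
  have c2 : chi p ((-b) ^ 2 - 4 * (0 : ZMod p) * 0) = 1 := by
    rw [show (-b) ^ 2 - 4 * (0 : ZMod p) * 0 = b ^ 2 by ring, chi_sq p hb]
  rw [c1] at e1
  rw [c2] at e2
  let E : (Fin 4 → ZMod p) ≃ (ZMod p × ZMod p) × (ZMod p × ZMod p) :=
    { toFun := fun r => ((r 1, r 2), (r 0, r 3))
      invFun := fun x => ![x.2.1, x.1.1, x.1.2, x.2.2]
      left_inv := fun r => by
        funext i
        fin_cases i <;> rfl
      right_inv := fun x => rfl }
  have h := Fintype.sum_equiv E (fun r => ZMod.stdAddChar (N := p) (b * Q4 r))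
    (fun x => ZMod.stdAddChar (N := p) (b * x.1.1 ^ 2 + (-b) * x.1.1 * x.1.2 + b * x.1.2 ^ 2) *
      ZMod.stdAddChar (N := p) (0 * x.2.1 ^ 2 + (-b) * x.2.1 * x.2.2 + 0 * x.2.2 ^ 2)) (by
      intro r
      rw [← AddChar.map_add_eq_mul]
      congr 1
      show b * Q4 r = b * r 1 ^ 2 + (-b) * r 1 * r 2 + b * r 2 ^ 2 +
        (0 * r 0 ^ 2 + (-b) * r 0 * r 3 + 0 * r 3 ^ 2)
      simp only [Q4]
      ring)
  rw [h, Fintype.sum_prod_type]
  simp only
  have h2 : ∀ x : ZMod p × ZMod p, ∑ y : ZMod p × ZMod p,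
      ZMod.stdAddChar (N := p) (b * x.1 ^ 2 + (-b) * x.1 * x.2 + b * x.2 ^ 2) *
      ZMod.stdAddChar (N := p) (0 * y.1 ^ 2 + (-b) * y.1 * y.2 + 0 * y.2 ^ 2) =
      ZMod.stdAddChar (N := p) (b * x.1 ^ 2 + (-b) * x.1 * x.2 + b * x.2 ^ 2) * p := by
    intro x
    rw [← Finset.mul_sum, e2, one_mul]
  rw [Finset.sum_congr rfl fun x _ => h2 x, ← Finset.sum_mul, e1]
  ring

/-- completing the square -/
theorem sum_Q4_shift (hp : p ≠ 2) (h3 : (3 : ZMod p) ≠ 0) {b : ZMod p} (hb : b ≠ 0)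
    (k : Fin 4 → ZMod p) :
    ∑ r : Fin 4 → ZMod p, ZMod.stdAddChar (N := p) (b * Q4 r + pr k r) =
      ZMod.stdAddChar (N := p) (-(Q3 k / (3 * b))) * (chi p (-3) * (p : ℂ) ^ 2) := by
  rw [← sum_Q4 p hp h3 hb, Finset.mul_sum]
  let ρ : Fin 4 → ZMod p := ![k 0 / b, (2 * k 1 + k 2) / (3 * b), (k 1 + 2 * k 2) / (3 * b), k 3 / b]
  refine Fintype.sum_equiv (Equiv.addRight ρ) _ _ fun r => ?_
  rw [← AddChar.map_add_eq_mul]
  congr 1
  simp only [Equiv.coe_addRight, Q4, pr, Q3, Pi.add_apply, ρ, Matrix.cons_val_zero,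
    Matrix.cons_val_one, Matrix.cons_val_two, Matrix.cons_val_three, Matrix.cons_val]
  simp only [Matrix.head_cons, Matrix.tail_cons, Matrix.cons_val_fin_one, Matrix.cons_val]
  field_simp
  ring

end Gauss

/-! ### Gaussian kernels of weight one -/

/-- Gaussian kernels of weight one for the form `Q4`. -/
structure IsTheta (g : ℂ → (Fin 4 → ℝ) → ℂ) : Prop where
  trans : ∀ (s : ℝ) (z : ℂ) (x : Fin 4 → ℝ), 0 < z.im →
    g (z + s) x = e ((s * Q4 x : ℝ) : ℂ) * g z x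
  scale : ∀ (s : ℝ) (z : ℂ) (x : Fin 4 → ℝ), 0 < s → 0 < z.im →
    g ((s : ℂ) ^ 2 * z) x = s * g z (s • x)
  summable : ∀ (r : ℝ) (z : ℂ) (x : Fin 4 → ℝ), 0 < r → 0 < z.im →
    Summable fun n : Fin 4 → ℤ => g z (r • ic n + x)
  poisson : ∀ (r : ℝ) (z : ℂ) (x : Fin 4 → ℝ), 0 < r → 0 < z.im →
    ∑' n : Fin 4 → ℤ, g z (r • ic n + x) = I / (z * ((Real.sqrt 3 * r ^ 4 : ℝ) : ℂ)) *
      ∑' k : Fin 4 → ℤ, e ((pr (ic k) x / r : ℝ) : ℂ) * g (-1 / z) (r⁻¹ • du (ic k))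

/-- theta series -/
noncomputable def TH (g : ℂ → (Fin 4 → ℝ) → ℂ) (t : ℝ) (x : Fin 4 → ℝ) (z : ℂ) : ℂ :=
  ∑' n : Fin 4 → ℤ, g (t * z) (ic n + x)

theorem im_neg_one_div_pos {z : ℂ} (hz : 0 < z.im) : 0 < (-1 / z : ℂ).im := by
  have hz0 : z ≠ 0 := by
    rintro rfl
    simp at hz
  rw [neg_div, one_div, neg_im, inv_im]
  have := normSq_pos.mpr hz0
  rw [neg_div, neg_neg]
  positivity

theorem ne_zero_of_im_pos {z : ℂ} (hz : 0 < z.im) : z ≠ 0 := by
  rintro rfl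
  simp at hz

theorem im_ofReal_mul_pos {t : ℝ} (ht : 0 < t) {z : ℂ} (hz : 0 < z.im) :
    0 < ((t : ℂ) * z).im := by
  rw [im_ofReal_mul]
  positivity

theorem summable_phase {ι : Type*} {c f : ι → ℂ} (hf : Summable f) (hc : ∀ i, ‖c i‖ = 1) :
    Summable fun i => c i * f i :=
  Summable.of_norm (hf.norm.congr fun i => by rw [norm_mul, hc, one_mul])

theorem norm_stdAddChar (p : ℕ) [NeZero p] (x : ZMod p) : ‖ZMod.stdAddChar (N := p) x‖ = 1 := by
  obtain ⟨k, rfl⟩ := ZMod.intCast_surjective x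
  rw [stdAddChar_eq, show ((k : ℂ) / p) = ((k / p : ℝ) : ℂ) by push_cast; ring, norm_e_real]

namespace IsTheta

variable {g : ℂ → (Fin 4 → ℝ) → ℂ} (hg : IsTheta g)

include hg

theorem summable_one (z : ℂ) (x : Fin 4 → ℝ) (hz : 0 < z.im) :
    Summable fun n : Fin 4 → ℤ => g z (ic n + x) := by
  simpa using hg.summable 1 z x one_pos hz

theorem summable_du (r : ℝ) (z : ℂ) (hr : 0 < r) (hz : 0 < z.im) :
    Summable fun k : Fin 4 → ℤ => g z (r • du (ic k)) := by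
  have h := (hg.summable (r / 3) z 0 (by positivity) hz).comp_injective du3_injective
  refine h.congr fun k => ?_
  simp only [Function.comp_apply, add_zero]
  rw [ic_du3, smul_smul, div_mul_cancel₀ r (by norm_num : (3 : ℝ) ≠ 0)]

theorem TH_eq (t : ℝ) (ht : 0 < t) (x : Fin 4 → ℝ) (z : ℂ) (hz : 0 < z.im) :
    TH g t x z = I / (t * z * (Real.sqrt 3 : ℝ)) *
      ∑' k : Fin 4 → ℤ, e ((pr (ic k) x : ℝ) : ℂ) * g (-1 / (t * z)) (du (ic k)) := by
  have h := hg.poisson 1 (t * z) x one_pos (im_ofReal_mul_pos ht hz)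
  simp only [one_smul, one_pow, mul_one, div_one, inv_one] at h
  exact h

omit hg in
/-- translation by an integral vector -/
theorem TH_add_ic (t : ℝ) (x : Fin 4 → ℝ) (m : Fin 4 → ℤ) (z : ℂ) :
    TH g t (x + ic m) z = TH g t x z := by
  unfold TH
  rw [← Equiv.tsum_eq (Equiv.addRight m) (fun n : Fin 4 → ℤ => g (t * z) (ic n + x))]
  refine tsum_congr fun n => ?_
  rw [Equiv.coe_addRight, ic_add]
  congr 1
  abel

end IsTheta

/-- the phase at `β / p` -/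
theorem phase_beta (t : ℕ) (ht : 0 < t) (k₀ : Fin 4 → ℤ) (p : ℕ) [NeZero p] (β' ps : ℤ)
    (n : Fin 4 → ℤ) :
    e (((t * ((3 * t * β' : ℤ) : ℝ) / p) *
      Q4 (ic n + ((p * ps : ℤ) : ℝ) • ((t : ℝ)⁻¹ • du (ic k₀))) : ℝ) : ℂ) =
      ZMod.stdAddChar (N := p) ((3 * t * β' * t * Q4 n : ℤ) : ZMod p) := by
  have hp0 : (p : ℝ) ≠ 0 := by exact_mod_cast NeZero.ne p
  have ht0 : (t : ℝ) ≠ 0 := by exact_mod_cast ht.ne'
  have key : ((t * ((3 * t * β' : ℤ) : ℝ) / p) *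
      Q4 (ic n + ((p * ps : ℤ) : ℝ) • ((t : ℝ)⁻¹ • du (ic k₀))) : ℝ) =
      ((3 * t * β' * t * Q4 n : ℤ) : ℝ) / p +
        ((3 * t * β' * ps * pr k₀ n + β' * p * ps ^ 2 * Q3 k₀ : ℤ) : ℝ) := by
    rw [Q4_add, Q4_smul, Q4_smul, B4_smul_right, B4_smul_right, B4_comm, B4_du, Q4_du, Q4_ic,
      Q3_ic, pr_ic]
    push_cast
    field_simp
    ring
  rw [key, stdAddChar_eq]
  have := e_add_int ((((3 * t * β' * t * Q4 n : ℤ) : ℝ) / p : ℝ) : ℂ)
    (3 * t * β' * ps * pr k₀ n + β' * p * ps ^ 2 * Q3 k₀)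
  rw [show (((3 * t * β' * t * Q4 n : ℤ) : ℂ) / (p : ℂ)) =
    ((((3 * t * β' * t * Q4 n : ℤ) : ℝ) / p : ℝ) : ℂ) by push_cast; ring, ← this]
  congr 1
  push_cast
  ring

/-- **Transformation law**, lower right entry a prime. -/
theorem IsTheta.law_prime {g : ℂ → (Fin 4 → ℝ) → ℂ} (hg : IsTheta g) (t : ℕ) (ht : 0 < t)
    (k₀ : Fin 4 → ℤ) (p : ℕ) [Fact p.Prime] (hp : p ≠ 2) (α β' γ' ps s : ℤ)
    (hdet : α * p - (3 * t * β') * (3 * t * γ') = 1) (hps : (p : ℤ) * ps = 1 + 3 * t * s)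
    (z : ℂ) (hz : 0 < z.im) :
    TH g t ((t : ℝ)⁻¹ • du (ic k₀))
      ((α * z + (3 * t * β' : ℤ)) / ((3 * t * γ' : ℤ) * z + p)) =
      chi p (-3) * ((3 * t * γ' : ℤ) * z + p) *
        TH g t ((ps : ℝ) • ((t : ℝ)⁻¹ • du (ic k₀))) z := by
  set x₀ : Fin 4 → ℝ := (t : ℝ)⁻¹ • du (ic k₀) with hx₀
  have hp0 : (p : ℝ) ≠ 0 := by exact_mod_cast (Fact.out : p.Prime).ne_zero
  have hpc : (p : ℂ) ≠ 0 := by exact_mod_cast (Fact.out : p.Prime).ne_zero
  have hppos : (0 : ℝ) < p := by exact_mod_cast (Fact.out : p.Prime).pos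
  have ht0 : (t : ℝ) ≠ 0 := by exact_mod_cast ht.ne'
  have htc : (t : ℂ) ≠ 0 := by exact_mod_cast ht.ne'
  have htpos : (0 : ℝ) < t := by exact_mod_cast ht
  have hz0 := ne_zero_of_im_pos hz
  -- the denominators
  set j : ℂ := (3 * t * γ' : ℤ) * z + p with hj
  have hz'inv : -1 / (z / (p * j)) = (p : ℂ) ^ 2 * (-1 / z) + ((-(p * (3 * t * γ' : ℤ)) : ℝ) : ℂ) := by
    rw [hj]
    push_cast
    field_simp
    ring
  have hw := im_neg_one_div_pos hz
  have hz'im0 : 0 < (-1 / (z / (p * j)) : ℂ).im := by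
    rw [hz'inv, add_im, ofReal_im, add_zero, show ((p : ℂ) ^ 2) = (((p : ℝ) ^ 2 : ℝ) : ℂ) by
      push_cast; ring]
    exact im_ofReal_mul_pos (by positivity) hw
  have hj0 : j ≠ 0 := by
    intro h
    rw [h] at hz'im0
    simp at hz'im0
  set z' : ℂ := z / (p * j) with hz'
  have hz'im : 0 < z'.im := by
    have := im_neg_one_div_pos hz'im0
    rwa [show (-1 / (-1 / z') : ℂ) = z' by field_simp] at this
  have hz'0 := ne_zero_of_im_pos hz'im
  have hdetc : (α : ℂ) * p - (3 * t * β') * (3 * t * γ') = 1 := by exact_mod_cast hdet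
  have hγz : (α * z + (3 * t * β' : ℤ)) / j = z' + (3 * t * β' : ℤ) / p := by
    rw [hz', div_add_div _ _ (mul_ne_zero hpc hj0) hpc, div_eq_div_iff hj0
      (mul_ne_zero (mul_ne_zero hpc hj0) hpc)]
    have hjj : j = 3 * t * γ' * z + p := by rw [hj]; push_cast; ring
    push_cast
    linear_combination (p * j * z) * hdetc - (3 * t * β' * p * j) * hjj
  -- step B - D
  have h1 : TH g t x₀ ((α * z + (3 * t * β' : ℤ)) / j) = ∑' n : Fin 4 → ℤ,
      ZMod.stdAddChar (N := p) ((3 * t * β' * t * Q4 n : ℤ) : ZMod p) *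
        g (t * z') (ic n + ((p * ps : ℤ) : ℝ) • x₀) := by
    unfold TH
    rw [← Equiv.tsum_eq (Equiv.addRight (s • du3 k₀))]
    refine tsum_congr fun n => ?_
    rw [Equiv.coe_addRight]
    have e1 : ic (n + s • du3 k₀) + x₀ = ic n + ((p * ps : ℤ) : ℝ) • x₀ := by
      rw [ic_add, ic_smul, ic_du3, add_assoc]
      congr 1
      have : du (ic k₀) = (t : ℝ) • x₀ := by
        rw [hx₀, smul_smul, mul_inv_cancel₀ ht0, one_smul]
      rw [this, smul_smul, smul_smul, hps]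
      push_cast
      rw [add_smul, one_smul, add_comm]
      congr 2
      ring
    rw [e1, hγz]
    have e2 : ((t : ℝ) : ℂ) * (z' + (3 * t * β' : ℤ) / p) =
        t * z' + ((t * ((3 * t * β' : ℤ) : ℝ) / p : ℝ) : ℂ) := by
      push_cast; ring
    rw [e2, hg.trans _ _ _ (by simpa using im_ofReal_mul_pos htpos hz'im), hx₀,
      phase_beta t ht k₀ p β' ps n]
  -- residue classes modulo `p`
  set B : ℤ := 3 * t * β' * t with hB
  set y₀ : Fin 4 → ℝ := ((p * ps : ℤ) : ℝ) • x₀ with hy₀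
  have htz' : 0 < ((t : ℂ) * z').im := by simpa using im_ofReal_mul_pos htpos hz'im
  have htz : 0 < ((t : ℂ) * z).im := by simpa using im_ofReal_mul_pos htpos hz
  have hsum : Summable fun n : Fin 4 → ℤ =>
      ZMod.stdAddChar (N := p) ((B * Q4 n : ℤ) : ZMod p) * g (t * z') (ic n + y₀) :=
    summable_phase (hg.summable_one _ _ htz') fun n => norm_stdAddChar p _
  rw [h1, tsum_residues4 p _ hsum]
  set A : ℂ := I / (t * z' * ((Real.sqrt 3 * (p : ℝ) ^ 4 : ℝ) : ℂ)) with hA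
  set G : (Fin 4 → ℤ) → ℂ := fun k => g (-1 / (t * z)) (du (ic k)) with hG
  set T : (Fin 4 → ℤ) → ℂ := fun k => e ((ps * pr (ic k) x₀ : ℝ) : ℂ) *
    (ZMod.stdAddChar (N := p) ((-(γ' * Q3 k) : ℤ) : ZMod p) * (p * G k)) with hT
  have hwt := im_neg_one_div_pos htz
  have hGs : Summable G := by
    have := hg.summable_du 1 _ one_pos hwt
    simpa using this
  have hTs : Summable T := by
    refine summable_phase ?_ fun k => norm_e_real _
    refine summable_phase (hGs.mul_left _) fun k => norm_stdAddChar p _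
  have h2 : ∀ r : Fin 4 → ZMod p, (∑' y : Fin 4 → ℤ,
      ZMod.stdAddChar (N := p) ((B * Q4 (rv r + (p : ℤ) • y) : ℤ) : ZMod p) *
        g (t * z') (ic (rv r + (p : ℤ) • y) + y₀)) =
      A * ∑' k : Fin 4 → ℤ, ZMod.stdAddChar (N := p)
        ((B : ZMod p) * Q4 r + pr (fun i => (k i : ZMod p)) r) * T k := by
    intro r
    have e1 : ∀ y : Fin 4 → ℤ, ((B * Q4 (rv r + (p : ℤ) • y) : ℤ) : ZMod p) =
        (B : ZMod p) * Q4 r := by
      intro y
      simp [Q4, rv]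
    have e2 : ∀ y : Fin 4 → ℤ, ic (rv r + (p : ℤ) • y) + y₀ =
        (p : ℝ) • ic y + (ic (rv r) + y₀) := by
      intro y
      rw [ic_add, ic_smul]
      push_cast
      abel
    simp only [e1, e2]
    rw [tsum_mul_left, hg.poisson p _ _ hppos htz', ← hA, mul_left_comm, ← tsum_mul_left]
    congr 1
    refine tsum_congr fun k => ?_
    have e3 : e ((pr (ic k) (ic (rv r) + y₀) / p : ℝ) : ℂ) =
        ZMod.stdAddChar (N := p) (pr (fun i => (k i : ZMod p)) r) *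
          e ((ps * pr (ic k) x₀ : ℝ) : ℂ) := by
      have e4 : (pr (ic k) (ic (rv r) + y₀) / p : ℝ) =
          ((pr k (rv r) : ℤ) : ℝ) / p + ps * pr (ic k) x₀ := by
        have : pr (ic k) (ic (rv r) + y₀) = pr (ic k) (ic (rv r)) + (p * ps) * pr (ic k) x₀ := by
          simp only [pr, hy₀, Pi.add_apply, Pi.smul_apply, smul_eq_mul]
          push_cast
          ring
        rw [this, pr_ic]
        field_simp
      have e5 : pr (fun i => (k i : ZMod p)) r = ((pr k (rv r) : ℤ) : ZMod p) := by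
        simp [pr, rv]
      rw [e4, e5, stdAddChar_eq, ofReal_add, e_add]
      congr 2
      push_cast
      ring
    have e6 : g (-1 / (t * z')) ((p : ℝ)⁻¹ • du (ic k)) =
        ZMod.stdAddChar (N := p) ((-(γ' * Q3 k) : ℤ) : ZMod p) * (p * G k) := by
      have e7 : (-1 / (t * z') : ℂ) = (p : ℂ) ^ 2 * (-1 / (t * z)) +
          ((-(3 * p * γ') : ℝ) : ℂ) := by
        have : (-1 / (t * z') : ℂ) = (-1 / z') / t := by field_simp
        rw [this, hz'inv]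
        push_cast
        field_simp
      have e8 : 0 < ((p : ℂ) ^ 2 * (-1 / (t * z))).im := by
        rw [show ((p : ℂ) ^ 2) = (((p : ℝ) ^ 2 : ℝ) : ℂ) by push_cast; ring]
        exact im_ofReal_mul_pos (by positivity) hwt
      rw [e7, hg.trans _ _ _ e8, show ((p : ℂ) ^ 2 * (-1 / (t * z)) : ℂ) =
        (((p : ℝ) : ℂ)) ^ 2 * (-1 / (t * z)) by push_cast; rfl, hg.scale _ _ _ hppos hwt,
        smul_smul, mul_inv_cancel₀ hp0, one_smul, Q4_smul, Q4_du, Q3_ic, stdAddChar_eq]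
      congr 1
      congr 1
      push_cast
      field_simp
      try ring
    rw [e3, e6, AddChar.map_add_eq_mul, hT]
    ring
  rw [Finset.sum_congr rfl fun r _ => h2 r, ← Finset.mul_sum, ← Summable.tsum_finsetSum]
  swap
  · intro r _
    exact summable_phase hTs fun k => norm_stdAddChar p _
  -- Gauss sums
  have hdetp : (3 : ZMod p) * (B : ZMod p) * (γ' : ZMod p) = -1 := by
    have h := congrArg (fun m : ℤ => (m : ZMod p)) hdet
    push_cast at h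
    rw [CharP.cast_eq_zero, mul_zero, zero_sub] at h
    rw [hB]
    push_cast
    linear_combination -h
  have hB0 : (B : ZMod p) ≠ 0 := by
    intro h0
    rw [h0] at hdetp
    simp only [mul_zero, zero_mul] at hdetp
    exact one_ne_zero (by linear_combination hdetp : (1 : ZMod p) = 0)
  have h30 : (3 : ZMod p) ≠ 0 := by
    intro h0
    rw [h0] at hdetp
    simp only [zero_mul] at hdetp
    exact one_ne_zero (by linear_combination hdetp : (1 : ZMod p) = 0)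
  have h4 : ∀ k : Fin 4 → ℤ, (∑ r : Fin 4 → ZMod p, ZMod.stdAddChar (N := p)
        ((B : ZMod p) * Q4 r + pr (fun i => (k i : ZMod p)) r) * T k) =
      (chi p (-3) * (p : ℂ) ^ 3) * (e ((ps * pr (ic k) x₀ : ℝ) : ℂ) * G k) := by
    intro k
    rw [← Finset.sum_mul, sum_Q4_shift p hp h30 hB0, hT]
    have e1 : ZMod.stdAddChar (N := p) (-(Q3 (fun i => (k i : ZMod p)) / (3 * (B : ZMod p)))) *
        ZMod.stdAddChar (N := p) ((-(γ' * Q3 k) : ℤ) : ZMod p) = 1 := by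
      rw [← AddChar.map_add_eq_mul]
      have e2 : -(Q3 (fun i => (k i : ZMod p)) / (3 * (B : ZMod p))) +
          ((-(γ' * Q3 k) : ℤ) : ZMod p) = 0 := by
        have e3 : ((Q3 k : ℤ) : ZMod p) = Q3 (fun i => (k i : ZMod p)) := by simp [Q3]
        push_cast
        rw [e3]
        field_simp
        linear_combination -(Q3 (fun i => (k i : ZMod p))) * hdetp
      rw [e2, AddChar.map_zero_eq_one]
    simp only
    linear_combination (chi p (-3) * (p : ℂ) ^ 3 * (e ((ps * pr (ic k) x₀ : ℝ) : ℂ) * G k)) * e1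
  rw [tsum_congr h4, tsum_mul_left, hg.TH_eq t htpos _ z hz]
  have h5 : ∀ k : Fin 4 → ℤ, e ((pr (ic k) ((ps : ℝ) • x₀) : ℝ) : ℂ) *
      g (-1 / (((t : ℝ) : ℂ) * z)) (du (ic k)) = e ((ps * pr (ic k) x₀ : ℝ) : ℂ) * G k := by
    intro k
    have : pr (ic k) ((ps : ℝ) • x₀) = ps * pr (ic k) x₀ := by
      simp only [pr, Pi.smul_apply, smul_eq_mul]
      ring
    rw [this, hG]
    push_cast
    rfl
  rw [tsum_congr h5, hA]
  generalize (∑' k : Fin 4 → ℤ, e ((ps * pr (ic k) x₀ : ℝ) : ℂ) * G k) = S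
  have h3 : ((Real.sqrt 3 : ℝ) : ℂ) ≠ 0 := by
    exact_mod_cast (Real.sqrt_pos.mpr (by norm_num : (0 : ℝ) < 3)).ne'
  have h6 : z = z' * (p * j) := by
    rw [hz', div_mul_cancel₀ _ (mul_ne_zero hpc hj0)]
  have h7 : (I / (t * z' * ((Real.sqrt 3 * (p : ℝ) ^ 4 : ℝ) : ℂ))) * (p : ℂ) ^ 3 =
      j * (I / (((t : ℝ) : ℂ) * z * ((Real.sqrt 3 : ℝ) : ℂ))) := by
    rw [h6]
    push_cast
    field_simp
  linear_combination (chi p (-3) * S) * h7

/-! ### The general law -/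

/-- `χ_p(-3) = 1` for `p ≡ 1 mod 3` -/
theorem chi_neg_three (p : ℕ) [Fact p.Prime] (h : p % 3 = 1) : chi p (-3) = 1 := by
  have hp3 : 3 ∣ p - 1 := by
    have := (Fact.out : p.Prime).one_lt
    omega
  -- a primitive cube root of unity
  obtain ⟨w, hw⟩ : ∃ w : (ZMod p)ˣ, orderOf w = 3 := by
    have h1 : 3 ∣ Fintype.card (ZMod p)ˣ := by rw [ZMod.card_units]; exact hp3
    have : Fact (Nat.Prime 3) := ⟨Nat.prime_three⟩
    exact exists_prime_orderOf_dvd_card 3 h1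
  have hw3 : (w : ZMod p) ^ 3 = 1 := by
    have h1 := pow_orderOf_eq_one w
    rw [hw] at h1
    have h2 := congrArg Units.val h1
    rw [Units.val_pow_eq_pow_val, Units.val_one] at h2
    exact h2
  have hw1 : (w : ZMod p) ≠ 1 := by
    intro h0
    have : w = 1 := Units.ext h0
    rw [this, orderOf_one] at hw
    omega
  have hq : (w : ZMod p) ^ 2 + w + 1 = 0 := by
    have : ((w : ZMod p) - 1) * ((w : ZMod p) ^ 2 + w + 1) = 0 := by
      linear_combination hw3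
    rcases mul_eq_zero.mp this with h0 | h0
    · exact absurd (sub_eq_zero.mp h0) hw1
    · exact h0
  have hsq : (-3 : ZMod p) = (2 * (w : ZMod p) + 1) ^ 2 := by
    linear_combination -4 * hq
  rw [hsq]
  refine chi_sq p ?_
  intro h0
  rw [h0] at hsq
  have h3 : (3 : ZMod p) = 0 := by linear_combination -hsq
  have h4 : ((3 : ℕ) : ZMod p) = 0 := by exact_mod_cast h3
  rw [ZMod.natCast_eq_zero_iff] at h4
  have h5 := (Nat.prime_dvd_prime_iff_eq Fact.out Nat.prime_three).mp h4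
  omega

/-- translation of the variable -/
theorem IsTheta.TH_add {g : ℂ → (Fin 4 → ℝ) → ℂ} (hg : IsTheta g) (t : ℕ) (ht : 0 < t)
    (k₀ : Fin 4 → ℤ) (c : ℝ) (m : ℤ) (hc : c = ((m : ℝ) * (t : ℝ)⁻¹)) (n : ℤ) (z : ℂ)
    (hz : 0 < z.im) :
    TH g t (c • du (ic k₀)) (z + (3 * t * n : ℤ)) = TH g t (c • du (ic k₀)) z := by
  have ht0 : (t : ℝ) ≠ 0 := by exact_mod_cast ht.ne'
  have htpos : (0 : ℝ) < t := by exact_mod_cast ht
  unfold TH
  refine tsum_congr fun x => ?_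
  have e1 : ((t : ℝ) : ℂ) * (z + (3 * t * n : ℤ)) = (t : ℝ) * z + ((t * (3 * t * n : ℤ) : ℝ) : ℂ) := by
    push_cast; ring
  rw [e1, hg.trans _ _ _ (im_ofReal_mul_pos htpos hz)]
  have e2 : (t * (3 * t * n : ℤ) * Q4 (ic x + c • du (ic k₀)) : ℝ) =
      ((t * 3 * t * n * Q4 x + 3 * t * n * m * pr k₀ x + n * m ^ 2 * Q3 k₀ : ℤ) : ℝ) := by
    rw [Q4_add, Q4_smul, B4_smul_right, B4_comm, B4_du, Q4_du, Q4_ic, Q3_ic, pr_ic, hc]
    push_cast
    field_simp
  rw [e2]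
  rw [show (((t * 3 * t * n * Q4 x + 3 * t * n * m * pr k₀ x + n * m ^ 2 * Q3 k₀ : ℤ) : ℝ) : ℂ) =
    ((t * 3 * t * n * Q4 x + 3 * t * n * m * pr k₀ x + n * m ^ 2 * Q3 k₀ : ℤ) : ℂ) by push_cast; rfl,
    e_int, one_mul]

/-- the theta series only depends on the multiple of `x₀` modulo `3 t` -/
theorem TH_smul_congr (g : ℂ → (Fin 4 → ℝ) → ℂ) (t : ℕ) (ht : 0 < t) (k₀ : Fin 4 → ℤ) (m m' : ℤ)
    (h : (3 * t : ℤ) ∣ m - m') (z : ℂ) :
    TH g t ((m : ℝ) • ((t : ℝ)⁻¹ • du (ic k₀))) z =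
      TH g t ((m' : ℝ) • ((t : ℝ)⁻¹ • du (ic k₀))) z := by
  have ht0 : (t : ℝ) ≠ 0 := by exact_mod_cast ht.ne'
  obtain ⟨s, hs⟩ := h
  have e1 : (m : ℝ) • ((t : ℝ)⁻¹ • du (ic k₀)) =
      (m' : ℝ) • ((t : ℝ)⁻¹ • du (ic k₀)) + ic (s • du3 k₀) := by
    rw [ic_smul, ic_du3, smul_smul, smul_smul, smul_smul, ← add_smul]
    congr 1
    have : (m : ℝ) = m' + 3 * t * s := by
      have h2 : m = m' + 3 * t * s := by linarith
      exact_mod_cast h2
    rw [this]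
    field_simp
  rw [e1, IsTheta.TH_add_ic]

/-- **Transformation law** for matrices `(α β; γ δ)`, `3 t ∣ β`, `3 t ∣ γ`, `γ ≠ 0`,
`δ ≡ 1 mod 3`; `ds` is an inverse of `δ` modulo `3 t`. -/
theorem IsTheta.law {g : ℂ → (Fin 4 → ℝ) → ℂ} (hg : IsTheta g) (t : ℕ) (ht : 0 < t)
    (k₀ : Fin 4 → ℤ) (α β γ δ ds : ℤ) (hdet : α * δ - β * γ = 1)
    (hβ : (3 * t : ℤ) ∣ β) (hγ : (3 * t : ℤ) ∣ γ) (hγ0 : γ ≠ 0) (hδ : (3 : ℤ) ∣ δ - 1)
    (hds : (3 * t : ℤ) ∣ δ * ds - 1) (z : ℂ) (hz : 0 < z.im) :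
    TH g t ((t : ℝ)⁻¹ • du (ic k₀)) ((α * z + β) / (γ * z + δ)) =
      (γ * z + δ) * TH g t ((ds : ℝ) • ((t : ℝ)⁻¹ • du (ic k₀))) z := by
  have ht0 : (t : ℤ) ≠ 0 := by exact_mod_cast ht.ne'
  have h3t : (3 * t : ℤ) ≠ 0 := by positivity
  obtain ⟨β', rfl⟩ := hβ
  obtain ⟨γ', rfl⟩ := hγ
  -- auxiliary prime
  have hco : IsCoprime δ (3 * t * (3 * t * γ')) := by
    have h1 : IsCoprime δ (3 * t * γ') := ⟨α, -(3 * t * β'), by linear_combination hdet⟩
    exact IsCoprime.mul_right (IsCoprime.of_mul_right_left h1) h1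
  obtain ⟨p, hp, hp2, n, hn⟩ := exists_prime_aux (3 * t * (3 * t * γ')) δ
    (mul_ne_zero h3t hγ0) hco
  have : Fact p.Prime := ⟨hp⟩
  have hp3 : p % 3 = 1 := by
    obtain ⟨u, hu⟩ := hδ
    have : (p : ℤ) = 1 + 3 * (u + n * (t * (3 * t * γ'))) := by rw [hn]; linear_combination hu
    omega
  obtain ⟨v, hv⟩ := hds
  have hps : (p : ℤ) * ds = 1 + 3 * t * (v + n * (3 * t * γ') * ds) := by
    rw [hn]; linear_combination hv
  have hdet' : α * p - (3 * t * (β' + n * α)) * (3 * t * γ') = 1 := by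
    rw [hn]; linear_combination hdet
  have hzn : 0 < (z - (3 * t * n : ℤ)).im := by
    rw [sub_im, intCast_im, sub_zero]
    exact hz
  have key := hg.law_prime t ht k₀ p hp2 α (β' + n * α) γ' ds _ hdet' hps (z - (3 * t * n : ℤ)) hzn
  rw [chi_neg_three p hp3, one_mul] at key
  have hpc : (p : ℂ) = δ + n * (3 * t * (3 * t * γ')) := by
    have : ((p : ℤ) : ℂ) = ((δ + n * (3 * t * (3 * t * γ')) : ℤ) : ℂ) := by rw [hn]
    push_cast at this
    exact this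
  have e1 : ((α : ℂ) * (z - (3 * t * n : ℤ)) + ((3 * t * (β' + n * α) : ℤ) : ℂ)) =
      α * z + ((3 * t * β' : ℤ) : ℂ) := by push_cast; ring
  have e2 : (((3 * t * γ' : ℤ) : ℂ) * (z - (3 * t * n : ℤ)) + (p : ℂ)) =
      ((3 * t * γ' : ℤ) : ℂ) * z + δ := by rw [hpc]; push_cast; ring
  rw [e1, e2] at key
  rw [key]
  congr 1
  have h5 := hg.TH_add t ht k₀ ((ds : ℝ) * (t : ℝ)⁻¹) ds rfl n (z - (3 * t * n : ℤ)) hzn
  rw [sub_add_cancel] at h5
  rw [smul_smul]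
  exact h5.symm

/-- **Invariance under `Γ(3 t)`** -/
theorem IsTheta.law_one {g : ℂ → (Fin 4 → ℝ) → ℂ} (hg : IsTheta g) (t : ℕ) (ht : 0 < t)
    (k₀ : Fin 4 → ℤ) (α β γ δ : ℤ) (hdet : α * δ - β * γ = 1)
    (hβ : (3 * t : ℤ) ∣ β) (hγ : (3 * t : ℤ) ∣ γ) (hδ : (3 * t : ℤ) ∣ δ - 1)
    (z : ℂ) (hz : 0 < z.im) :
    TH g t ((t : ℝ)⁻¹ • du (ic k₀)) ((α * z + β) / (γ * z + δ)) =
      (γ * z + δ) * TH g t ((t : ℝ)⁻¹ • du (ic k₀)) z := by
  by_cases hγ0 : γ = 0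
  · subst hγ0
    rw [mul_zero, sub_zero] at hdet
    have hδ1 : δ = 1 := by
      rcases Int.isUnit_iff.mp (IsUnit.of_mul_eq_one_right _ hdet) with h | h
      · exact h
      · exfalso
        rw [h] at hδ
        have h2 : (3 * t : ℤ) ∣ 2 := by
          have := (dvd_neg.mpr hδ)
          norm_num at this
          exact this
        have h3 := Int.le_of_dvd (by norm_num) h2
        have : (1 : ℤ) ≤ t := by exact_mod_cast ht
        omega
    subst hδ1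
    have hα : α = 1 := by linarith
    subst hα
    obtain ⟨β', rfl⟩ := hβ
    have h5 := hg.TH_add t ht k₀ (t : ℝ)⁻¹ 1 (by simp) β' z hz
    push_cast at h5 ⊢
    simp only [one_mul, zero_mul, zero_add, div_one]
    exact h5
  · have h := hg.law t ht k₀ α β γ δ 1 hdet hβ hγ hγ0 ((Dvd.intro _ rfl).trans hδ)
      (by simpa using hδ) z hz
    simpa using h

end Fermat.Agent.LT.Theta31
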