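import Fermat.Agent.LT.H3.Basic
import Fermat.Agent.LT.ThetaInv
import Fermat.Agent.LT.Theta31.Law

/-!
# The theta kernel of signature `(3, 1)`

`x = (a, b₁, b₂, d)` is the Hermitian matrix `(a, b; conj b, d)`, `b = b₁ + b₂ ω`,
`ω = -1/2 + i √3/2`; `Q4 x = |b|² - a d`; for `P = (ζ, h)`
`wt P x = (a - 2 Re (b conj ζ) + d (|ζ|² + h²)) / (2 h)` and the kernel is
`gk P z x = √(im z) e(Q4 x z) exp (-4 π im z (wt P x)²)`.
-/

set_option autoImplicit false

noncomputable section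

open Complex Module Fermat.Agent.LT.Poisson
open scoped Real ComplexConjugate

namespace Fermat.Agent.LT.Theta31

open Fermat.Agent.LTF.Theta

/-! ### Coordinates -/

/-- real part of `b` -/
def br (x : Fin 4 → ℝ) : ℝ := x 1 - x 2 / 2

/-- imaginary part of `b` -/
def bi (x : Fin 4 → ℝ) : ℝ := √3 / 2 * x 2

/-- `b` -/
def bc (x : Fin 4 → ℝ) : ℂ := ⟨br x, bi x⟩

theorem br_bi (x : Fin 4 → ℝ) : br x ^ 2 + bi x ^ 2 = x 1 ^ 2 - x 1 * x 2 + x 2 ^ 2 := by
  have h3 : √3 ^ 2 = 3 := Real.sq_sqrt (by norm_num)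
  unfold br bi
  linear_combination (x 2 ^ 2 / 4) * h3

theorem Q4_eq (x : Fin 4 → ℝ) : Q4 x = br x ^ 2 + bi x ^ 2 - x 0 * x 3 := by
  rw [br_bi]; rfl

theorem br_add (x y : Fin 4 → ℝ) : br (x + y) = br x + br y := by
  simp only [br, Pi.add_apply]; ring

theorem bi_add (x y : Fin 4 → ℝ) : bi (x + y) = bi x + bi y := by
  simp only [bi, Pi.add_apply]; ring

theorem br_smul (s : ℝ) (x : Fin 4 → ℝ) : br (s • x) = s * br x := by
  simp only [br, Pi.smul_apply, smul_eq_mul]; ring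

theorem bi_smul (s : ℝ) (x : Fin 4 → ℝ) : bi (s • x) = s * bi x := by
  simp only [bi, Pi.smul_apply, smul_eq_mul]; ring

/-- `A = a - 2 Re (b conj ζ) + d |ζ|²` -/
def wA (P : H3) (x : Fin 4 → ℝ) : ℝ :=
  x 0 - 2 * (br x * P.z.re + bi x * P.z.im) + x 3 * (P.z.re ^ 2 + P.z.im ^ 2)

/-- `tr (X P⁻¹) / 2` -/
def wt (P : H3) (x : Fin 4 → ℝ) : ℝ := (wA P x + x 3 * P.y ^ 2) / (2 * P.y)

theorem wt_smul (P : H3) (s : ℝ) (x : Fin 4 → ℝ) : wt P (s • x) = s * wt P x := by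
  simp only [wt, wA, br_smul, bi_smul, Pi.smul_apply, smul_eq_mul]; ring

/-- the majorant `Q4 + 2 wt²` -/
def maj (P : H3) (x : Fin 4 → ℝ) : ℝ := Q4 x + 2 * wt P x ^ 2

/-- orthogonal coordinates -/
def vco (P : H3) : (Fin 4 → ℝ) →ₗ[ℝ] (Fin 4 → ℝ) where
  toFun x := ![√2 * (br x - x 3 * P.z.re), √2 * (bi x - x 3 * P.z.im),
    (wA P x / P.y - x 3 * P.y) / √2, (wA P x / P.y + x 3 * P.y) / √2]
  map_add' x y := by
    funext i
    fin_cases i <;> simp [wA, br_add, bi_add] <;> ring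
  map_smul' s x := by
    funext i
    fin_cases i <;> simp [wA, br_smul, bi_smul] <;> ring

theorem vco_0 (P : H3) (x : Fin 4 → ℝ) : vco P x 0 = √2 * (br x - x 3 * P.z.re) := rfl
theorem vco_1 (P : H3) (x : Fin 4 → ℝ) : vco P x 1 = √2 * (bi x - x 3 * P.z.im) := rfl
theorem vco_2 (P : H3) (x : Fin 4 → ℝ) : vco P x 2 = (wA P x / P.y - x 3 * P.y) / √2 := rfl
theorem vco_3 (P : H3) (x : Fin 4 → ℝ) : vco P x 3 = (wA P x / P.y + x 3 * P.y) / √2 := rfl

/-- the inverse -/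
def vcoInv (P : H3) (v : Fin 4 → ℝ) : Fin 4 → ℝ :=
  let x3 := (v 3 - v 2) / (√2 * P.y)
  let A := P.y * (v 2 + v 3) / √2
  let r := v 0 / √2 + x3 * P.z.re
  let i := v 1 / √2 + x3 * P.z.im
  ![A + 2 * (r * P.z.re + i * P.z.im) - x3 * (P.z.re ^ 2 + P.z.im ^ 2), r + i / √3, 2 * i / √3, x3]

theorem vcoInv_vco (P : H3) (x : Fin 4 → ℝ) : vcoInv P (vco P x) = x := by
  have h2 : √2 ^ 2 = 2 := Real.sq_sqrt (by norm_num)
  have h3 : √3 ^ 2 = 3 := Real.sq_sqrt (by norm_num)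
  have h20 : √2 ≠ 0 := by positivity
  have h30 : √3 ≠ 0 := by positivity
  have hy := P.y_ne
  have e3 : (vco P x 3 - vco P x 2) / (√2 * P.y) = x 3 := by
    rw [vco_2, vco_3]
    field_simp
    linear_combination (-x 3 * P.y ^ 2) * h2
  have eA : P.y * (vco P x 2 + vco P x 3) / √2 = wA P x := by
    rw [vco_2, vco_3]
    field_simp
    linear_combination (-wA P x) * h2
  have er : vco P x 0 / √2 + x 3 * P.z.re = br x := by
    rw [vco_0]
    field_simp
    ring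
  have ei : vco P x 1 / √2 + x 3 * P.z.im = bi x := by
    rw [vco_1]
    field_simp
    ring
  unfold vcoInv
  simp only [e3, eA, er, ei]
  have hb2 : 2 * bi x / √3 = x 2 := by
    unfold bi
    field_simp
  have hb1 : br x + bi x / √3 = x 1 := by
    unfold br bi
    field_simp
    ring
  have hA : wA P x + 2 * (br x * P.z.re + bi x * P.z.im) - x 3 * (P.z.re ^ 2 + P.z.im ^ 2) = x 0 := by
    unfold wA
    ring
  rw [hb1, hb2, hA]
  funext i
  fin_cases i <;> rfl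

theorem vco_vcoInv (P : H3) (v : Fin 4 → ℝ) : vco P (vcoInv P v) = v := by
  have h2 : √2 ^ 2 = 2 := Real.sq_sqrt (by norm_num)
  have h3 : √3 ^ 2 = 3 := Real.sq_sqrt (by norm_num)
  have h20 : √2 ≠ 0 := by positivity
  have h30 : √3 ≠ 0 := by positivity
  have hy := P.y_ne
  set x := vcoInv P v with hx
  have e3 : x 3 = (v 3 - v 2) / (√2 * P.y) := rfl
  have eb : br x = v 0 / √2 + x 3 * P.z.re := by
    change (v 0 / √2 + x 3 * P.z.re + (v 1 / √2 + x 3 * P.z.im) / √3) -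
      (2 * (v 1 / √2 + x 3 * P.z.im) / √3) / 2 = _
    ring
  have ei : bi x = v 1 / √2 + x 3 * P.z.im := by
    change √3 / 2 * (2 * (v 1 / √2 + x 3 * P.z.im) / √3) = _
    field_simp
  have eA : wA P x = P.y * (v 2 + v 3) / √2 := by
    have e0 : x 0 = P.y * (v 2 + v 3) / √2 + 2 * (br x * P.z.re + bi x * P.z.im) -
        x 3 * (P.z.re ^ 2 + P.z.im ^ 2) := by
      rw [eb, ei]
      rfl
    unfold wA
    rw [e0]
    ring
  funext i
  fin_cases i
  · change vco P x 0 = v 0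
    rw [vco_0, eb]
    field_simp
    ring
  · change vco P x 1 = v 1
    rw [vco_1, ei]
    field_simp
    ring
  · change vco P x 2 = v 2
    rw [vco_2, eA, e3]
    field_simp
    linear_combination (-v 2) * h2
  · change vco P x 3 = v 3
    rw [vco_3, eA, e3]
    field_simp
    linear_combination (-v 3) * h2

/-- the coordinates as a linear equivalence -/
def vcoE (P : H3) : (Fin 4 → ℝ) ≃ₗ[ℝ] (Fin 4 → ℝ) :=
  { vco P with
    invFun := vcoInv P
    left_inv := vcoInv_vco P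
    right_inv := vco_vcoInv P }

/-- the orthogonal basis attached to `P` -/
def eP (P : H3) : Basis (Fin 4) ℝ (Fin 4 → ℝ) := Basis.ofEquivFun (vcoE P)

theorem eP_repr (P : H3) (x : Fin 4 → ℝ) (i : Fin 4) : (eP P).repr x i = vco P x i := by
  rw [eP, Basis.ofEquivFun_repr_apply]
  rfl

/-! ### The volume of the basis -/

theorem det_vco (P : H3) : LinearMap.det (vco P) = √3 := by
  have h2 : √2 ^ 2 = 2 := Real.sq_sqrt (by norm_num)
  have h20 : √2 ≠ 0 := by positivity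
  have hy := P.y_ne
  rw [← LinearMap.det_toMatrix', Matrix.det_succ_row_zero]
  simp [Fin.sum_univ_succ, Matrix.det_fin_three, LinearMap.toMatrix'_apply, vco_0, vco_1, vco_2,
    vco_3, br, bi, wA, Fin.succAbove, Pi.single_apply]
  field_simp
  ring

theorem volume_eP (P : H3) : (MeasureTheory.volume : MeasureTheory.Measure (Fin 4 → ℝ)).real
    (parallelepiped (eP P)) = 1 / √3 := by
  have h : parallelepiped (eP P) = vco P ⁻¹' Set.Icc 0 1 := by
    ext x
    rw [parallelepiped_basis_eq]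
    simp only [eP_repr, Set.mem_ofPred_eq, Set.mem_preimage]
    constructor
    · intro h
      exact ⟨fun i => (h i).1, fun i => (h i).2⟩
    · intro h i
      exact ⟨h.1 i, h.2 i⟩
  have hd : LinearMap.det (vco P) ≠ 0 := by
    rw [det_vco]
    positivity
  rw [h, MeasureTheory.measureReal_def, MeasureTheory.Measure.addHaar_preimage_linearMap _ hd,
    Real.volume_Icc_pi, det_vco]
  simp [abs_of_nonneg]

/-! ### The bilinear form -/

/-- `B4` as a bilinear form -/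
def BB : LinearMap.BilinForm ℝ (Fin 4 → ℝ) :=
  LinearMap.mk₂ ℝ B4 (fun x y z => by simp only [B4, Pi.add_apply]; ring)
    (fun c x y => by simp only [B4, Pi.smul_apply, smul_eq_mul]; ring)
    (fun x y z => by simp only [B4, Pi.add_apply]; ring)
    (fun c x y => by simp only [B4, Pi.smul_apply, smul_eq_mul]; ring)

theorem BB_apply (x y : Fin 4 → ℝ) : BB x y = B4 x y := rfl

/-- the signs -/
def sg4 : Fin 4 → ℝ := ![1, 1, 1, -1]

theorem sg4_sq (i : Fin 4) : sg4 i ^ 2 = 1 := by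
  fin_cases i <;> simp [sg4]

theorem B4_eq (x y : Fin 4 → ℝ) :
    B4 x y = 2 * (br x * br y + bi x * bi y) - x 0 * y 3 - x 3 * y 0 := by
  have h3 : √3 ^ 2 = 3 := Real.sq_sqrt (by norm_num)
  simp only [B4, br, bi]
  linear_combination (-(x 2 * y 2) / 2) * h3

theorem BB_eq_sum (P : H3) (x y : Fin 4 → ℝ) :
    BB x y = ∑ i, sg4 i * (eP P).repr x i * (eP P).repr y i := by
  have h2 : √2 ^ 2 = 2 := Real.sq_sqrt (by norm_num)
  have h20 : √2 ≠ 0 := by positivity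
  have hy := P.y_ne
  rw [BB_apply, B4_eq, Fin.sum_univ_four]
  simp only [eP_repr, vco_0, vco_1, vco_2, vco_3, sg4, Matrix.cons_val_zero, Matrix.cons_val_one,
    Matrix.cons_val]
  have hdiv : ∀ s t : ℝ, s / √2 * (t / √2) = s * t / 2 := fun s t => by
    rw [div_mul_div_comm, ← pow_two, h2]
  have hmul : ∀ s t : ℝ, √2 * s * (√2 * t) = 2 * (s * t) := fun s t => by
    linear_combination (s * t) * h2
  rw [one_mul, one_mul, one_mul, mul_assoc (-1 : ℝ), hdiv, hdiv, hmul, hmul]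
  simp only [wA]
  field_simp
  ring

/-! ### The kernel -/

/-- The theta kernel. -/
def gk (P : H3) (z : ℂ) (x : Fin 4 → ℝ) : ℂ :=
  (√z.im : ℂ) * e (Q4 x * z) * (Real.exp (-(4 * π * z.im * wt P x ^ 2)) : ℂ)

/-- the exponents -/
def aC (z : ℂ) : Fin 4 → ℂ := ![-I * z, -I * z, -I * z, I * conj z]

theorem aC_re {z : ℂ} (hz : 0 < z.im) (i : Fin 4) : 0 < (aC z i).re := by
  fin_cases i <;> simpa [aC] using hz

theorem vco_sum (P : H3) (x : Fin 4 → ℝ) :
    vco P x 0 ^ 2 + vco P x 1 ^ 2 + vco P x 2 ^ 2 = 2 * Q4 x + vco P x 3 ^ 2 := by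
  have h := BB_eq_sum P x x
  rw [Fin.sum_univ_four] at h
  simp only [eP_repr, sg4, Matrix.cons_val_zero, Matrix.cons_val_one, Matrix.cons_val] at h
  have h1 : BB x x = 2 * Q4 x := by
    rw [BB_apply]
    simp only [B4, Q4]
    ring
  linear_combination -h + h1

theorem vco_3_sq (P : H3) (x : Fin 4 → ℝ) : vco P x 3 ^ 2 = 2 * wt P x ^ 2 := by
  have h2 : √2 ^ 2 = 2 := Real.sq_sqrt (by norm_num)
  have hy := P.y_ne
  rw [vco_3, wt, div_pow, h2]
  field_simp

theorem gk_eq_gau (P : H3) (z : ℂ) (x : Fin 4 → ℝ) :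
    gk P z x = (√z.im : ℂ) * gau (eP P) (aC z) x := by
  unfold gk gau
  rw [mul_assoc]
  congr 1
  rw [e, Complex.ofReal_exp, ← Complex.exp_add]
  congr 1
  rw [Fin.sum_univ_four]
  simp only [eP_repr, aC, Matrix.cons_val_zero, Matrix.cons_val_one, Matrix.cons_val]
  have h1 : ((vco P x 0 : ℝ) : ℂ) ^ 2 + ((vco P x 1 : ℝ) : ℂ) ^ 2 + ((vco P x 2 : ℝ) : ℂ) ^ 2 =
      2 * ((Q4 x : ℝ) : ℂ) + ((vco P x 3 : ℝ) : ℂ) ^ 2 := by
    exact_mod_cast vco_sum P x
  have h2 : ((vco P x 3 : ℝ) : ℂ) ^ 2 = 2 * ((wt P x : ℝ) : ℂ) ^ 2 := by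
    exact_mod_cast vco_3_sq P x
  have h3 : conj z = z - 2 * z.im * I := by
    apply Complex.ext <;> simp
    ring
  rw [h3]
  push_cast
  linear_combination (-π * I * z) * h1 - (2 * π * z.im * I ^ 2) * h2 -
    (4 * π * z.im * wt P x ^ 2) * I_sq

theorem norm_gk (P : H3) (z : ℂ) (x : Fin 4 → ℝ) :
    ‖gk P z x‖ = √z.im * Real.exp (-(2 * π * z.im * maj P x)) := by
  rw [gk, norm_mul, norm_mul, e, Complex.norm_exp, Complex.norm_real, Complex.norm_real,
    Real.norm_of_nonneg (Real.sqrt_nonneg _), Real.norm_of_nonneg (Real.exp_nonneg _), mul_assoc,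
    ← Real.exp_add]
  congr 2
  simp [maj]
  ring

/-- the basis `r e_i` -/
def bR (r : ℝ) (hr : 0 < r) : Basis (Fin 4) ℝ (Fin 4 → ℝ) :=
  Basis.ofEquivFun (LinearEquiv.smulOfNeZero ℝ (Fin 4 → ℝ) r⁻¹ (inv_ne_zero hr.ne'))

theorem bR_repr (r : ℝ) (hr : 0 < r) (x : Fin 4 → ℝ) (i : Fin 4) :
    (bR r hr).repr x i = r⁻¹ * x i := by
  rw [bR, Basis.ofEquivFun_repr_apply]
  rfl

theorem cv_bR (r : ℝ) (hr : 0 < r) (x : Fin 4 → ℝ) : cv (bR r hr) x = r • x := by
  apply (bR r hr).repr.injective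
  ext i
  rw [repr_cv, bR_repr, Pi.smul_apply, smul_eq_mul, inv_mul_cancel_left₀ hr.ne']

theorem volume_bR (r : ℝ) (hr : 0 < r) :
    (MeasureTheory.volume : MeasureTheory.Measure (Fin 4 → ℝ)).real
      (parallelepiped (bR r hr)) = r ^ 4 := by
  have h : parallelepiped (bR r hr) = (r⁻¹ • ·) ⁻¹' Set.Icc (0 : Fin 4 → ℝ) 1 := by
    ext x
    rw [parallelepiped_basis_eq]
    simp only [bR_repr, Set.mem_ofPred_eq, Set.mem_preimage]
    constructor
    · intro h
      exact ⟨fun i => (h i).1, fun i => (h i).2⟩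
    · intro h i
      exact ⟨h.1 i, h.2 i⟩
  rw [h, MeasureTheory.measureReal_def,
    MeasureTheory.Measure.addHaar_preimage_smul _ (inv_ne_zero hr.ne'), Real.volume_Icc_pi]
  simp [abs_of_pos hr, hr.le]

/-- permutation of the integral covectors -/
def sk : (Fin 4 → ℤ) ≃ (Fin 4 → ℤ) where
  toFun k := ![-k 3, k 1, k 2, -k 0]
  invFun k := ![-k 3, k 1, k 2, -k 0]
  left_inv k := by funext i; fin_cases i <;> simp
  right_inv k := by funext i; fin_cases i <;> simp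

theorem co_bR (r : ℝ) (hr : 0 < r) (k : Fin 4 → ℤ) (x : Fin 4 → ℝ) :
    co (bR r hr) (sk k) x = pr (ic k) x / r := by
  rw [co, Fin.sum_univ_four]
  simp only [bR_repr, sk, Equiv.coe_fn_mk, Matrix.cons_val_zero, Matrix.cons_val_one,
    Matrix.cons_val, pr, ic]
  push_cast
  field_simp
  ring

theorem BB_du (r : ℝ) (k : Fin 4 → ℤ) (x : Fin 4 → ℝ) :
    BB (r⁻¹ • du (ic k)) x = pr (ic k) x / r := by
  rw [map_smul, LinearMap.smul_apply, BB_apply, B4_du, smul_eq_mul]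
  ring

theorem fb_bR (r : ℝ) (hr : 0 < r) (f : (Fin 4 → ℝ) → ℂ) (k : Fin 4 → ℤ) :
    fb MeasureTheory.volume (bR r hr) f (sk k) =
      fB MeasureTheory.volume BB f (r⁻¹ • du (ic k)) := by
  unfold fb fB
  simp_rw [co_bR, BB_du]

theorem summable_gau (P : H3) {a : Fin 4 → ℂ} (ha : ∀ i, 0 < (a i).re) (r : ℝ) (hr : 0 < r)
    (x : Fin 4 → ℝ) : Summable fun n : Fin 4 → ℤ => gau (eP P) a (r • ic n + x) := by
  obtain ⟨C, hC⟩ := gau_decay (eP P) ha 5
  have h := summable_span_add_of_decay (bR r hr) (β := ((5 : ℕ) : ℝ)) (by norm_num) hC x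
  rw [← (spanEquiv (bR r hr)).summable_iff] at h
  refine h.congr fun n => ?_
  simp only [Function.comp_apply, coe_spanEquiv]
  rw [cv_bR, add_comm]
  rfl

theorem summable_gau_du (P : H3) {a : Fin 4 → ℂ} (ha : ∀ i, 0 < (a i).re) (r : ℝ) (hr : 0 < r) :
    Summable fun k : Fin 4 → ℤ => gau (eP P) a (r • du (ic k)) := by
  have h := (summable_gau P ha (r / 3) (by positivity) 0).comp_injective du3_injective
  refine h.congr fun k => ?_
  simp only [Function.comp_apply, add_zero]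
  rw [ic_du3, smul_smul, div_mul_cancel₀ r (by norm_num : (3 : ℝ) ≠ 0)]

theorem aC_inv {z : ℂ} (hz : z ≠ 0) (i : Fin 4) : (aC z i)⁻¹ = aC (-1 / z) i := by
  have hc : conj z ≠ 0 := (map_ne_zero _).mpr hz
  fin_cases i
  · simp [aC]
    ring
  · simp [aC]
    ring
  · simp [aC]
    ring
  · simp [aC]
    ring

theorem cpow_half_mul (u : ℂ) (hu : u ≠ 0) : u ^ (1 / 2 : ℂ) * u ^ (1 / 2 : ℂ) = u := by
  rw [← Complex.cpow_add _ _ hu, show (1 / 2 + 1 / 2 : ℂ) = 1 by norm_num, Complex.cpow_one]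

theorem cpow_half_mul_conj (u : ℂ) (hu : 0 < u.re) :
    u ^ (1 / 2 : ℂ) * (conj u) ^ (1 / 2 : ℂ) = (‖u‖ : ℂ) := by
  have hu0 : u ≠ 0 := by
    rintro rfl
    simp at hu
  have harg : u.arg ≠ π := by
    intro h
    rw [Complex.arg_eq_pi_iff] at h
    linarith [h.1]
  have h1 : (conj u) ^ (1 / 2 : ℂ) = conj (u ^ (1 / 2 : ℂ)) := by
    rw [Complex.conj_cpow u _ harg, map_div₀, map_one, map_ofNat]
  rw [h1, Complex.mul_conj, Complex.normSq_eq_norm_sq]
  congr 1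
  have h2 := congrArg (fun t : ℂ => ‖t‖) (cpow_half_mul u hu0)
  simp only [norm_mul] at h2
  rw [pow_two]
  exact h2

theorem prod_aC {z : ℂ} (hz : 0 < z.im) :
    ∏ i, ((aC z i)⁻¹) ^ (1 / 2 : ℂ) = I / z * ((‖z‖⁻¹ : ℝ) : ℂ) := by
  have hz0 : z ≠ 0 := by
    rintro rfl
    simp at hz
  have hu : (-I * z)⁻¹ = I / z := by
    rw [mul_inv, inv_neg, inv_I, neg_neg, div_eq_mul_inv]
  have hv : (I * conj z)⁻¹ = conj (I / z) := by
    rw [map_div₀, conj_I, mul_inv, inv_I, div_eq_mul_inv]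
  have hre : 0 < (I / z).re := by
    rw [← hu, inv_re]
    exact div_pos (by simpa using hz) (normSq_pos.mpr (mul_ne_zero (neg_ne_zero.mpr I_ne_zero) hz0))
  have hne : I / z ≠ 0 := div_ne_zero I_ne_zero hz0
  rw [Fin.prod_univ_four]
  simp only [aC, Matrix.cons_val_zero, Matrix.cons_val_one, Matrix.cons_val]
  rw [hu, hv, cpow_half_mul _ hne, mul_assoc, cpow_half_mul_conj _ hre, norm_div, norm_I, one_div]

theorem sqrt_im_neg_inv {z : ℂ} (hz : 0 < z.im) : √(-1 / z).im = √z.im * ‖z‖⁻¹ := by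
  have hz0 : z ≠ 0 := by
    rintro rfl
    simp at hz
  have h : (-1 / z).im = z.im * (‖z‖⁻¹) ^ 2 := by
    rw [neg_div, one_div, neg_im, inv_im, normSq_eq_norm_sq]
    ring
  rw [h, Real.sqrt_mul hz.le, Real.sqrt_sq (by positivity)]

/-- **The kernel obeys the rules of the Weil representation.** -/
theorem isTheta (P : H3) : IsTheta (gk P) where
  trans s z x hz := by
    unfold gk
    have h1 : (z + (s : ℂ)).im = z.im := by simp
    rw [h1, mul_add, show ((Q4 x : ℝ) : ℂ) * (s : ℂ) = ((s * Q4 x : ℝ) : ℂ) by push_cast; ring, e_add]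
    ring
  scale s z x hs hz := by
    unfold gk
    have h1 : ((s : ℂ) ^ 2 * z).im = s ^ 2 * z.im := by
      rw [← Complex.ofReal_pow, im_ofReal_mul]
    rw [h1, Real.sqrt_mul (by positivity), Real.sqrt_sq hs.le, Q4_smul, wt_smul]
    have h2 : ((Q4 x : ℝ) : ℂ) * ((s : ℂ) ^ 2 * z) = ((s ^ 2 * Q4 x : ℝ) : ℂ) * z := by
      push_cast; ring
    have h3 : 4 * π * (s ^ 2 * z.im) * wt P x ^ 2 = 4 * π * z.im * (s * wt P x) ^ 2 := by ring
    rw [h2, h3]
    push_cast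
    ring
  summable r z x hr hz := by
    simp_rw [gk_eq_gau]
    exact (summable_gau P (aC_re hz) r hr x).mul_left _
  poisson r z x hr hz := by
    have hz0 : z ≠ 0 := by
      rintro rfl
      simp at hz
    have hz' : 0 < (-1 / z : ℂ).im := im_neg_one_div_pos hz
    obtain ⟨C, hC⟩ := gau_decay (eP P) (aC_re hz) 5
    have hF : ∀ k : Fin 4 → ℤ, fb MeasureTheory.volume (bR r hr) (gau (eP P) (aC z)) (sk k) =
        ((1 / √3 : ℝ) : ℂ) * (I / z * ((‖z‖⁻¹ : ℝ) : ℂ)) *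
          gau (eP P) (aC (-1 / z)) (r⁻¹ • du (ic k)) := by
      intro k
      rw [fb_bR, fB_gau _ (eP P) sg4_sq (BB_eq_sum P) (aC_re hz), volume_eP, prod_aC hz]
      congr 2
      funext i
      rw [aC_inv hz0]
    have hs : Summable (fb MeasureTheory.volume (bR r hr) (gau (eP P) (aC z))) := by
      rw [← sk.summable_iff]
      refine ((summable_gau_du P (aC_re hz') r⁻¹ (inv_pos.mpr hr)).mul_left
        (((1 / √3 : ℝ) : ℂ) * (I / z * ((‖z‖⁻¹ : ℝ) : ℂ)))).congr fun k => ?_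
      rw [Function.comp_apply, hF]
    have h := hasSum_poisson_basis MeasureTheory.volume (bR r hr) (continuous_gau _ _)
      (perable_cv_of_decay (bR r hr) (β := ((5 : ℕ) : ℝ)) (by norm_num) hC) hs x
    rw [← sk.hasSum_iff] at h
    have h2 := h.tsum_eq
    simp only [Function.comp_apply, hF, volume_bR, co_bR] at h2
    have h3 : ∀ n : Fin 4 → ℤ, x + cv (bR r hr) (zc (Fin 4) n) = r • ic n + x := by
      intro n
      rw [cv_bR, add_comm]
      rfl
    simp only [h3] at h2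
    simp_rw [gk_eq_gau]
    rw [tsum_mul_left, ← h2, ← tsum_mul_left, ← tsum_mul_left]
    refine tsum_congr fun k => ?_
    rw [sqrt_im_neg_inv hz, e]
    have h3' : ((√3 : ℝ) : ℂ) ≠ 0 := by
      exact_mod_cast (Real.sqrt_pos.mpr (by norm_num : (0 : ℝ) < 3)).ne'
    have hr' : (r : ℂ) ≠ 0 := by exact_mod_cast hr.ne'
    push_cast
    field_simp

end Fermat.Agent.LT.Theta31
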