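import Fermat.Agent.LT.Theta31.Kernel
import Fermat.Agent.LT.Theta31.ActM

/-!
# The level of the theta kernel

For `c : ℤ⁴ → ℂ` periodic modulo `N`, `θ_c(z) = ∑ X, c X * g z X` satisfies
`θ_c((α z + β) / (γ z + δ)) = (γ z + δ) θ_{c(δ ·)}(z)` as soon as `3 N² ∣ γ` and `δ ≡ 1 mod 3`.
-/

set_option autoImplicit false

noncomputable section

open Complex
open scoped Real ComplexConjugate

namespace Fermat.Agent.LT.Theta31

open Fermat.Agent.LTF.Theta

/-- theta series with a weight -/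
def thc (g : ℂ → (Fin 4 → ℝ) → ℂ) (c : (Fin 4 → ℤ) → ℂ) (z : ℂ) : ℂ := ∑' X, c X * g z (ic X)

/-- the dual vector of `N² r / N` -/
def kr (N : ℕ) (r : Fin 4 → ℤ) : Fin 4 → ℤ :=
  ![N * r 0, N * (2 * r 1 - r 2), N * (2 * r 2 - r 1), N * r 3]

theorem du_kr (N : ℕ) (r : Fin 4 → ℤ) : du (ic (kr N r)) = (N : ℝ) • ic r := by
  funext i
  fin_cases i <;> simp [du, ic, kr] <;> ring

theorem x0_eq {N : ℕ} (hN : 0 < N) (r : Fin 4 → ℤ) :
    (((N ^ 2 : ℕ) : ℝ))⁻¹ • du (ic (kr N r)) = (N : ℝ)⁻¹ • ic r := by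
  have hN' : (N : ℝ) ≠ 0 := by exact_mod_cast hN.ne'
  rw [du_kr, smul_smul]
  congr 1
  push_cast
  field_simp

/-- periodic functions -/
def Per (N : ℕ) (c : (Fin 4 → ℤ) → ℂ) : Prop := ∀ X Y : Fin 4 → ℤ, c (X + (N : ℤ) • Y) = c X

theorem Per.smul {N : ℕ} {c : (Fin 4 → ℤ) → ℂ} (hc : Per N c) (δ : ℤ) :
    Per N fun X => c (δ • X) := by
  intro X Y
  simp only
  rw [smul_add, smul_comm δ, hc]

theorem Per.congr {N : ℕ} {c : (Fin 4 → ℤ) → ℂ} (hc : Per N c) {X Y : Fin 4 → ℤ}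
    (h : ∀ i, (N : ℤ) ∣ X i - Y i) : c X = c Y := by
  choose Z hZ using h
  have : X = Y + (N : ℤ) • Z := by
    funext i
    simp only [Pi.add_apply, Pi.smul_apply, smul_eq_mul]
    linarith [hZ i]
  rw [this, hc]

theorem Per.bound {N : ℕ} [NeZero N] {c : (Fin 4 → ℤ) → ℂ} (hc : Per N c) (X : Fin 4 → ℤ) :
    ‖c X‖ ≤ ∑ r : Fin 4 → ZMod N, ‖c (rv r)‖ := by
  obtain ⟨⟨r, y⟩, rfl⟩ := (resEquiv4 N).surjective X
  rw [resEquiv4_apply, hc]
  exact Finset.single_le_sum (f := fun r : Fin 4 → ZMod N => ‖c (rv r)‖)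
    (fun _ _ => norm_nonneg _) (Finset.mem_univ r)

namespace IsTheta

variable {g : ℂ → (Fin 4 → ℝ) → ℂ} (hg : IsTheta g)

include hg

theorem summable_c {N : ℕ} [NeZero N] {c : (Fin 4 → ℤ) → ℂ} (hc : Per N c) (z : ℂ)
    (hz : 0 < z.im) : Summable fun X => c X * g z (ic X) := by
  have h := (hg.summable_one z 0 hz).norm.mul_left (∑ r : Fin 4 → ZMod N, ‖c (rv r)‖)
  refine Summable.of_norm_bounded h fun X => ?_
  rw [norm_mul, add_zero]
  exact mul_le_mul_of_nonneg_right (hc.bound X) (norm_nonneg _)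

theorem thc_eq {N : ℕ} [NeZero N] {c : (Fin 4 → ℤ) → ℂ} (hc : Per N c) (z : ℂ) (hz : 0 < z.im) :
    thc g c z = ∑ r : Fin 4 → ZMod N, c (rv r) * ((N : ℂ)⁻¹ *
      TH g ((N ^ 2 : ℕ) : ℝ) ((N : ℝ)⁻¹ • ic (rv r)) z) := by
  have hN : 0 < N := Nat.pos_of_ne_zero (NeZero.ne N)
  have hN' : (N : ℝ) ≠ 0 := by exact_mod_cast hN.ne'
  have hN'' : (N : ℂ) ≠ 0 := by exact_mod_cast hN.ne'
  unfold thc
  rw [tsum_residues4 N _ (hg.summable_c hc z hz)]
  refine Finset.sum_congr rfl fun r _ => ?_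
  simp only [hc (rv r)]
  rw [tsum_mul_left]
  congr 1
  unfold TH
  rw [← tsum_mul_left]
  refine tsum_congr fun y => ?_
  have h := hg.scale N z (ic y + (N : ℝ)⁻¹ • ic (rv r)) (by exact_mod_cast hN) hz
  have e1 : ((((N ^ 2 : ℕ) : ℝ)) : ℂ) * z = ((N : ℝ) : ℂ) ^ 2 * z := by push_cast; ring
  rw [e1, h]
  have e2 : (N : ℝ) • (ic y + (N : ℝ)⁻¹ • ic (rv r)) = ic (rv r + (N : ℤ) • y) := by
    rw [smul_add, smul_smul, mul_inv_cancel₀ hN', one_smul, ic_add, ic_smul, add_comm]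
    push_cast
    rfl
  rw [e2]
  push_cast
  rw [inv_mul_cancel_left₀ hN'']

/-- translation -/
theorem thc_add (c : (Fin 4 → ℤ) → ℂ) (z : ℂ) (hz : 0 < z.im) (n : ℤ) :
    thc g c (z + n) = thc g c z := by
  unfold thc
  refine tsum_congr fun X => ?_
  have h := hg.trans n z (ic X) hz
  rw [show ((n : ℝ) : ℂ) = (n : ℂ) by push_cast; rfl] at h
  rw [h, Q4_ic, show (((n : ℝ) * ((Q4 X : ℤ) : ℝ) : ℝ) : ℂ) = ((n * Q4 X : ℤ) : ℂ) by push_cast; rfl,
    e_int, one_mul]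

omit hg in
theorem TH_congr (t : ℝ) {N : ℕ} (hN : 0 < N) (X Y : Fin 4 → ℤ) (h : ∀ i, (N : ℤ) ∣ X i - Y i)
    (z : ℂ) : TH g t ((N : ℝ)⁻¹ • ic X) z = TH g t ((N : ℝ)⁻¹ • ic Y) z := by
  have hN' : (N : ℝ) ≠ 0 := by exact_mod_cast hN.ne'
  choose Z hZ using h
  have h1 : X = Y + (N : ℤ) • Z := by
    funext i
    simp only [Pi.add_apply, Pi.smul_apply, smul_eq_mul]
    linarith [hZ i]
  have h2 : (N : ℝ)⁻¹ • ic X = (N : ℝ)⁻¹ • ic Y + ic Z := by
    rw [h1, ic_add, ic_smul, smul_add, smul_smul]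
    push_cast
    rw [inv_mul_cancel₀ hN', one_smul]
  rw [h2, IsTheta.TH_add_ic]

/-- the law, `3 N² ∣ β` -/
theorem thc_law₀ {N : ℕ} [NeZero N] {c : (Fin 4 → ℤ) → ℂ} (hc : Per N c) (α β γ δ : ℤ)
    (hdet : α * δ - β * γ = 1) (hβ : (3 * N ^ 2 : ℤ) ∣ β) (hγ : (3 * N ^ 2 : ℤ) ∣ γ) (hγ0 : γ ≠ 0)
    (hδ : (3 : ℤ) ∣ δ - 1) (z : ℂ) (hz : 0 < z.im) (hz' : 0 < ((α * z + β) / (γ * z + δ)).im) :
    thc g c ((α * z + β) / (γ * z + δ)) = (γ * z + δ) * thc g (fun X => c (δ • X)) z := by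
  have hN : 0 < N := Nat.pos_of_ne_zero (NeZero.ne N)
  have hN2 : 0 < N ^ 2 := by positivity
  rw [hg.thc_eq hc _ hz', hg.thc_eq (hc.smul δ) z hz]
  have hNγ : (N : ℤ) ∣ γ := (Dvd.intro (3 * (N : ℤ)) (by ring)).trans hγ
  have hds : (3 * ((N ^ 2 : ℕ) : ℤ)) ∣ δ * α - 1 := by
    have : δ * α - 1 = β * γ := by linear_combination hdet
    rw [this]
    push_cast
    exact hγ.mul_left β
  have h1 : ∀ r : Fin 4 → ZMod N, TH g ((N ^ 2 : ℕ) : ℝ) ((N : ℝ)⁻¹ • ic (rv r))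
      ((α * z + β) / (γ * z + δ)) =
      (γ * z + δ) * TH g ((N ^ 2 : ℕ) : ℝ) ((N : ℝ)⁻¹ • ic (α • rv r)) z := by
    intro r
    have h := hg.law (N ^ 2) hN2 (kr N (rv r)) α β γ δ α hdet (by push_cast; exact hβ)
      (by push_cast; exact hγ) hγ0 hδ hds z hz
    rw [x0_eq hN] at h
    rw [h, ic_smul, smul_comm]
  simp only [h1]
  rw [Finset.mul_sum]
  -- reindex
  have hαδ : (α : ZMod N) * δ = 1 := by
    have h2 : ((α * δ : ℤ) : ZMod N) = ((1 + β * γ : ℤ) : ZMod N) := by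
      congr 1
      linear_combination hdet
    have h3 : (γ : ZMod N) = 0 := (ZMod.intCast_zmod_eq_zero_iff_dvd γ N).mpr hNγ
    push_cast at h2
    rw [h3, mul_zero, add_zero] at h2
    exact h2
  let E : (Fin 4 → ZMod N) ≃ (Fin 4 → ZMod N) :=
    { toFun := fun r => (δ : ZMod N) • r
      invFun := fun r => (α : ZMod N) • r
      left_inv := fun r => by
        funext i
        simp only [Pi.smul_apply, smul_eq_mul]
        rw [← mul_assoc, hαδ, one_mul]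
      right_inv := fun r => by
        funext i
        simp only [Pi.smul_apply, smul_eq_mul]
        rw [← mul_assoc, mul_comm (δ : ZMod N), hαδ, one_mul] }
  rw [← Equiv.sum_comp E]
  have hval : ∀ (a : ℤ) (r s : Fin 4 → ZMod N) (i : Fin 4), s i = (a : ZMod N) * r i →
      (N : ℤ) ∣ rv s i - a * rv r i := by
    intro a r s i h
    rw [← ZMod.intCast_zmod_eq_zero_iff_dvd]
    push_cast
    simp [rv, h]
  refine Finset.sum_congr rfl fun r _ => ?_
  have e1 : c (rv (E r)) = c (δ • rv r) := hc.congr fun i => hval δ r (E r) i rfl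
  have e2 : TH g ((N ^ 2 : ℕ) : ℝ) ((N : ℝ)⁻¹ • ic (α • rv (E r))) z =
      TH g ((N ^ 2 : ℕ) : ℝ) ((N : ℝ)⁻¹ • ic (rv r)) z := by
    refine IsTheta.TH_congr _ hN _ _ (fun i => ?_) z
    have := hval α (E r) r i (by
      change r i = α * (δ * r i)
      rw [← mul_assoc, hαδ, one_mul])
    rw [← dvd_neg]
    simpa using this
  rw [e1, e2]
  ring

/-- **The transformation law of `θ_c`.** -/
theorem thc_law {N : ℕ} [NeZero N] {c : (Fin 4 → ℤ) → ℂ} (hc : Per N c) (α β γ δ : ℤ)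
    (hdet : α * δ - β * γ = 1) (hγ : (3 * N ^ 2 : ℤ) ∣ γ)
    (hδ : (3 : ℤ) ∣ δ - 1) (z : ℂ) (hz : 0 < z.im) (hz' : 0 < ((α * z + β) / (γ * z + δ)).im) :
    thc g c ((α * z + β) / (γ * z + δ)) = (γ * z + δ) * thc g (fun X => c (δ • X)) z := by
  by_cases hγ0 : γ = 0
  · subst hγ0
    rw [mul_zero, sub_zero] at hdet
    have hδ1 : δ = 1 := by
      rcases Int.isUnit_iff.mp (IsUnit.of_mul_eq_one_right _ hdet) with h | h
      · exact h
      · exfalso
        rw [h] at hδ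
        omega
    subst hδ1
    have hα : α = 1 := by linarith
    subst hα
    have h := hg.thc_add c z hz β
    simp only [one_smul]
    push_cast
    rw [one_mul, zero_mul, zero_add, div_one, one_mul]
    exact h
  · have hNγ : (N : ℤ) ∣ γ := (Dvd.intro (3 * (N : ℤ)) (by ring)).trans hγ
    have e1 : (α : ℂ) * (z + (δ * β : ℤ)) + ((β - α * (δ * β) : ℤ) : ℂ) = α * z + β := by
      push_cast; ring
    have e2 : (γ : ℂ) * (z + (δ * β : ℤ)) + ((δ - γ * (δ * β) : ℤ) : ℂ) = γ * z + δ := by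
      push_cast; ring
    have hz1 : 0 < (z + (δ * β : ℤ)).im := by
      rw [add_im, intCast_im, add_zero]
      exact hz
    have h := hg.thc_law₀ hc α (β - α * (δ * β)) γ (δ - γ * (δ * β))
      (by linear_combination hdet)
      (by
        have : β - α * (δ * β) = -(β * β) * γ := by linear_combination (-β) * hdet
        rw [this]
        exact hγ.mul_left _) hγ hγ0
      (by
        have h3 : (3 : ℤ) ∣ γ := (Dvd.intro ((N : ℤ) ^ 2) rfl).trans hγ
        have : δ - γ * (δ * β) - 1 = (δ - 1) - γ * (δ * β) := by ring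
        rw [this]
        exact dvd_sub hδ (h3.mul_right _))
      (z + (δ * β : ℤ)) hz1 (by rw [e1, e2]; exact hz')
    rw [e1, e2, hg.thc_add _ z hz] at h
    rw [h]
    congr 1
    unfold thc
    refine tsum_congr fun X => ?_
    congr 1
    refine hc.congr fun i => ?_
    simp only [Pi.smul_apply, smul_eq_mul]
    have : (δ - γ * (δ * β)) * X i - δ * X i = γ * (-(δ * β * X i)) := by ring
    rw [this]
    exact hNγ.mul_right _

end IsTheta

/-! ### Triples `(a, b, d) : ℤ × O × ℤ` -/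

/-- the cube root of unity -/
def ωC : ℂ := ⟨-1 / 2, √3 / 2⟩

theorem bc_ic (n : Fin 4 → ℤ) : (n 1 : ℂ) + (n 2 : ℂ) * ωC = bc (ic n) := by
  apply Complex.ext
  · simp [bc, br, ic, ωC]
    ring
  · simp [bc, bi, ic, ωC]
    ring

theorem gk_eq_kern (P : H3) (z : ℂ) (n : Fin 4 → ℤ) :
    gk P z (ic n) = kern (Q4 n) (wt P (ic n)) z := by
  rw [gk, kern, Q4_ic, e]
  congr 3
  push_cast
  ring

section Eis

variable {O : Type*} [CommRing O] [StarRing O] {σ : O →+* ℂ} {ω : O}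

/-- coordinates of triples -/
def toTriple (ω : O) (n : Fin 4 → ℤ) : ℤ × O × ℤ := (n 0, (n 1 : O) + (n 2 : O) * ω, n 3)

omit [StarRing O] in
theorem toTriple_bijective (hω : σ ω = ωC) (hrep : ∀ b : O, ∃ x y : ℤ, b = x + y * ω) :
    Function.Bijective (toTriple ω) := by
  constructor
  · intro m n h
    simp only [toTriple, Prod.mk.injEq] at h
    obtain ⟨h0, h1, h3⟩ := h
    have h4 := congrArg σ h1
    simp only [map_add, map_mul, map_intCast, hω] at h4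
    have h5 : (m 2 : ℝ) = n 2 := by
      have := congrArg Complex.im h4
      simp [ωC] at this
      exact_mod_cast this
    have h6 : m 2 = n 2 := by exact_mod_cast h5
    have h7 : m 1 = n 1 := by
      rw [h6] at h4
      exact_mod_cast add_right_cancel h4
    funext i
    fin_cases i
    · exact h0
    · exact h7
    · exact h6
    · exact h3
  · rintro ⟨a, b, d⟩
    obtain ⟨x, y, rfl⟩ := hrep b
    exact ⟨![a, x, y, d], rfl⟩

variable (D : NTData O)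

theorem q_toTriple (hσ : ∀ x, σ (star x) = conj (σ x)) (hω : σ ω = ωC) (n : Fin 4 → ℤ) :
    D.q (toTriple ω n) = Q4 n := by
  have h1 := D.map_nrm hσ ((n 1 : O) + (n 2 : O) * ω)
  have h2 : σ ((n 1 : O) + (n 2 : O) * ω) = bc (ic n) := by
    rw [← bc_ic]
    simp only [map_add, map_mul, map_intCast, hω]
  rw [h2, Complex.mul_conj] at h1
  have h3 : ((D.nrm ((n 1 : O) + (n 2 : O) * ω) : ℤ) : ℝ) = normSq (bc (ic n)) := by
    exact_mod_cast h1
  have h4 : normSq (bc (ic n)) = ((n 1 ^ 2 - n 1 * n 2 + n 2 ^ 2 : ℤ) : ℝ) := by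
    have := br_bi (ic n)
    rw [normSq_apply, ← pow_two, ← pow_two]
    change br (ic n) ^ 2 + bi (ic n) ^ 2 = _
    rw [this]
    simp [ic]
  rw [h4] at h3
  have h5 : D.nrm ((n 1 : O) + (n 2 : O) * ω) = n 1 ^ 2 - n 1 * n 2 + n 2 ^ 2 := by exact_mod_cast h3
  unfold NTData.q toTriple Q4
  simp only
  rw [h5]

omit [StarRing O] in
theorem lin_toTriple (hω : σ ω = ωC) (P : H3) (n : Fin 4 → ℤ) :
    lin σ (toTriple ω n) P = wt P (ic n) := by
  have h2 : σ ((n 1 : O) + (n 2 : O) * ω) = bc (ic n) := by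
    rw [← bc_ic]
    simp only [map_add, map_mul, map_intCast, hω]
  unfold lin toTriple wt wA
  simp only
  rw [h2]
  simp only [bc, mul_re, conj_re, conj_im, normSq_apply, ic]
  ring

theorem theta_eq_thc (hσ : ∀ x, σ (star x) = conj (σ x)) (hω : σ ω = ωC)
    (hrep : ∀ b : O, ∃ x y : ℤ, b = x + y * ω) (c : ℤ × O × ℤ → ℂ) (z : ℂ) (P : H3) :
    D.theta σ c z P = thc (gk P) (fun n => c (toTriple ω n)) z := by
  unfold NTData.theta thc
  rw [← (Equiv.ofBijective _ (toTriple_bijective hω hrep)).tsum_eq]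
  refine tsum_congr fun n => ?_
  rw [Equiv.ofBijective_apply, q_toTriple D hσ hω, lin_toTriple hω, gk_eq_kern]

/-- a function on triples is periodic modulo `N` -/
def PerT (N : ℕ) (c : ℤ × O × ℤ → ℂ) : Prop := ∀ X Y : ℤ × O × ℤ, c (X + (N : ℤ) • Y) = c X

omit [StarRing O] in
theorem PerT.per {N : ℕ} {c : ℤ × O × ℤ → ℂ} (hc : PerT N c) (ω : O) :
    Per N fun n => c (toTriple ω n) := by
  intro X Y
  simp only
  rw [← hc (toTriple ω X) (toTriple ω Y)]
  congr 1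
  refine Prod.ext ?_ (Prod.ext ?_ ?_)
  · simp [toTriple]
  · simp [toTriple]
    ring
  · simp [toTriple]

/-- **Summability of the theta series.** -/
theorem summable_theta (hσ : ∀ x, σ (star x) = conj (σ x)) (hω : σ ω = ωC)
    (hrep : ∀ b : O, ∃ x y : ℤ, b = x + y * ω) {N : ℕ} [NeZero N] {c : ℤ × O × ℤ → ℂ}
    (hc : PerT N c) (z : ℂ) (hz : 0 < z.im) (P : H3) :
    Summable fun X : ℤ × O × ℤ => c X * kern (D.q X) (lin σ X P) z := by
  rw [← (Equiv.ofBijective _ (toTriple_bijective hω hrep)).summable_iff]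
  refine ((isTheta P).summable_c (hc.per ω) z hz).congr fun n => ?_
  simp only [Function.comp_apply, Equiv.ofBijective_apply]
  rw [q_toTriple D hσ hω, lin_toTriple hω, gk_eq_kern]

/-- **The transformation law of the theta kernel.** -/
theorem theta_law (hσ : ∀ x, σ (star x) = conj (σ x)) (hω : σ ω = ωC)
    (hrep : ∀ b : O, ∃ x y : ℤ, b = x + y * ω) {N : ℕ} [NeZero N] {c : ℤ × O × ℤ → ℂ}
    (hc : PerT N c) (α β γ δ : ℤ) (hdet : α * δ - β * γ = 1) (hγ : (3 * N ^ 2 : ℤ) ∣ γ)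
    (hδ : (3 : ℤ) ∣ δ - 1) (z : ℂ) (hz : 0 < z.im) (hz' : 0 < ((α * z + β) / (γ * z + δ)).im)
    (P : H3) : D.theta σ c ((α * z + β) / (γ * z + δ)) P =
      (γ * z + δ) * D.theta σ (fun X => c (δ • X)) z P := by
  rw [theta_eq_thc D hσ hω hrep, theta_eq_thc D hσ hω hrep,
    (isTheta P).thc_law (hc.per ω) α β γ δ hdet hγ hδ z hz hz']
  congr 2
  funext n
  congr 1
  refine Prod.ext ?_ (Prod.ext ?_ ?_)
  · simp [toTriple]
  · simp [toTriple]
    ring
  · simp [toTriple]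

end Eis

end Fermat.Agent.LT.Theta31
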