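import Fermat.Agent.LT.Theta31.KernelLevel
import Fermat.Agent.LT.Theta31.HeckeK
import Fermat.Agent.LT.EisK

/-!
# The theta lift: level and character

`f z = ∫ F P * Θ z P` satisfies `f ∣ g = χ(g₁₁) f`, `χ = χ_{-3}`, for `g ∈ Γ₀(3 N²)`.
-/

set_option autoImplicit false

noncomputable section

open Complex MeasureTheory NumberField UpperHalfPlane
open scoped Real ComplexConjugate MatrixGroups ModularForm ENNReal

namespace Fermat.Agent.LT.Theta31

theorem ωC_add : ωC + conj ωC = -1 := by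
  apply Complex.ext <;> simp [ωC]

theorem ωC_mul : ωC * conj ωC = 1 := by
  have h3 : √3 * √3 = 3 := Real.mul_self_sqrt (by norm_num)
  rw [Complex.mul_conj, normSq_apply]
  simp only [ωC]
  rw [show (-1 / 2 * (-1 / 2) + √3 / 2 * (√3 / 2) : ℝ) = 1 / 4 + (√3 * √3) / 4 by ring, h3]
  norm_num

/-- a cube root of unity of `O` which is mapped to `ωC` -/
theorem exists_ωC {O : Type*} [CommRing O] {σ : O →+* ℂ} {ω : O} (h : ω ^ 2 + ω + 1 = 0)
    (hrep : ∀ b : O, ∃ x y : ℤ, b = x + y * ω) :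
    ∃ ω' : O, σ ω' = ωC ∧ ∀ b : O, ∃ x y : ℤ, b = x + y * ω' := by
  have h1 : (σ ω - ωC) * (σ ω - conj ωC) = 0 := by
    have h2 := congrArg σ h
    rw [map_add, map_add, map_pow, map_one, map_zero] at h2
    linear_combination h2 - σ ω * ωC_add + ωC_mul
  rcases mul_eq_zero.mp h1 with h2 | h2
  · exact ⟨ω, sub_eq_zero.mp h2, hrep⟩
  · refine ⟨-1 - ω, ?_, fun b => ?_⟩
    · rw [map_sub, map_neg, map_one, sub_eq_zero.mp h2]
      linear_combination -ωC_add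
    · obtain ⟨x, y, hb⟩ := hrep b
      refine ⟨x - y, -y, ?_⟩
      rw [hb]
      push_cast
      ring

section Lift

variable {O : Type*} [CommRing O] [StarRing O] {σ : O →+* ℂ} {ω : O} (D : NTData O)

omit [StarRing O] in
theorem cN_perT (N : ℕ) : PerT N (cN N : ℤ × O × ℤ → ℂ) := by
  intro X Y
  unfold cN
  have h1 : (X + (N : ℤ) • Y).1 = X.1 + N * Y.1 := by simp
  have h2 : (X + (N : ℤ) • Y).2.2 = X.2.2 + N * Y.2.2 := by simp
  rw [h1, h2]
  refine if_congr ?_ rfl rfl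
  rw [dvd_add_left (Dvd.intro _ rfl), dvd_add_left (Dvd.intro _ rfl)]

omit [StarRing O] in
theorem cN_smul_coprime {N : ℕ} {δ : ℤ} (h : IsCoprime (N : ℤ) δ) (X : ℤ × O × ℤ) :
    cN N (δ • X) = cN N X := by
  unfold cN
  have h1 : (δ • X).1 = δ * X.1 := by simp
  have h2 : (δ • X).2.2 = δ * X.2.2 := by simp
  rw [h1, h2]
  have h3 : ∀ a : ℤ, (N : ℤ) ∣ δ * a ↔ (N : ℤ) ∣ a := fun a =>
    ⟨fun h4 => h.dvd_of_dvd_mul_left h4, fun h4 => h4.mul_left _⟩
  simp only [h3]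

/-- The theta function is measurable in `P`. -/
theorem measurable_theta [Countable O] (hσ : ∀ x, σ (star x) = conj (σ x)) (hω : σ ω = ωC)
    (hrep : ∀ b : O, ∃ x y : ℤ, b = x + y * ω) {N : ℕ} [NeZero N] {c : ℤ × O × ℤ → ℂ}
    (hc : PerT N c) (z : ℂ) (hz : 0 < z.im) : Measurable (D.theta σ c z) := by
  classical
  have h1 : ∀ P : H3, HasSum (fun X : ℤ × O × ℤ => c X * kern (D.q X) (lin σ X P) z)
      (D.theta σ c z P) := fun P => (summable_theta D hσ hω hrep hc z hz P).hasSum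
  refine measurable_of_tendsto_metrizable' (Filter.atTop : Filter (Finset (ℤ × O × ℤ)))
    (f := fun s P => ∑ X ∈ s, c X * kern (D.q X) (lin σ X P) z) (fun s => ?_)
    (tendsto_pi_nhds.mpr fun P => h1 P)
  refine Finset.measurable_sum s fun X _ => Measurable.const_mul ?_ _
  have hlin : Continuous (lin σ X) := by
    unfold lin
    refine Continuous.div ?_ (by fun_prop) fun P => ?_
    · have h1 : Continuous fun P : H3 => (σ X.2.1 * conj P.z).re := by fun_prop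
      fun_prop
    · have := P.y_ne
      positivity
  have : Continuous fun P => kern (D.q X) (lin σ X P) z := by
    unfold kern
    fun_prop
  exact this.measurable

/-- The law for the lattice `{(a, b, d) : N ∣ a, N ∣ d}`. -/
theorem theta_cN_law (hσ : ∀ x, σ (star x) = conj (σ x)) (hω : σ ω = ωC)
    (hrep : ∀ b : O, ∃ x y : ℤ, b = x + y * ω) {N : ℕ} [NeZero N] (α β γ δ : ℤ)
    (hdet : α * δ - β * γ = 1) (hγ : (3 * N ^ 2 : ℤ) ∣ γ) (hδ : (3 : ℤ) ∣ δ - 1) (z : ℂ)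
    (hz : 0 < z.im) (hz' : 0 < ((α * z + β) / (γ * z + δ)).im) (P : H3) :
    D.theta σ (cN N) ((α * z + β) / (γ * z + δ)) P = (γ * z + δ) * D.theta σ (cN N) z P := by
  rw [theta_law D hσ hω hrep (cN_perT N) α β γ δ hdet hγ hδ z hz hz']
  have hNγ : (N : ℤ) ∣ γ := (Dvd.intro (3 * (N : ℤ)) (by ring)).trans hγ
  have hco : IsCoprime (N : ℤ) δ := by
    obtain ⟨u, hu⟩ := hNγ
    exact ⟨-(β * u), α, by rw [← hdet, hu]; ring⟩
  congr 3
  funext X
  exact cN_smul_coprime hco X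

/-- The law for the lift. -/
theorem lift_law (hσ : ∀ x, σ (star x) = conj (σ x)) (hω : σ ω = ωC)
    (hrep : ∀ b : O, ∃ x y : ℤ, b = x + y * ω) {N : ℕ} [NeZero N] (ν : Measure H3) (F : H3 → ℂ)
    (α β γ δ : ℤ) (hdet : α * δ - β * γ = 1) (hγ : (3 * N ^ 2 : ℤ) ∣ γ) (hδ : (3 : ℤ) ∣ δ - 1)
    (z : ℂ) (hz : 0 < z.im) (hz' : 0 < ((α * z + β) / (γ * z + δ)).im) :
    lift D σ N ν F ((α * z + β) / (γ * z + δ)) = (γ * z + δ) * lift D σ N ν F z := by
  unfold lift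
  rw [← integral_const_mul]
  refine integral_congr_ae (Filter.Eventually.of_forall fun P => ?_)
  simp only
  rw [theta_cN_law D hσ hω hrep α β γ δ hdet hγ hδ z hz hz']
  ring

/-- The law as invariance under the slash operator, `δ ≡ 1 mod 3`. -/
theorem lift_slash_one (hσ : ∀ x, σ (star x) = conj (σ x)) (hω : σ ω = ωC)
    (hrep : ∀ b : O, ∃ x y : ℤ, b = x + y * ω) {N : ℕ} [NeZero N] (ν : Measure H3) (F : H3 → ℂ)
    (g : SL(2, ℤ)) (hγ : (3 * N ^ 2 : ℤ) ∣ g 1 0) (hδ : (3 : ℤ) ∣ g 1 1 - 1) :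
    (fun τ : ℍ => lift D σ N ν F τ) ∣[(1 : ℤ)] g = fun τ : ℍ => lift D σ N ν F τ := by
  funext τ
  rw [ModularForm.SL_slash_apply, zpow_neg, zpow_one]
  have hden : denom g τ = (g 1 0 : ℂ) * τ + (g 1 1 : ℂ) := by
    rw [ModularGroup.denom_apply]
  have hcoe : ((g • τ : ℍ) : ℂ) = ((g 0 0 : ℂ) * τ + (g 0 1 : ℂ)) / ((g 1 0 : ℂ) * τ + (g 1 1 : ℂ)) := by
    rw [coe_specialLinearGroup_apply]
    simp
  have hne : (g 1 0 : ℂ) * τ + (g 1 1 : ℂ) ≠ 0 := by
    rw [← hden]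
    exact denom_ne_zero _ _
  have hdet : g 0 0 * g 1 1 - g 0 1 * g 1 0 = 1 := by
    have := g.det_coe
    rwa [Matrix.det_fin_two] at this
  rw [hden, hcoe, lift_law D hσ hω hrep ν F (g 0 0) (g 0 1) (g 1 0) (g 1 1) hdet hγ hδ τ τ.im_pos
    (by rw [← hcoe]; exact (g • τ).im_pos)]
  field_simp

/-- the character `χ_{-3}` (on integers prime to `3`) -/
def chi3 (d : ℤ) : ℂ := if (3 : ℤ) ∣ d - 1 then 1 else -1

/-- **Level and character of the lift.** -/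
theorem lift_slash (hσ : ∀ x, σ (star x) = conj (σ x)) (hω : σ ω = ωC)
    (hrep : ∀ b : O, ∃ x y : ℤ, b = x + y * ω) {N : ℕ} [NeZero N] (ν : Measure H3) (F : H3 → ℂ)
    (g : SL(2, ℤ)) (hγ : (3 * N ^ 2 : ℤ) ∣ g 1 0) :
    (fun τ : ℍ => lift D σ N ν F τ) ∣[(1 : ℤ)] g =
      chi3 (g 1 1) • fun τ : ℍ => lift D σ N ν F τ := by
  unfold chi3
  split_ifs with h
  · rw [one_smul]
    exact lift_slash_one D hσ hω hrep ν F g hγ h
  · have hdet : g 0 0 * g 1 1 - g 0 1 * g 1 0 = 1 := by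
      have := g.det_coe
      rwa [Matrix.det_fin_two] at this
    have h3 : (3 : ℤ) ∣ g 1 0 := (Dvd.intro ((N : ℤ) ^ 2) rfl).trans hγ
    have h4 : (3 : ℤ) ∣ (-g) 1 1 - 1 := by
      rw [Matrix.SpecialLinearGroup.coe_neg, Matrix.neg_apply]
      obtain ⟨u, hu⟩ := h3
      have h5 : ¬ (3 : ℤ) ∣ g 1 1 := by
        rintro ⟨v, hv⟩
        have h6 : (3 : ℤ) ∣ 1 := ⟨g 0 0 * v - g 0 1 * u, by
          linear_combination -hdet + g 0 0 * hv - g 0 1 * hu⟩
        norm_num at h6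
      omega
    have h5 := lift_slash_one D hσ hω hrep ν F (-g) (by
      rw [Matrix.SpecialLinearGroup.coe_neg, Matrix.neg_apply]
      exact (dvd_neg).mpr hγ) h4
    funext τ
    have h6 := congrFun h5 τ
    rw [ModularForm.SL_slash_apply, zpow_neg, zpow_one] at h6 ⊢
    rw [ModularGroup.SL_neg_smul] at h6
    have h7 : denom (-g : SL(2, ℤ)) τ = -denom g τ := by
      rw [ModularGroup.denom_apply, ModularGroup.denom_apply, Matrix.SpecialLinearGroup.coe_neg,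
        Matrix.neg_apply, Matrix.neg_apply]
      push_cast
      ring
    rw [h7, inv_neg, mul_neg] at h6
    rw [Pi.smul_apply, smul_eq_mul, neg_one_mul, ← h6, neg_neg]

end Lift

/-! ### `K = ℚ(√-3)` -/

section K

variable {K : Type} [Field K] [NumberField K] [IsCyclotomicExtension {3} ℚ K] {σ : K →+* ℂ}

variable (σ) in
theorem exists_ωK : ∃ ω : 𝓞 K, σO σ ω = ωC ∧ ∀ b : 𝓞 K, ∃ x y : ℤ, b = x + y * ω := by
  obtain ⟨ω, hω⟩ := EisK.exists_omega' (K := K)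
  exact exists_ωC hω (EisK.exists_coord hω)

variable [StarRing (𝓞 K)]

/-- input `hs` of `hecke_fK` -/
theorem summable_theta_K (DN : NTData (𝓞 K)) (hσ : ∀ x, σO σ (star x) = conj (σO σ x)) {N : ℕ}
    [NeZero N] {c : ℤ × 𝓞 K × ℤ → ℂ} (hc : PerT N c) (P : H3) (z : ℂ) (hz : 0 < z.im) :
    Summable fun X : ℤ × 𝓞 K × ℤ => c X * kern (DN.q X) (lin (σO σ) X P) z := by
  obtain ⟨ω, hω, hrep⟩ := exists_ωK σ
  exact summable_theta DN hσ hω hrep hc z hz P

/-- input `hΘ` of `hecke_fK` -/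
theorem measurable_theta_K (DN : NTData (𝓞 K)) (hσ : ∀ x, σO σ (star x) = conj (σO σ x)) {N : ℕ}
    [NeZero N] {c : ℤ × 𝓞 K × ℤ → ℂ} (hc : PerT N c) (z : ℂ) (hz : 0 < z.im) :
    Measurable (DN.theta (σO σ) c z) := by
  obtain ⟨ω, hω, hrep⟩ := exists_ωK σ
  exact measurable_theta DN hσ hω hrep hc z hz

variable {s : 𝓞 K} {M : ℕ} (Φ : KForm σ s M)

/-- **Level and character of the lift of a `KForm`.** -/
theorem fK_slash (DN : NTData (𝓞 K)) (hσ : ∀ x, σO σ (star x) = conj (σO σ x)) (w : H3 → ℝ≥0∞)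
    (g : SL(2, ℤ)) (hg : (27 * M ^ 2 : ℤ) ∣ g 1 0) :
    (fun τ : ℍ => fK Φ DN w τ) ∣[(1 : ℤ)] g = chi3 (g 1 1) • fun τ : ℍ => fK Φ DN w τ := by
  obtain ⟨ω, hω, hrep⟩ := exists_ωK σ
  have : NeZero (3 * M) := ⟨by
    have := Φ.N_ne
    positivity⟩
  refine lift_slash DN hσ hω hrep _ Φ.F g ?_
  push_cast
  have : (3 * (3 * (M : ℤ)) ^ 2 : ℤ) = 27 * M ^ 2 := by ring
  rw [this]
  exact hg

end K

end Fermat.Agent.LT.Theta31
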