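import Fermat.Agent.LT.Unfold

/-!
# Unfolding when all orbits look alike

`𝒢` acts on `Z` preserving `μ`; `G, P ≤ 𝒢` are countable subgroups with weights `w`, `v`;
`Δ` is a countable `G`-set, `E : Δ → Z → ℂ` is equivariant and for every `d` there is `γ ∈ 𝒢` with
`E d (γ z) = E0 z` such that `P` has finite index in `γ⁻¹ Stab(d) γ`. Then
`∫ ∑' d, E d z ∂(μ.withDensity w) = κ * ∫ E0 z ∂(μ.withDensity v)` with `κ > 0` independent of `E`.
-/

set_option autoImplicit false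

noncomputable section

open MeasureTheory ENNReal MulAction

namespace Fermat.Agent.LT.Theta31

section Basic

variable {𝒢 Z : Type*} [Group 𝒢] [MulAction 𝒢 Z] [MeasurableSpace Z]

lemma isWeight_div_index {S : Subgroup 𝒢} {P : Subgroup 𝒢} (hPS : P ≤ S)
    (hfi : P.relIndex S ≠ 0) {v : Z → ℝ≥0∞} (hv : IsWeight P v) :
    IsWeight S fun z => (P.relIndex S : ℝ≥0∞)⁻¹ * v z where
  meas := hv.meas.const_mul _
  sum_eq z := by
    classical
    have hfin : Finite (S ⧸ P.subgroupOf S) := Nat.finite_of_card_ne_zero hfi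
    have := Fintype.ofFinite (S ⧸ P.subgroupOf S)
    rw [ENNReal.tsum_mul_left, ← (Equiv.inv S).tsum_eq,
      ← (IsWeight.cosetEquiv (P.subgroupOf S)).tsum_eq, ENNReal.tsum_prod']
    have h1 : ∀ r : S ⧸ P.subgroupOf S, ∑' k : P.subgroupOf S,
        v ((Equiv.inv S) ((IsWeight.cosetEquiv (P.subgroupOf S)) (r, k)) • z) = 1 := by
      intro r
      let e : P.subgroupOf S ≃ P := (Subgroup.subgroupOfEquivOfLe hPS).toEquiv
      rw [← hv.sum_eq (((r.out : S)⁻¹ : S) • z), ← (Equiv.inv P).tsum_eq, ← e.tsum_eq]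
      refine tsum_congr fun k => ?_
      congr 1
      show (((r.out * (k : S))⁻¹ : S)) • z = ((e k)⁻¹ : P) • ((r.out : S)⁻¹ : S) • z
      rw [mul_inv_rev, mul_smul]
      rfl
    simp only [h1]
    rw [tsum_fintype, Finset.sum_const, nsmul_eq_mul, mul_one, Finset.card_univ,
      ← Nat.card_eq_fintype_card]
    exact ENNReal.inv_mul_cancel (by exact_mod_cast hfi) (by simp)

/-- Integrals for a subgroup of finite index. -/
theorem integral_subgroup {S P : Subgroup 𝒢} (hPS : P ≤ S) (hfi : P.relIndex S ≠ 0)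
    [MeasurableConstSMul 𝒢 Z] {μ : Measure Z} [SMulInvariantMeasure 𝒢 Z μ] [Countable S]
    {w v : Z → ℝ≥0∞} (hw : IsWeight S w) (hv : IsWeight P v) {f : Z → ℂ} (hf : Measurable f)
    (hinv : ∀ (g : S) z, f (g • z) = f z) :
    ∫ z, f z ∂μ.withDensity v = (P.relIndex S : ℂ) * ∫ z, f z ∂μ.withDensity w := by
  rw [hw.integral_eq (isWeight_div_index hPS hfi hv) hf hinv,
    show (fun z => (P.relIndex S : ℝ≥0∞)⁻¹ * v z) = (P.relIndex S : ℝ≥0∞)⁻¹ • v from rfl,
    withDensity_smul _ hv.meas, integral_smul_measure, ENNReal.toReal_inv, ENNReal.toReal_natCast,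
    Complex.real_smul]
  push_cast
  rw [← mul_assoc, mul_inv_cancel₀ (by exact_mod_cast hfi), one_mul]

/-- the stabiliser of `d`, conjugated by `γ⁻¹` -/
def conjStab {Δ : Type*} (G : Subgroup 𝒢) [MulAction G Δ] (d : Δ) (γ : 𝒢) : Subgroup 𝒢 :=
  ((stabilizer G d).map G.subtype).map (MulAut.conj γ⁻¹).toMonoidHom

lemma mem_conjStab {Δ : Type*} {G : Subgroup 𝒢} [MulAction G Δ] {d : Δ} {γ h : 𝒢} :
    h ∈ conjStab G d γ ↔ ∃ g : G, g • d = d ∧ (g : 𝒢) = γ * h * γ⁻¹ := by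
  unfold conjStab
  constructor
  · rintro ⟨_, ⟨g, hg, rfl⟩, rfl⟩
    refine ⟨g, hg, ?_⟩
    simp [mul_assoc]
  · rintro ⟨g, hg, h1⟩
    refine ⟨g, ⟨g, hg, rfl⟩, ?_⟩
    simp [h1, mul_assoc]

/-- the stabiliser and its conjugate -/
def stabEquiv {Δ : Type*} (G : Subgroup 𝒢) [MulAction G Δ] (d : Δ) (γ : 𝒢) :
    stabilizer G d ≃ conjStab G d γ :=
  Equiv.ofBijective (fun g => ⟨γ⁻¹ * g * γ, mem_conjStab.mpr ⟨g, g.2, by group⟩⟩) (by
    constructor
    · intro g g' h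
      have h1 := congrArg Subtype.val h
      simp only at h1
      have h2 : ((g : G) : 𝒢) = ((g' : G) : 𝒢) := by
        have := mul_right_cancel h1
        exact mul_left_cancel this
      exact Subtype.ext (Subtype.ext h2)
    · rintro ⟨h, hh⟩
      obtain ⟨g, hg, h1⟩ := mem_conjStab.mp hh
      refine ⟨⟨g, hg⟩, Subtype.ext ?_⟩
      simp [h1, mul_assoc])

lemma isWeight_conj {Δ : Type*} {G : Subgroup 𝒢} [MulAction G Δ] [MeasurableConstSMul 𝒢 Z]
    {d : Δ} {wo : Z → ℝ≥0∞} (hwo : IsWeight (stabilizer G d) wo) (γ : 𝒢) :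
    IsWeight (conjStab G d γ) fun z => wo (γ • z) where
  meas := hwo.meas.comp (measurable_const_smul γ)
  sum_eq z := by
    rw [← hwo.sum_eq (γ • z), ← (stabEquiv G d γ).tsum_eq]
    refine tsum_congr fun g => ?_
    congr 1
    show γ • (γ⁻¹ * ((g : G) : 𝒢) * γ) • z = ((g : G) : 𝒢) • γ • z
    rw [smul_smul, smul_smul]
    congr 1
    group

end Basic

section Contrib

variable {𝒢 Z Δ : Type*} [Group 𝒢] [MulAction 𝒢 Z] [MeasurableSpace Z] [MeasurableConstSMul 𝒢 Z]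
  {μ : Measure Z} [SMulInvariantMeasure 𝒢 Z μ] {G P : Subgroup 𝒢} [Countable G] [MulAction G Δ]

instance countable_conjStab (d : Δ) (γ : 𝒢) : Countable (conjStab G d γ) :=
  (stabEquiv G d γ).symm.injective.countable

variable {d : Δ} {γ : 𝒢} {wo v : Z → ℝ≥0∞}

omit [SMulInvariantMeasure 𝒢 Z μ] [Countable G] [MeasurableConstSMul 𝒢 Z] in
lemma withDensity_const_mul' (c : ℝ≥0∞) (v : Z → ℝ≥0∞) (hv : Measurable v) :
    μ.withDensity (fun z => c * v z) = c • μ.withDensity v :=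
  withDensity_smul c hv

lemma map_withDensity_conj :
    (μ.withDensity fun z => wo (γ • z)).map (γ • ·) = μ.withDensity wo := by
  ext s hs
  rw [Measure.map_apply (measurable_const_smul γ) hs,
    withDensity_apply _ (measurable_const_smul γ hs), withDensity_apply _ hs,
    ← lintegral_indicator (measurable_const_smul γ hs), ← lintegral_indicator hs]
  have h := (measurePreserving_smul γ μ).lintegral_comp_emb (measurableEmbedding_const_smul γ)
    (s.indicator wo)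
  rw [← h]
  rfl

lemma lintegral_conj (E : Z → ℝ≥0∞) :
    ∫⁻ z, E z ∂μ.withDensity wo = ∫⁻ z, E (γ • z) ∂μ.withDensity fun z => wo (γ • z) := by
  rw [← map_withDensity_conj (γ := γ) (wo := wo), (measurableEmbedding_const_smul γ).lintegral_map]

lemma integral_conj (E : Z → ℂ) :
    ∫ z, E z ∂μ.withDensity wo = ∫ z, E (γ • z) ∂μ.withDensity fun z => wo (γ • z) := by
  rw [← map_withDensity_conj (γ := γ) (wo := wo), (measurableEmbedding_const_smul γ).integral_map]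

theorem contrib_lintegral (hwo : IsWeight (stabilizer G d) wo) (hv : IsWeight P v)
    (hP : P ≤ conjStab G d γ) (hfi : P.relIndex (conjStab G d γ) ≠ 0) {E E0 : Z → ℝ≥0∞}
    (hE : Measurable E) (hE0 : ∀ z, E (γ • z) = E0 z)
    (hinv : ∀ g : G, g • d = d → ∀ z, E (g • z) = E z) :
    ∫⁻ z, E z ∂μ.withDensity wo =
      (P.relIndex (conjStab G d γ) : ℝ≥0∞)⁻¹ * ∫⁻ z, E0 z ∂μ.withDensity v := by
  have hE0' : Measurable E0 := by
    have : E0 = fun z => E (γ • z) := funext fun z => (hE0 z).symm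
    rw [this]
    exact hE.comp (measurable_const_smul γ)
  rw [lintegral_conj (γ := γ) (wo := wo) E]
  simp only [hE0]
  rw [(isWeight_conj hwo γ).lintegral_eq (isWeight_div_index hP hfi hv) hE0' ?_,
    withDensity_const_mul' _ _ hv.meas, lintegral_smul_measure]
  · rfl
  · rintro ⟨h, hh⟩ z
    obtain ⟨g, hg, h1⟩ := mem_conjStab.mp hh
    rw [← hE0, ← hE0, ← hinv g hg (γ • z)]
    congr 1
    show γ • h • z = (g : 𝒢) • γ • z
    rw [h1, smul_smul, smul_smul]
    congr 1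
    group

theorem contrib_integral (hwo : IsWeight (stabilizer G d) wo) (hv : IsWeight P v)
    (hP : P ≤ conjStab G d γ) (hfi : P.relIndex (conjStab G d γ) ≠ 0) {E E0 : Z → ℂ}
    (hE : Measurable E) (hE0 : ∀ z, E (γ • z) = E0 z)
    (hinv : ∀ g : G, g • d = d → ∀ z, E (g • z) = E z) :
    ∫ z, E z ∂μ.withDensity wo =
      (P.relIndex (conjStab G d γ) : ℂ)⁻¹ * ∫ z, E0 z ∂μ.withDensity v := by
  have hE0' : Measurable E0 := by
    have : E0 = fun z => E (γ • z) := funext fun z => (hE0 z).symm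
    rw [this]
    exact hE.comp (measurable_const_smul γ)
  rw [integral_conj (γ := γ) (wo := wo) E]
  simp only [hE0]
  rw [(isWeight_conj hwo γ).integral_eq (isWeight_div_index hP hfi hv) hE0' ?_,
    withDensity_const_mul' _ _ hv.meas, integral_smul_measure]
  · rw [ENNReal.toReal_inv, ENNReal.toReal_natCast, Complex.real_smul]
    push_cast
    rfl
  · rintro ⟨h, hh⟩ z
    obtain ⟨g, hg, h1⟩ := mem_conjStab.mp hh
    rw [← hE0, ← hE0, ← hinv g hg (γ • z)]
    congr 1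
    show γ • h • z = (g : 𝒢) • γ • z
    rw [h1, smul_smul, smul_smul]
    congr 1
    group

end Contrib

section Main

variable {𝒢 Z Δ : Type*} [Group 𝒢] [MulAction 𝒢 Z] [MeasurableSpace Z] [MeasurableConstSMul 𝒢 Z]
  {μ : Measure Z} [SMulInvariantMeasure 𝒢 Z μ] {G P : Subgroup 𝒢} [Countable G] [MulAction G Δ]
  [Countable Δ] {w v : Z → ℝ≥0∞}

/-- `P` has finite index in `γ⁻¹ Stab(d) γ`. -/
structure Comm (G P : Subgroup 𝒢) [MulAction G Δ] (d : Δ) (γ : 𝒢) : Prop where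
  le : P ≤ conjStab G d γ
  fi : P.relIndex (conjStab G d γ) ≠ 0

/-- The constant `∑_orbits [γ⁻¹ Stab γ : P]⁻¹`. -/
def kap (G P : Subgroup 𝒢) [MulAction G Δ] (γ : Δ → 𝒢) : ℝ≥0∞ :=
  ∑' o : Quotient (orbitRel G Δ), (P.relIndex (conjStab G o.out (γ o.out)) : ℝ≥0∞)⁻¹

omit [MulAction 𝒢 Z] [MeasurableSpace Z] [MeasurableConstSMul 𝒢 Z] [Countable G] [Countable Δ] in
lemma kap_ne_zero [Nonempty Δ] (γ : Δ → 𝒢) : kap G P γ ≠ 0 := by
  obtain ⟨d⟩ := ‹Nonempty Δ›
  unfold kap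
  intro h
  rw [ENNReal.tsum_eq_zero] at h
  have := h (Quotient.mk _ d)
  rw [ENNReal.inv_eq_zero] at this
  exact ENNReal.natCast_ne_top _ this

/-- **All orbits look alike**, non-negative functions. -/
theorem lintegral_alike (hw : IsWeight G w) (hv : IsWeight P v) {γ : Δ → 𝒢}
    (hγ : ∀ d, Comm G P d (γ d)) {E : Δ → Z → ℝ≥0∞} {E0 : Z → ℝ≥0∞}
    (hE : ∀ d, Measurable (E d)) (hinv : ∀ (g : G) d z, E (g • d) (g • z) = E d z)
    (hE0 : ∀ d z, E d (γ d • z) = E0 z) :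
    ∫⁻ z, ∑' d, E d z ∂μ.withDensity w = kap G P γ * ∫⁻ z, E0 z ∂μ.withDensity v := by
  have hwo : ∀ o : Quotient (orbitRel G Δ), IsWeight (stabilizer G o.out)
      (fun z => ∑' r : G ⧸ stabilizer G o.out, w (r.out • z)) := fun o => hw.sub _
  rw [lunfold hw hwo hE hinv, kap, ← ENNReal.tsum_mul_right]
  refine tsum_congr fun o => ?_
  refine contrib_lintegral (γ := γ o.out) (hwo o) hv (hγ _).le (hγ _).fi (hE _) (hE0 _) ?_
  intro g hg z
  have := hinv g o.out z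
  rwa [hg] at this

/-- **All orbits look alike.** -/
theorem integral_alike (hw : IsWeight G w) (hv : IsWeight P v) {γ : Δ → 𝒢}
    (hγ : ∀ d, Comm G P d (γ d)) {E : Δ → Z → ℂ} {E0 : Z → ℂ}
    (hE : ∀ d, Measurable (E d)) (hinv : ∀ (g : G) d z, E (g • d) (g • z) = E d z)
    (hE0 : ∀ d z, E d (γ d • z) = E0 z)
    (hfin : ∫⁻ z, ∑' d, ‖E d z‖ₑ ∂μ.withDensity w ≠ ∞) :
    ∫ z, ∑' d, E d z ∂μ.withDensity w = ((kap G P γ).toReal : ℂ) * ∫ z, E0 z ∂μ.withDensity v := by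
  have hwo : ∀ o : Quotient (orbitRel G Δ), IsWeight (stabilizer G o.out)
      (fun z => ∑' r : G ⧸ stabilizer G o.out, w (r.out • z)) := fun o => hw.sub _
  rw [unfold hw hwo hE hinv hfin]
  have h1 : ∀ o : Quotient (orbitRel G Δ), ∫ z, E o.out z ∂μ.withDensity
      (fun z => ∑' r : G ⧸ stabilizer G o.out, w (r.out • z)) =
      (P.relIndex (conjStab G o.out (γ o.out)) : ℂ)⁻¹ * ∫ z, E0 z ∂μ.withDensity v := by
    intro o
    refine contrib_integral (γ := γ o.out) (hwo o) hv (hγ _).le (hγ _).fi (hE _) (hE0 _) ?_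
    intro g hg z
    have := hinv g o.out z
    rwa [hg] at this
  simp only [h1]
  rw [tsum_mul_right]
  by_cases h0 : ∫ z, E0 z ∂μ.withDensity v = 0
  · rw [h0, mul_zero, mul_zero]
  · congr 1
    have h2 := lintegral_alike (μ := μ) hw hv hγ (E := fun d z => ‖E d z‖ₑ)
      (E0 := fun z => ‖E0 z‖ₑ) (fun d => (hE d).enorm) (fun g d z => by simp only [hinv])
      (fun d z => by simp only [hE0])
    have h3 : ∫⁻ z, ‖E0 z‖ₑ ∂μ.withDensity v ≠ 0 := by
      intro h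
      apply h0
      have h4 := enorm_integral_le_lintegral_enorm (μ := μ.withDensity v) E0
      rw [h] at h4
      simpa using h4
    have h5 : kap G P γ ≠ ∞ := by
      intro h
      rw [h2, h, ENNReal.top_mul h3] at hfin
      exact hfin rfl
    unfold kap at h5 ⊢
    rw [ENNReal.tsum_toReal_eq (fun o => ENNReal.ne_top_of_tsum_ne_top h5 o)]
    push_cast
    refine tsum_congr fun o => ?_
    rw [ENNReal.toReal_inv, ENNReal.toReal_natCast]
    push_cast
    rfl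

/-- The constant is finite and positive as soon as one of the integrals is non-zero. -/
theorem kap_ne_top (hw : IsWeight G w) (hv : IsWeight P v) {γ : Δ → 𝒢}
    (hγ : ∀ d, Comm G P d (γ d)) {E : Δ → Z → ℂ} {E0 : Z → ℂ}
    (hE : ∀ d, Measurable (E d)) (hinv : ∀ (g : G) d z, E (g • d) (g • z) = E d z)
    (hE0 : ∀ d z, E d (γ d • z) = E0 z)
    (hfin : ∫⁻ z, ∑' d, ‖E d z‖ₑ ∂μ.withDensity w ≠ ∞)
    (h0 : ∫ z, E0 z ∂μ.withDensity v ≠ 0) : kap G P γ ≠ ∞ := by
  have h2 := lintegral_alike (μ := μ) hw hv hγ (E := fun d z => ‖E d z‖ₑ)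
    (E0 := fun z => ‖E0 z‖ₑ) (fun d => (hE d).enorm) (fun g d z => by simp only [hinv])
    (fun d z => by simp only [hE0])
  have h3 : ∫⁻ z, ‖E0 z‖ₑ ∂μ.withDensity v ≠ 0 := by
    intro h
    apply h0
    have h4 := enorm_integral_le_lintegral_enorm (μ := μ.withDensity v) E0
    rw [h] at h4
    simpa using h4
  intro h
  rw [h2, h, ENNReal.top_mul h3] at hfin
  exact hfin rfl

/-- **Non-vanishing.** -/
theorem integral_alike_ne_zero [Nonempty Δ] (hw : IsWeight G w) (hv : IsWeight P v) {γ : Δ → 𝒢}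
    (hγ : ∀ d, Comm G P d (γ d)) {E : Δ → Z → ℂ} {E0 : Z → ℂ}
    (hE : ∀ d, Measurable (E d)) (hinv : ∀ (g : G) d z, E (g • d) (g • z) = E d z)
    (hE0 : ∀ d z, E d (γ d • z) = E0 z)
    (hfin : ∫⁻ z, ∑' d, ‖E d z‖ₑ ∂μ.withDensity w ≠ ∞)
    (h0 : ∫ z, E0 z ∂μ.withDensity v ≠ 0) : ∫ z, ∑' d, E d z ∂μ.withDensity w ≠ 0 := by
  rw [integral_alike hw hv hγ hE hinv hE0 hfin]
  refine mul_ne_zero ?_ h0
  norm_cast
  exact ENNReal.toReal_ne_zero.mpr ⟨kap_ne_zero γ, kap_ne_top hw hv hγ hE hinv hE0 hfin h0⟩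

end Main

end Fermat.Agent.LT.Theta31
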