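import Fermat.Agent.LT.Theta31.Coeff3
import Fermat.Agent.LT.Theta31.PlaneCoeff
import Fermat.Agent.LT.Theta31.IntK
import Fermat.Agent.LT.Theta31.Inst

/-!
# The theta lift of a `KForm` with non-vanishing period does not vanish

The coefficient at `3` of `f (x + i y) = ∫ F P * θ (x + i y, P)` is a non-zero multiple of the
period.
-/

set_option autoImplicit false

noncomputable section

open MeasureTheory Matrix Complex ComplexConjugate NumberField
open scoped MatrixGroups ENNReal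

namespace Fermat.Agent.LT.Theta31

open H3

/-! ### Coefficients of an absolutely convergent Fourier series of integrals -/

lemma integral_exp_int (n : ℤ) : ∫ x : ℝ in Set.Ioc 0 1, cexp (2 * Real.pi * I * n * x) =
    if n = 0 then 1 else 0 := by
  rw [← intervalIntegral.integral_of_le zero_le_one]
  split_ifs with h
  · subst h
    simp
  · have h1 : (2 * Real.pi * I * n : ℂ) ≠ 0 := by
      have h2 : (Real.pi : ℂ) ≠ 0 := ofReal_ne_zero.mpr Real.pi_ne_zero
      have h3 : (n : ℂ) ≠ 0 := Int.cast_ne_zero.mpr h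
      simp [h2, h3, I_ne_zero]
    rw [integral_exp_mul_complex h1]
    have h2 : cexp (2 * Real.pi * I * n * ((1 : ℝ) : ℂ)) = 1 := by
      rw [exp_eq_one_iff]
      exact ⟨n, by push_cast; ring⟩
    rw [h2]
    simp

theorem fourier_coeff_zero {X ι : Type*} [MeasurableSpace X] [Countable ι] {ν : Measure X}
    (q : ι → ℤ) {A : ι → X → ℂ} (hA : ∀ i, AEStronglyMeasurable (A i) ν)
    (hs : ∑' i, ∫⁻ P, ‖A i P‖ₑ ∂ν ≠ ∞)
    (h0 : ∀ x : ℝ, ∫ P, ∑' i, cexp (2 * Real.pi * I * q i * x) * A i P ∂ν = 0) (m : ℤ) :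
    ∑' i : {i // q i = m}, ∫ P, A i P ∂ν = 0 := by
  classical
  have hn : ∀ (x : ℝ) (n : ℤ), ‖cexp (2 * Real.pi * I * n * x)‖ₑ = 1 := by
    intro x n
    have h : cexp (2 * Real.pi * I * n * x) = cexp ((2 * Real.pi * n * x : ℝ) * I) := by
      congr 1
      push_cast
      ring
    rw [h, ← ofReal_norm, norm_exp_ofReal_mul_I, ENNReal.ofReal_one]
  -- the sum
  have h1 : ∀ x : ℝ, ∑' i, cexp (2 * Real.pi * I * q i * x) * ∫ P, A i P ∂ν = 0 := by
    intro x
    rw [← h0 x, integral_tsum (fun i => (hA i).const_mul _)]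
    · simp only [integral_const_mul]
    · simpa only [enorm_mul, hn, one_mul] using hs
  -- integrate against the character
  have h2 : ∫ x : ℝ in Set.Ioc 0 1, ∑' i, cexp (2 * Real.pi * I * (-m : ℤ) * x) *
      (cexp (2 * Real.pi * I * q i * x) * ∫ P, A i P ∂ν) = 0 := by
    rw [← integral_zero ℝ ℂ (μ := (volume : Measure ℝ).restrict (Set.Ioc 0 1))]
    refine integral_congr_ae (Filter.Eventually.of_forall fun x => ?_)
    simp only
    rw [tsum_mul_left, h1 x, mul_zero]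
  rw [integral_tsum] at h2
  · have h3 : ∀ i, ∫ x : ℝ in Set.Ioc 0 1, cexp (2 * Real.pi * I * (-m : ℤ) * x) *
        (cexp (2 * Real.pi * I * q i * x) * ∫ P, A i P ∂ν) =
        Set.indicator {i | q i = m} (fun i => ∫ P, A i P ∂ν) i := by
      intro i
      have h4 : ∀ x : ℝ, cexp (2 * Real.pi * I * (-m : ℤ) * x) *
          (cexp (2 * Real.pi * I * q i * x) * ∫ P, A i P ∂ν) =
          cexp (2 * Real.pi * I * (q i - m : ℤ) * x) * ∫ P, A i P ∂ν := by
        intro x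
        rw [← mul_assoc, ← Complex.exp_add]
        congr 2
        push_cast
        ring
      simp only [h4]
      rw [integral_mul_const, integral_exp_int]
      by_cases h5 : q i = m
      · rw [Set.indicator_of_mem (show i ∈ {i | q i = m} from h5), if_pos (by omega), one_mul]
      · rw [Set.indicator_of_notMem (show i ∉ {i | q i = m} from h5), if_neg (by omega), zero_mul]
    rw [tsum_congr h3] at h2
    rw [← h2]
    exact tsum_subtype {i | q i = m} fun i => ∫ P, A i P ∂ν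
  · intro i
    exact Continuous.aestronglyMeasurable (by fun_prop)
  · refine ne_top_of_le_ne_top hs (ENNReal.tsum_le_tsum fun i => ?_)
    simp only [enorm_mul, hn, one_mul]
    rw [lintegral_const]
    refine (mul_le_mul_left (enorm_integral_le_lintegral_enorm _) _).trans ?_
    simp

/-! ### The kernel -/

lemma kern_add (n : ℤ) (t x : ℝ) (z : ℂ) :
    kern n t (x + z) = cexp (2 * Real.pi * I * n * x) * kern n t z := by
  have him : ((x : ℂ) + z).im = z.im := by simp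
  rw [kern, kern, him, mul_add, Complex.exp_add]
  ring

lemma lin_zero_sq {O : Type*} [CommRing O] (σ : O →+* ℂ) {s : O} (hs : s ^ 2 = -3) (P : H3) :
    lin σ (0, s, 0) P ^ 2 = 3 * tau P ^ 2 := by
  have h1 : (σ s) ^ 2 = -3 := by
    rw [← map_pow, hs, map_neg, map_ofNat]
  have h2 := congrArg Complex.re h1
  have h3 := congrArg Complex.im h1
  simp only [pow_two, mul_re, mul_im, neg_re, neg_im, re_ofNat, im_ofNat, neg_zero] at h2 h3
  have h4 : (σ s).re * (σ s).im = 0 := by linarith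
  have him : (σ s).im ≠ 0 := by
    intro h0
    rw [h0] at h2
    nlinarith [sq_nonneg (σ s).re]
  have hre : (σ s).re = 0 := (mul_eq_zero.mp h4).resolve_right him
  rw [hre] at h2
  have hy := P.y_ne
  have h5 : lin σ (0, s, 0) P = -((σ s).im * P.z.im) / P.y := by
    unfold lin
    simp only [mul_re, conj_re, conj_im, hre]
    push_cast
    field_simp
    ring
  rw [h5, tau, div_pow, div_pow]
  have h6 : (-((σ s).im * P.z.im)) ^ 2 = 3 * P.z.im ^ 2 := by
    have : (σ s).im * (σ s).im = 3 := by linarith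
    linear_combination P.z.im ^ 2 * this
  rw [h6, mul_div_assoc]

lemma GamC_eq (n : ℕ) : GamC n = (CongruenceSubgroup.Gamma n).map izC := rfl

section K

variable {K : Type} [Field K] [NumberField K] [IsCyclotomicExtension {3} ℚ K] {σ : K →+* ℂ}
  {s : 𝓞 K} {M : ℕ} (Φ : KForm σ s M)

attribute [local instance] EisK.starO

/-- **Non-vanishing of the lift.** -/
theorem fK_ne_zero (hper : HasPeriod Φ) {w : H3 → ℝ≥0∞}
    (hw : IsWeight (GamD (σO σ) (3 * M)) w)
    (hfin : ∀ y : ℝ, 0 < y →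
      ∫⁻ P, thAbs (σO σ) (ntO K) y P ∂(volume : Measure H3).withDensity w ≠ ∞) :
    ∃ τ : UpperHalfPlane, fK Φ (ntO K) w τ ≠ 0 := by
  letI : Eis (𝓞 K) := eisOf Φ.s_sq
  have hs : (Eis.s : 𝓞 K) = s := eisOf_s Φ.s_sq
  by_contra hcon
  push Not at hcon
  set D : NTData (𝓞 K) := ntO K with hD
  have hσ : ∀ x, σO σ (star x) = conj (σO σ x) := fun x => EisK.map_star' σ x
  have hi : Function.Injective (σO σ) := σO_injective σ
  set ν : Measure H3 := (volume : Measure H3).withDensity w with hν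
  obtain ⟨B, hB⟩ := Φ.bdd
  have hB0 : 0 ≤ B := (norm_nonneg _).trans (hB (mk 0 1 one_pos))
  have hM := Φ.N_ne
  set A : ℤ × 𝓞 K × ℤ → H3 → ℂ := fun X P =>
    Φ.F P * (cN (3 * M) X * kern (D.q X) (lin (σO σ) X P) I) with hA
  have hkc : ∀ (n : ℤ) (z : ℂ), Continuous fun t : ℝ => kern n t z := by
    intro n z
    unfold kern
    fun_prop
  have hAm : ∀ X, Measurable (A X) := fun X =>
    Φ.cont.measurable.mul (((hkc _ _).measurable.comp (measurable_lin (σO σ) X)).const_mul _)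
  have hcN : ∀ X : ℤ × 𝓞 K × ℤ, ‖(cN (3 * M) X : ℂ)‖ ≤ 1 := by
    intro X
    unfold cN
    split_ifs <;> simp
  have hAle : ∀ X P, ‖A X P‖ ≤ B * Real.exp (-(2 * Real.pi * (D.q X + 2 * lin (σO σ) X P ^ 2))) := by
    intro X P
    rw [hA]
    simp only [norm_mul, norm_kern, I_im, Real.sqrt_one, one_mul, mul_one]
    have h1 := mul_le_mul_of_nonneg_right (hcN X)
      (Real.exp_nonneg (-(2 * Real.pi * (D.q X + 2 * lin (σO σ) X P ^ 2))))
    rw [one_mul] at h1
    exact mul_le_mul (hB P) h1 (by positivity) hB0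
  -- the total bound
  have hbd : ∀ P, ∑' X, ‖A X P‖ₑ ≤ ENNReal.ofReal B * thAbs (σO σ) D (2 * Real.pi) P := by
    intro P
    rw [thAbs, ← ENNReal.tsum_mul_left]
    refine ENNReal.tsum_le_tsum fun X => ?_
    rw [← ofReal_norm, ← ENNReal.ofReal_mul hB0]
    exact ENNReal.ofReal_le_ofReal (hAle X P)
  have hS : ∫⁻ P, ∑' X, ‖A X P‖ₑ ∂ν ≠ ∞ := by
    refine ne_top_of_le_ne_top ?_ (lintegral_mono hbd)
    rw [lintegral_const_mul' _ _ ENNReal.ofReal_ne_top]
    exact ENNReal.mul_ne_top ENNReal.ofReal_ne_top (hfin _ (by positivity))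
  have hS' : ∑' X, ∫⁻ P, ‖A X P‖ₑ ∂ν ≠ ∞ := by
    rwa [← lintegral_tsum fun X => (hAm X).enorm.aemeasurable]
  have h0 : ∀ x : ℝ, ∫ P, ∑' X, cexp (2 * Real.pi * I * (D.q X) * x) * A X P ∂ν = 0 := by
    intro x
    have h1 : 0 < ((x : ℂ) + I).im := by simp
    have h2 := hcon ⟨(x : ℂ) + I, h1⟩
    rw [← h2]
    show _ = ∫ P, Φ.F P * D.theta (σO σ) (cN (3 * M)) ((x : ℂ) + I) P ∂ν
    refine integral_congr_ae (Filter.Eventually.of_forall fun P => ?_)
    simp only [NTData.theta]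
    rw [← tsum_mul_left]
    refine tsum_congr fun X => ?_
    rw [hA, kern_add]
    ring
  have h3 := fourier_coeff_zero (fun X => D.q X) (fun X => (hAm X).aestronglyMeasurable) hS' h0 3
  -- rewrite as a sum over `Dl`
  set g : ℝ → ℂ := fun t => (Real.exp (-(4 * Real.pi) * t ^ 2) : ℂ) with hg
  set C : ℂ := cexp (2 * Real.pi * I * (3 : ℤ) * I) with hC
  have hC0 : C ≠ 0 := Complex.exp_ne_zero _
  have hAD : ∀ X : Dl D ((3 * M : ℕ) : ℤ) 3, ∀ P, A X.1 P = C * (Φ.F P * g (lin (σO σ) X.1 P)) := by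
    intro X P
    obtain ⟨h4, h5, h6⟩ := X.2
    rw [hA]
    simp only
    rw [show (cN (3 * M) X.1 : ℂ) = 1 from if_pos ⟨h4, h5⟩, h6, kern, hC, hg, I_im, Real.sqrt_one,
      ofReal_one]
    simp only [one_mul, mul_one]
    rw [show -(4 * Real.pi * lin (σO σ) X.1 P ^ 2) = -(4 * Real.pi) * lin (σO σ) X.1 P ^ 2 by ring]
    ring
  have hDlS : ∀ P, ∑' X : Dl D ((3 * M : ℕ) : ℤ) 3, ‖A X.1 P‖ₑ ≤ ∑' X, ‖A X P‖ₑ := fun P =>
    ENNReal.tsum_comp_le_tsum_of_injective Subtype.val_injective fun X => ‖A X P‖ₑ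
  have h4 : ∑' X : Dl D ((3 * M : ℕ) : ℤ) 3, ∫ P, A X.1 P ∂ν = 0 := by
    rw [← h3]
    have e1 : ∑' X : {X // D.q X = 3}, ∫ P, A X P ∂ν =
        ∑' X, Set.indicator {X | D.q X = 3} (fun X => ∫ P, A X P ∂ν) X :=
      tsum_subtype {X | D.q X = 3} fun X => ∫ P, A X P ∂ν
    have e2 : ∑' X : Dl D ((3 * M : ℕ) : ℤ) 3, ∫ P, A X.1 P ∂ν =
        ∑' X, Set.indicator {X : ℤ × 𝓞 K × ℤ | ((3 * M : ℕ) : ℤ) ∣ X.1 ∧
          ((3 * M : ℕ) : ℤ) ∣ X.2.2 ∧ D.q X = 3} (fun X => ∫ P, A X P ∂ν) X :=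
      tsum_subtype {X : ℤ × 𝓞 K × ℤ | ((3 * M : ℕ) : ℤ) ∣ X.1 ∧
          ((3 * M : ℕ) : ℤ) ∣ X.2.2 ∧ D.q X = 3} fun X => ∫ P, A X P ∂ν
    rw [e1, e2]
    refine tsum_congr fun X => ?_
    by_cases h5 : D.q X = 3
    · rw [Set.indicator_of_mem (show X ∈ {X | D.q X = 3} from h5)]
      by_cases h6 : ((3 * M : ℕ) : ℤ) ∣ X.1 ∧ ((3 * M : ℕ) : ℤ) ∣ X.2.2
      · rw [Set.indicator_of_mem (show X ∈ {X : ℤ × 𝓞 K × ℤ | ((3 * M : ℕ) : ℤ) ∣ X.1 ∧
          ((3 * M : ℕ) : ℤ) ∣ X.2.2 ∧ D.q X = 3} from ⟨h6.1, h6.2, h5⟩)]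
      · rw [Set.indicator_of_notMem (fun h => h6 ⟨h.1, h.2.1⟩)]
        have h7 : ∀ P, A X P = 0 := by
          intro P
          rw [hA]
          simp only
          rw [show (cN (3 * M) X : ℂ) = 0 from if_neg h6, zero_mul, mul_zero]
        simp only [h7, integral_zero]
    · rw [Set.indicator_of_notMem (fun h => h5 h.2.2),
        Set.indicator_of_notMem (show X ∉ {X | D.q X = 3} from h5)]
  have hcD : Countable (Dl D ((3 * M : ℕ) : ℤ) 3) := Subtype.countable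
  have hgm : Measurable g := by
    rw [hg]
    fun_prop
  have hE : ∀ X : Dl D ((3 * M : ℕ) : ℤ) 3, Measurable fun P =>
      Φ.F P * g (lin (σO σ) X.1 P) := fun X =>
    Φ.cont.measurable.mul (hgm.comp (measurable_lin (σO σ) X.1))
  have hfin3 : ∫⁻ P, ∑' X : Dl D ((3 * M : ℕ) : ℤ) 3, ‖Φ.F P * g (lin (σO σ) X.1 P)‖ₑ ∂ν ≠ ⊤ := by
    have e1 : ∀ P, ∑' X : Dl D ((3 * M : ℕ) : ℤ) 3, ‖Φ.F P * g (lin (σO σ) X.1 P)‖ₑ ≤
        ‖C⁻¹‖ₑ * ∑' X, ‖A X P‖ₑ := by
      intro P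
      refine le_trans (le_of_eq ?_) (mul_le_mul_right (hDlS P) _)
      rw [← ENNReal.tsum_mul_left]
      refine tsum_congr fun X => ?_
      rw [hAD X P, ← enorm_mul, ← mul_assoc, inv_mul_cancel₀ hC0, one_mul]
    refine ne_top_of_le_ne_top ?_ (lintegral_mono e1)
    rw [lintegral_const_mul' _ _ enorm_ne_top]
    exact ENNReal.mul_ne_top enorm_ne_top hS
  have h5 : ∫ P, ∑' X : Dl D ((3 * M : ℕ) : ℤ) 3, Φ.F P * g (lin (σO σ) X.1 P) ∂ν = 0 := by
    rw [integral_tsum (fun X => (hE X).aestronglyMeasurable)]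
    · have h6 : ∀ X : Dl D ((3 * M : ℕ) : ℤ) 3, ∫ P, A X.1 P ∂ν =
          C * ∫ P, Φ.F P * g (lin (σO σ) X.1 P) ∂ν := by
        intro X
        simp only [hAD X]
        rw [integral_const_mul]
      simp only [h6] at h4
      rw [tsum_mul_left] at h4
      exact (mul_eq_zero.mp h4).resolve_left hC0
    · rwa [← lintegral_tsum fun X => (hE X).enorm.aemeasurable]
  -- the period
  have hinvF : ∀ B' ∈ Gd ((M : ℤ) : 𝓞 K), ∀ P, Φ.F (slC (σO σ) B' • P) = Φ.F P := by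
    intro B' hB' P
    refine Φ.inv (SpecialLinearGroup.toGL B') ?_ P
    have := (mem_Gd.mp hB').2
    push_cast at this
    exact this
  have h3M : NeZero (3 * M) := ⟨by omega⟩
  have hle : CongruenceSubgroup.Gamma (3 * M) ≤ CongruenceSubgroup.Gamma0 M := by
    intro γ hγ
    rw [CongruenceSubgroup.Gamma_mem] at hγ
    rw [CongruenceSubgroup.Gamma0_mem, ZMod.intCast_zmod_eq_zero_iff_dvd]
    have h8 := (ZMod.intCast_zmod_eq_zero_iff_dvd _ _).mp hγ.2.2.1
    exact (Dvd.intro_left (3 : ℤ) (by push_cast; rfl)).trans h8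
  obtain ⟨v, hv, -, A₀, hA₀, hv0⟩ := plane_coeff Φ hper (CongruenceSubgroup.Gamma (3 * M)) hle
  obtain ⟨κ, hκ0, hκ⟩ := coeff_three D hσ hi hM hw (GamC_eq (3 * M) ▸ hv) Φ.cont.measurable hinvF
  obtain ⟨h6, h7⟩ := hκ g hgm (fun t => by rw [hg]; simp) hfin3
  have h8 : ∫ P, Φ.F P * g (lin (σO σ) (0, Eis.s, 0) P) ∂(volume : Measure H3).withDensity v ≠ 0 := by
    have h9 := hv0 (12 * Real.pi) (by positivity)
    have h10 : ∀ P, Φ.F P * g (lin (σO σ) (0, Eis.s, 0) P) =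
        (Real.exp (-(12 * Real.pi) * tau P ^ 2) : ℂ) * Φ.F P := by
      intro P
      rw [hg, mul_comm]
      simp only
      rw [hs, lin_zero_sq (σO σ) Φ.s_sq P]
      congr 3
      ring
    simp only [h10]
    rw [h9]
    refine mul_ne_zero ?_ hA₀
    rw [ofReal_ne_zero]
    positivity
  rw [h5] at h6
  have h9 : κ.toReal ≠ 0 := (ENNReal.toReal_pos hκ0 (h7 h8)).ne'
  exact (mul_ne_zero (ofReal_ne_zero.mpr h9) h8) h6.symm

end K

end Fermat.Agent.LT.Theta31
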