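import Mathlib

/-!
Radial integrals and radial differential equations for the theta lift `SO(3,1) → weight one`.

* `cosh_form`: a solution of `M'' + 2 tanh t M' + M = 0` is `(A + B t) / cosh t`.
* `sinh_form`: a bounded solution of `u'' + 2 coth r u' + u = 0` is `c r / sinh r`.
* Gaussian integrals against `cosh`, `sinh`.
-/

open Real MeasureTheory Set Filter Topology

namespace Fermat.Agent.LT.Theta31

section ode

variable {E : Type*} [NormedAddCommGroup E] [NormedSpace ℝ E]

/-- zero second derivative on the line: affine -/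
theorem affine_of_deriv2 {w w' : ℝ → E} (h1 : ∀ t, HasDerivAt w (w' t) t)
    (h2 : ∀ t, HasDerivAt w' 0 t) (t : ℝ) : w t = w 0 + t • w' 0 := by
  have hc : ∀ t, w' t = w' 0 := by
    intro t
    exact is_const_of_deriv_eq_zero (fun t => (h2 t).differentiableAt)
      (fun t => (h2 t).deriv) t 0
  have hd : ∀ t, HasDerivAt (fun t => w t - t • w' 0) 0 t := by
    intro t
    have h3 := (h1 t).sub ((hasDerivAt_id t).smul_const (w' 0))
    rw [hc t, one_smul, sub_self] at h3
    exact h3
  have h4 := is_const_of_deriv_eq_zero (fun t => (hd t).differentiableAt)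
      (fun t => (hd t).deriv) t 0
  simp only [zero_smul, sub_zero] at h4
  rw [← h4]; abel

/-- solutions of `M'' + 2 tanh t M' + M = 0` (multiplied by `cosh t`) -/
theorem cosh_form {M M' M'' : ℝ → E} (h1 : ∀ t, HasDerivAt M (M' t) t)
    (h2 : ∀ t, HasDerivAt M' (M'' t) t)
    (h3 : ∀ t, cosh t • M'' t + (2 * sinh t) • M' t + cosh t • M t = 0) :
    ∀ t, cosh t • M t = M 0 + t • M' 0 := by
  intro t
  have hw : ∀ t, HasDerivAt (fun t => cosh t • M t) (cosh t • M' t + sinh t • M t) t := by
    intro t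
    exact (hasDerivAt_cosh t).smul (h1 t)
  have hw' : ∀ t, HasDerivAt (fun t => cosh t • M' t + sinh t • M t) 0 t := by
    intro t
    have h4 := ((hasDerivAt_cosh t).smul (h2 t)).add ((hasDerivAt_sinh t).smul (h1 t))
    have h5 : cosh t • M'' t + sinh t • M' t + (sinh t • M' t + cosh t • M t) = 0 := by
      rw [← h3 t]; module
    rw [h5] at h4
    exact h4
  have h5 := affine_of_deriv2 hw hw' t
  simpa using h5

/-- bounded solutions of `u'' + 2 coth r u' + u = 0` on `(0, ∞)` (multiplied by `sinh r`) -/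
theorem sinh_form {u u' u'' : ℝ → E} (h1 : ∀ r, 0 < r → HasDerivAt u (u' r) r)
    (h2 : ∀ r, 0 < r → HasDerivAt u' (u'' r) r)
    (h3 : ∀ r, 0 < r → sinh r • u'' r + (2 * cosh r) • u' r + sinh r • u r = 0)
    {c : E} (h0 : Tendsto u (𝓝[>] 0) (𝓝 c)) :
    ∀ r, 0 < r → sinh r • u r = r • c := by
  have hw : ∀ t, 0 < t →
      HasDerivAt (fun t => sinh t • u t) (sinh t • u' t + cosh t • u t) t := by
    intro t ht
    exact (hasDerivAt_sinh t).smul (h1 t ht)
  have hw' : ∀ t, 0 < t → HasDerivAt (fun t => sinh t • u' t + cosh t • u t) 0 t := by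
    intro t ht
    have h4 := ((hasDerivAt_sinh t).smul (h2 t ht)).add ((hasDerivAt_cosh t).smul (h1 t ht))
    have h5 : sinh t • u'' t + cosh t • u' t + (cosh t • u' t + sinh t • u t) = 0 := by
      rw [← h3 t ht]; module
    rw [h5] at h4
    exact h4
  set K : E := sinh 1 • u' 1 + cosh 1 • u 1 with hK
  have hcon : ∀ t ∈ Ioi (0 : ℝ), sinh t • u' t + cosh t • u t = K := by
    intro t ht
    exact (convex_Ioi (0 : ℝ)).is_const_of_fderivWithin_eq_zero (𝕜 := ℝ)
      (f := fun t => sinh t • u' t + cosh t • u t)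
      (fun s hs => (hw' s hs).differentiableAt.differentiableWithinAt)
      (fun s hs => by
        have h6 := (hw' s hs).hasFDerivAt.hasFDerivWithinAt (s := Ioi (0 : ℝ))
        rw [h6.fderivWithin (uniqueDiffOn_Ioi 0 s hs)]
        ext; simp) ht (show (1 : ℝ) ∈ Ioi 0 by norm_num)
  have hcon2 : ∀ t ∈ Ioi (0 : ℝ), sinh t • u t - t • K = sinh 1 • u 1 - (1 : ℝ) • K := by
    intro t ht
    refine (convex_Ioi (0 : ℝ)).is_const_of_fderivWithin_eq_zero (𝕜 := ℝ)
      (f := fun t => sinh t • u t - t • K) ?_ ?_ ht (show (1 : ℝ) ∈ Ioi 0 by norm_num)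
    · intro s hs
      exact ((hw s hs).differentiableAt.sub
        ((differentiableAt_id).smul_const K)).differentiableWithinAt
    · intro s hs
      have h6 : HasDerivAt (fun t => sinh t • u t - t • K) 0 s := by
        have h7 := (hw s hs).sub ((hasDerivAt_id s).smul_const K)
        rw [hcon s hs, one_smul, sub_self] at h7
        exact h7
      have h8 := h6.hasFDerivAt.hasFDerivWithinAt (s := Ioi (0 : ℝ))
      rw [h8.fderivWithin (uniqueDiffOn_Ioi 0 s hs)]
      ext; simp
  -- the constant is zero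
  have hlim : Tendsto (fun t : ℝ => sinh t • u t - t • K) (𝓝[>] 0) (𝓝 0) := by
    have h6 : Tendsto (fun t : ℝ => sinh t) (𝓝[>] 0) (𝓝 0) := by
      have := (continuous_sinh.tendsto 0).mono_left (nhdsWithin_le_nhds (s := Ioi (0 : ℝ)))
      simpa using this
    have h7 : Tendsto (fun t : ℝ => t) (𝓝[>] 0) (𝓝 0) :=
      (tendsto_id).mono_left nhdsWithin_le_nhds
    have h8 := (h6.smul h0).sub (h7.smul_const K)
    simpa using h8
  have hzero : sinh 1 • u 1 - (1 : ℝ) • K = 0 := by
    have h9 : Tendsto (fun t : ℝ => sinh t • u t - t • K) (𝓝[>] 0)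
        (𝓝 (sinh 1 • u 1 - (1 : ℝ) • K)) := by
      refine (tendsto_const_nhds).congr' ?_
      filter_upwards [self_mem_nhdsWithin] with t ht using (hcon2 t ht).symm
    exact tendsto_nhds_unique h9 hlim
  have hform : ∀ t, 0 < t → sinh t • u t = t • K := by
    intro t ht
    have := hcon2 t ht
    rw [hzero] at this
    exact sub_eq_zero.1 this
  -- K = c
  have hKc : K = c := by
    have h10 : Tendsto (fun t : ℝ => (t / sinh t) • K) (𝓝[>] 0) (𝓝 c) := by
      refine h0.congr' ?_
      filter_upwards [self_mem_nhdsWithin] with t ht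
      have hs : sinh t ≠ 0 := (sinh_pos_iff.2 ht).ne'
      have h11 := hform t ht
      have : u t = (sinh t)⁻¹ • (sinh t • u t) := by
        rw [smul_smul, inv_mul_cancel₀ hs, one_smul]
      rw [this, h11, smul_smul]
      congr 1
      field_simp
    have h12 : Tendsto (fun t : ℝ => (t / sinh t)) (𝓝[>] 0) (𝓝 1) := by
      have h13 : HasDerivAt sinh (cosh 0) 0 := hasDerivAt_sinh 0
      have h14 := h13.tendsto_slope_zero_right
      simp only [zero_add, sinh_zero, sub_zero, cosh_zero, smul_eq_mul] at h14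
      have h15 := h14.inv₀ one_ne_zero
      simp only [inv_one, mul_inv, inv_inv] at h15
      refine h15.congr fun t => ?_
      rw [div_eq_mul_inv]
    have h16 : Tendsto (fun t : ℝ => (t / sinh t) • K) (𝓝[>] 0) (𝓝 ((1 : ℝ) • K)) :=
      h12.smul_const K
    rw [one_smul] at h16
    exact tendsto_nhds_unique h16 h10
  intro r hr
  rw [hform r hr, hKc]

end ode

section gauss

/-- substitution `s = sinh t` on the line -/
theorem integral_sinh {F : Type*} [NormedAddCommGroup F] [NormedSpace ℝ F] (g : ℝ → F) :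
    ∫ t, cosh t • g (sinh t) = ∫ s, g s := by
  have h := integral_image_eq_integral_abs_deriv_smul (s := univ) (f := sinh) (f' := cosh)
    MeasurableSet.univ (fun x _ => (hasDerivAt_sinh x).hasDerivWithinAt)
    (sinh_injective.injOn) g
  rw [image_univ, range_eq_univ.2 sinh_surjective] at h
  simp only [Measure.restrict_univ] at h
  rw [h]
  refine integral_congr_ae (Eventually.of_forall fun t => ?_)
  simp only
  rw [abs_of_pos (cosh_pos t)]

theorem integrable_sinh {F : Type*} [NormedAddCommGroup F] [NormedSpace ℝ F] (g : ℝ → F) :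
    Integrable (fun t => cosh t • g (sinh t)) ↔ Integrable g := by
  have h := integrableOn_image_iff_integrableOn_abs_deriv_smul (s := univ) (f := sinh)
    (f' := cosh) MeasurableSet.univ (fun x _ => (hasDerivAt_sinh x).hasDerivWithinAt)
    (sinh_injective.injOn) g
  rw [image_univ, range_eq_univ.2 sinh_surjective] at h
  simp only [integrableOn_univ] at h
  rw [h]
  refine integrable_congr (Eventually.of_forall fun t => ?_)
  simp only
  rw [abs_of_pos (cosh_pos t)]

/-- the plane term: `h` even function of `sinh t`, `cosh t M(t) = A + t B` -/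
theorem plane_integral {E : Type*} [NormedAddCommGroup E] [NormedSpace ℝ E] [CompleteSpace E]
    {M : ℝ → E} {A B : E} (hM : ∀ t, cosh t • M t = A + t • B) {h : ℝ → ℝ}
    (heven : ∀ s, h (-s) = h s) (hi : Integrable h) (hi' : Integrable fun s => h s * arsinh s) :
    ∫ t, (cosh t ^ 2 * h (sinh t)) • M t = (∫ s, h s) • A := by
  have e1 : ∀ t, (cosh t ^ 2 * h (sinh t)) • M t
      = cosh t • (h (sinh t) • A + (h (sinh t) * arsinh (sinh t)) • B) := by
    intro t
    rw [arsinh_sinh]
    have : (cosh t ^ 2 * h (sinh t)) • M t = (cosh t * h (sinh t)) • (cosh t • M t) := by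
      rw [smul_smul]; congr 1; ring
    rw [this, hM t]
    module
  simp only [e1]
  rw [integral_sinh (fun s => h s • A + (h s * arsinh s) • B)]
  rw [integral_add (hi.smul_const A) (hi'.smul_const B), integral_smul_const,
    integral_smul_const]
  have hodd : ∫ s, h s * arsinh s = 0 := by
    have h2 := integral_neg_eq_self (fun s => h s * arsinh s) volume
    have h3 : ∫ s, h (-s) * arsinh (-s) = - ∫ s, h s * arsinh s := by
      rw [← integral_neg]
      refine integral_congr_ae (Eventually.of_forall fun s => ?_)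
      simp only
      rw [heven, arsinh_neg]; ring
    rw [h3] at h2
    linarith
  rw [hodd, zero_smul, add_zero]

theorem abs_arsinh_le (s : ℝ) : |arsinh s| ≤ |s| := by
  wlog hs : 0 ≤ s generalizing s
  · have := this (-s) (by linarith)
    rwa [arsinh_neg, abs_neg, abs_neg] at this
  rw [abs_of_nonneg hs, abs_of_nonneg (arsinh_nonneg_iff.2 hs)]
  calc arsinh s ≤ sinh (arsinh s) := self_le_sinh_iff.2 (arsinh_nonneg_iff.2 hs)
    _ = s := sinh_arsinh s

theorem integrable_gauss {a : ℝ} (ha : 0 < a) : Integrable fun s : ℝ => exp (-a * s ^ 2) :=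
  integrable_exp_neg_mul_sq ha

theorem integrable_pow_gauss {a : ℝ} (ha : 0 < a) (n : ℕ) :
    Integrable fun s : ℝ => s ^ n * exp (-a * s ^ 2) := by
  have h := integrable_rpow_mul_exp_neg_mul_sq ha (s := n) (by
    have : (0 : ℝ) ≤ n := n.cast_nonneg
    linarith)
  simpa using h

theorem integral_gauss {a : ℝ} : ∫ s : ℝ, exp (-a * s ^ 2) = √(π / a) :=
  integral_gaussian a

/-- `∫ (1/2 - a s²) e^{-a s²} = 0` -/
theorem integral_gauss_deriv {a : ℝ} (ha : 0 < a) :
    ∫ s : ℝ, (1 / 2 - a * s ^ 2) * exp (-a * s ^ 2) = 0 := by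
  have h1 : ∀ s : ℝ, HasDerivAt (fun s : ℝ => s / 2 * exp (-a * s ^ 2))
      ((1 / 2 - a * s ^ 2) * exp (-a * s ^ 2)) s := by
    intro s
    have h2 : HasDerivAt (fun s : ℝ => -a * s ^ 2) (-a * (2 * s)) s := by
      simpa using (hasDerivAt_pow 2 s).const_mul (-a)
    have h3 : HasDerivAt (fun s : ℝ => s / 2 * exp (-a * s ^ 2)) _ s :=
      ((hasDerivAt_id s).div_const 2).mul h2.exp
    refine h3.congr_deriv ?_
    simp only [id]
    ring
  have hint : Integrable fun s : ℝ => (1 / 2 - a * s ^ 2) * exp (-a * s ^ 2) := by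
    have h4 := ((integrable_gauss ha).const_mul (1 / 2)).sub
      ((integrable_pow_gauss ha 2).const_mul a)
    refine h4.congr (Eventually.of_forall fun s => ?_)
    simp only [Pi.sub_apply]
    ring
  have hint2 : Integrable fun s : ℝ => s / 2 * exp (-a * s ^ 2) := by
    have h4 := ((integrable_pow_gauss ha 1).const_mul (1 / 2))
    refine h4.congr (Eventually.of_forall fun s => ?_)
    simp only [pow_one]
    ring
  exact integral_eq_zero_of_hasDerivAt_of_integrable h1 hint hint2

/-- plane term, Gaussian -/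
theorem plane_gauss {E : Type*} [NormedAddCommGroup E] [NormedSpace ℝ E] [CompleteSpace E]
    {M : ℝ → E} {A B : E} (hM : ∀ t, cosh t • M t = A + t • B) {a : ℝ} (ha : 0 < a) :
    ∫ t, (cosh t ^ 2 * exp (-a * sinh t ^ 2)) • M t = √(π / a) • A := by
  rw [← integral_gauss]
  refine plane_integral hM (h := fun s => exp (-a * s ^ 2)) (fun s => by simp)
    (integrable_gauss ha) ?_
  refine ((integrable_pow_gauss ha 1).norm).mono'
    (((by fun_prop : Continuous fun s : ℝ => exp (-a * s ^ 2)).mul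
      continuous_arsinh).aestronglyMeasurable)
    (Eventually.of_forall fun s => ?_)
  rw [pow_one, norm_mul, norm_mul, mul_comm, Real.norm_eq_abs, Real.norm_eq_abs,
    Real.norm_eq_abs]
  exact mul_le_mul_of_nonneg_right (abs_arsinh_le s) (abs_nonneg _)

/-- plane term for the lowered kernel: zero -/
theorem plane_gauss_lower {E : Type*} [NormedAddCommGroup E] [NormedSpace ℝ E]
    [CompleteSpace E]
    {M : ℝ → E} {A B : E} (hM : ∀ t, cosh t • M t = A + t • B) {a : ℝ} (ha : 0 < a) :
    ∫ t, (cosh t ^ 2 * ((1 / 2 - a * sinh t ^ 2) * exp (-a * sinh t ^ 2))) • M t = 0 := by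
  have h0 := plane_integral hM (h := fun s => (1 / 2 - a * s ^ 2) * exp (-a * s ^ 2))
    (fun s => by simp) ?_ ?_
  · rw [integral_gauss_deriv ha, zero_smul] at h0
    exact h0
  · have h4 := ((integrable_gauss ha).const_mul (1 / 2)).sub
      ((integrable_pow_gauss ha 2).const_mul a)
    refine h4.congr (Eventually.of_forall fun s => ?_)
    simp only [Pi.sub_apply]
    ring
  · have h5 : Integrable fun s : ℝ => ‖1 / 2 * (s ^ 1 * exp (-a * s ^ 2))‖
        + ‖a * (s ^ 3 * exp (-a * s ^ 2))‖ :=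
      ((integrable_pow_gauss ha 1).const_mul (1 / 2)).norm.add
        ((integrable_pow_gauss ha 3).const_mul a).norm
    refine h5.mono' (((by fun_prop : Continuous fun s : ℝ =>
      ((1 / 2 - a * s ^ 2) * exp (-a * s ^ 2))).mul continuous_arsinh).aestronglyMeasurable)
      (Eventually.of_forall fun s => ?_)
    have h6 : ‖((1 / 2 - a * s ^ 2) * exp (-a * s ^ 2)) * arsinh s‖
        ≤ ‖((1 / 2 - a * s ^ 2) * exp (-a * s ^ 2)) * s‖ := by
      rw [norm_mul, norm_mul _ s]
      exact mul_le_mul_of_nonneg_left (abs_arsinh_le s) (norm_nonneg _)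
    refine h6.trans ?_
    have h7 : ((1 / 2 - a * s ^ 2) * exp (-a * s ^ 2)) * s
        = 1 / 2 * (s ^ 1 * exp (-a * s ^ 2)) - a * (s ^ 3 * exp (-a * s ^ 2)) := by ring
    rw [h7]
    exact norm_sub_le _ _

/-- `cosh^k r e^{-a cosh² r}` decays faster than every exponential -/
theorem cosh_gauss_le {a : ℝ} (ha : 0 < a) (n : ℕ) (r : ℝ) :
    cosh r ^ (2 * n) * exp (-a * cosh r ^ 2) ≤ n.factorial / a ^ n := by
  have h1 := pow_div_factorial_le_exp (a * cosh r ^ 2) (by positivity) n
  have hf : (0 : ℝ) < n.factorial := by exact_mod_cast n.factorial_pos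
  have h2 : cosh r ^ (2 * n) ≤ n.factorial / a ^ n * exp (a * cosh r ^ 2) := by
    rw [div_le_iff₀ hf, mul_pow, ← pow_mul] at h1
    rw [div_mul_eq_mul_div, le_div_iff₀ (by positivity)]
    linarith
  have h3 : exp (-a * cosh r ^ 2) = (exp (a * cosh r ^ 2))⁻¹ := by
    rw [← exp_neg]; ring_nf
  rw [h3, ← div_eq_mul_inv, div_le_iff₀ (exp_pos _)]
  exact h2

theorem exp_le_two_cosh (r : ℝ) : exp r ≤ 2 * cosh r := by
  have h : cosh r = (exp r + exp (-r)) / 2 := cosh_eq r
  have h2 := exp_pos (-r)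
  rw [h]; linarith

theorem self_le_two_cosh (r : ℝ) : r ≤ 2 * cosh r := by
  have := add_one_le_exp r
  linarith [exp_le_two_cosh r]

/-- a continuous function bounded by `C cosh^k r e^{-a cosh² r}` is integrable on `(0,∞)` -/
theorem integrableOn_of_cosh_gauss {a : ℝ} (ha : 0 < a) {f : ℝ → ℝ} (hf : Continuous f)
    {C : ℝ} (hC : 0 ≤ C) {k : ℕ}
    (hb : ∀ r, 0 ≤ r → |f r| ≤ C * (cosh r ^ k * exp (-a * cosh r ^ 2))) :
    IntegrableOn f (Ioi 0) := by
  refine integrable_of_isBigO_exp_neg (b := 1) one_pos hf.continuousOn ?_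
  refine Asymptotics.IsBigO.of_bound (C * (2 * ((k + 1).factorial / a ^ (k + 1)))) ?_
  filter_upwards [eventually_ge_atTop (0 : ℝ)] with r hr
  rw [Real.norm_eq_abs, Real.norm_eq_abs, abs_of_pos (exp_pos _)]
  refine (hb r hr).trans ?_
  rw [mul_assoc]
  refine mul_le_mul_of_nonneg_left ?_ hC
  have h1 := cosh_gauss_le ha (k + 1) r
  have hc1 : 1 ≤ cosh r := one_le_cosh r
  have h2 : exp r * (cosh r ^ k * exp (-a * cosh r ^ 2))
      ≤ 2 * ((k + 1).factorial / a ^ (k + 1)) := by
    calc exp r * (cosh r ^ k * exp (-a * cosh r ^ 2))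
        ≤ (2 * cosh r) * (cosh r ^ k * exp (-a * cosh r ^ 2)) :=
          mul_le_mul_of_nonneg_right (exp_le_two_cosh r) (by positivity)
      _ = 2 * (cosh r ^ (k + 1) * exp (-a * cosh r ^ 2)) := by ring
      _ ≤ 2 * (cosh r ^ (2 * (k + 1)) * exp (-a * cosh r ^ 2)) := by
          refine mul_le_mul_of_nonneg_left ?_ (by norm_num)
          refine mul_le_mul_of_nonneg_right ?_ (exp_pos _).le
          exact pow_le_pow_right₀ hc1 (by omega)
      _ ≤ 2 * ((k + 1).factorial / a ^ (k + 1)) := by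
          exact mul_le_mul_of_nonneg_left h1 (by norm_num)
  have h3 : exp (-1 * r) = (exp r)⁻¹ := by rw [← exp_neg]; ring_nf
  rw [h3, ← div_eq_mul_inv, le_div_iff₀ (exp_pos _), mul_comm]
  exact h2

/-- `∫_0^∞ cosh r e^{-a cosh² r} = e^{-a} √(π/a) / 2` -/
theorem integral_cosh_gauss {a : ℝ} :
    ∫ r in Ioi (0 : ℝ), cosh r * exp (-a * cosh r ^ 2) = exp (-a) * (√(π / a) / 2) := by
  have h := integral_image_eq_integral_abs_deriv_smul (s := Ioi 0) (f := sinh) (f' := cosh)
    measurableSet_Ioi (fun x _ => (hasDerivAt_sinh x).hasDerivWithinAt)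
    (sinh_injective.injOn) (fun s => exp (-a) * exp (-a * s ^ 2))
  have him : sinh '' Ioi 0 = Ioi 0 := by
    ext s
    constructor
    · rintro ⟨r, hr, rfl⟩
      exact sinh_pos_iff.2 hr
    · intro hs
      exact ⟨arsinh s, arsinh_pos_iff.2 hs, sinh_arsinh s⟩
  rw [him, integral_const_mul, integral_gaussian_Ioi] at h
  rw [h]
  refine integral_congr_ae (Eventually.of_forall fun r => ?_)
  simp only [smul_eq_mul]
  rw [abs_of_pos (cosh_pos r), ← exp_add, cosh_sq]
  congr 2
  ring

/-- the shadow identity: `∫_0^∞ (1/2 - a cosh² r) e^{-a cosh² r} r sinh r dr` -/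
theorem integral_point_lower {a : ℝ} (ha : 0 < a) :
    ∫ r in Ioi (0 : ℝ), (1 / 2 - a * cosh r ^ 2) * exp (-a * cosh r ^ 2) * (r * sinh r)
      = -(exp (-a) * √(π / a) / 4) := by
  set f : ℝ → ℝ := fun r => r * (cosh r * exp (-a * cosh r ^ 2)) / 2 with hfdef
  set f' : ℝ → ℝ := fun r => (1 / 2 - a * cosh r ^ 2) * exp (-a * cosh r ^ 2) * (r * sinh r)
      + cosh r * exp (-a * cosh r ^ 2) / 2 with hf'def
  have hd : ∀ r ∈ Ici (0 : ℝ), HasDerivAt f (f' r) r := by
    intro r _
    have h2 : HasDerivAt (fun r : ℝ => -a * cosh r ^ 2) (-a * (2 * cosh r * sinh r)) r := by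
      have h3 : HasDerivAt (fun r : ℝ => cosh r ^ 2) _ r := (hasDerivAt_cosh r).pow 2
      have h4 := h3.const_mul (-a)
      refine h4.congr_deriv ?_
      norm_num
    have h5 : HasDerivAt (fun r : ℝ => cosh r * exp (-a * cosh r ^ 2)) _ r :=
      (hasDerivAt_cosh r).mul h2.exp
    have h6 : HasDerivAt (fun r : ℝ => r * (cosh r * exp (-a * cosh r ^ 2)) / 2) _ r :=
      ((hasDerivAt_id r).mul h5).div_const 2
    refine h6.congr_deriv ?_
    simp only [id, hf'def]
    ring
  have hc1 : ∀ r, 1 ≤ cosh r := one_le_cosh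
  have hsinh : ∀ r, |sinh r| ≤ cosh r := by
    intro r
    have : |sinh r| ^ 2 ≤ cosh r ^ 2 := by rw [sq_abs, cosh_sq]; linarith
    exact le_of_sq_le_sq this (cosh_pos r).le
  have hI1 : IntegrableOn (fun r : ℝ =>
      (1 / 2 - a * cosh r ^ 2) * exp (-a * cosh r ^ 2) * (r * sinh r)) (Ioi 0) := by
    refine integrableOn_of_cosh_gauss ha (by fun_prop) (C := (1 / 2 + a) * 2)
      (by positivity) (k := 4) ?_
    intro r hr
    have h1 : |1 / 2 - a * cosh r ^ 2| ≤ (1 / 2 + a) * cosh r ^ 2 := by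
      have h1c : 1 ≤ cosh r ^ 2 := one_le_pow₀ (hc1 r)
      rw [abs_le]
      constructor <;> nlinarith
    have h2 : |r * sinh r| ≤ 2 * cosh r * cosh r := by
      rw [abs_mul, abs_of_nonneg hr]
      exact mul_le_mul (self_le_two_cosh r) (hsinh r) (abs_nonneg _) (by
        have := hc1 r; linarith)
    rw [abs_mul, abs_mul, abs_of_pos (exp_pos _)]
    calc |1 / 2 - a * cosh r ^ 2| * exp (-a * cosh r ^ 2) * |r * sinh r|
        ≤ ((1 / 2 + a) * cosh r ^ 2) * exp (-a * cosh r ^ 2) * (2 * cosh r * cosh r) := by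
          gcongr
      _ = (1 / 2 + a) * 2 * (cosh r ^ 4 * exp (-a * cosh r ^ 2)) := by ring
  have hI2 : IntegrableOn (fun r : ℝ => cosh r * exp (-a * cosh r ^ 2) / 2) (Ioi 0) := by
    refine integrableOn_of_cosh_gauss ha (by fun_prop) (C := 1) (by norm_num) (k := 1) ?_
    intro r _
    rw [abs_of_pos (by have := cosh_pos r; positivity)]
    have := cosh_pos r
    have h3 : 0 < cosh r * exp (-a * cosh r ^ 2) := by positivity
    rw [pow_one, one_mul]
    linarith
  have hlim : Tendsto f atTop (𝓝 0) := by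
    have hb : ∀ r, 0 ≤ r → |f r| ≤ (2 * ((3 : ℕ).factorial / a ^ 3)) * exp (-r) := by
      intro r hr
      have h1 := cosh_gauss_le ha 3 r
      have h2 : 0 ≤ f r := by
        have := cosh_pos r
        simp only [hfdef]
        positivity
      rw [abs_of_nonneg h2, exp_neg, ← div_eq_mul_inv, le_div_iff₀ (exp_pos _)]
      simp only [hfdef]
      calc r * (cosh r * exp (-a * cosh r ^ 2)) / 2 * exp r
          ≤ (2 * cosh r) * (cosh r * exp (-a * cosh r ^ 2)) / 2 * (2 * cosh r) := by
            have := cosh_pos r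
            gcongr
            · exact self_le_two_cosh r
            · exact exp_le_two_cosh r
        _ = 2 * (cosh r ^ 3 * exp (-a * cosh r ^ 2)) := by ring
        _ ≤ 2 * (cosh r ^ (2 * 3) * exp (-a * cosh r ^ 2)) := by
            refine mul_le_mul_of_nonneg_left ?_ (by norm_num)
            refine mul_le_mul_of_nonneg_right ?_ (exp_pos _).le
            exact pow_le_pow_right₀ (hc1 r) (by omega)
        _ ≤ 2 * ((3 : ℕ).factorial / a ^ 3) := by
            exact mul_le_mul_of_nonneg_left h1 (by norm_num)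
    have h0 : Tendsto (fun r : ℝ => (2 * ((3 : ℕ).factorial / a ^ 3)) * exp (-r)) atTop (𝓝 0) := by
      have := tendsto_exp_neg_atTop_nhds_zero.const_mul (2 * (((3 : ℕ).factorial : ℝ) / a ^ 3))
      rwa [mul_zero] at this
    refine squeeze_zero_norm' ?_ h0
    filter_upwards [eventually_ge_atTop (0 : ℝ)] with r hr
    rw [Real.norm_eq_abs]
    exact hb r hr
  have hsum := integral_Ioi_of_hasDerivAt_of_tendsto' hd (hI1.add hI2) hlim
  have hf0 : f 0 = 0 := by simp [hfdef]
  rw [hf0, sub_zero] at hsum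
  have hadd := integral_add hI1 hI2
  have hs2 : ∫ r in Ioi (0 : ℝ), f' r = 0 := hsum
  simp only [hf'def] at hs2
  rw [hadd, integral_div, integral_cosh_gauss] at hs2
  linarith

/-- spherical term for the kernel itself, `J(a) = ∫_0^∞ e^{-a cosh² r} r sinh r dr > 0` -/
theorem integral_point_pos {a : ℝ} (ha : 0 < a) :
    0 < ∫ r in Ioi (0 : ℝ), exp (-a * cosh r ^ 2) * (r * sinh r) := by
  have hint : IntegrableOn (fun r : ℝ => exp (-a * cosh r ^ 2) * (r * sinh r)) (Ioi 0) := by
    refine integrableOn_of_cosh_gauss ha (by fun_prop) (C := 2) (by norm_num) (k := 2) ?_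
    intro r hr
    have hs : 0 ≤ sinh r := sinh_nonneg_iff.2 hr
    have hsc : sinh r ≤ cosh r := (sinh_lt_cosh r).le
    rw [abs_of_nonneg (by positivity)]
    calc exp (-a * cosh r ^ 2) * (r * sinh r)
        ≤ exp (-a * cosh r ^ 2) * ((2 * cosh r) * cosh r) := by
          have := cosh_pos r
          gcongr
          exact self_le_two_cosh r
      _ = 2 * (cosh r ^ 2 * exp (-a * cosh r ^ 2)) := by ring
  rw [setIntegral_pos_iff_support_of_nonneg_ae ?_ hint]
  · have : Ioi (0 : ℝ) ⊆ (Function.support fun r : ℝ =>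
        exp (-a * cosh r ^ 2) * (r * sinh r)) ∩ Ioi 0 := by
      intro r hr
      refine ⟨?_, hr⟩
      have hs : 0 < sinh r := sinh_pos_iff.2 hr
      have hr' : (0 : ℝ) < r := hr
      exact (by positivity : (0 : ℝ) < exp (-a * cosh r ^ 2) * (r * sinh r)).ne'
    exact lt_of_lt_of_le (by simp) (measure_mono this)
  · filter_upwards [ae_restrict_mem measurableSet_Ioi] with r hr
    have hs : 0 < sinh r := sinh_pos_iff.2 hr
    have hr' : (0 : ℝ) < r := hr
    exact (by positivity : (0 : ℝ) ≤ exp (-a * cosh r ^ 2) * (r * sinh r))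

end gauss

end Fermat.Agent.LT.Theta31
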