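import Fermat.Agent.LT.Theta31.Radial2

/-!
# Slices of hyperbolic three-space by the surfaces equidistant from a plane

Coordinates `(x, v, h)`, `h > 0`, measure `dx dv dh / h ^ 3`; the plane is `v = 0`, the signed
distance to it is `arsinh (v / h)`.
-/

set_option autoImplicit false

open MeasureTheory Set Real
open scoped ENNReal

noncomputable section

namespace Fermat.Agent.LT.Theta31

/-- Polar coordinates of the upper half plane, with `θ = π / 2 - arctan (sinh σ)`. -/
theorem lintegral_upper {F : ℝ × ℝ → ℝ≥0∞} (hF : Measurable F) :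
    ∫⁻ p in {p : ℝ × ℝ | 0 < p.2}, F p = ∫⁻ r in Ioi (0 : ℝ), ∫⁻ σ : ℝ,
      ENNReal.ofReal (r / cosh σ) * F (r * sinh σ / cosh σ, r / cosh σ) := by
  have hS : MeasurableSet {p : ℝ × ℝ | 0 < p.2} := measurableSet_lt measurable_const measurable_snd
  rw [← lintegral_indicator hS, ← lintegral_comp_polarCoord_symm, polarCoord_target,
    Measure.volume_eq_prod, ← Measure.prod_restrict, lintegral_prod _ (by
      refine Measurable.aemeasurable ?_
      refine (measurable_fst.ennreal_ofReal).smul ?_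
      exact (hF.indicator hS).comp (by
        rw [show ((polarCoord.symm : ℝ × ℝ → ℝ × ℝ)) = fun p => (p.1 * cos p.2, p.1 * sin p.2) from
          rfl]
        fun_prop))]
  refine setLIntegral_congr_fun measurableSet_Ioi fun r hr => ?_
  have hr' : 0 < r := hr
  -- restrict to `0 < θ < π`
  have h1 : ∫⁻ θ in Ioo (-π) π, ENNReal.ofReal (r, θ).1 •
      ({p : ℝ × ℝ | 0 < p.2}.indicator F) (polarCoord.symm (r, θ)) =
      ∫⁻ θ in Ioo 0 π, ENNReal.ofReal r * F (r * cos θ, r * sin θ) := by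
    rw [← lintegral_indicator measurableSet_Ioo, ← lintegral_indicator measurableSet_Ioo]
    refine lintegral_congr fun θ => ?_
    by_cases hθ : θ ∈ Ioo (-π) π
    · rw [indicator_of_mem hθ, polarCoord_symm_apply]
      by_cases h0 : 0 < θ
      · rw [indicator_of_mem (s := Ioo 0 π) ⟨h0, hθ.2⟩, indicator_of_mem (show
          ((r, θ).1 * cos (r, θ).2, (r, θ).1 * sin (r, θ).2) ∈ {p : ℝ × ℝ | 0 < p.2} from
            mul_pos hr' (sin_pos_of_pos_of_lt_pi h0 hθ.2))]
        rfl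
      · rw [indicator_of_notMem (s := Ioo 0 π) (fun h => h0 h.1), indicator_of_notMem (fun h => ?_),
          smul_zero]
        have h2 : 0 < r * sin θ := h
        have h3 : sin θ ≤ 0 := sin_nonpos_of_nonpos_of_neg_pi_le (not_lt.mp h0) hθ.1.le
        nlinarith
    · rw [indicator_of_notMem hθ, indicator_of_notMem]
      exact fun h => hθ ⟨by linarith [h.1, pi_pos], h.2⟩
  rw [h1]
  -- substitute
  have h2 := lintegral_image_eq_lintegral_abs_deriv_mul (s := univ)
    (f := fun σ : ℝ => π / 2 - arctan (sinh σ)) (f' := fun σ => -(1 / (1 + sinh σ ^ 2) * cosh σ))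
    MeasurableSet.univ
    (fun σ _ => by
      have h := ((hasDerivAt_sinh σ).arctan).const_sub (π / 2)
      exact h.hasDerivWithinAt)
    (fun σ _ σ' _ h => by
      have h3 : π / 2 - arctan (sinh σ) = π / 2 - arctan (sinh σ') := h
      exact sinh_injective (arctan_injective (by linarith)))
    (fun θ => ENNReal.ofReal r * F (r * cos θ, r * sin θ))
  have h3 : (fun σ : ℝ => π / 2 - arctan (sinh σ)) '' univ = Ioo 0 π := by
    rw [image_univ]
    ext θ
    constructor
    · rintro ⟨σ, rfl⟩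
      have h4 := arctan_lt_pi_div_two (sinh σ)
      have h5 := neg_pi_div_two_lt_arctan (sinh σ)
      constructor <;> simp only <;> linarith
    · intro hθ
      refine ⟨arsinh (tan (π / 2 - θ)), ?_⟩
      show π / 2 - arctan (sinh (arsinh (tan (π / 2 - θ)))) = θ
      rw [sinh_arsinh, arctan_tan (by linarith [hθ.2]) (by linarith [hθ.1])]
      ring
  rw [h3, Measure.restrict_univ] at h2
  rw [h2]
  refine lintegral_congr fun σ => ?_
  have hc := cosh_pos σ
  have h4 : 1 + sinh σ ^ 2 = cosh σ ^ 2 := by rw [cosh_sq]; ring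
  have h5 : √(1 + sinh σ ^ 2) = cosh σ := by rw [h4, Real.sqrt_sq hc.le]
  rw [h4, cos_pi_div_two_sub, sin_pi_div_two_sub, sin_arctan, cos_arctan, h5, ← mul_assoc,
    ← ENNReal.ofReal_mul (abs_nonneg _), abs_neg, abs_of_pos (by positivity)]
  congr 2
  · field_simp
  · ring_nf

/-- **Slices.** -/
theorem lintegral_slice {f : ℝ → ℝ → ℝ≥0∞} (hf : Measurable (Function.uncurry f)) (x v : ℝ)
    {h : ℝ} (hh : 0 < h) :
    ∫⁻ p in {p : ℝ × ℝ | 0 < p.2}, ∫⁻ x' : ℝ, ENNReal.ofReal (1 / p.2 ^ 3) *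
      f (((x - x') ^ 2 + (v - p.1) ^ 2 + h ^ 2 + p.2 ^ 2) / (2 * h * p.2)) (arsinh (p.1 / p.2)) =
    ∫⁻ σ : ℝ, ∫⁻ u in Ioi (cosh (arsinh (v / h) - σ)),
      ENNReal.ofReal (2 * π * cosh σ / cosh (arsinh (v / h))) * f u σ := by
  set s := arsinh (v / h) with hs
  have hcs := cosh_pos s
  have hv : v = h * sinh s := by rw [hs, sinh_arsinh]; field_simp
  have hm0 : Measurable fun q : (ℝ × ℝ) × ℝ => ENNReal.ofReal (1 / q.1.2 ^ 3) *
      f (((x - q.2) ^ 2 + (v - q.1.1) ^ 2 + h ^ 2 + q.1.2 ^ 2) / (2 * h * q.1.2))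
        (arsinh (q.1.1 / q.1.2)) := by
    refine Measurable.mul (by fun_prop) ?_
    exact hf.comp (Measurable.prodMk (by fun_prop) (Real.continuous_arsinh.measurable.comp (by fun_prop)))
  rw [lintegral_upper (F := fun p : ℝ × ℝ => ∫⁻ x' : ℝ, ENNReal.ofReal (1 / p.2 ^ 3) *
    f (((x - x') ^ 2 + (v - p.1) ^ 2 + h ^ 2 + p.2 ^ 2) / (2 * h * p.2)) (arsinh (p.1 / p.2)))
    hm0.lintegral_prod_right']
  -- rewrite the integrand
  have h1 : ∀ r ∈ Ioi (0 : ℝ), ∀ σ : ℝ, ENNReal.ofReal (r / cosh σ) *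
      ∫⁻ x' : ℝ, ENNReal.ofReal (1 / (r * sinh σ / cosh σ, r / cosh σ).2 ^ 3) *
        f (((x - x') ^ 2 + (v - (r * sinh σ / cosh σ, r / cosh σ).1) ^ 2 + h ^ 2 +
          (r * sinh σ / cosh σ, r / cosh σ).2 ^ 2) / (2 * h * (r * sinh σ / cosh σ, r / cosh σ).2))
          (arsinh ((r * sinh σ / cosh σ, r / cosh σ).1 / (r * sinh σ / cosh σ, r / cosh σ).2)) =
      ENNReal.ofReal (cosh σ ^ 2) * ∫⁻ x' : ℝ, ENNReal.ofReal (1 / r ^ 2) *
        f (cosh σ * cosh s * (((x - x') ^ 2 + (h * cosh s) ^ 2 + r ^ 2) / (2 * (h * cosh s) * r)) -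
          sinh σ * sinh s) σ := by
    intro r hr σ
    have hr' : 0 < r := hr
    have hc := cosh_pos σ
    rw [← lintegral_const_mul' _ _ ENNReal.ofReal_ne_top,
      ← lintegral_const_mul' _ _ ENNReal.ofReal_ne_top]
    refine lintegral_congr fun x' => ?_
    rw [← mul_assoc, ← mul_assoc, ← ENNReal.ofReal_mul (by positivity),
      ← ENNReal.ofReal_mul (by positivity)]
    have e1 : r * sinh σ / cosh σ / (r / cosh σ) = sinh σ := by field_simp
    have e2 : ((x - x') ^ 2 + (v - r * sinh σ / cosh σ) ^ 2 + h ^ 2 + (r / cosh σ) ^ 2) /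
        (2 * h * (r / cosh σ)) = cosh σ * cosh s * (((x - x') ^ 2 + (h * cosh s) ^ 2 + r ^ 2) /
          (2 * (h * cosh s) * r)) - sinh σ * sinh s := by
      have e3 : cosh s ^ 2 = sinh s ^ 2 + 1 := cosh_sq s
      have e4 : cosh σ ^ 2 = sinh σ ^ 2 + 1 := cosh_sq σ
      have e5 : (x - x') ^ 2 + (h * sinh s - r * sinh σ / cosh σ) ^ 2 + h ^ 2 +
          (r / cosh σ) ^ 2 =
          (x - x') ^ 2 + (h * cosh s) ^ 2 + r ^ 2 - 2 * h * r * sinh s * sinh σ / cosh σ := by
        have e6 : (r * sinh σ / cosh σ) ^ 2 + (r / cosh σ) ^ 2 = r ^ 2 := by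
          rw [div_pow, div_pow, ← add_div, div_eq_iff (by positivity), e4]
          ring
        rw [mul_pow h (cosh s), e3]
        linear_combination e6
      rw [hv, e5]
      field_simp
    simp only
    rw [e1, e2, arsinh_sinh]
    congr 2
    field_simp
  have h2 : ∫⁻ r in Ioi (0 : ℝ), ∫⁻ σ : ℝ, ENNReal.ofReal (r / cosh σ) *
      ∫⁻ x' : ℝ, ENNReal.ofReal (1 / (r * sinh σ / cosh σ, r / cosh σ).2 ^ 3) *
        f (((x - x') ^ 2 + (v - (r * sinh σ / cosh σ, r / cosh σ).1) ^ 2 + h ^ 2 +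
          (r * sinh σ / cosh σ, r / cosh σ).2 ^ 2) / (2 * h * (r * sinh σ / cosh σ, r / cosh σ).2))
          (arsinh ((r * sinh σ / cosh σ, r / cosh σ).1 / (r * sinh σ / cosh σ, r / cosh σ).2)) =
      ∫⁻ r in Ioi (0 : ℝ), ∫⁻ σ : ℝ, ENNReal.ofReal (cosh σ ^ 2) *
        ∫⁻ x' : ℝ, ENNReal.ofReal (1 / r ^ 2) *
        f (cosh σ * cosh s * (((x - x') ^ 2 + (h * cosh s) ^ 2 + r ^ 2) / (2 * (h * cosh s) * r)) -
          sinh σ * sinh s) σ :=
    setLIntegral_congr_fun measurableSet_Ioi fun r hr => lintegral_congr fun σ => h1 r hr σ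
  rw [h2]
  have hm1 : Measurable fun q : (ℝ × ℝ) × ℝ => ENNReal.ofReal (1 / q.1.1 ^ 2) *
      f (cosh q.1.2 * cosh s * (((x - q.2) ^ 2 + (h * cosh s) ^ 2 + q.1.1 ^ 2) /
        (2 * (h * cosh s) * q.1.1)) - sinh q.1.2 * sinh s) q.1.2 := by
    refine Measurable.mul (by fun_prop) ?_
    exact hf.comp (Measurable.prodMk (by fun_prop) (by fun_prop))
  have hm2 : Measurable fun q : ℝ × ℝ => ENNReal.ofReal (cosh q.2 ^ 2) *
      ∫⁻ x' : ℝ, ENNReal.ofReal (1 / q.1 ^ 2) *
        f (cosh q.2 * cosh s * (((x - x') ^ 2 + (h * cosh s) ^ 2 + q.1 ^ 2) /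
          (2 * (h * cosh s) * q.1)) - sinh q.2 * sinh s) q.2 := by
    refine Measurable.mul (by fun_prop) ?_
    exact hm1.lintegral_prod_right'
  rw [lintegral_lintegral_swap hm2.aemeasurable]
  refine lintegral_congr fun σ => ?_
  have hc := cosh_pos σ
  have hfσ : Measurable fun u => f u σ := hf.comp (measurable_id.prodMk measurable_const)
  rw [lintegral_const_mul' _ _ ENNReal.ofReal_ne_top,
    lintegral_radial2 (G := fun c => f (cosh σ * cosh s * c - sinh σ * sinh s) σ)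
      (hfσ.comp (by fun_prop)) (mul_pos hh hcs) x]
  -- the last substitution
  have hA : 0 < cosh σ * cosh s := mul_pos hc hcs
  have h3 := lintegral_image_eq_lintegral_abs_deriv_mul (s := Ioi (1 : ℝ))
    (f := fun c : ℝ => cosh σ * cosh s * c - sinh σ * sinh s)
    (f' := fun _ => cosh σ * cosh s) measurableSet_Ioi
    (fun c _ => by
      have h := ((hasDerivAt_id c).const_mul (cosh σ * cosh s)).sub_const (sinh σ * sinh s)
      rw [mul_one] at h
      exact h.hasDerivWithinAt)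
    (fun c _ c' _ h => by
      have h4 : cosh σ * cosh s * c - sinh σ * sinh s = cosh σ * cosh s * c' - sinh σ * sinh s := h
      exact mul_left_cancel₀ hA.ne' (by linarith)) (fun u => f u σ)
  have h4 : (fun c : ℝ => cosh σ * cosh s * c - sinh σ * sinh s) '' Ioi 1 =
      Ioi (cosh (s - σ)) := by
    have h5 : cosh (s - σ) = cosh σ * cosh s - sinh σ * sinh s := by rw [cosh_sub]; ring
    ext u
    constructor
    · rintro ⟨c, hc1, rfl⟩
      have hc2 : (1 : ℝ) < c := hc1
      show cosh (s - σ) < cosh σ * cosh s * c - sinh σ * sinh s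
      rw [h5]
      nlinarith
    · intro hu
      have hu' : cosh (s - σ) < u := hu
      refine ⟨(u + sinh σ * sinh s) / (cosh σ * cosh s), ?_, ?_⟩
      · show 1 < (u + sinh σ * sinh s) / (cosh σ * cosh s)
        rw [lt_div_iff₀ hA]
        linarith
      · show cosh σ * cosh s * ((u + sinh σ * sinh s) / (cosh σ * cosh s)) - sinh σ * sinh s = u
        field_simp
        ring
  rw [h4, abs_of_pos hA] at h3
  rw [lintegral_const_mul' _ _ ENNReal.ofReal_ne_top, h3,
    lintegral_const_mul' _ _ ENNReal.ofReal_ne_top, ← mul_assoc, ← mul_assoc,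
    ← ENNReal.ofReal_mul (by positivity), ← ENNReal.ofReal_mul (by positivity)]
  congr 2
  field_simp

end Fermat.Agent.LT.Theta31
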