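import Fermat.Agent.LT.H3.Measure
import Fermat.Agent.LT.Theta31.Slice

/-!
# The real hyperbolic plane in hyperbolic three-space

`tau P = im z / y` is `sinh` of the signed distance to the plane `im z = 0`,
`sg P = arsinh (tau P)`.
* `lintegral_sg` : the measure of a radial function and a function of `sg`;
* `lintegral_sec` : Fermi coordinates.
-/

set_option autoImplicit false

open MeasureTheory Set
open scoped ENNReal

noncomputable section

namespace Fermat.Agent.LT.Theta31

open H3

/-- `sinh` of the signed distance to the real plane. -/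
def tau (P : H3) : ℝ := P.z.im / P.y

/-- The signed distance to the real plane. -/
def sg (P : H3) : ℝ := Real.arsinh (tau P)

theorem sinh_sg (P : H3) : Real.sinh (sg P) = tau P := Real.sinh_arsinh _

theorem continuous_tau : Continuous tau :=
  (Complex.continuous_im.comp continuous_z).div continuous_y fun P => P.y_ne

theorem measurable_tau : Measurable tau := continuous_tau.measurable

theorem continuous_sg : Continuous sg := Real.continuous_arsinh.comp continuous_tau

theorem measurable_sg : Measurable sg := continuous_sg.measurable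

/-- Integrals over `H3` in real coordinates `((v, h), x)`. -/
theorem lintegral_real {f : H3 → ℝ≥0∞} (hf : Measurable f) :
    ∫⁻ P, f P = ∫⁻ p in {p : ℝ × ℝ | 0 < p.2}, ∫⁻ x : ℝ,
      ENNReal.ofReal (1 / p.2 ^ 3) * f (ofPair ((x : ℂ) + p.1 * Complex.I, p.2)) := by
  rw [lintegral_eq_iterated hf]
  have hS : {p : ℝ × ℝ | 0 < p.2} = univ ×ˢ Ioi 0 := by ext p; simp
  have hm : Measurable fun q : (ℝ × ℝ) × ℝ => ENNReal.ofReal (1 / q.1.2 ^ 3) *
      f (ofPair ((q.2 : ℂ) + q.1.1 * Complex.I, q.1.2)) := by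
    refine Measurable.mul (by fun_prop) (hf.comp (measurable_ofPair.comp ?_))
    exact Measurable.prodMk (by fun_prop) (by fun_prop)
  rw [hS, Measure.volume_eq_prod, ← Measure.prod_restrict,
    lintegral_prod_symm' _ hm.lintegral_prod_right', Measure.restrict_univ]
  refine setLIntegral_congr_fun measurableSet_Ioi fun h hh => ?_
  have hh' : 0 < h := hh
  have e1 : ∀ v : ℝ, ∫⁻ x : ℝ, ENNReal.ofReal (1 / ((v, h) : ℝ × ℝ).2 ^ 3) *
      f (ofPair ((x : ℂ) + ((v, h) : ℝ × ℝ).1 * Complex.I, ((v, h) : ℝ × ℝ).2)) =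
      ENNReal.ofReal ((h ^ 3)⁻¹) * ∫⁻ x : ℝ, f (ofPair ((x : ℂ) + v * Complex.I, h)) := by
    intro v
    rw [← lintegral_const_mul' _ _ ENNReal.ofReal_ne_top]
    simp only [one_div]
  simp only [e1]
  rw [lintegral_const_mul' _ _ ENNReal.ofReal_ne_top]
  congr 1
  have hm2 : Measurable fun q : ℝ × ℝ => f (ofPair ((q.1 : ℂ) + q.2 * Complex.I, h)) := by
    refine hf.comp (measurable_ofPair.comp ?_)
    exact Measurable.prodMk (by fun_prop) (by fun_prop)
  rw [← lintegral_prod_symm' (fun q : ℝ × ℝ => f (ofPair ((q.1 : ℂ) + q.2 * Complex.I, h))) hm2,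
    ← Measure.volume_eq_prod,
    ← (Complex.volume_preserving_equiv_real_prod.symm).lintegral_comp_emb
      (MeasurableEquiv.measurableEmbedding _)]
  refine lintegral_congr fun q => ?_
  rw [Complex.measurableEquivRealProd_symm_apply]
  congr 2
  ext1
  · apply Complex.ext <;> simp
  · rfl

/-- **Slices.** -/
theorem lintegral_sg {f : ℝ → ℝ → ℝ≥0∞} (hf : Measurable (Function.uncurry f)) (Q : H3) :
    ∫⁻ P : H3, f (cu Q P) (sg P) = ∫⁻ σ : ℝ, ∫⁻ u in Ioi (Real.cosh (sg Q - σ)),
      ENNReal.ofReal (2 * Real.pi * Real.cosh σ / Real.cosh (sg Q)) * f u σ := by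
  have hm : Measurable fun P : H3 => f (cu Q P) (sg P) :=
    hf.comp ((continuous_cu_right Q).measurable.prodMk measurable_sg)
  rw [lintegral_real hm]
  have key := lintegral_slice hf Q.z.re Q.z.im Q.y_pos
  rw [show Real.arsinh (Q.z.im / Q.y) = sg Q from rfl] at key
  rw [← key]
  refine setLIntegral_congr_fun (measurableSet_lt measurable_const measurable_snd) fun p hp => ?_
  have hp' : 0 < p.2 := hp
  refine lintegral_congr fun x => ?_
  rw [ofPair_of_pos (p := ((x : ℂ) + p.1 * Complex.I, p.2)) hp']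
  have e1 : cu Q (mk ((x : ℂ) + p.1 * Complex.I) p.2 hp') =
      ((Q.z.re - x) ^ 2 + (Q.z.im - p.1) ^ 2 + Q.y ^ 2 + p.2 ^ 2) / (2 * Q.y * p.2) := by
    unfold cu
    rw [z_mk, y_mk, Complex.normSq_apply]
    simp
    ring
  have e2 : sg (mk ((x : ℂ) + p.1 * Complex.I) p.2 hp') = Real.arsinh (p.1 / p.2) := by
    unfold sg tau
    rw [z_mk, y_mk]
    simp
  simp only
  rw [e1, e2]

end Fermat.Agent.LT.Theta31
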