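import Fermat.Agent.LT.H3.Abel
import Fermat.Agent.LT.Theta31.Plane
import Fermat.Agent.LT.Theta31.Ode

/-!
# Integrals of radial kernels against functions of the distance to the real plane
-/

set_option autoImplicit false

open MeasureTheory Set
open scoped ENNReal

noncomputable section

namespace Fermat.Agent.LT.Theta31

open H3

theorem cosh_le_mul (s σ : ℝ) :
    Real.cosh σ ≤ 2 * Real.cosh s * Real.cosh (s - σ) := by
  have h1 : Real.cosh σ = Real.cosh s * Real.cosh (s - σ) - Real.sinh s * Real.sinh (s - σ) := by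
    rw [← Real.cosh_sub]
    congr 1
    ring
  have h2 : -(Real.sinh s * Real.sinh (s - σ)) ≤ Real.cosh s * Real.cosh (s - σ) := by
    have h3 := Real.cosh_pos (s + (s - σ))
    rw [Real.cosh_add] at h3
    linarith
  rw [h1]
  linarith

theorem lintegral_pow_four {C : ℝ} (hC : 0 ≤ C) {c : ℝ} (hc : 0 < c) :
    ∫⁻ u in Ioi c, ENNReal.ofReal (C / u ^ 4) = ENNReal.ofReal (C / (3 * c ^ 3)) := by
  have h1 : ∀ u ∈ Ioi c, u ^ (-4 : ℝ) = 1 / u ^ 4 := by
    intro u hu
    have hu' : 0 < u := hc.trans hu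
    rw [Real.rpow_neg hu'.le, one_div]
    norm_cast
  have h2 : IntegrableOn (fun u : ℝ => 1 / u ^ 4) (Ioi c) :=
    (integrableOn_Ioi_rpow_of_lt (by norm_num : (-4 : ℝ) < -1) hc).congr_fun h1 measurableSet_Ioi
  have h3 : ∫ u in Ioi c, 1 / u ^ 4 = 1 / (3 * c ^ 3) := by
    rw [← setIntegral_congr_fun measurableSet_Ioi h1, integral_Ioi_rpow_of_lt (by norm_num) hc]
    have h4 : c ^ ((-4 : ℝ) + 1) = (c ^ 3)⁻¹ := by
      rw [show (-4 : ℝ) + 1 = -3 by norm_num, Real.rpow_neg hc.le]
      norm_cast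
    rw [h4]
    field_simp
    norm_num
  have h4 : ∀ u : ℝ, ENNReal.ofReal (C / u ^ 4) = ENNReal.ofReal C * ENNReal.ofReal (1 / u ^ 4) := by
    intro u
    rw [← ENNReal.ofReal_mul hC]
    congr 1
    ring
  simp only [h4]
  rw [lintegral_const_mul' _ _ ENNReal.ofReal_ne_top,
    ← ofReal_integral_eq_lintegral_ofReal h2 (Filter.Eventually.of_forall fun u => by
      show 0 ≤ 1 / u ^ 4
      positivity), h3, ← ENNReal.ofReal_mul hC]
  congr 1
  ring

theorem inv_cosh_sq_le (t : ℝ) : 1 / Real.cosh t ^ 2 ≤ (1 + t ^ 2)⁻¹ := by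
  rw [← one_div]
  refine one_div_le_one_div_of_le (by positivity) ?_
  have h1 : Real.cosh t ^ 2 = 1 + Real.sinh t ^ 2 := by rw [Real.cosh_sq]; ring
  have h2 : |t| ≤ |Real.sinh t| := by
    rcases le_total 0 t with h | h
    · have := Real.self_le_sinh_iff.mpr h
      rw [abs_of_nonneg h, abs_of_nonneg (Real.sinh_nonneg_iff.mpr h)]
      exact this
    · have := Real.sinh_le_self_iff.mpr h
      rw [abs_of_nonpos h, abs_of_nonpos (Real.sinh_nonpos_iff.mpr h)]
      linarith
  have h3 := sq_le_sq.mpr h2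
  rw [h1]
  linarith

/-- Radial functions with decay `u⁻⁴` are integrable. -/
theorem lintegral_radial_le {k : ℝ → ℝ} (hk : Measurable k) {C : ℝ} (hC0 : 0 ≤ C)
    (hC : ∀ u, 1 ≤ u → |k u| ≤ C / u ^ 4) (Q : H3) :
    ∫⁻ P : H3, ‖k (cu Q P)‖ₑ ≤ ENNReal.ofReal (4 * Real.pi * C / 3 * Real.pi) := by
  have hf : Measurable (Function.uncurry fun (u : ℝ) (_ : ℝ) => ‖k u‖ₑ) :=
    (hk.comp measurable_fst).enorm
  rw [lintegral_sg hf Q]
  set s := sg Q
  have hcs := Real.cosh_pos s
  calc ∫⁻ σ : ℝ, ∫⁻ u in Ioi (Real.cosh (s - σ)),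
        ENNReal.ofReal (2 * Real.pi * Real.cosh σ / Real.cosh s) * ‖k u‖ₑ
      ≤ ∫⁻ σ : ℝ, ENNReal.ofReal (4 * Real.pi * C / 3 * (1 + (s - σ) ^ 2)⁻¹) := by
        refine lintegral_mono fun σ => ?_
        have hc := Real.cosh_pos (s - σ)
        rw [lintegral_const_mul' _ _ ENNReal.ofReal_ne_top]
        have h1 : ∫⁻ u in Ioi (Real.cosh (s - σ)), ‖k u‖ₑ ≤
            ENNReal.ofReal (C / (3 * Real.cosh (s - σ) ^ 3)) := by
          rw [← lintegral_pow_four hC0 hc]
          refine setLIntegral_mono' measurableSet_Ioi fun u hu => ?_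
          rw [← ofReal_norm]
          refine ENNReal.ofReal_le_ofReal ?_
          exact hC u ((Real.one_le_cosh _).trans (le_of_lt hu))
        refine (mul_le_mul' le_rfl h1).trans ?_
        rw [← ENNReal.ofReal_mul (by have := Real.cosh_pos σ; positivity)]
        refine ENNReal.ofReal_le_ofReal ?_
        calc 2 * Real.pi * Real.cosh σ / Real.cosh s * (C / (3 * Real.cosh (s - σ) ^ 3))
            ≤ 2 * Real.pi * (2 * Real.cosh s * Real.cosh (s - σ)) / Real.cosh s *
                (C / (3 * Real.cosh (s - σ) ^ 3)) := by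
              have := cosh_le_mul s σ
              have := Real.pi_pos
              gcongr
          _ = 4 * Real.pi * C / 3 * (1 / Real.cosh (s - σ) ^ 2) := by
              field_simp
              ring
          _ ≤ _ := by
              have := inv_cosh_sq_le (s - σ)
              have := Real.pi_pos
              gcongr
    _ = _ := by
        have h1 : Integrable fun σ : ℝ => (1 + (s - σ) ^ 2)⁻¹ :=
          integrable_inv_one_add_sq.comp_sub_left s
        rw [← ofReal_integral_eq_lintegral_ofReal (h1.const_mul (4 * Real.pi * C / 3))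
          (Filter.Eventually.of_forall fun σ => by
            have := Real.pi_pos
            show 0 ≤ 4 * Real.pi * C / 3 * (1 + (s - σ) ^ 2)⁻¹
            positivity), integral_const_mul,
          integral_sub_left_eq_self (fun σ : ℝ => (1 + σ ^ 2)⁻¹) volume s,
          integral_univ_inv_one_add_sq]

theorem lintegral_radial_lt_top {k : ℝ → ℝ} (hk : Measurable k) {C : ℝ} (hC0 : 0 ≤ C)
    (hC : ∀ u, 1 ≤ u → |k u| ≤ C / u ^ 4) (Q : H3) : ∫⁻ P : H3, ‖k (cu Q P)‖ₑ < ∞ :=
  (lintegral_radial_le hk hC0 hC Q).trans_lt ENNReal.ofReal_lt_top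

theorem integrable_radial {k : ℝ → ℝ} (hk : Measurable k) {C : ℝ} (hC0 : 0 ≤ C)
    (hC : ∀ u, 1 ≤ u → |k u| ≤ C / u ^ 4) (Q : H3) : Integrable fun P : H3 => k (cu Q P) :=
  ⟨(hk.comp (continuous_cu_right Q).measurable).aestronglyMeasurable,
    lintegral_radial_lt_top hk hC0 hC Q⟩

/-- The image of the measure of `H3` under `(cu Q, sg)`. -/
theorem map_sg (Q : H3) : (volume : Measure H3).map (fun P => (cu Q P, sg P)) =
    ((volume : Measure ℝ).prod (volume : Measure ℝ)).withDensity (fun p =>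
      {p : ℝ × ℝ | Real.cosh (sg Q - p.2) < p.1}.indicator
        (fun p => ENNReal.ofReal (2 * Real.pi * Real.cosh p.2 / Real.cosh (sg Q))) p) := by
  ext A hA
  have hm : Measurable fun P : H3 => (cu Q P, sg P) :=
    (continuous_cu_right Q).measurable.prodMk measurable_sg
  have hS : MeasurableSet {p : ℝ × ℝ | Real.cosh (sg Q - p.2) < p.1} :=
    measurableSet_lt (by fun_prop) measurable_fst
  have hD : Measurable (fun p : ℝ × ℝ => {p : ℝ × ℝ | Real.cosh (sg Q - p.2) < p.1}.indicator
        (fun p => ENNReal.ofReal (2 * Real.pi * Real.cosh p.2 / Real.cosh (sg Q))) p) :=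
    Measurable.indicator (by fun_prop) hS
  rw [Measure.map_apply hm hA, withDensity_apply _ hA, ← lintegral_indicator_one (hm hA),
    ← lintegral_indicator hA, lintegral_prod_symm' _ (hD.indicator hA)]
  have key := lintegral_sg (f := fun u σ => A.indicator (fun _ => (1 : ℝ≥0∞)) (u, σ))
    ((measurable_const (a := (1 : ℝ≥0∞))).indicator hA) Q
  refine Eq.trans ?_ (key.trans ?_)
  · rfl
  · refine lintegral_congr fun σ => ?_
    rw [← lintegral_indicator measurableSet_Ioi]
    refine lintegral_congr fun u => ?_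
    by_cases h1 : Real.cosh (sg Q - σ) < u
    · rw [indicator_of_mem (show u ∈ Ioi (Real.cosh (sg Q - σ)) from h1)]
      by_cases h2 : (u, σ) ∈ A
      · rw [indicator_of_mem h2, indicator_of_mem h2, mul_one, indicator_of_mem
          (show (u, σ) ∈ {p : ℝ × ℝ | Real.cosh (sg Q - p.2) < p.1} from h1)]
      · rw [indicator_of_notMem h2, indicator_of_notMem h2, mul_zero]
    · rw [indicator_of_notMem (show u ∉ Ioi (Real.cosh (sg Q - σ)) from h1)]
      by_cases h2 : (u, σ) ∈ A
      · rw [indicator_of_mem h2, indicator_of_notMem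
          (show (u, σ) ∉ {p : ℝ × ℝ | Real.cosh (sg Q - p.2) < p.1} from h1)]
      · rw [indicator_of_notMem h2]

/-- **Slices, real-valued kernels.** -/
theorem integral_sg {k : ℝ → ℝ} (hk : Measurable k) {C : ℝ} (hC0 : 0 ≤ C)
    (hC : ∀ u, 1 ≤ u → |k u| ≤ C / u ^ 4) {φ : ℝ → ℝ} (hφ : Measurable φ) {B : ℝ}
    (hB : ∀ σ, |φ σ| ≤ B) (Q : H3) :
    ∫ P : H3, k (cu Q P) * φ (sg P) =
      ∫ σ : ℝ, (Real.cosh σ / Real.cosh (sg Q)) * H3.abel k (sg Q - σ) * φ σ := by
  have hm : Measurable fun P : H3 => (cu Q P, sg P) :=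
    (continuous_cu_right Q).measurable.prodMk measurable_sg
  have hS : MeasurableSet {p : ℝ × ℝ | Real.cosh (sg Q - p.2) < p.1} :=
    measurableSet_lt (by fun_prop) measurable_fst
  have hF : Measurable fun p : ℝ × ℝ => k p.1 * φ p.2 :=
    (hk.comp measurable_fst).mul (hφ.comp measurable_snd)
  have hint : Integrable (fun P : H3 => k (cu Q P) * φ (sg P)) := by
    refine Integrable.mul_bdd (c := B) (integrable_radial hk hC0 hC Q)
      (hφ.comp measurable_sg).aestronglyMeasurable (Filter.Eventually.of_forall fun P => hB _)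
  have h1 : ∫ P : H3, k (cu Q P) * φ (sg P) =
      ∫ p, k p.1 * φ p.2 ∂((volume : Measure H3).map (fun P => (cu Q P, sg P))) :=
    (integral_map hm.aemeasurable hF.aestronglyMeasurable).symm
  have hint' : Integrable (fun p : ℝ × ℝ => k p.1 * φ p.2)
      ((volume : Measure H3).map (fun P => (cu Q P, sg P))) :=
    (integrable_map_measure hF.aestronglyMeasurable hm.aemeasurable).mpr hint
  let D : ℝ × ℝ → NNReal := fun p =>
    {p : ℝ × ℝ | Real.cosh (sg Q - p.2) < p.1}.indicator
      (fun p => Real.toNNReal (2 * Real.pi * Real.cosh p.2 / Real.cosh (sg Q))) p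
  have hD : Measurable D := by
    refine Measurable.indicator (measurable_real_toNNReal.comp ?_) hS
    exact (by fun_prop : Measurable fun p : ℝ × ℝ => 2 * Real.pi * Real.cosh p.2 / Real.cosh (sg Q))
  have hDe : (fun p : ℝ × ℝ => {p : ℝ × ℝ | Real.cosh (sg Q - p.2) < p.1}.indicator
      (fun p => ENNReal.ofReal (2 * Real.pi * Real.cosh p.2 / Real.cosh (sg Q))) p) =
      fun p => ((D p : NNReal) : ℝ≥0∞) := by
    funext p
    simp only [D]
    by_cases h : p ∈ {p : ℝ × ℝ | Real.cosh (sg Q - p.2) < p.1}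
    · rw [indicator_of_mem h, indicator_of_mem h]
      rfl
    · rw [indicator_of_notMem h, indicator_of_notMem h]
      rfl
  rw [map_sg Q, hDe] at h1 hint'
  rw [integrable_withDensity_iff_integrable_smul hD] at hint'
  rw [h1, integral_withDensity_eq_integral_smul hD, integral_prod_symm _ hint']
  refine integral_congr_ae (Filter.Eventually.of_forall fun σ => ?_)
  have h2 : ∀ u : ℝ, D (u, σ) • (k u * φ σ) = (Ioi (Real.cosh (sg Q - σ))).indicator
      (fun u => (2 * Real.pi * Real.cosh σ / Real.cosh (sg Q) * φ σ) * k u) u := by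
    intro u
    simp only [D]
    by_cases h : Real.cosh (sg Q - σ) < u
    · rw [indicator_of_mem (show (u, σ) ∈ {p : ℝ × ℝ | Real.cosh (sg Q - p.2) < p.1} from h),
        indicator_of_mem (show u ∈ Ioi (Real.cosh (sg Q - σ)) from h), NNReal.smul_def,
        Real.coe_toNNReal _ (by
          have := Real.cosh_pos σ
          have := Real.cosh_pos (sg Q)
          have := Real.pi_pos
          positivity), smul_eq_mul]
      ring
    · rw [indicator_of_notMem (show (u, σ) ∉ {p : ℝ × ℝ | Real.cosh (sg Q - p.2) < p.1} from h),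
        indicator_of_notMem (show u ∉ Ioi (Real.cosh (sg Q - σ)) from h), zero_smul]
  simp only
  rw [show (fun u : ℝ => D (u, σ) • (k u * φ σ)) = _ from funext h2,
    integral_indicator measurableSet_Ioi, integral_const_mul, H3.abel, smul_eq_mul]
  ring

end Fermat.Agent.LT.Theta31
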