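import Mathlib

/-!
# Radial integrals on the hyperbolic plane

`∫_{ℍ²} G (cosh d (z₀, z)) dμ = 2 π ∫_{c > 1} G c`, in coordinates.
-/

set_option autoImplicit false

open MeasureTheory Set Real
open scoped ENNReal

noncomputable section

namespace Fermat.Agent.LT.Theta31

/-- translation and scaling. -/
theorem lintegral_comp_mul_left' {g : ℝ → ℝ≥0∞} (hg : Measurable g) {a : ℝ} (ha : 0 < a) :
    ∫⁻ x : ℝ, g x = ENNReal.ofReal a * ∫⁻ x : ℝ, g (a * x) := by
  have h1 := lintegral_image_eq_lintegral_abs_deriv_mul (s := univ) (f := fun x : ℝ => a * x)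
    (f' := fun _ => a) MeasurableSet.univ
    (fun x _ => by
      have h := (hasDerivAt_id x).const_mul a
      rw [mul_one] at h
      exact h.hasDerivWithinAt)
    (fun x _ y _ h => by
      have : a * x = a * y := h
      exact mul_left_cancel₀ ha.ne' this) g
  have h2 : (fun x : ℝ => a * x) '' univ = univ := by
    rw [image_univ]
    exact (mul_left_surjective₀ ha.ne').range_eq
  rw [h2, Measure.restrict_univ, abs_of_pos ha] at h1
  rw [h1, lintegral_const_mul]
  exact hg.comp (measurable_const_mul a)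

/-- The one-dimensional substitution `√2 sinh (t / 2) = η`. -/
theorem lintegral_cosh {g : ℝ → ℝ≥0∞} (hg : Measurable g) :
    ∫⁻ t : ℝ, ENNReal.ofReal (√2 * exp (-(t / 2))) * g (cosh t) =
      2 * ∫⁻ η : ℝ, g (1 + η ^ 2) := by
  have hm : ∀ c : ℝ → ℝ, Measurable c → Measurable fun t : ℝ => ENNReal.ofReal (c t) * g (cosh t) :=
    fun c hc => hc.ennreal_ofReal.mul (hg.comp measurable_cosh)
  -- symmetrise
  have h1 : ∫⁻ t : ℝ, ENNReal.ofReal (√2 * exp (-(t / 2))) * g (cosh t) =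
      ∫⁻ t : ℝ, ENNReal.ofReal (√2 * exp (t / 2)) * g (cosh t) := by
    rw [← lintegral_neg_eq_self (μ := volume)
      (fun t : ℝ => ENNReal.ofReal (√2 * exp (t / 2)) * g (cosh t))]
    refine lintegral_congr fun t => ?_
    rw [cosh_neg, neg_div]
  have h2 : ∫⁻ t : ℝ, ENNReal.ofReal (√2 * (2 * cosh (t / 2))) * g (cosh t) =
      2 * ∫⁻ t : ℝ, ENNReal.ofReal (√2 * exp (-(t / 2))) * g (cosh t) := by
    rw [two_mul]
    nth_rw 2 [h1]
    rw [← lintegral_add_left (hm _ (by fun_prop))]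
    refine lintegral_congr fun t => ?_
    rw [← add_mul, ← ENNReal.ofReal_add (by positivity) (by positivity), ← mul_add, cosh_eq]
    congr 3
    ring
  -- substitute
  have h3 := lintegral_image_eq_lintegral_abs_deriv_mul (s := univ)
    (f := fun t : ℝ => √2 * sinh (t / 2)) (f' := fun t => √2 * (cosh (t / 2) * (1 / 2)))
    MeasurableSet.univ
    (fun x _ => by
      have h := ((hasDerivAt_id x).div_const 2).sinh.const_mul (√2)
      exact h.hasDerivWithinAt)
    (fun x _ y _ h => by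
      have h2 : √2 * sinh (x / 2) = √2 * sinh (y / 2) := h
      have h3 := sinh_injective (mul_left_cancel₀ (by positivity) h2)
      linarith) (fun η => g (1 + η ^ 2))
  have h4 : (fun t : ℝ => √2 * sinh (t / 2)) '' univ = univ := by
    rw [image_univ]
    refine Function.Surjective.range_eq fun y => ⟨2 * arsinh (y / √2), ?_⟩
    show √2 * sinh (2 * arsinh (y / √2) / 2) = y
    rw [mul_div_cancel_left₀ _ (two_ne_zero), sinh_arsinh]
    field_simp
  rw [h4, Measure.restrict_univ] at h3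
  have h5 : ∀ t : ℝ, (1 : ℝ) + (√2 * sinh (t / 2)) ^ 2 = cosh t := by
    intro t
    have h6 : cosh t = cosh (2 * (t / 2)) := by congr 1; ring
    rw [h6, cosh_two_mul, cosh_sq, mul_pow, Real.sq_sqrt (by norm_num)]
    ring
  simp only [h5] at h3
  have h7 : (4 : ℝ≥0∞) * ∫⁻ η : ℝ, g (1 + η ^ 2) =
      ∫⁻ t : ℝ, ENNReal.ofReal (√2 * (2 * cosh (t / 2))) * g (cosh t) := by
    rw [h3, ← lintegral_const_mul _ (by
      refine Measurable.mul ?_ (hg.comp measurable_cosh)
      fun_prop)]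
    refine lintegral_congr fun t => ?_
    rw [← mul_assoc]
    congr 1
    rw [abs_of_pos (by have := cosh_pos (t / 2); positivity),
      show (4 : ℝ≥0∞) = ENNReal.ofReal 4 by norm_num, ← ENNReal.ofReal_mul (by norm_num)]
    congr 1
    ring
  rw [h2] at h7
  have h8 : (2 : ℝ≥0∞) * (2 * ∫⁻ η : ℝ, g (1 + η ^ 2)) =
      2 * ∫⁻ t : ℝ, ENNReal.ofReal (√2 * exp (-(t / 2))) * g (cosh t) := by
    rw [← h7, ← mul_assoc]
    norm_num
  exact ((ENNReal.mul_right_inj two_ne_zero ENNReal.ofNat_ne_top).mp h8).symm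

/-- Polar coordinates in the plane. -/
theorem lintegral_plane {G : ℝ → ℝ≥0∞} (hG : Measurable G) :
    ∫⁻ ξ : ℝ, ∫⁻ η : ℝ, G (1 + η ^ 2 + ξ ^ 2) = ENNReal.ofReal π * ∫⁻ c in Ioi (1 : ℝ), G c := by
  have hm : Measurable fun p : ℝ × ℝ => G (1 + p.2 ^ 2 + p.1 ^ 2) := hG.comp (by fun_prop)
  rw [← lintegral_prod (μ := volume) (ν := volume) (fun p : ℝ × ℝ => G (1 + p.2 ^ 2 + p.1 ^ 2))
    hm.aemeasurable]
  have h0 := lintegral_comp_polarCoord_symm (fun p : ℝ × ℝ => G (1 + p.2 ^ 2 + p.1 ^ 2))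
  rw [show (volume : Measure ℝ).prod (volume : Measure ℝ) = (volume : Measure (ℝ × ℝ)) from rfl,
    ← h0]
  have h1 : ∀ p : ℝ × ℝ, ENNReal.ofReal p.1 • G (1 + (polarCoord.symm p).2 ^ 2 +
      (polarCoord.symm p).1 ^ 2) = ENNReal.ofReal p.1 * G (1 + p.1 ^ 2) := by
    intro p
    rw [smul_eq_mul, polarCoord_symm_apply]
    congr 2
    have := Real.sin_sq_add_cos_sq p.2
    linear_combination p.1 ^ 2 * this
  rw [lintegral_congr h1, polarCoord_target, Measure.volume_eq_prod,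
    ← Measure.prod_restrict, lintegral_prod _ (by
      refine Measurable.aemeasurable ?_
      exact (measurable_fst.ennreal_ofReal).mul (hG.comp (by fun_prop)))]
  simp only [lintegral_const, Measure.restrict_apply MeasurableSet.univ, univ_inter,
    Real.volume_Ioo]
  rw [lintegral_mul_const' _ _ ENNReal.ofReal_ne_top]
  have h2 := lintegral_image_eq_lintegral_abs_deriv_mul (s := Ioi (0 : ℝ))
    (f := fun r : ℝ => 1 + r ^ 2) (f' := fun r => 2 * r) measurableSet_Ioi
    (fun x _ => by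
      have h := ((hasDerivAt_pow 2 x).const_add 1).hasDerivWithinAt (s := Ioi (0 : ℝ))
      simpa using h)
    (fun x hx y hy h => by
      have h2 : (1 : ℝ) + x ^ 2 = 1 + y ^ 2 := h
      have h3 : x ^ 2 = y ^ 2 := by linarith
      exact (pow_left_inj₀ (le_of_lt hx) (le_of_lt hy) two_ne_zero).mp h3) G
  have h3 : (fun r : ℝ => 1 + r ^ 2) '' Ioi 0 = Ioi 1 := by
    ext c
    constructor
    · rintro ⟨r, hr, rfl⟩
      have : 0 < r ^ 2 := pow_pos hr 2
      show 1 < 1 + r ^ 2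
      linarith
    · intro hc
      have hc' : 0 < c - 1 := sub_pos.mpr hc
      refine ⟨√(c - 1), Real.sqrt_pos.mpr hc', ?_⟩
      show 1 + √(c - 1) ^ 2 = c
      rw [Real.sq_sqrt hc'.le]
      ring
  rw [h3] at h2
  rw [h2]
  have h4 : ∫⁻ r in Ioi (0 : ℝ), ENNReal.ofReal |2 * r| * G (1 + r ^ 2) =
      2 * ∫⁻ r in Ioi (0 : ℝ), ENNReal.ofReal r * G (1 + r ^ 2) := by
    rw [← lintegral_const_mul' _ _ (by norm_num)]
    refine setLIntegral_congr_fun measurableSet_Ioi fun r hr => ?_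
    rw [abs_of_pos (mul_pos two_pos hr), ENNReal.ofReal_mul (by norm_num), ← mul_assoc]
    norm_num
  rw [h4, mul_comm, ← mul_assoc]
  congr 1
  rw [show π - -π = π * 2 by ring, ENNReal.ofReal_mul pi_pos.le]
  norm_num

/-- **Radial integrals on the hyperbolic plane.** -/
theorem lintegral_radial2 {G : ℝ → ℝ≥0∞} (hG : Measurable G) {r : ℝ} (hr : 0 < r) (x : ℝ) :
    ∫⁻ ρ in Ioi (0 : ℝ), ∫⁻ x' : ℝ, ENNReal.ofReal (1 / ρ ^ 2) *
      G (((x - x') ^ 2 + r ^ 2 + ρ ^ 2) / (2 * r * ρ)) =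
      ENNReal.ofReal (2 * π) * ∫⁻ c in Ioi (1 : ℝ), G c := by
  -- substitute `ρ = r e ^ t`
  have h1 := lintegral_image_eq_lintegral_abs_deriv_mul (s := univ)
    (f := fun t : ℝ => r * exp t) (f' := fun t => r * exp t) MeasurableSet.univ
    (fun t _ => ((Real.hasDerivAt_exp t).const_mul r).hasDerivWithinAt)
    (fun t _ t' _ h => by
      have h2 : r * exp t = r * exp t' := h
      exact exp_injective (mul_left_cancel₀ hr.ne' h2))
    (fun ρ => ∫⁻ x' : ℝ, ENNReal.ofReal (1 / ρ ^ 2) *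
      G (((x - x') ^ 2 + r ^ 2 + ρ ^ 2) / (2 * r * ρ)))
  have h2 : (fun t : ℝ => r * exp t) '' univ = Ioi 0 := by
    rw [image_univ]
    ext ρ
    constructor
    · rintro ⟨t, rfl⟩
      exact mul_pos hr (exp_pos t)
    · intro hρ
      refine ⟨log (ρ / r), ?_⟩
      show r * exp (log (ρ / r)) = ρ
      rw [exp_log (div_pos hρ hr)]
      field_simp
  rw [h2, Measure.restrict_univ] at h1
  rw [h1]
  -- the inner integral
  have h3 : ∀ t : ℝ, ENNReal.ofReal |r * exp t| * ∫⁻ x' : ℝ,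
      ENNReal.ofReal (1 / (r * exp t) ^ 2) *
        G (((x - x') ^ 2 + r ^ 2 + (r * exp t) ^ 2) / (2 * r * (r * exp t))) =
      ∫⁻ ξ : ℝ, ENNReal.ofReal (√2 * exp (-(t / 2))) * G (cosh t + ξ ^ 2) := by
    intro t
    have ht := exp_pos t
    have hpos : 0 < r * exp t := mul_pos hr ht
    have e0 : ∫⁻ x' : ℝ, ENNReal.ofReal (1 / (r * exp t) ^ 2) *
        G (((x - x') ^ 2 + r ^ 2 + (r * exp t) ^ 2) / (2 * r * (r * exp t))) =
        ∫⁻ x' : ℝ, ENNReal.ofReal (1 / (r * exp t) ^ 2) *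
        G ((x' ^ 2 + r ^ 2 + (r * exp t) ^ 2) / (2 * r * (r * exp t))) :=
      lintegral_sub_left_eq_self (μ := volume) (fun x' : ℝ =>
        ENNReal.ofReal (1 / (r * exp t) ^ 2) *
          G ((x' ^ 2 + r ^ 2 + (r * exp t) ^ 2) / (2 * r * (r * exp t)))) x
    have ha : 0 < r * √2 * exp (t / 2) := by positivity
    have e1 := lintegral_comp_mul_left' (g := fun x' : ℝ => ENNReal.ofReal (1 / (r * exp t) ^ 2) *
        G ((x' ^ 2 + r ^ 2 + (r * exp t) ^ 2) / (2 * r * (r * exp t))))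
        (measurable_const.mul (hG.comp (by fun_prop))) ha
    rw [e0, e1, ← mul_assoc, ← lintegral_const_mul' _ _ (by
        rw [← ENNReal.ofReal_mul (abs_nonneg _)]; exact ENNReal.ofReal_ne_top)]
    refine lintegral_congr fun ξ => ?_
    rw [← mul_assoc, abs_of_pos hpos, ← ENNReal.ofReal_mul hpos.le,
      ← ENNReal.ofReal_mul (by positivity)]
    have he : exp t = exp (t / 2) ^ 2 := by
      rw [← Real.exp_nat_mul]; congr 1; push_cast; ring
    have h2 : (√2 : ℝ) ^ 2 = 2 := Real.sq_sqrt (by norm_num)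
    have hp := exp_pos (t / 2)
    congr 2
    · rw [Real.exp_neg, he]
      field_simp
    · rw [cosh_eq, Real.exp_neg, he]
      field_simp
      rw [h2]
      ring
  rw [lintegral_congr h3, lintegral_lintegral_swap (by
    refine Measurable.aemeasurable ?_
    exact (Measurable.ennreal_ofReal (by fun_prop)).mul (hG.comp (by fun_prop)))]
  have h4 : ∀ ξ : ℝ, ∫⁻ t : ℝ, ENNReal.ofReal (√2 * exp (-(t / 2))) * G (cosh t + ξ ^ 2) =
      2 * ∫⁻ η : ℝ, G (1 + η ^ 2 + ξ ^ 2) := fun ξ =>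
    lintegral_cosh (g := fun c => G (c + ξ ^ 2)) (hG.comp (by fun_prop))
  rw [lintegral_congr h4, lintegral_const_mul _ (by
    refine Measurable.lintegral_prod_right' (f := fun p : ℝ × ℝ => G (1 + p.2 ^ 2 + p.1 ^ 2)) ?_
    exact hG.comp (by fun_prop)), lintegral_plane hG, ← mul_assoc,
    ENNReal.ofReal_mul (by norm_num)]
  norm_num

end Fermat.Agent.LT.Theta31
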