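import Fermat.Agent.LT.Theta31.Shadow
import Fermat.Prelude.Def_ModularForm_HeckeOperator

/-!
# Hecke identities pass to the shadow
-/

set_option autoImplicit false

noncomputable section

open UpperHalfPlane hiding I
open ModularForm Complex Filter Topology
open scoped MatrixGroups Manifold ModularForm ComplexConjugate

namespace Fermat.Agent.LT.Theta31

/-- a Hecke identity of weight one passes to the shadows, with the conjugate eigenvalue -/
theorem shadow_hecke {f₁ f₂ f₃ : ℍ → ℂ} (h₁ : RDiff f₁) (h₂ : RDiff f₂) (h₃ : RDiff f₃)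
    {p : ℕ} (hp : p ≠ 0) (x : ℂ)
    (H : ∀ z : ℍ, (p : ℂ)⁻¹ * ∑ j ∈ Finset.range p, f₁ (heckeMatrix p j • z) +
      f₂ (heckeDiagMatrix p • z) = x * f₃ z) (z : ℍ) :
    (p : ℂ)⁻¹ * ∑ j ∈ Finset.range p, shadow f₁ (heckeMatrix p j • z) +
      shadow f₂ (heckeDiagMatrix p • z) = conj x * shadow f₃ z := by
  have e1 : ∀ (F G : ℍ → ℂ) (w : ℍ), (p : ℂ)⁻¹ * ∑ j ∈ Finset.range p, F (heckeMatrix p j • w) +
      G (heckeDiagMatrix p • w) =
      (∑ j ∈ Finset.range p, F ∣[(1 : ℤ)] heckeMatrix p j + G ∣[(1 : ℤ)] heckeDiagMatrix p) w := by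
    intro F G w
    rw [Pi.add_apply, Finset.sum_apply, slash_heckeDiagMatrix_apply 1 hp, sub_self, zpow_zero,
      one_mul, Finset.mul_sum]
    congr 1
    exact Finset.sum_congr rfl fun j _ => (slash_heckeMatrix_apply 1 hp j F w).symm
  have hd1 : ∀ j, 0 < (heckeMatrix p j).val.det := fun j => det_heckeMatrix_pos p j
  have hd2 : 0 < (heckeDiagMatrix p).val.det := det_heckeDiagMatrix_pos p
  have e2 : (∑ j ∈ Finset.range p, f₁ ∣[(1 : ℤ)] heckeMatrix p j +
      f₂ ∣[(1 : ℤ)] heckeDiagMatrix p) = x • f₃ := by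
    ext w
    rw [← e1, H w]
    rfl
  rw [e1]
  have e3 : (∑ j ∈ Finset.range p, shadow f₁ ∣[(1 : ℤ)] heckeMatrix p j +
      shadow f₂ ∣[(1 : ℤ)] heckeDiagMatrix p) = conj x • shadow f₃ := by
    rw [← shadow_smul h₃, ← e2, shadow_add
      (RDiff.sum _ fun j _ => h₁.slash (hd1 j)) (h₂.slash hd2),
      shadow_sum _ (fun j _ => h₁.slash (hd1 j)), shadow_slash h₂ hd2]
    congr 1
    exact Finset.sum_congr rfl fun j _ => (shadow_slash h₁ (hd1 j)).symm
  rw [e3]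
  rfl

/-- the form used by `End.wtOneInput_of` -/
theorem shadow_hecke_slash {f : ℍ → ℂ} (hf : RDiff f) {p : ℕ} (hp : p ≠ 0) (g : SL(2, ℤ)) (x : ℂ)
    (hx : conj x = x)
    (H : ∀ z : ℍ, (p : ℂ)⁻¹ * ∑ j ∈ Finset.range p, f (heckeMatrix p j • z) +
      (f ∣[(1 : ℤ)] g) (heckeDiagMatrix p • z) = x * f z) (z : ℍ) :
    (p : ℂ)⁻¹ * ∑ j ∈ Finset.range p, shadow f (heckeMatrix p j • z) +
      (shadow f ∣[(1 : ℤ)] g) (heckeDiagMatrix p • z) = x * shadow f z := by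
  have h := shadow_hecke hf (hf.slash_SL g) hf hp x H z
  rwa [shadow_slash_SL hf, hx] at h

end Fermat.Agent.LT.Theta31
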