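import Fermat.Agent.LT.Theta31.Law

/-!
# The theta series with periodic coefficients are stable under `SL(2, ℤ)`

For a kernel `g` with `IsTheta g` and a function `c` on `(ℤ / m)⁴` the series
`PTh m c g z = ∑ c X * g z X` satisfies
`PTh m c g (γ z) = (γ z + δ) * PTh (3 m²) c' g (z / (9 m²))` for all `γ ∈ SL(2, ℤ)`, where `c'`
depends on `γ` and `c` but not on `g`. (helper41)
-/

set_option autoImplicit false

namespace Fermat.Agent.LT.Theta31.Span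

open Complex Real Fermat.Agent.LTF.Theta
open scoped MatrixGroups UpperHalfPlane

/-! ### The two lattices -/

/-- Gram matrix of `B4` -/
def gr (n : Fin 4 → ℤ) : Fin 4 → ℤ := ![n 0, 2 * n 1 - n 2, 2 * n 2 - n 1, n 3]

theorem gr_add (m n : Fin 4 → ℤ) : gr (m + n) = gr m + gr n := by
  funext i; fin_cases i <;> simp [gr] <;> ring

theorem gr_smul (s : ℤ) (n : Fin 4 → ℤ) : gr (s • n) = s • gr n := by
  funext i; fin_cases i <;> simp [gr] <;> ring

theorem du_gr (n : Fin 4 → ℤ) : du (ic (gr n)) = ic n := by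
  funext i
  fin_cases i <;> simp [ic, gr, du] <;> ring

theorem gr_du3 (n : Fin 4 → ℤ) : gr (du3 n) = (3 : ℤ) • n := by
  funext i
  fin_cases i <;> simp [gr, du3] <;> ring

theorem du3_gr (n : Fin 4 → ℤ) : du3 (gr n) = (3 : ℤ) • n := by
  funext i
  fin_cases i <;> simp [gr, du3] <;> ring

theorem du3_add (m n : Fin 4 → ℤ) : du3 (m + n) = du3 m + du3 n := by
  funext i; fin_cases i <;> simp [du3] <;> ring

theorem du3_smul (s : ℤ) (n : Fin 4 → ℤ) : du3 (s • n) = s • du3 n := by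
  funext i; fin_cases i <;> simp [du3] <;> ring

theorem gr_injective : Function.Injective gr := by
  intro m n h
  have h1 : ic m = ic n := by rw [← du_gr, h, du_gr]
  funext i
  have := congrFun h1 i
  simpa [ic] using this

theorem du_add (x y : Fin 4 → ℝ) : du (x + y) = du x + du y := by
  funext i; fin_cases i <;> simp [du] <;> ring

theorem du_smul (s : ℝ) (x : Fin 4 → ℝ) : du (s • x) = s • du x := by
  funext i; fin_cases i <;> simp [du] <;> ring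

/-- the map `n ↦ t • gr n` -/
def grHom (t : ℕ) : (Fin 4 → ℤ) →+ (Fin 4 → ℤ) :=
  AddMonoidHom.mk' (fun n => (t : ℤ) • gr n) fun m n => by rw [gr_add, smul_add]

/-- the lattice `t • gr ℤ⁴` -/
def Lt (t : ℕ) : AddSubgroup (Fin 4 → ℤ) := (grHom t).range

theorem mem_Lt {t : ℕ} {k : Fin 4 → ℤ} : k ∈ Lt t ↔ ∃ n, (t : ℤ) • gr n = k := Iff.rfl

/-- reduction modulo `m` -/
def cl (m : ℕ) (X : Fin 4 → ℤ) : Fin 4 → ZMod m := fun i => (X i : ZMod m)

theorem cl_eq_iff {m : ℕ} {X Y : Fin 4 → ℤ} : cl m X = cl m Y ↔ ∃ n : Fin 4 → ℤ,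
    Y = X + (m : ℤ) • n := by
  constructor
  · intro h
    have h1 : ∀ i, ∃ c : ℤ, Y i = X i + m * c := by
      intro i
      have h2 := congrFun h i
      rw [cl, cl, ZMod.intCast_eq_intCast_iff_dvd_sub] at h2
      obtain ⟨c, hc⟩ := h2
      exact ⟨c, by linarith⟩
    choose n hn using h1
    exact ⟨n, funext fun i => by simpa using hn i⟩
  · rintro ⟨n, rfl⟩
    funext i
    simp [cl]

theorem cl_add (m : ℕ) (X n : Fin 4 → ℤ) : cl m (X + (m : ℤ) • n) = cl m X :=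
  (cl_eq_iff.mpr ⟨n, rfl⟩).symm

theorem cl_surjective (m : ℕ) : Function.Surjective (cl m) := by
  intro r
  choose X hX using fun i => ZMod.intCast_surjective (r i)
  exact ⟨X, funext hX⟩

instance finite_quot (t : ℕ) [NeZero t] : Finite ((Fin 4 → ℤ) ⧸ Lt t) := by
  have : NeZero (3 * t) := ⟨mul_ne_zero (by norm_num) (NeZero.ne t)⟩
  choose s hs using cl_surjective (3 * t)
  refine Finite.of_surjective (fun r : Fin 4 → ZMod (3 * t) =>
    (QuotientAddGroup.mk (s r) : (Fin 4 → ℤ) ⧸ Lt t)) ?_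
  intro q
  obtain ⟨k, rfl⟩ := QuotientAddGroup.mk_surjective q
  refine ⟨cl (3 * t) k, ?_⟩
  rw [QuotientAddGroup.eq]
  obtain ⟨n, hn⟩ := cl_eq_iff.mp (hs (cl (3 * t) k))
  refine mem_Lt.mpr ⟨du3 n, ?_⟩
  rw [gr_du3]
  generalize s (cl (3 * t) k) = x at hn
  rw [hn, neg_add_cancel_left, smul_smul]
  push_cast
  rw [mul_comm]

/-- periodic modulo `Lt t` -/
def Per (t : ℕ) (c : (Fin 4 → ℤ) → ℂ) : Prop := ∀ k n, c (k + (t : ℤ) • gr n) = c k

/-- theta series on the dual lattice -/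
noncomputable def Psi (t : ℕ) (c : (Fin 4 → ℤ) → ℂ) (g : ℂ → (Fin 4 → ℝ) → ℂ) (z : ℂ) : ℂ :=
  ∑' k : Fin 4 → ℤ, c k * g (t * z) ((t : ℝ)⁻¹ • du (ic k))

section

variable {g : ℂ → (Fin 4 → ℝ) → ℂ} (t : ℕ) [NeZero t]

theorem arg_add (k n : Fin 4 → ℤ) : (t : ℝ)⁻¹ • du (ic (k + (t : ℤ) • gr n)) =
    ic n + (t : ℝ)⁻¹ • du (ic k) := by
  have ht : (t : ℝ) ≠ 0 := by exact_mod_cast NeZero.ne t
  rw [ic_add, ic_smul, du_add, du_smul, du_gr, smul_add, smul_smul]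
  push_cast
  rw [inv_mul_cancel₀ ht, one_smul, add_comm]

/-- the phase of the translation by one -/
theorem phase_T (k n : Fin 4 → ℤ) : t * Q4 ((t : ℝ)⁻¹ • du (ic (k + (t : ℤ) • gr n))) =
    t * Q4 ((t : ℝ)⁻¹ • du (ic k)) + ((pr k n + t * Q4 n : ℤ) : ℝ) := by
  have ht : (t : ℝ) ≠ 0 := by exact_mod_cast NeZero.ne t
  rw [arg_add, Q4_add, B4_smul_right, B4_comm, B4_du, Q4_ic, pr_ic]
  push_cast
  field_simp
  ring

/-- the function of the translation by `j` -/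
noncomputable def cT (j : ℤ) (c : (Fin 4 → ℤ) → ℂ) (k : Fin 4 → ℤ) : ℂ :=
  e ((j * (t * Q4 ((t : ℝ)⁻¹ • du (ic k))) : ℝ) : ℂ) * c k

theorem per_cT (j : ℤ) {c : (Fin 4 → ℤ) → ℂ} (hc : Per t c) : Per t (cT t j c) := by
  intro k n
  rw [cT, cT, hc, phase_T]
  congr 1
  have := e_add_int ((j * (t * Q4 ((t : ℝ)⁻¹ • du (ic k))) : ℝ) : ℂ) (j * (pr k n + t * Q4 n))
  rw [← this]
  congr 1
  push_cast
  ring

theorem Psi_T (hg : IsTheta g) (j : ℤ) (c : (Fin 4 → ℤ) → ℂ) {z : ℂ} (hz : 0 < z.im) :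
    Psi t c g (z + j) = Psi t (cT t j c) g z := by
  have ht : (0 : ℝ) < t := by exact_mod_cast Nat.pos_of_ne_zero (NeZero.ne t)
  unfold Psi
  refine tsum_congr fun k => ?_
  have h1 : (t : ℂ) * (z + j) = t * z + ((t * j : ℝ) : ℂ) := by push_cast; ring
  have h2 : 0 < ((t : ℂ) * z).im := by simpa using im_ofReal_mul_pos ht hz
  rw [h1, hg.trans _ _ _ h2, cT]
  have h3 : (t * j : ℝ) * Q4 ((t : ℝ)⁻¹ • du (ic k)) =
      j * (t * Q4 ((t : ℝ)⁻¹ • du (ic k))) := by ring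
  rw [h3]
  ring

open Classical in
/-- splitting into residue classes -/
theorem tsum_classes {f : (Fin 4 → ℤ) → ℂ}
    (hf : ∀ q : (Fin 4 → ℤ) ⧸ Lt t, Summable fun n => f (q.out + (t : ℤ) • gr n)) :
    letI := Fintype.ofFinite ((Fin 4 → ℤ) ⧸ Lt t)
    ∑' k, f k = ∑ q : (Fin 4 → ℤ) ⧸ Lt t, ∑' n, f (q.out + (t : ℤ) • gr n) := by
  let _ := Fintype.ofFinite ((Fin 4 → ℤ) ⧸ Lt t)
  have ht : (t : ℤ) ≠ 0 := by exact_mod_cast NeZero.ne t
  have hinj : ∀ q : (Fin 4 → ℤ) ⧸ Lt t, Function.Injective fun n => q.out + (t : ℤ) • gr n := by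
    intro q m n h
    have h1 : (t : ℤ) • gr m = (t : ℤ) • gr n := add_left_cancel h
    exact gr_injective (smul_right_injective _ ht h1)
  have hrange : ∀ (q : (Fin 4 → ℤ) ⧸ Lt t) (k : Fin 4 → ℤ),
      (QuotientAddGroup.mk k : (Fin 4 → ℤ) ⧸ Lt t) = q ↔
        k ∈ Set.range fun n => q.out + (t : ℤ) • gr n := by
    intro q k
    constructor
    · intro h
      have h1 : (QuotientAddGroup.mk q.out : (Fin 4 → ℤ) ⧸ Lt t) = QuotientAddGroup.mk k := by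
        rw [QuotientAddGroup.out_eq', h]
      rw [QuotientAddGroup.eq] at h1
      obtain ⟨n, hn⟩ := mem_Lt.mp h1
      exact ⟨n, by simp only [hn]; abel⟩
    · rintro ⟨n, rfl⟩
      have h1 : (QuotientAddGroup.mk q.out : (Fin 4 → ℤ) ⧸ Lt t) =
          QuotientAddGroup.mk (q.out + (t : ℤ) • gr n) := by
        rw [QuotientAddGroup.eq]
        exact mem_Lt.mpr ⟨n, by abel⟩
      rw [← h1, QuotientAddGroup.out_eq']
  have h1 : ∀ q : (Fin 4 → ℤ) ⧸ Lt t, HasSum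
      (fun k => if (QuotientAddGroup.mk k : (Fin 4 → ℤ) ⧸ Lt t) = q then f k else 0)
      (∑' n, f (q.out + (t : ℤ) • gr n)) := by
    intro q
    rw [← (hinj q).hasSum_iff]
    · refine (hf q).hasSum.congr_fun ?_
      intro n
      simp only [Function.comp_apply]
      rw [if_pos ((hrange q _).mpr ⟨n, rfl⟩)]
    · intro k hk
      rw [if_neg fun h => hk ((hrange q k).mp h)]
  have h2 := hasSum_sum (s := Finset.univ) fun q _ => h1 q
  rw [← h2.tsum_eq]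
  refine tsum_congr fun k => ?_
  rw [Finset.sum_ite_eq]
  simp

open Classical in
/-- the function of the inversion -/
noncomputable def cS (c : (Fin 4 → ℤ) → ℂ) (k : Fin 4 → ℤ) : ℂ :=
  letI := Fintype.ofFinite ((Fin 4 → ℤ) ⧸ Lt t);
  (-(I / (t ^ 2 * (Real.sqrt 3 : ℝ)))) * ∑ q : (Fin 4 → ℤ) ⧸ Lt t,
    c q.out * e ((pr (ic k) ((t : ℝ)⁻¹ • du (ic q.out)) : ℝ) : ℂ)

theorem pr_add_left (x y n : Fin 4 → ℝ) : pr (x + y) n = pr x n + pr y n := by
  simp only [pr, Pi.add_apply]; ring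

theorem pr_smul_left (s : ℝ) (x n : Fin 4 → ℝ) : pr (s • x) n = s * pr x n := by
  simp only [pr, Pi.smul_apply, smul_eq_mul]; ring

theorem pr_gr_du (n k : Fin 4 → ℤ) : pr (ic (gr n)) (du (ic k)) = ((pr k n : ℤ) : ℝ) := by
  rw [← B4_du, du_gr, B4_comm, B4_du, pr_ic]

theorem pr_smul_right (s : ℝ) (x n : Fin 4 → ℝ) : pr x (s • n) = s * pr x n := by
  simp only [pr, Pi.smul_apply, smul_eq_mul]; ring

theorem per_cS (c : (Fin 4 → ℤ) → ℂ) : Per t (cS t c) := by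
  intro k n
  have ht : (t : ℝ) ≠ 0 := by exact_mod_cast NeZero.ne t
  unfold cS
  congr 1
  refine Finset.sum_congr rfl fun q _ => ?_
  congr 1
  rw [ic_add, ic_smul, pr_add_left, pr_smul_left, pr_smul_right _ (ic (gr n)), pr_gr_du]
  have h1 : ((t : ℤ) : ℝ) * ((t : ℝ)⁻¹ * ((pr q.out n : ℤ) : ℝ)) = ((pr q.out n : ℤ) : ℝ) := by
    push_cast
    field_simp
  rw [h1]
  have := e_add_int ((pr (ic k) ((t : ℝ)⁻¹ • du (ic q.out)) : ℝ) : ℂ) (pr q.out n)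
  rw [← this]
  congr 1
  push_cast
  ring

theorem Psi_S (hg : IsTheta g) {c : (Fin 4 → ℤ) → ℂ} (hc : Per t c) {z : ℂ} (hz : 0 < z.im) :
    Psi t c g (-1 / z) = z * Psi t (cS t c) g z := by
  classical
  let _ := Fintype.ofFinite ((Fin 4 → ℤ) ⧸ Lt t)
  have ht : (0 : ℝ) < t := by exact_mod_cast Nat.pos_of_ne_zero (NeZero.ne t)
  have ht0 : (t : ℝ) ≠ 0 := ht.ne'
  have htc : (t : ℂ) ≠ 0 := by exact_mod_cast NeZero.ne t
  have hz0 := ne_zero_of_im_pos hz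
  have hw : 0 < (-1 / z : ℂ).im := im_neg_one_div_pos hz
  have htw : 0 < ((t : ℂ) * (-1 / z)).im := by simpa using im_ofReal_mul_pos ht hw
  have htz : 0 < ((t : ℂ) * z).im := by simpa using im_ofReal_mul_pos ht hz
  have e0 : ∀ (q : (Fin 4 → ℤ) ⧸ Lt t) (n : Fin 4 → ℤ),
      c (q.out + (t : ℤ) • gr n) *
        g (t * (-1 / z)) ((t : ℝ)⁻¹ • du (ic (q.out + (t : ℤ) • gr n))) =
      c q.out * g (t * (-1 / z)) (ic n + (t : ℝ)⁻¹ • du (ic q.out)) := by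
    intro q n
    rw [hc, arg_add]
  unfold Psi
  rw [tsum_classes t (f := fun k => c k * g (t * (-1 / z)) ((t : ℝ)⁻¹ • du (ic k)))]
  swap
  · intro q
    simp only [e0]
    exact (hg.summable_one _ _ htw).mul_left _
  simp only [e0, tsum_mul_left]
  -- Poisson
  have e1 : ∀ q : (Fin 4 → ℤ) ⧸ Lt t,
      ∑' n, g (t * (-1 / z)) (ic n + (t : ℝ)⁻¹ • du (ic q.out)) =
      -(z * (I / (t ^ 2 * (Real.sqrt 3 : ℝ)))) * ∑' k : Fin 4 → ℤ,
        e ((pr (ic k) ((t : ℝ)⁻¹ • du (ic q.out)) : ℝ) : ℂ) *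
          g (t * z) ((t : ℝ)⁻¹ • du (ic k)) := by
    intro q
    have h := hg.poisson 1 (t * (-1 / z)) ((t : ℝ)⁻¹ • du (ic q.out)) one_pos htw
    simp only [one_smul, one_pow, mul_one, div_one, inv_one] at h
    rw [h]
    have h1 : (-1 / (t * (-1 / z)) : ℂ) = (((t : ℝ)⁻¹ : ℝ) : ℂ) ^ 2 * (t * z) := by
      push_cast
      field_simp
    have h2 : ∀ k : Fin 4 → ℤ, g (-1 / (t * (-1 / z))) (du (ic k)) =
        (t : ℂ)⁻¹ * g (t * z) ((t : ℝ)⁻¹ • du (ic k)) := by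
      intro k
      rw [h1, hg.scale _ _ _ (inv_pos.mpr ht) htz]
      push_cast
      rfl
    simp only [h2]
    have h3 : ∀ k : Fin 4 → ℤ, e ((pr (ic k) ((t : ℝ)⁻¹ • du (ic q.out)) : ℝ) : ℂ) *
        ((t : ℂ)⁻¹ * g (t * z) ((t : ℝ)⁻¹ • du (ic k))) = (t : ℂ)⁻¹ *
        (e ((pr (ic k) ((t : ℝ)⁻¹ • du (ic q.out)) : ℝ) : ℂ) *
          g (t * z) ((t : ℝ)⁻¹ • du (ic k))) := fun k => by ring
    simp only [h3, tsum_mul_left]
    rw [← mul_assoc]
    congr 1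
    have h4 : ((Real.sqrt 3 : ℝ) : ℂ) ≠ 0 := by
      exact_mod_cast (Real.sqrt_pos.mpr (by norm_num : (0 : ℝ) < 3)).ne'
    field_simp
  simp only [e1]
  -- interchange
  have hs : ∀ q : (Fin 4 → ℤ) ⧸ Lt t, Summable fun k : Fin 4 → ℤ =>
      c q.out * (e ((pr (ic k) ((t : ℝ)⁻¹ • du (ic q.out)) : ℝ) : ℂ) *
          g (t * z) ((t : ℝ)⁻¹ • du (ic k))) := by
    intro q
    refine Summable.mul_left _ (summable_phase ?_ fun k => norm_e_real _)
    exact hg.summable_du _ _ (inv_pos.mpr ht) htz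
  have e2 : ∀ k : Fin 4 → ℤ, cS t c k * g (t * z) ((t : ℝ)⁻¹ • du (ic k)) =
      -(I / (t ^ 2 * (Real.sqrt 3 : ℝ))) * ∑ q : (Fin 4 → ℤ) ⧸ Lt t,
        c q.out * (e ((pr (ic k) ((t : ℝ)⁻¹ • du (ic q.out)) : ℝ) : ℂ) *
          g (t * z) ((t : ℝ)⁻¹ • du (ic k))) := by
    intro k
    rw [cS, mul_assoc, Finset.sum_mul]
    congr 1
    refine Finset.sum_congr rfl fun q _ => ?_
    ring
  simp only [e2, tsum_mul_left]
  rw [Summable.tsum_finsetSum fun q _ => hs q]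
  simp only [tsum_mul_left]
  rw [Finset.mul_sum, Finset.mul_sum]
  refine Finset.sum_congr rfl fun q _ => ?_
  ring

end

/-! ### The action of `SL(2, ℤ)` -/

section Action

open scoped ModularForm

/-- `γ` maps theta series with periodic coefficients to such series, uniformly in the kernel -/
def Good (t : ℕ) (γ : SL(2, ℤ)) : Prop :=
  ∀ c, Per t c → ∃ c', Per t c' ∧ ∀ g : ℂ → (Fin 4 → ℝ) → ℂ, IsTheta g →
    (fun z : ℍ => Psi t c g (z : ℂ)) ∣[(1 : ℤ)] γ = fun z : ℍ => Psi t c' g (z : ℂ)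

theorem Good.mul {t : ℕ} {γ γ' : SL(2, ℤ)} (h : Good t γ) (h' : Good t γ') :
    Good t (γ * γ') := by
  intro c hc
  obtain ⟨c₁, hc₁, h₁⟩ := h c hc
  obtain ⟨c₂, hc₂, h₂⟩ := h' c₁ hc₁
  refine ⟨c₂, hc₂, fun g hg => ?_⟩
  rw [SlashAction.slash_mul, h₁ g hg, h₂ g hg]

theorem good_one (t : ℕ) : Good t 1 :=
  fun c hc => ⟨c, hc, fun _ _ => SlashAction.slash_one _ _⟩

theorem denom_int (γ : SL(2, ℤ)) (z : ℍ) :
    UpperHalfPlane.denom (γ : GL (Fin 2) ℝ) z = (γ 1 0 : ℂ) * z + (γ 1 1 : ℂ) := rfl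

theorem good_T (t : ℕ) [NeZero t] (j : ℤ) : Good t (ModularGroup.T ^ j) := by
  intro c hc
  refine ⟨cT t j c, per_cT t j hc, fun g hg => funext fun z => ?_⟩
  rw [ModularForm.SL_slash_apply, UpperHalfPlane.modular_T_zpow_smul, ← Psi_T t hg j c z.im_pos]
  have h1 : UpperHalfPlane.denom ((ModularGroup.T ^ j : SL(2, ℤ)) : GL (Fin 2) ℝ) z = 1 := by
    have h0 : (ModularGroup.T ^ j) 1 0 = 0 ∧ (ModularGroup.T ^ j) 1 1 = 1 := by
      rw [ModularGroup.coe_T_zpow]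
      exact ⟨rfl, rfl⟩
    rw [denom_int, h0.1, h0.2]
    simp
  rw [h1, one_zpow, mul_one, UpperHalfPlane.coe_vadd]
  congr 1
  push_cast
  ring

theorem good_S (t : ℕ) [NeZero t] : Good t ModularGroup.S := by
  intro c hc
  refine ⟨cS t c, per_cS t c, fun g hg => funext fun z => ?_⟩
  have h1 : UpperHalfPlane.denom (ModularGroup.S : GL (Fin 2) ℝ) z = z := by
    have h0 : ModularGroup.S 1 0 = 1 ∧ ModularGroup.S 1 1 = 0 := ⟨rfl, rfl⟩
    rw [denom_int, h0.1, h0.2]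
    simp
  have h2 : ((ModularGroup.S • z : ℍ) : ℂ) = -1 / (z : ℂ) := by
    rw [UpperHalfPlane.modular_S_smul]
    show (-(z : ℂ))⁻¹ = -1 / z
    rw [neg_div, one_div, inv_neg]
  rw [ModularForm.SL_slash_apply, h1, h2, Psi_S t hg hc z.im_pos, zpow_neg, zpow_one,
    mul_comm, inv_mul_cancel_left₀ z.ne_zero]

theorem good_all (t : ℕ) [NeZero t] (γ : SL(2, ℤ)) : Good t γ := by
  have h : γ ∈ Subgroup.closure {ModularGroup.S, ModularGroup.T} := by
    rw [SpecialLinearGroup.SL2Z_generators]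
    exact Subgroup.mem_top γ
  have hT : Good t ModularGroup.T := by simpa using good_T t 1
  induction h using Subgroup.closure_induction'' with
  | mem x hx =>
    rcases hx with rfl | hx
    · exact good_S t
    · rw [Set.mem_singleton_iff.mp hx]
      exact hT
  | inv_mem x hx =>
    rcases hx with rfl | hx
    · have h1 : (ModularGroup.S : SL(2, ℤ))⁻¹ =
          ModularGroup.S * (ModularGroup.S * ModularGroup.S) := by
        decide
      rw [h1]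
      exact (good_S t).mul ((good_S t).mul (good_S t))
    · rw [Set.mem_singleton_iff.mp hx]
      have h1 := good_T t (-1)
      rwa [zpow_neg, zpow_one] at h1
  | one => exact good_one t
  | mul x y _ _ hx hy => exact hx.mul hy

/-! ### Integral vectors -/

/-- theta series with periodic coefficients on integral vectors -/
noncomputable def PTh (m : ℕ) (c : (Fin 4 → ZMod m) → ℂ) (g : ℂ → (Fin 4 → ℝ) → ℂ) (z : ℂ) : ℂ :=
  ∑' X : Fin 4 → ℤ, c (cl m X) * g z (ic X)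

open Classical in
/-- from integral vectors to the dual lattice -/
noncomputable def toDual (m : ℕ) (c : (Fin 4 → ZMod m) → ℂ) (k : Fin 4 → ℤ) : ℂ :=
  if h : ∃ X, k = (m : ℤ) • gr X then (m : ℂ)⁻¹ * c (cl m h.choose) else 0

theorem toDual_gr (m : ℕ) [NeZero m] (c : (Fin 4 → ZMod m) → ℂ) (X : Fin 4 → ℤ) :
    toDual m c ((m : ℤ) • gr X) = (m : ℂ)⁻¹ * c (cl m X) := by
  have hm : (m : ℤ) ≠ 0 := by exact_mod_cast NeZero.ne m
  have h : ∃ Y, (m : ℤ) • gr X = (m : ℤ) • gr Y := ⟨X, rfl⟩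
  have h1 : X = h.choose := gr_injective (smul_right_injective _ hm h.choose_spec)
  rw [toDual, dif_pos h, ← h1]

theorem per_toDual (m : ℕ) [NeZero m] (c : (Fin 4 → ZMod m) → ℂ) :
    Per (m ^ 2) (toDual m c) := by
  intro k n
  have key : (((m ^ 2 : ℕ) : ℤ)) • gr n = (m : ℤ) • gr ((m : ℤ) • n) := by
    rw [gr_smul, smul_smul]
    push_cast
    rw [sq]
  rw [key]
  by_cases h : ∃ X, k = (m : ℤ) • gr X
  · obtain ⟨X, rfl⟩ := h
    rw [← smul_add, ← gr_add, toDual_gr, toDual_gr, cl_add]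
  · have h' : ¬ ∃ X, k + (m : ℤ) • gr ((m : ℤ) • n) = (m : ℤ) • gr X := by
      rintro ⟨X, hX⟩
      refine h ⟨X - (m : ℤ) • n, ?_⟩
      have h1 : gr (X - (m : ℤ) • n) = gr X - gr ((m : ℤ) • n) := by
        rw [eq_sub_iff_add_eq, ← gr_add, sub_add_cancel]
      rw [h1, smul_sub, ← hX, add_sub_cancel_right]
    rw [toDual, toDual, dif_neg h, dif_neg h']

theorem PTh_eq (m : ℕ) [NeZero m] (c : (Fin 4 → ZMod m) → ℂ) {g : ℂ → (Fin 4 → ℝ) → ℂ}
    (hg : IsTheta g) {z : ℂ} (hz : 0 < z.im) :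
    PTh m c g z = Psi (m ^ 2) (toDual m c) g z := by
  have hm : (m : ℤ) ≠ 0 := by exact_mod_cast NeZero.ne m
  have hm' : (0 : ℝ) < m := by exact_mod_cast Nat.pos_of_ne_zero (NeZero.ne m)
  have hmc : (m : ℂ) ≠ 0 := by exact_mod_cast NeZero.ne m
  have hinj : Function.Injective fun X : Fin 4 → ℤ => (m : ℤ) • gr X := fun X Y h =>
    gr_injective (smul_right_injective _ hm h)
  unfold PTh Psi
  rw [← hinj.tsum_eq (f := fun k : Fin 4 → ℤ =>
    toDual m c k * g (((m ^ 2 : ℕ) : ℂ) * z) ((((m ^ 2 : ℕ) : ℝ))⁻¹ • du (ic k)))]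
  · refine tsum_congr fun X => ?_
    rw [toDual_gr]
    have h1 : (((m ^ 2 : ℕ) : ℂ)) * z = ((m : ℝ) : ℂ) ^ 2 * z := by push_cast; ring
    rw [h1, hg.scale _ _ _ hm' hz]
    have h2 : (m : ℝ) • (((m ^ 2 : ℕ) : ℝ)⁻¹ • du (ic ((m : ℤ) • gr X))) = ic X := by
      rw [ic_smul, du_smul, du_gr, smul_smul, smul_smul]
      have : (m : ℝ) * ((m ^ 2 : ℕ) : ℝ)⁻¹ * ((m : ℤ) : ℝ) = 1 := by
        push_cast
        field_simp
      rw [this, one_smul]
    rw [h2]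
    push_cast
    field_simp
  · intro k hk
    by_contra h
    have h' : ¬ ∃ X, k = (m : ℤ) • gr X := fun ⟨X, hX⟩ => h ⟨X, hX.symm⟩
    apply hk
    simp only
    rw [toDual, dif_neg h', zero_mul]

open Classical in
/-- from the dual lattice to integral vectors -/
noncomputable def toInt (t : ℕ) (c : (Fin 4 → ℤ) → ℂ) (r : Fin 4 → ZMod (3 * t)) : ℂ :=
  if h : ∃ k, r = cl (3 * t) (du3 k) then ((3 * t : ℕ) : ℂ) * c h.choose else 0

theorem toInt_du3 (t : ℕ) [NeZero t] {c : (Fin 4 → ℤ) → ℂ} (hc : Per t c) (k : Fin 4 → ℤ) :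
    toInt t c (cl (3 * t) (du3 k)) = ((3 * t : ℕ) : ℂ) * c k := by
  have h : ∃ l, cl (3 * t) (du3 k) = cl (3 * t) (du3 l) := ⟨k, rfl⟩
  obtain ⟨n, hn⟩ := cl_eq_iff.mp h.choose_spec
  have h1 : h.choose = k + (t : ℤ) • gr n := by
    apply du3_injective
    rw [hn, du3_add, du3_smul, du3_gr, smul_smul]
    push_cast
    rw [mul_comm (3 : ℤ)]
  rw [toInt, dif_pos h, h1, hc]

theorem Psi_eq (t : ℕ) [NeZero t] {c : (Fin 4 → ℤ) → ℂ} (hc : Per t c)
    {g : ℂ → (Fin 4 → ℝ) → ℂ} (hg : IsTheta g) {z : ℂ} (hz : 0 < z.im) :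
    Psi t c g z = PTh (3 * t) (toInt t c) g (z / (9 * t)) := by
  have ht : (0 : ℝ) < t := by exact_mod_cast Nat.pos_of_ne_zero (NeZero.ne t)
  have htc : (t : ℂ) ≠ 0 := by exact_mod_cast NeZero.ne t
  unfold PTh Psi
  rw [← du3_injective.tsum_eq (f := fun X : Fin 4 → ℤ =>
    toInt t c (cl (3 * t) X) * g (z / (9 * t)) (ic X))]
  · refine tsum_congr fun k => ?_
    have htz : 0 < ((t : ℂ) * z).im := by simpa using im_ofReal_mul_pos ht hz
    have h1 : z / (9 * t) = (((3 * t : ℝ)⁻¹ : ℝ) : ℂ) ^ 2 * (t * z) := by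
      push_cast
      field_simp
      ring
    rw [toInt_du3 t hc, h1, hg.scale _ _ _ (by positivity) htz, ic_du3, smul_smul]
    have h2 : (3 * t : ℝ)⁻¹ * 3 = (t : ℝ)⁻¹ := by field_simp
    rw [h2]
    push_cast
    field_simp
  · intro X hX
    by_contra h
    apply hX
    have h' : ¬ ∃ k, cl (3 * t) X = cl (3 * t) (du3 k) := by
      rintro ⟨k, hk⟩
      obtain ⟨n, hn⟩ := cl_eq_iff.mp hk.symm
      apply h
      refine ⟨k + (t : ℤ) • gr n, ?_⟩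
      rw [hn, du3_add, du3_smul, du3_gr, smul_smul]
      push_cast
      rw [mul_comm (3 : ℤ)]
    simp only
    rw [toInt, dif_neg h', zero_mul]

/-- **The theta series with periodic coefficients are stable under `SL(2, ℤ)`**, uniformly in the
kernel. -/
theorem exists_span (m : ℕ) [NeZero m] (c : (Fin 4 → ZMod m) → ℂ) (γ : SL(2, ℤ)) :
    ∃ c' : (Fin 4 → ZMod (3 * m ^ 2)) → ℂ, ∀ g : ℂ → (Fin 4 → ℝ) → ℂ, IsTheta g →
      (fun z : ℍ => PTh m c g (z : ℂ)) ∣[(1 : ℤ)] γ =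
        fun z : ℍ => PTh (3 * m ^ 2) c' g ((z : ℂ) / (9 * (m : ℂ) ^ 2)) := by
  have : NeZero (m ^ 2) := ⟨pow_ne_zero 2 (NeZero.ne m)⟩
  obtain ⟨c', hc', h⟩ := good_all (m ^ 2) γ _ (per_toDual m c)
  refine ⟨toInt (m ^ 2) c', fun g hg => ?_⟩
  have h1 : (fun z : ℍ => PTh m c g (z : ℂ)) = fun z : ℍ => Psi (m ^ 2) (toDual m c) g (z : ℂ) :=
    funext fun z => PTh_eq m c hg z.im_pos
  rw [h1, h g hg]
  funext z
  rw [Psi_eq (m ^ 2) hc' hg z.im_pos]
  push_cast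
  rfl

/-- the same with the explicit automorphy factor -/
theorem exists_span' (m : ℕ) [NeZero m] (c : (Fin 4 → ZMod m) → ℂ) (γ : SL(2, ℤ)) :
    ∃ c' : (Fin 4 → ZMod (3 * m ^ 2)) → ℂ, ∀ g : ℂ → (Fin 4 → ℝ) → ℂ, IsTheta g → ∀ z : ℍ,
      PTh m c g ((γ • z : ℍ) : ℂ) = ((γ 1 0 : ℂ) * z + (γ 1 1 : ℂ)) *
        PTh (3 * m ^ 2) c' g ((z : ℂ) / (9 * (m : ℂ) ^ 2)) := by
  obtain ⟨c', h⟩ := exists_span m c γ
  refine ⟨c', fun g hg z => ?_⟩
  have h1 := congrFun (h g hg) z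
  rw [ModularForm.SL_slash_apply, zpow_neg, zpow_one] at h1
  have h2 : UpperHalfPlane.denom (γ : GL (Fin 2) ℝ) z = (γ 1 0 : ℂ) * z + (γ 1 1 : ℂ) := rfl
  have h3 := UpperHalfPlane.denom_ne_zero (γ : GL (Fin 2) ℝ) z
  rw [← h1, h2, mul_comm, mul_assoc, inv_mul_cancel₀ (by rw [← h2]; exact h3), mul_one]

end Action

end Fermat.Agent.LT.Theta31.Span
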