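import Fermat.Agent.LT.Theta31.Span
import Fermat.Agent.LT.Theta31.KernelLevel
import Fermat.Agent.LT.H3.Measure

/-!
# `SL(2, ℤ)` and the theta lifts with periodic coefficients

For `c` periodic modulo `N` and `γ ∈ SL(2, ℤ)` there is `c'` periodic modulo `3 N²` such that
`θ_c(·, P) ∣ γ = θ_{c'}(· / (9 N²), P)` for all `P`; so the same is true for
`f_c(z) = ∫ F(P) θ_c(z, P)`. (helper41)
-/

set_option autoImplicit false

noncomputable section

open Complex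
open scoped Real ComplexConjugate MatrixGroups UpperHalfPlane ModularForm

namespace Fermat.Agent.LT.Theta31

open Fermat.Agent.LTF.Theta MeasureTheory

theorem PTh_eq_thc (m : ℕ) (c : (Fin 4 → ZMod m) → ℂ) (g : ℂ → (Fin 4 → ℝ) → ℂ) (z : ℂ) :
    Span.PTh m c g z = thc g (fun X => c (Span.cl m X)) z := rfl

theorem per_cl (m : ℕ) (c : (Fin 4 → ZMod m) → ℂ) : Per m fun X => c (Span.cl m X) := by
  intro X Y
  simp only
  rw [Span.cl_add]

theorem Per.exists_cl {m : ℕ} {c : (Fin 4 → ℤ) → ℂ} (hc : Per m c) :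
    ∃ c₀ : (Fin 4 → ZMod m) → ℂ, (fun X => c₀ (Span.cl m X)) = c := by
  choose s hs using Span.cl_surjective m
  refine ⟨fun r => c (s r), funext fun X => ?_⟩
  obtain ⟨n, hn⟩ := Span.cl_eq_iff.mp (hs (Span.cl m X))
  simp only
  conv_rhs => rw [hn, hc]

/-- `SL(2, ℤ)` acts on the series with periodic coefficients, uniformly in the kernel. -/
theorem exists_thc_slash {N : ℕ} [NeZero N] {c : (Fin 4 → ℤ) → ℂ} (hc : Per N c)
    (γ : SL(2, ℤ)) : ∃ c' : (Fin 4 → ℤ) → ℂ, Per (3 * N ^ 2) c' ∧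
      ∀ g : ℂ → (Fin 4 → ℝ) → ℂ, IsTheta g →
        (fun z : ℍ => thc g c (z : ℂ)) ∣[(1 : ℤ)] γ =
          fun z : ℍ => thc g c' ((z : ℂ) / (9 * (N : ℂ) ^ 2)) := by
  obtain ⟨c₀, rfl⟩ := hc.exists_cl
  obtain ⟨c', hc'⟩ := Span.exists_span N c₀ γ
  exact ⟨fun X => c' (Span.cl _ X), per_cl _ c', fun g hg => hc' g hg⟩

section Eis

variable {O : Type*} [CommRing O] [StarRing O] {σ : O →+* ℂ} {ω : O} (D : NTData O)

omit [StarRing O] in
/-- a function on `ℤ⁴` as a function on triples -/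
theorem exists_triple (hω : σ ω = ωC) (hrep : ∀ b : O, ∃ x y : ℤ, b = x + y * ω) {N : ℕ}
    {c : (Fin 4 → ℤ) → ℂ} (hc : Per N c) :
    ∃ c' : ℤ × O × ℤ → ℂ, PerT N c' ∧ (fun n => c' (toTriple ω n)) = c := by
  let E := Equiv.ofBijective _ (toTriple_bijective hω hrep)
  have hE : ∀ n, E n = toTriple ω n := fun n => rfl
  have hadd : ∀ m n : Fin 4 → ℤ, toTriple ω (m + (N : ℤ) • n) =
      toTriple ω m + (N : ℤ) • toTriple ω n := by
    intro m n
    refine Prod.ext ?_ (Prod.ext ?_ ?_)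
    · simp [toTriple]
    · simp [toTriple]
      ring
    · simp [toTriple]
  refine ⟨fun X => c (E.symm X), fun X Y => ?_, funext fun n => ?_⟩
  · simp only
    have h1 : E.symm (X + (N : ℤ) • Y) = E.symm X + (N : ℤ) • E.symm Y := by
      apply E.injective
      rw [Equiv.apply_symm_apply, hE, hadd, ← hE, ← hE, Equiv.apply_symm_apply,
        Equiv.apply_symm_apply]
    rw [h1, hc]
  · simp only
    rw [← hE, Equiv.symm_apply_apply]

/-- **`SL(2, ℤ)` acts on the theta series with periodic coefficients**, uniformly in `P`. -/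
theorem exists_theta_slash (hσ : ∀ x, σ (star x) = conj (σ x)) (hω : σ ω = ωC)
    (hrep : ∀ b : O, ∃ x y : ℤ, b = x + y * ω) {N : ℕ} [NeZero N] {c : ℤ × O × ℤ → ℂ}
    (hc : PerT N c) (γ : SL(2, ℤ)) :
    ∃ c' : ℤ × O × ℤ → ℂ, PerT (3 * N ^ 2) c' ∧ ∀ P : H3,
      (fun z : ℍ => D.theta σ c (z : ℂ) P) ∣[(1 : ℤ)] γ =
        fun z : ℍ => D.theta σ c' ((z : ℂ) / (9 * (N : ℂ) ^ 2)) P := by
  obtain ⟨c₁, hc₁, h⟩ := exists_thc_slash (hc.per ω) γ
  obtain ⟨c', hc', rfl⟩ := exists_triple hω hrep hc₁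
  refine ⟨c', hc', fun P => ?_⟩
  have h1 : (fun z : ℍ => D.theta σ c (z : ℂ) P) =
      fun z : ℍ => thc (gk P) (fun n => c (toTriple ω n)) (z : ℂ) :=
    funext fun z => theta_eq_thc D hσ hω hrep c z P
  rw [h1, h (gk P) (isTheta P)]
  funext z
  rw [theta_eq_thc D hσ hω hrep c']

/-- **... and on the theta lifts.** -/
theorem exists_lift_slash (hσ : ∀ x, σ (star x) = conj (σ x)) (hω : σ ω = ωC)
    (hrep : ∀ b : O, ∃ x y : ℤ, b = x + y * ω) {N : ℕ} [NeZero N] {c : ℤ × O × ℤ → ℂ}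
    (hc : PerT N c) (γ : SL(2, ℤ)) :
    ∃ c' : ℤ × O × ℤ → ℂ, PerT (3 * N ^ 2) c' ∧ ∀ (F : H3 → ℂ) (ν : Measure H3),
      (fun z : ℍ => ∫ P, F P * D.theta σ c (z : ℂ) P ∂ν) ∣[(1 : ℤ)] γ =
        fun z : ℍ => ∫ P, F P * D.theta σ c' ((z : ℂ) / (9 * (N : ℂ) ^ 2)) P ∂ν := by
  obtain ⟨c', hc', h⟩ := exists_theta_slash D hσ hω hrep hc γ
  refine ⟨c', hc', fun F ν => funext fun z => ?_⟩
  rw [ModularForm.SL_slash_apply, ← integral_mul_const]
  refine integral_congr_ae (Filter.Eventually.of_forall fun P => ?_)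
  have h1 := congrFun (h P) z
  rw [ModularForm.SL_slash_apply] at h1
  simp only
  rw [← h1, mul_assoc]

end Eis

end Fermat.Agent.LT.Theta31
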